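import Fermat.Agent.LT.Lift.Expansion

/-!
# Derivatives of a lift and the modular action

The lift is differentiable; its antiholomorphic derivative is given by a holomorphic series, the
shadow.  The lifts are permuted by the modular group, and so are their shadows.
-/

set_option autoImplicit false

noncomputable section

open Matrix MeasureTheory Filter Topology ComplexConjugate Set
open scoped MatrixGroups ContDiff ENNReal UpperHalfPlane Real ModularForm Manifold

namespace FermatAgent.LT.Lift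

/-- The real linear map with the given parts. -/
def wirt (A B : ℂ) : ℂ →L[ℝ] ℂ := A • (1 : ℂ →L[ℝ] ℂ) + B • (Complex.conjCLE : ℂ →L[ℝ] ℂ)

/-- A real-linear map in Wirtinger form. -/
@[simp] lemma wirt_apply (A B h : ℂ) : wirt A B h = A * h + B * conj h := by simp [wirt]

lemma norm_wirt_le (A B : ℂ) : ‖wirt A B‖ ≤ ‖A‖ + ‖B‖ :=
  ContinuousLinearMap.opNorm_le_bound _ (by positivity) fun h => by
    rw [wirt_apply]
    refine (norm_add_le _ _).trans ?_
    rw [norm_mul, norm_mul, Complex.norm_conj, add_mul]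

lemma wirt_inj {A B A' B' : ℂ} (h : wirt A B = wirt A' B') : A = A' ∧ B = B' := by
  have h1 := DFunLike.congr_fun h 1
  have h2 := DFunLike.congr_fun h Complex.I
  simp only [wirt_apply, map_one, Complex.conj_I, mul_one, mul_neg] at h1 h2
  have h3 : A - B = A' - B' := mul_right_cancel₀ Complex.I_ne_zero (by linear_combination h2)
  exact ⟨by linear_combination (h1 + h3) / 2, by linear_combination (h1 - h3) / 2⟩

lemma qq_neg (k : ℕ) (m : ℤ) (z : ℂ) :
    conj (qq k (-m) z) = qq k m z * (Real.exp (4 * (m / 3) * (π * z.im / k)) : ℂ) := by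
  rw [qq, qq, ← Complex.exp_conj, Complex.ofReal_exp, ← Complex.exp_add]
  congr 1
  simp only [map_div₀, map_mul, map_ofNat, Complex.conj_ofReal, Complex.conj_I, map_intCast,
    map_natCast]
  have hz : conj z = z - 2 * Complex.I * (z.im : ℂ) := by apply Complex.ext <;> simp; ring
  rw [hz]
  push_cast
  ring_nf
  simp only [Complex.I_sq]
  ring

/-- Polynomials times decaying exponentials are summable. -/
lemma summable_poly_exp (N : ℕ) {δ : ℝ} (hδ : 0 < δ) :
    Summable fun m : ℤ => (1 + |(m : ℝ)|) ^ N * Real.exp (-(δ * |(m : ℝ)|)) := by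
  have h : Summable fun j : ℕ => (1 + (j : ℝ)) ^ N * Real.exp (-(δ * j)) := by
    have h0 := Real.summable_pow_mul_exp_neg_nat_mul N hδ
    refine ((summable_nat_add_iff 1).2 h0 |>.mul_right (Real.exp δ)).congr fun j => ?_
    rw [mul_assoc, ← Real.exp_add]
    push_cast
    ring_nf
  exact Summable.of_nat_of_neg (h.congr fun j => by simp) (h.congr fun j => by simp)

variable (n k : ℕ) (Φ : H3 → ℂ) (w : Vec → ℂ)

/-- The normalisation. -/
def kap : ℂ := (√(k / π) : ℂ)

/-- The term of one level. -/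
def trm (m : ℤ) (z : ℂ) : ℂ := kap k * GG n Φ (π * z.im / k) (lev m w) * qq k m z

/-- The holomorphic part of the derivative of a term. -/
def Acf (m : ℤ) (z : ℂ) : ℂ :=
  kap k * (GG n Φ (π * z.im / k) (lev m w) * (2 * π * Complex.I * m / (3 * k)) +
    GD n Φ (π * z.im / k) (lev m w) * (π / k) / (2 * Complex.I)) * qq k m z

/-- The antiholomorphic part of the derivative of a term. -/
def Bcf (m : ℤ) (z : ℂ) : ℂ :=
  -(kap k * (GD n Φ (π * z.im / k) (lev m w) * (π / k) / (2 * Complex.I))) * qq k m z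

/-- The shadow. -/
def Xc (z : ℂ) : ℂ := ∑' m : ℤ, conj (cCoef n Φ m (lev m w)) * qq k (-m) z

/-- The lift on the plane. -/
def LamC : ℂ → ℂ := Lam n k Φ w ∘ UpperHalfPlane.ofComplex

variable {n k Φ w} [NeZero n] [NeZero k]

/-- Reduction commutes with conjugation. -/
lemma redE_star (N : ℕ) (x : Eis) : redE N (star x) = star (redE N x) := by
  ext <;> simp [redE]

lemma redE_norm (N : ℕ) (x : Eis) :
    ((QuadraticAlgebra.norm x : ℤ) : ZMod N) = QuadraticAlgebra.norm (redE N x) := by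
  simp [QuadraticAlgebra.norm_def, redE]

lemma redE_im (N : ℕ) (x : Eis) : ((x.im : ℤ) : ZMod N) = (redE N x).im := rfl

/-- Matrices congruent to one move vectors by multiples of `N`. -/
lemma exists_cj_congr {N : ℕ} {A : Matrix (Fin 2) (Fin 2) Eis}
    (hA : ∀ i j, redE N (A i j) = (1 : Matrix (Fin 2) (Fin 2) (EisMod N)) i j) (x : Vec) :
    ∃ y : Vec, cj A x = x + (N : ℤ) • y := by
  have h00 : redE N (A 0 0) = 1 := by rw [hA]; rfl
  have h01 : redE N (A 0 1) = 0 := by rw [hA]; rfl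
  have h10 : redE N (A 1 0) = 0 := by rw [hA]; rfl
  have h11 : redE N (A 1 1) = 1 := by rw [hA]; rfl
  have hE : redE N ((cj A x).2.2 - x.2.2) = 0 := by simp [cj, redE_star, h00, h01, h10, h11]
  obtain ⟨u, hu⟩ : (N : ℤ) ∣ (cj A x).1 - x.1 := by
    rw [← ZMod.intCast_zmod_eq_zero_iff_dvd]
    simp only [cj, Int.cast_sub, Int.cast_add, Int.cast_mul, redE_norm, redE_im, map_mul,
      redE_star, h00, h01]
    simp
  obtain ⟨v, hv⟩ : (N : ℤ) ∣ (cj A x).2.1 - x.2.1 := by
    rw [← ZMod.intCast_zmod_eq_zero_iff_dvd]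
    simp only [cj, Int.cast_sub, Int.cast_add, Int.cast_mul, redE_norm, redE_im, map_mul,
      redE_star, h10, h11]
    simp
  obtain ⟨a, ha⟩ := (ZMod.intCast_zmod_eq_zero_iff_dvd _ N).1 (congrArg QuadraticAlgebra.re hE)
  obtain ⟨b, hb⟩ := (ZMod.intCast_zmod_eq_zero_iff_dvd _ N).1 (congrArg QuadraticAlgebra.im hE)
  refine ⟨(u, v, ⟨a, b⟩), Prod.ext ?_ (Prod.ext ?_ ?_)⟩
  · rw [Prod.fst_add, zsmul_fst]; linear_combination hu
  · rw [Prod.snd_add, Prod.fst_add, zsmul_snd_fst]; linear_combination hv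
  · rw [Prod.snd_add, Prod.snd_add, zsmul_snd_snd]
    simp only [QuadraticAlgebra.re_sub, QuadraticAlgebra.im_sub] at ha hb
    ext
    · simp; linear_combination ha
    · simp; linear_combination hb

/-- The congruence subgroup moves vectors by multiples of `N`. -/
lemma exists_smul_congE (N : ℕ) {g : SLE} (hg : g ∈ congE N) (x : Vec) :
    ∃ y : Vec, g • x = x + (N : ℤ) • y :=
  exists_cj_congr (A := g.1) (fun i j => by rw [mem_congE.1 hg]) x

omit [NeZero n] [NeZero k] in
/-- Periodic weights are invariant under deep congruence subgroups. -/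
lemma inv_congE_of_isPer (hn : 3 * k ∣ n) (hw : IsPer k w) :
    ∀ g ∈ congE n, ∀ x, w (g • x) = w x := by
  intro g hg x
  obtain ⟨y, hy⟩ := exists_smul_congE (3 * k) (congE_anti hn hg) x
  obtain ⟨y', hy'⟩ := exists_subV_smul (k := k) 1 y
  rw [hy, show ((3 * k : ℕ) : ℤ) = 3 * (k : ℤ) * 1 by push_cast; ring, hy', hw]

variable (hΦ : IsCusp n Φ) (hn : 3 * k ∣ n) (hw : IsPer k w)

include hΦ hn hw

/-- The bounds on the terms. -/
theorem exists_term_bound : ∃ K : ℝ, 0 ≤ K ∧ ∀ (m : ℤ) (z : ℂ), 0 < z.im →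
    ‖GG n Φ (π * z.im / k) (lev m w) * qq k m z‖ ≤
      K * (1 + |(m : ℝ)|) ^ 4 * ((1 + π * z.im / k) * (1 + 1 / (π * z.im / k)) ^ 4) *
        Real.exp (-(π * z.im / k * |(m : ℝ)| / 2)) ∧
    ‖GD n Φ (π * z.im / k) (lev m w) * qq k m z‖ ≤
      K * (1 + |(m : ℝ)|) ^ 4 / (π * z.im / k) * Real.exp (-(π * z.im / k * |(m : ℝ)| / 2)) ∧
    ‖conj (cCoef n Φ m (lev m w)) * qq k (-m) z‖ ≤
      K * (1 + |(m : ℝ)|) ^ 4 * Real.exp (-(π * z.im / k * |(m : ℝ)| / 2)) := by
  have hk : (0 : ℝ) < k := by exact_mod_cast Nat.pos_of_neZero k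
  have hwi := inv_congE_of_isPer hn hw
  obtain ⟨B, hB0, hB⟩ := hw.bounded
  obtain ⟨K, hK0, hK⟩ := exists_slice_bound hΦ hB0 hB hwi
  refine ⟨K, hK0, fun m z hz => ?_⟩
  set u := π * z.im / k with hu
  have hu0 : 0 < u := by positivity
  obtain ⟨hc, hG⟩ := hK m
  have hexp : ‖cCoef n Φ m (lev m w)‖ * Real.exp (2 * u * (m / 3)) ≤
      K * (1 + |(m : ℝ)|) ^ 4 * Real.exp (-(u * |(m : ℝ)| / 2)) := by
    rcases lt_or_ge 0 m with hm | hm
    · rw [cCoef_pos hΦ (isLev_lev hB0 hB m) (lev_inv hwi m) hm, norm_zero, zero_mul]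
      positivity
    · refine mul_le_mul hc (Real.exp_le_exp.2 ?_) (Real.exp_pos _).le (by positivity)
      have hm' : (m : ℝ) ≤ 0 := by exact_mod_cast hm
      rw [abs_of_nonpos hm']; nlinarith
  refine ⟨?_, ?_, ?_⟩
  · rw [norm_mul, norm_qq, ← hu]; exact hG u hu0
  · rw [norm_mul, norm_qq, ← hu, GD_eq hΦ (isLev_lev hB0 hB m) (lev_inv hwi m) hu0, norm_div,
      norm_mul, Complex.norm_real, Complex.norm_real, Real.norm_of_nonneg (Real.exp_pos _).le,
      Real.norm_of_nonneg hu0.le, div_mul_eq_mul_div, mul_assoc, ← Real.exp_add,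
      div_mul_eq_mul_div, show 4 * ((m : ℝ) / 3) * u + -(2 * u * (m / 3)) = 2 * u * (m / 3) by ring]
    exact div_le_div_of_nonneg_right hexp hu0.le
  · rw [norm_mul, Complex.norm_conj, norm_qq, ← hu]
    refine (le_of_eq ?_).trans hexp
    push_cast; ring_nf

/-- The derivative of the term of one level. -/
theorem hasFDerivAt_trm (m : ℤ) {z : ℂ} (hz : 0 < z.im) :
    HasFDerivAt (trm n k Φ w m) (wirt (Acf n k Φ w m z) (Bcf n k Φ w m z)) z := by
  have hk : (0 : ℝ) < k := by exact_mod_cast Nat.pos_of_neZero k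
  have hwi := inv_congE_of_isPer hn hw
  obtain ⟨B, hB0, hB⟩ := hw.bounded
  set u := π * z.im / k
  have hu0 : 0 < u := by positivity
  have h1 : HasFDerivAt (fun z : ℂ => π * z.im / k) ((π / k) • Complex.imCLM) z := by
    refine ((Complex.imCLM.hasFDerivAt (x := z)).const_mul (π / k)).congr_of_eventuallyEq
      (Eventually.of_forall fun y => ?_)
    simp only [Complex.imCLM_apply]; ring
  have h2 := (hasDerivAt_GG hΦ.wave (isLev_lev hB0 hB m) (lev_inv hwi m) hu0).hasFDerivAt.comp z h1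
  have h3 : HasFDerivAt (qq k m)
      ((2 * π * Complex.I * m / (3 * k) * qq k m z) • (1 : ℂ →L[ℝ] ℂ)) z := by
    refine HasDerivAt.complexToReal_fderiv ?_
    refine ((((hasDerivAt_id' z).const_mul (2 * π * Complex.I * m)).div_const
      (3 * k)).cexp).congr_deriv ?_
    simp only [qq, mul_one]; ring
  refine ((h2.const_mul (kap k)).mul h3).congr_fderiv ?_
  ext h
  have hh : (Complex.imCLM h : ℂ) = (h - conj h) / (2 * Complex.I) := by
    rw [Complex.imCLM_apply, Complex.im_eq_sub_conj]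
  simp only [_root_.add_apply, _root_.smul_apply,
    ContinuousLinearMap.comp_apply, ContinuousLinearMap.toSpanSingleton_apply, wirt_apply,
    smul_eq_mul, Acf, Bcf, Complex.real_smul]
  simp [Function.comp, u]
  rw [Complex.im_eq_sub_conj]
  ring

omit hΦ hn hw in
lemma nbhd_strip {z : ℂ} (hz : 0 < z.im) :
    IsOpen (Complex.im ⁻¹' Ioo (z.im / 2) (2 * z.im)) ∧
      IsPreconnected (Complex.im ⁻¹' Ioo (z.im / 2) (2 * z.im)) ∧
      z ∈ Complex.im ⁻¹' Ioo (z.im / 2) (2 * z.im) :=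
  ⟨isOpen_Ioo.preimage Complex.continuous_im,
    ((convex_Ioo _ _).linear_preimage Complex.imLm).isPreconnected,
    by constructor <;> linarith⟩

omit hn in
lemma hasSum_trm {z : ℂ} (hz : 0 < z.im) :
    HasSum (fun m : ℤ => trm n k Φ w m z) (LamC n k Φ w z) := by
  obtain ⟨B, hB0, hB⟩ := hw.bounded
  rw [LamC, Function.comp_apply, UpperHalfPlane.ofComplex_apply_of_im_pos hz]
  exact hasSum_Lam hΦ.wave hB0 hB ⟨z, hz⟩

/-- The coefficients of the derivative decay exponentially in `|m|`, uniformly on a strip. -/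
private lemma exists_coef_bound_strip {z : ℂ} (hz : 0 < z.im) :
    ∃ C : ℝ, ∀ (m : ℤ) (y : ℂ), y ∈ Complex.im ⁻¹' Ioo (z.im / 2) (2 * z.im) →
      ‖Acf n k Φ w m y‖ ≤ C * ((1 + |(m : ℝ)|) ^ 5 * Real.exp (-(π * z.im / k / 4 * |(m : ℝ)|))) ∧
      ‖Bcf n k Φ w m y‖ ≤
        C * ((1 + |(m : ℝ)|) ^ 5 * Real.exp (-(π * z.im / k / 4 * |(m : ℝ)|))) := by
  have hk : (0 : ℝ) < k := by exact_mod_cast Nat.pos_of_neZero k
  obtain ⟨K, hK0, hK⟩ := exists_term_bound hΦ hn hw
  set u₀ := π * z.im / k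
  have hu₀ : 0 < u₀ := by positivity
  refine ⟨‖kap k‖ * K * ((1 + 2 * u₀) * (1 + 2 / u₀) ^ 4 * (2 * π / (3 * k)) +
    π / k * (2 / u₀) / 2), fun m y hy => ?_⟩
  have hy0 : 0 < y.im := (half_pos hz).trans hy.1
  set u := π * y.im / k with hu
  have hu0 : 0 < u := by positivity
  have hu1 : u₀ / 2 ≤ u := by
    rw [hu, div_div, div_le_div_iff₀ (by positivity) hk]
    nlinarith [mul_le_mul_of_nonneg_left hy.1.le (mul_nonneg Real.pi_pos.le hk.le)]
  have hu2 : u ≤ 2 * u₀ := by
    rw [hu, ← mul_div_assoc, div_le_div_iff_of_pos_right hk]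
    nlinarith [mul_le_mul_of_nonneg_left hy.2.le Real.pi_pos.le]
  obtain ⟨hG, hD, -⟩ := hK m y hy0
  rw [← hu] at hG hD
  set a := |(m : ℝ)| with ha
  have ha0 : 0 ≤ a := abs_nonneg _
  have he : Real.exp (-(u * a / 2)) ≤ Real.exp (-(u₀ / 4 * a)) :=
    Real.exp_le_exp.2 (by nlinarith)
  have hinv : 1 / u ≤ 2 / u₀ := by rw [div_le_div_iff₀ hu0 hu₀]; linarith
  have hG' : ‖GG n Φ u (lev m w) * qq k m y‖ ≤
      K * (1 + a) ^ 4 * ((1 + 2 * u₀) * (1 + 2 / u₀) ^ 4) * Real.exp (-(u₀ / 4 * a)) := by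
    refine hG.trans (mul_le_mul (mul_le_mul_of_nonneg_left ?_ (by positivity)) he
      (Real.exp_pos _).le (by positivity))
    exact mul_le_mul (by linarith) (pow_le_pow_left₀ (by positivity) (by linarith) 4)
      (by positivity) (by positivity)
  have hD' : ‖GD n Φ u (lev m w) * qq k m y‖ ≤
      K * (1 + a) ^ 4 * (2 / u₀) * Real.exp (-(u₀ / 4 * a)) := by
    refine hD.trans (mul_le_mul ?_ he (Real.exp_pos _).le (by positivity))
    rw [div_eq_mul_one_div]
    exact mul_le_mul_of_nonneg_left hinv (by positivity)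
  have h45 : (1 + a) ^ 4 ≤ (1 + a) ^ 5 := pow_le_pow_right₀ (by linarith) (by norm_num)
  have h45' : (1 + a) ^ 4 * a ≤ (1 + a) ^ 5 := by
    rw [pow_succ]; exact mul_le_mul_of_nonneg_left (by linarith) (by positivity)
  have hnd : ‖((π : ℂ) / k) / (2 * Complex.I)‖ = π / k / 2 := by
    rw [norm_div, norm_div, norm_mul, Complex.norm_I, Complex.norm_real, Complex.norm_natCast,
      Real.norm_of_nonneg Real.pi_pos.le, RCLike.norm_ofNat, mul_one]
  have hnm : ‖2 * (π : ℂ) * Complex.I * m / (3 * k)‖ = 2 * π / (3 * k) * a := by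
    rw [norm_div, norm_mul, norm_mul, norm_mul, norm_mul, Complex.norm_I, Complex.norm_real,
      Complex.norm_natCast, Complex.norm_intCast, Real.norm_of_nonneg Real.pi_pos.le,
      RCLike.norm_ofNat, RCLike.norm_ofNat, mul_one, ← ha]
    ring
  have hsecond : ‖GD n Φ u (lev m w) * qq k m y‖ * (π / k / 2) ≤
      K * (π / k * (2 / u₀) / 2) * ((1 + a) ^ 5 * Real.exp (-(u₀ / 4 * a))) := by
    calc _ ≤ K * (1 + a) ^ 4 * (2 / u₀) * Real.exp (-(u₀ / 4 * a)) * (π / k / 2) :=
          mul_le_mul_of_nonneg_right hD' (by positivity)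
      _ = K * (π / k * (2 / u₀) / 2) * ((1 + a) ^ 4 * Real.exp (-(u₀ / 4 * a))) := by ring
      _ ≤ _ := mul_le_mul_of_nonneg_left
          (mul_le_mul_of_nonneg_right h45 (Real.exp_pos _).le) (by positivity)
  have hfirst : ‖GG n Φ u (lev m w) * qq k m y‖ * (2 * π / (3 * k) * a) ≤
      K * ((1 + 2 * u₀) * (1 + 2 / u₀) ^ 4 * (2 * π / (3 * k))) *
        ((1 + a) ^ 5 * Real.exp (-(u₀ / 4 * a))) := by
    calc _ ≤ K * (1 + a) ^ 4 * ((1 + 2 * u₀) * (1 + 2 / u₀) ^ 4) * Real.exp (-(u₀ / 4 * a)) *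
          (2 * π / (3 * k) * a) := mul_le_mul_of_nonneg_right hG' (by positivity)
      _ = K * ((1 + 2 * u₀) * (1 + 2 / u₀) ^ 4 * (2 * π / (3 * k))) *
          ((1 + a) ^ 4 * a * Real.exp (-(u₀ / 4 * a))) := by ring
      _ ≤ _ := mul_le_mul_of_nonneg_left
          (mul_le_mul_of_nonneg_right h45' (Real.exp_pos _).le) (by positivity)
  constructor
  · rw [Acf, ← hu, show kap k * (GG n Φ u (lev m w) * (2 * π * Complex.I * m / (3 * k)) +
        GD n Φ u (lev m w) * (π / k) / (2 * Complex.I)) * qq k m y =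
      kap k * ((GG n Φ u (lev m w) * qq k m y) * (2 * π * Complex.I * m / (3 * k)) +
        (GD n Φ u (lev m w) * qq k m y) * (((π : ℂ) / k) / (2 * Complex.I))) by ring, norm_mul]
    refine (mul_le_mul_of_nonneg_left ((norm_add_le _ _).trans (add_le_add
      (le_of_eq_of_le (by rw [norm_mul, hnm]) hfirst)
      (le_of_eq_of_le (by rw [norm_mul, hnd]) hsecond))) (norm_nonneg _)).trans (le_of_eq ?_)
    ring
  · rw [Bcf, ← hu, show -(kap k * (GD n Φ u (lev m w) * (π / k) / (2 * Complex.I))) * qq k m y =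
      -(kap k * ((GD n Φ u (lev m w) * qq k m y) * (((π : ℂ) / k) / (2 * Complex.I)))) by ring,
      norm_neg, norm_mul]
    refine (mul_le_mul_of_nonneg_left (le_of_eq_of_le (by rw [norm_mul, hnd]) hsecond)
      (norm_nonneg _)).trans ?_
    have h0 : 0 ≤ ‖kap k‖ * K * ((1 + 2 * u₀) * (1 + 2 / u₀) ^ 4 * (2 * π / (3 * k))) *
        ((1 + a) ^ 5 * Real.exp (-(u₀ / 4 * a))) := by positivity
    linear_combination h0

/-- The lift is differentiable, and its antiholomorphic derivative is the shadow. -/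
theorem hasFDerivAt_LamC {z : ℂ} (hz : 0 < z.im) :
    HasFDerivAt (LamC n k Φ w) (wirt (∑' m : ℤ, Acf n k Φ w m z)
      (Complex.I * kap k / (2 * (z.im : ℂ)) * conj (Xc n k Φ w z))) z := by
  have hk : (0 : ℝ) < k := by exact_mod_cast Nat.pos_of_neZero k
  obtain ⟨hUo, hUc, hzU⟩ := nbhd_strip hz
  set u₀ := π * z.im / k
  have hu₀ : 0 < u₀ := by positivity
  obtain ⟨C, hb⟩ := exists_coef_bound_strip hΦ hn hw hz
  set bnd : ℤ → ℝ := fun m => C * ((1 + |(m : ℝ)|) ^ 5 * Real.exp (-(u₀ / 4 * |(m : ℝ)|)))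
  have hbs : Summable bnd := ((summable_poly_exp 5 (show 0 < u₀ / 4 by positivity))).mul_left C
  have hd := hasFDerivAt_tsum_of_isPreconnected (f := fun m => trm n k Φ w m)
    (f' := fun m y => wirt (Acf n k Φ w m y) (Bcf n k Φ w m y)) (hbs.add hbs) hUo hUc
    (fun m y hy => hasFDerivAt_trm hΦ hn hw m ((half_pos hz).trans hy.1))
    (fun m y hy => (norm_wirt_le _ _).trans (add_le_add (hb m y hy).1 (hb m y hy).2)) hzU
    (hasSum_trm hΦ hw hz).summable hzU
  have hA : Summable fun m => Acf n k Φ w m z := .of_norm_bounded hbs fun m => (hb m z hzU).1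
  have hB : Summable fun m => Bcf n k Φ w m z := .of_norm_bounded hbs fun m => (hb m z hzU).2
  refine (hd.congr_fderiv ?_).congr_of_eventuallyEq ?_
  · have hBX : ∑' m, Bcf n k Φ w m z =
        Complex.I * kap k / (2 * (z.im : ℂ)) * conj (Xc n k Φ w z) := by
      have hwi := inv_congE_of_isPer hn hw
      obtain ⟨B, hB0, hB'⟩ := hw.bounded
      rw [Xc, Complex.conj_tsum, ← tsum_mul_left]
      refine tsum_congr fun m => ?_
      rw [Bcf, GD_eq hΦ (isLev_lev hB0 hB' m) (lev_inv hwi m) hu₀, map_mul, Complex.conj_conj,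
        qq_neg]
      have : (z.im : ℂ) ≠ 0 := by exact_mod_cast hz.ne'
      have : (π : ℂ) ≠ 0 := by exact_mod_cast Real.pi_ne_zero
      have : (k : ℂ) ≠ 0 := Nat.cast_ne_zero.2 (NeZero.ne k)
      simp only [u₀]
      push_cast
      field_simp
      simp only [Complex.I_sq]
      ring
    rw [← hBX]
    ext h
    refine ((ContinuousLinearMap.apply ℝ ℂ h).map_tsum (.of_norm_bounded (hbs.add hbs) fun m =>
      (norm_wirt_le _ _).trans (add_le_add (hb m z hzU).1 (hb m z hzU).2))).trans ?_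
    simp only [ContinuousLinearMap.apply_apply]
    simp only [wirt_apply]
    rw [(hA.mul_right h).tsum_add (hB.mul_right _), tsum_mul_right, tsum_mul_right]
  · filter_upwards [hUo.mem_nhds hzU] with y hy
    exact (hasSum_trm hΦ hw ((half_pos hz).trans hy.1)).tsum_eq.symm

/-- The shadow is holomorphic. -/
theorem differentiableOn_Xc : DifferentiableOn ℂ (Xc n k Φ w) {z : ℂ | 0 < z.im} := by
  have hk : (0 : ℝ) < k := by exact_mod_cast Nat.pos_of_neZero k
  obtain ⟨K, hK0, hK⟩ := exists_term_bound hΦ hn hw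
  intro z hz
  obtain ⟨hUo, -, hzU⟩ := nbhd_strip (z := z) hz
  refine ((Complex.differentiableOn_tsum_of_summable_norm
    ((summable_poly_exp 4 (show 0 < π * z.im / k / 4 by
      have : 0 < z.im := hz
      positivity)).mul_left K)
    (fun m => ?_) hUo fun m y hy => ?_).differentiableAt (hUo.mem_nhds hzU)).differentiableWithinAt
  · exact ((((differentiable_id.const_mul (2 * π * Complex.I * ((-m : ℤ) : ℂ))).div_const
      (3 * k)).cexp).const_mul _).differentiableOn
  · refine (hK m y ((half_pos hz).trans hy.1)).2.2.trans ?_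
    rw [mul_assoc]
    refine mul_le_mul_of_nonneg_left (mul_le_mul_of_nonneg_left (Real.exp_le_exp.2 ?_)
      (by positivity)) hK0
    have h1 : π * z.im / k / 2 ≤ π * y.im / k := by
      rw [div_div, div_le_div_iff₀ (by positivity) hk]
      nlinarith [mul_le_mul_of_nonneg_left hy.1.le (mul_nonneg Real.pi_pos.le hk.le)]
    nlinarith [abs_nonneg (m : ℝ)]

/-- The lift and its shadow vanish at infinity. -/
theorem isZeroAtImInfty_Lam : UpperHalfPlane.IsZeroAtImInfty (Lam n k Φ w) ∧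
    UpperHalfPlane.IsZeroAtImInfty (fun τ : ℍ => Xc n k Φ w τ) := by
  have hk : (0 : ℝ) < k := by exact_mod_cast Nat.pos_of_neZero k
  have hwi := inv_congE_of_isPer hn hw
  obtain ⟨B, hB0, hB⟩ := hw.bounded
  obtain ⟨K, hK0, hK⟩ := exists_term_bound hΦ hn hw
  set S := ∑' m : ℤ, (1 + |(m : ℝ)|) ^ 4 * Real.exp (-(1 / 4 * |(m : ℝ)|)) with hS
  have hSs := summable_poly_exp 4 (show (0 : ℝ) < 1 / 4 by norm_num)
  have hterm : ∀ (τ : ℍ), 1 ≤ π * τ.im / k → ∀ m : ℤ,
      ‖trm n k Φ w m τ‖ ≤ ‖kap k‖ * K * 2 ^ 4 * ((1 + π * τ.im / k) *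
        Real.exp (-(π * τ.im / k / 4))) * ((1 + |(m : ℝ)|) ^ 4 * Real.exp (-(1 / 4 * |(m : ℝ)|))) ∧
      ‖conj (cCoef n Φ m (lev m w)) * qq k (-m) τ‖ ≤ K * 2 ^ 4 * ((1 + π * τ.im / k) *
        Real.exp (-(π * τ.im / k / 4))) *
        ((1 + |(m : ℝ)|) ^ 4 * Real.exp (-(1 / 4 * |(m : ℝ)|))) := by
    intro τ hu m
    obtain ⟨hG, -, hX⟩ := hK m τ τ.im_pos
    rw [UpperHalfPlane.coe_im] at hG hX
    set u := π * τ.im / k with hudef
    rcases eq_or_ne m 0 with rfl | hm
    · obtain ⟨h0, h0'⟩ := GG_zero hΦ (isLev_lev hB0 hB 0) (lev_inv hwi 0) (show 0 < u by linarith)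
      constructor
      · rw [trm, UpperHalfPlane.coe_im, ← hudef, h0, mul_zero, zero_mul, norm_zero]; positivity
      · rw [h0', map_zero, zero_mul, norm_zero]; positivity
    · have ha : 1 ≤ |(m : ℝ)| := by exact_mod_cast Int.one_le_abs hm
      have he : Real.exp (-(u * |(m : ℝ)| / 2)) ≤
          Real.exp (-(u / 4)) * Real.exp (-(1 / 4 * |(m : ℝ)|)) := by
        rw [← Real.exp_add]; exact Real.exp_le_exp.2 (by nlinarith)
      have h2 : (1 + 1 / u) ^ 4 ≤ 2 ^ 4 := pow_le_pow_left₀ (by positivity)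
        (by have : 1 / u ≤ 1 := (div_le_one (by linarith)).2 hu; linarith) 4
      constructor
      · rw [trm, UpperHalfPlane.coe_im, ← hudef, mul_assoc, norm_mul]
        calc ‖kap k‖ * ‖GG n Φ u (lev m w) * qq k m τ‖
            ≤ ‖kap k‖ * (K * (1 + |(m : ℝ)|) ^ 4 * ((1 + u) * 2 ^ 4) *
              (Real.exp (-(u / 4)) * Real.exp (-(1 / 4 * |(m : ℝ)|)))) := by
              refine mul_le_mul_of_nonneg_left (hG.trans (mul_le_mul (mul_le_mul_of_nonneg_left
                (mul_le_mul_of_nonneg_left h2 (by linarith)) (by positivity)) he (Real.exp_pos _).le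
                (by positivity))) (norm_nonneg _)
          _ = _ := by ring
      · refine hX.trans ?_
        calc K * (1 + |(m : ℝ)|) ^ 4 * Real.exp (-(u * |(m : ℝ)| / 2))
            ≤ K * (1 + |(m : ℝ)|) ^ 4 * 1 * ((1 + u) *
              (Real.exp (-(u / 4)) * Real.exp (-(1 / 4 * |(m : ℝ)|)))) := by
              rw [mul_one]
              refine mul_le_mul_of_nonneg_left ?_ (by positivity)
              exact he.trans (le_mul_of_one_le_left (by positivity) (by linarith))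
          _ ≤ K * (1 + |(m : ℝ)|) ^ 4 * 2 ^ 4 * ((1 + u) *
              (Real.exp (-(u / 4)) * Real.exp (-(1 / 4 * |(m : ℝ)|)))) := by
              refine mul_le_mul_of_nonneg_right (mul_le_mul_of_nonneg_left (by norm_num)
                (by positivity)) (by positivity)
          _ = _ := by ring
  have hlim : Tendsto (fun τ : ℍ => (1 + π * τ.im / k) * Real.exp (-(π * τ.im / k / 4)))
      UpperHalfPlane.atImInfty (𝓝 0) := by
    have h1 : Tendsto (fun τ : ℍ => π * τ.im / k) UpperHalfPlane.atImInfty atTop :=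
      ((tendsto_id.const_mul_atTop Real.pi_pos).atTop_div_const hk).comp tendsto_comap
    have h2 : Tendsto (fun u : ℝ => (1 + u) * Real.exp (-(u / 4))) atTop (𝓝 0) := by
      have h3 := ((Real.tendsto_pow_mul_exp_neg_atTop_nhds_zero 1).comp
        (tendsto_id.atTop_div_const (show (0 : ℝ) < 4 by norm_num))).const_mul 4
      have h4 := ((Real.tendsto_pow_mul_exp_neg_atTop_nhds_zero 0).comp
        (tendsto_id.atTop_div_const (show (0 : ℝ) < 4 by norm_num)))
      simpa using (h4.add h3).congr fun u => by simp [Function.comp]; ring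
    exact h2.comp h1
  have hev : ∀ᶠ τ : ℍ in UpperHalfPlane.atImInfty, 1 ≤ π * τ.im / k :=
    ((tendsto_id.const_mul_atTop Real.pi_pos).atTop_div_const hk).comp tendsto_comap
      |>.eventually_ge_atTop 1
  constructor
  · refine squeeze_zero_norm' (a := fun τ : ℍ => ‖kap k‖ * K * 2 ^ 4 *
      ((1 + π * τ.im / k) * Real.exp (-(π * τ.im / k / 4))) * S) ?_
      (by simpa using (hlim.const_mul (‖kap k‖ * K * 2 ^ 4)).mul_const S)
    filter_upwards [hev] with τ hτ
    rw [← (hasSum_Lam hΦ.wave hB0 hB τ).tsum_eq, hS, ← tsum_mul_left]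
    exact tsum_of_norm_bounded (hSs.mul_left _).hasSum fun m => (hterm τ hτ m).1
  · refine squeeze_zero_norm' (a := fun τ : ℍ => K * 2 ^ 4 *
      ((1 + π * τ.im / k) * Real.exp (-(π * τ.im / k / 4))) * S) ?_
      (by simpa using (hlim.const_mul (K * 2 ^ 4)).mul_const S)
    filter_upwards [hev] with τ hτ
    rw [Xc, hS, ← tsum_mul_left]
    exact tsum_of_norm_bounded (hSs.mul_left _).hasSum fun m => (hterm τ hτ m).2

omit [NeZero n] hΦ hn in
/-- The lifts are permuted by the modular group. -/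
theorem exists_slash (γ : SL(2, ℤ)) :
    ∃ w', IsPer k w' ∧ Lam n k Φ w ∣[(1 : ℤ)] γ = Lam n k Φ w' := by
  revert w
  suffices h : (∀ w, IsPer k w → ∃ w', IsPer k w' ∧ Lam n k Φ w ∣[(1 : ℤ)] γ = Lam n k Φ w') ∧
      (∀ w, IsPer k w → ∃ w', IsPer k w' ∧ Lam n k Φ w ∣[(1 : ℤ)] γ⁻¹ = Lam n k Φ w') from h.1
  have hγ : γ ∈ Subgroup.closure {ModularGroup.S, ModularGroup.T} := by
    simp [_root_.SpecialLinearGroup.SL2Z_generators]
  have hmul : ∀ a b : SL(2, ℤ),
      (∀ w, IsPer k w → ∃ w', IsPer k w' ∧ Lam n k Φ w ∣[(1 : ℤ)] a = Lam n k Φ w') →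
      (∀ w, IsPer k w → ∃ w', IsPer k w' ∧ Lam n k Φ w ∣[(1 : ℤ)] b = Lam n k Φ w') →
      ∀ w, IsPer k w → ∃ w', IsPer k w' ∧ Lam n k Φ w ∣[(1 : ℤ)] (a * b) = Lam n k Φ w' := by
    intro a b ha hb w hw
    obtain ⟨w₁, h1, e1⟩ := ha w hw
    obtain ⟨w₂, h2, e2⟩ := hb w₁ h1
    exact ⟨w₂, h2, by rw [SlashAction.slash_mul, e1, e2]⟩
  have hS : ∀ w, IsPer k w → ∀ τ : ℍ,
      Lam n k Φ w (negInv τ) = -(Complex.I * τ) * Lam n k Φ (four k w) τ := fun w hw τ => by
    rw [Lam, Lam, ← integral_const_mul]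
    exact integral_congr_ae (ae_of_all _ fun p => by dsimp only; rw [theta_negInv hw]; ring)
  have hLs : ∀ (r : ℂ) (w : Vec → ℂ) (τ : ℍ), Lam n k Φ (r • w) τ = r * Lam n k Φ w τ :=
    fun r w τ => by
      rw [Lam, Lam, ← integral_const_mul]
      exact integral_congr_ae (ae_of_all _ fun p => by dsimp only; rw [theta_smul]; ring)
  have hSS : ∀ (g : SL(2, ℤ)), g = ModularGroup.S ∨ g = ModularGroup.S⁻¹ →
      ∀ w, IsPer k w → ∃ w', IsPer k w' ∧ Lam n k Φ w ∣[(1 : ℤ)] g = Lam n k Φ w' := by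
    intro g hg w hw
    have hp : ∀ r : ℂ, IsPer k (r • four k w) := fun r x y => by
      simp only [Pi.smul_apply, isPer_four w x y]
    have hSm : ∀ τ : ℍ, ModularGroup.S • τ = negInv τ := fun τ => by
      apply UpperHalfPlane.ext
      rw [coe_negInv, UpperHalfPlane.modular_S_smul]
      show (-(τ : ℂ))⁻¹ = _
      rw [inv_neg, neg_div, one_div]
    have hinv : ∀ τ : ℍ, (τ : ℂ) ≠ 0 := fun τ => τ.ne_zero
    rcases hg with rfl | rfl
    · refine ⟨(-Complex.I) • four k w, hp _, funext fun τ => ?_⟩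
      rw [ModularForm.SL_slash_apply, hSm, hS w hw, hLs, ModularGroup.denom_apply]
      have := hinv τ
      simp [ModularGroup.coe_S]
      field_simp
    · refine ⟨Complex.I • four k w, hp _, funext fun τ => ?_⟩
      have e : ModularGroup.S⁻¹ = -ModularGroup.S := by decide
      rw [ModularForm.SL_slash_apply, e, ModularGroup.SL_neg_smul, hSm, hS w hw, hLs,
        ModularGroup.denom_apply]
      have := hinv τ
      simp [ModularGroup.coe_S]
      field_simp
  have hTT : ∀ (j : ℤ) w, IsPer k w →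
      ∃ w', IsPer k w' ∧ Lam n k Φ w ∣[(1 : ℤ)] (ModularGroup.T ^ j) = Lam n k Φ w' := by
    intro j w hw
    refine ⟨mE k j w, isPer_mE hw j, funext fun τ => ?_⟩
    rw [ModularForm.SL_slash_apply, UpperHalfPlane.modular_T_zpow_smul, Lam, Lam,
      ModularGroup.denom_apply, ← integral_mul_const]
    refine integral_congr_ae (ae_of_all _ fun p => ?_)
    dsimp only
    rw [theta_vadd]
    simp [ModularGroup.coe_T_zpow]
  induction hγ using Subgroup.closure_induction with
  | mem g hg =>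
    rcases hg with rfl | hg
    · exact ⟨hSS _ (.inl rfl), hSS _ (.inr rfl)⟩
    · rw [Set.mem_singleton_iff] at hg
      subst hg
      exact ⟨by simpa using hTT 1, by simpa using hTT (-1)⟩
  | one => constructor <;> intro w hw <;> exact ⟨w, hw, by simp⟩
  | mul a b _ _ ha hb =>
    exact ⟨hmul a b ha.1 hb.1, by rw [_root_.mul_inv_rev]; exact hmul _ _ hb.2 ha.2⟩
  | inv a _ ha => exact ⟨ha.2, by rw [inv_inv]; exact ha.1⟩

/-- The shadows follow the lifts. -/
theorem Xc_slash (γ : SL(2, ℤ)) {w' : Vec → ℂ} (hw' : IsPer k w')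
    (h : Lam n k Φ w ∣[(1 : ℤ)] γ = Lam n k Φ w') :
    (fun τ : ℍ => Xc n k Φ w τ) ∣[(1 : ℤ)] γ = fun τ : ℍ => Xc n k Φ w' τ := by
  funext τ
  set a := ((γ.1 0 0 : ℤ) : ℂ)
  set b := ((γ.1 0 1 : ℤ) : ℂ)
  set c := ((γ.1 1 0 : ℤ) : ℂ)
  set d := ((γ.1 1 1 : ℤ) : ℂ)
  set z : ℂ := (τ : ℂ)
  have hz : 0 < z.im := τ.im_pos
  have hden : ∀ y : ℍ, UpperHalfPlane.denom γ y = c * y + d := fun y => by
    simp [UpperHalfPlane.denom, c, d]
  have hden0 : c * z + d ≠ 0 := hden τ ▸ UpperHalfPlane.denom_ne_zero _ _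
  have hdet : a * d - b * c = 1 := by
    have h0 := γ.det_coe
    rw [Matrix.det_fin_two] at h0
    have h1 := congrArg (fun x : ℤ => (x : ℂ)) h0
    push_cast at h1
    exact h1
  set g : ℂ → ℂ := fun y => (a * y + b) / (c * y + d) with hg
  have hgy : ∀ y : ℍ, ((γ • y : ℍ) : ℂ) = g y := fun y => by
    rw [UpperHalfPlane.coe_specialLinearGroup_apply]; simp [hg, a, b, c, d]
  have hgd : HasDerivAt g (1 / (c * z + d) ^ 2) z := by
    refine (((hasDerivAt_id' z).const_mul a).add_const b |>.div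
      (((hasDerivAt_id' z).const_mul c).add_const d) hden0).congr_deriv ?_
    congr 1; linear_combination hdet
  set i : ℂ → ℂ := fun y => (c * y + d)⁻¹ with hi
  have hid : HasDerivAt i (-c / (c * z + d) ^ 2) z :=
    ((((hasDerivAt_id' z).const_mul c).add_const d).inv hden0).congr_deriv (by simp)
  have hgz : 0 < (g z).im := by rw [← hgy]; exact (γ • τ).im_pos
  have hcomp := (hasFDerivAt_LamC hΦ hn hw hgz).comp z hgd.complexToReal_fderiv
  have hprod := hid.complexToReal_fderiv.mul hcomp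
  have heq : LamC n k Φ w' =ᶠ[𝓝 z] fun y => i y * (LamC n k Φ w ∘ g) y := by
    filter_upwards [(isOpen_lt continuous_const Complex.continuous_im).mem_nhds hz] with y hy
    have e := congrFun h ⟨y, hy⟩
    rw [ModularForm.SL_slash_apply, hden] at e
    rw [LamC, LamC, Function.comp_apply, Function.comp_apply, Function.comp_apply,
      UpperHalfPlane.ofComplex_apply_of_im_pos hy, ← e, ← hgy ⟨y, hy⟩,
      UpperHalfPlane.ofComplex_apply]
    simp [hi, mul_comm]
  have key := (hasFDerivAt_LamC hΦ hn hw' hz).unique (hprod.congr_of_eventuallyEq heq)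
  have hq : ∀ A B : ℂ, i z • (wirt A B).comp ((1 / (c * z + d) ^ 2) • (1 : ℂ →L[ℝ] ℂ)) +
      (LamC n k Φ w ∘ g) z • ((-c / (c * z + d) ^ 2) • (1 : ℂ →L[ℝ] ℂ)) =
      wirt (i z * A * (1 / (c * z + d) ^ 2) + (LamC n k Φ w ∘ g) z * (-c / (c * z + d) ^ 2))
        (i z * B * conj (1 / (c * z + d) ^ 2)) := fun A B => by
    ext h
    simp only [_root_.add_apply, _root_.smul_apply,
      ContinuousLinearMap.comp_apply, one_apply_eq_self, wirt_apply, smul_eq_mul,
      map_mul]
    ring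
  rw [hq] at key
  obtain ⟨-, hB⟩ := wirt_inj key
  have him : (g z).im = z.im / Complex.normSq (c * z + d) := by
    rw [← hgy, ← hden]
    exact ModularGroup.im_smul_eq_div_normSq γ τ
  rw [ModularForm.SL_slash_apply, hden, hgy]
  rw [him, hi] at hB
  have hk : kap k ≠ 0 := by
    have : (0 : ℝ) < k := by exact_mod_cast Nat.pos_of_neZero k
    rw [kap, Complex.ofReal_ne_zero]
    exact (Real.sqrt_pos.2 (by positivity)).ne'
  have hn2 : (Complex.normSq (c * z + d) : ℂ) = conj (c * z + d) * (c * z + d) :=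
    Complex.normSq_eq_conj_mul_self
  have hc0 : conj (c * z + d) ≠ 0 := fun h0 => hden0 ((map_eq_zero _).1 h0)
  have hzi : (z.im : ℂ) ≠ 0 := by exact_mod_cast hz.ne'
  rw [Complex.ofReal_div, hn2, map_div₀, map_one, map_pow] at hB
  field_simp at hB
  have h2 := congrArg conj hB
  simp only [map_mul, Complex.conj_conj] at h2
  rw [_root_.zpow_neg_one, ← div_eq_mul_inv, div_eq_iff hden0]
  exact h2.symm.trans (by ring)

end FermatAgent.LT.Lift
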