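import Fermat.Agent.Curve.Periodic
import Fermat.Agent.LT.Lift.Deriv

/-!
# Holomorphy of the lift

The invariant weight two product of the lift and its shadow, integrated over the boundary of the
fundamental domain, shows that the shadow vanishes.  The lift is a cusp form of weight one.
-/

set_option autoImplicit false

noncomputable section

open Matrix MeasureTheory Filter Topology ComplexConjugate Set
open scoped MatrixGroups ContDiff ENNReal UpperHalfPlane Real ModularForm Manifold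

namespace FermatAgent.LT.Lift

/-- Coordinates above the unit circle. -/
def phiFd (p : ℝ × ℝ) : ℂ := (p.1 : ℂ) + Complex.I * ((√(1 - p.1 ^ 2) + p.2 : ℝ) : ℂ)

/-- The tangent of the unit circle. -/
def psiFd (x : ℝ) : ℂ := 1 + Complex.I * ((-x / √(1 - x ^ 2) : ℝ) : ℂ)

lemma one_sub_sq_pos {x : ℝ} (hx : x ∈ Icc (-(1 / 2) : ℝ) (1 / 2)) : 0 < 1 - x ^ 2 := by
  obtain ⟨h1, h2⟩ := hx; nlinarith

lemma im_phiFd (p : ℝ × ℝ) : (phiFd p).im = √(1 - p.1 ^ 2) + p.2 := by simp [phiFd]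

lemma re_phiFd (p : ℝ × ℝ) : (phiFd p).re = p.1 := by simp [phiFd]

lemma im_phiFd_pos {p : ℝ × ℝ} (hx : p.1 ∈ Icc (-(1 / 2) : ℝ) (1 / 2)) (hs : 0 ≤ p.2) :
    0 < (phiFd p).im := by
  rw [im_phiFd]; linarith [Real.sqrt_pos.2 (one_sub_sq_pos hx)]

lemma continuous_phiFd : Continuous phiFd := by unfold phiFd; fun_prop

lemma continuousOn_psiFd : ContinuousOn psiFd (Icc (-(1 / 2) : ℝ) (1 / 2)) := fun x hx => by
  have := (Real.sqrt_pos.2 (one_sub_sq_pos hx)).ne'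
  unfold psiFd
  exact (ContinuousAt.continuousWithinAt (by fun_prop (disch := assumption)))

lemma norm_psiFd_le {x : ℝ} (hx : x ∈ Icc (-(1 / 2) : ℝ) (1 / 2)) : ‖psiFd x‖ ≤ 2 := by
  have hp := one_sub_sq_pos hx
  rw [psiFd]
  refine (norm_add_le _ _).trans ?_
  rw [norm_one, norm_mul, Complex.norm_I, one_mul, Complex.norm_real, Real.norm_eq_abs, abs_div,
    abs_neg, abs_of_pos (Real.sqrt_pos.2 hp)]
  have : |x| / √(1 - x ^ 2) ≤ 1 := by
    rw [div_le_one (Real.sqrt_pos.2 hp)]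
    refine Real.abs_le_sqrt ?_
    obtain ⟨h1, h2⟩ := hx
    nlinarith
  linarith

lemma hasDerivAt_height {x : ℝ} (hx : 0 < 1 - x ^ 2) :
    HasDerivAt (fun x : ℝ => √(1 - x ^ 2)) (-x / √(1 - x ^ 2)) x := by
  refine (((hasDerivAt_pow 2 x).const_sub 1).sqrt hx.ne').congr_deriv ?_
  field_simp
  norm_num

lemma hasFDerivAt_phiFd {p : ℝ × ℝ} (hx : 0 < 1 - p.1 ^ 2) :
    HasFDerivAt phiFd ((ContinuousLinearMap.fst ℝ ℝ ℝ).smulRight (psiFd p.1) +
      (ContinuousLinearMap.snd ℝ ℝ ℝ).smulRight Complex.I) p := by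
  have h1 := ((hasDerivAt_height hx).hasFDerivAt.comp p hasFDerivAt_fst).add
    (hasFDerivAt_snd (𝕜 := ℝ) (E := ℝ) (F := ℝ) (p := p))
  have h2 := (Complex.ofRealCLM.hasFDerivAt (x := p.1)).comp p (hasFDerivAt_fst (𝕜 := ℝ))
  have h3 := (Complex.ofRealCLM.hasFDerivAt.comp p h1).const_mul Complex.I
  refine (h2.add h3).congr_fderiv ?_
  ext <;>
    simp [psiFd, ContinuousLinearMap.smulRight_apply, ContinuousLinearMap.comp_apply]

/-- The boundary integrals of an invariant function of weight two. -/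
theorem stokes {Hc Ah : ℂ → ℂ} {S : ℂ → ℝ} {κ : ℂ}
    (hdH : ∀ {z : ℂ}, 0 < z.im → HasFDerivAt Hc (wirt (Ah z) (Complex.I * κ / 2 * (S z : ℂ))) z)
    (hSc : ContinuousOn S {z : ℂ | 0 < z.im}) (hper : ∀ z : ℂ, 0 < z.im → Hc (z + 1) = Hc z)
    (hinvS : ∀ z : ℂ, 0 < z.im → Hc (-1 / z) = z ^ 2 * Hc z) {T : ℝ} (hT : 0 ≤ T) :
    -κ * ((∫ p in Icc ((-(1 / 2), 0) : ℝ × ℝ) (1 / 2, T), S (phiFd p) : ℝ) : ℂ) =
      ∫ x in (-(1 / 2) : ℝ)..(1 / 2), -(Hc (phiFd (x, T)) * psiFd x) := by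
  have hmem : ∀ p ∈ Icc ((-(1 / 2), 0) : ℝ × ℝ) (1 / 2, T),
      p.1 ∈ Icc (-(1 / 2) : ℝ) (1 / 2) ∧ 0 ≤ p.2 := fun p hp =>
    ⟨⟨hp.1.1, hp.2.1⟩, hp.1.2⟩
  have hcH : ContinuousOn (fun p => Hc (phiFd p)) (Icc ((-(1 / 2), 0) : ℝ × ℝ) (1 / 2, T)) :=
    fun p hp => ((hdH (im_phiFd_pos (hmem p hp).1 (hmem p hp).2)).continuousAt.comp
      continuous_phiFd.continuousAt).continuousWithinAt
  have hcψ : ContinuousOn (fun p : ℝ × ℝ => psiFd p.1) (Icc ((-(1 / 2), 0) : ℝ × ℝ) (1 / 2, T)) :=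
    continuousOn_psiFd.comp continuous_fst.continuousOn fun p hp => (hmem p hp).1
  set L : ℝ × ℝ → (ℝ × ℝ →L[ℝ] ℂ) := fun p =>
    (ContinuousLinearMap.fst ℝ ℝ ℝ).smulRight (psiFd p.1) +
      (ContinuousLinearMap.snd ℝ ℝ ℝ).smulRight Complex.I with hL
  set W : ℝ × ℝ → (ℝ × ℝ →L[ℝ] ℂ) := fun p =>
    (wirt (Ah (phiFd p)) (Complex.I * κ / 2 * (S (phiFd p) : ℂ))).comp (L p) with hW
  set f' : ℝ × ℝ → (ℝ × ℝ →L[ℝ] ℂ) := fun p => Complex.I • W p with hf'
  set g' : ℝ × ℝ → (ℝ × ℝ →L[ℝ] ℂ) := fun p => -(psiFd p.1 • W p +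
    Hc (phiFd p) • (ContinuousLinearMap.fst ℝ ℝ ℝ).smulRight (deriv psiFd p.1)) with hg'
  have hin : ∀ p ∈ Ioo ((-(1 / 2), 0) : ℝ × ℝ).1 ((1 / 2, T) : ℝ × ℝ).1 ×ˢ
      Ioo ((-(1 / 2), 0) : ℝ × ℝ).2 ((1 / 2, T) : ℝ × ℝ).2,
      0 < 1 - p.1 ^ 2 ∧ 0 < (phiFd p).im := fun p hp =>
    ⟨one_sub_sq_pos (Ioo_subset_Icc_self hp.1),
      im_phiFd_pos (Ioo_subset_Icc_self hp.1) hp.2.1.le⟩
  have hval : ∀ p, f' p (1, 0) + g' p (0, 1) = -κ * (S (phiFd p) : ℂ) := fun p => by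
    simp only [hf', hg', hW, hL, _root_.smul_apply, ContinuousLinearMap.comp_apply,
      _root_.neg_apply, _root_.add_apply,
      ContinuousLinearMap.smulRight_apply, ContinuousLinearMap.coe_fst',
      ContinuousLinearMap.coe_snd', one_smul, zero_smul, add_zero, zero_add, wirt_apply,
      smul_eq_mul, mul_zero, Complex.conj_I, psiFd, map_add, map_one, map_mul, Complex.conj_ofReal]
    linear_combination (κ * (S (phiFd p) : ℂ)) * Complex.I_sq
  have hdiv := integral_divergence_prod_Icc_of_hasFDerivAt_of_le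
    (fun p => Complex.I * Hc (phiFd p)) (fun p => -(Hc (phiFd p) * psiFd p.1)) f' g'
    (-(1 / 2), 0) (1 / 2, T) ⟨by norm_num, hT⟩ (continuousOn_const.mul hcH) (hcH.mul hcψ).neg
    (fun p hp => ((hdH (hin p hp).2).comp p (hasFDerivAt_phiFd (hin p hp).1)).const_mul _)
    (fun p hp => by
      have hψ : DifferentiableAt ℝ psiFd p.1 := by
        have := (hin p hp).1.ne'
        have := (Real.sqrt_pos.2 (hin p hp).1).ne'
        unfold psiFd
        fun_prop (disch := assumption)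
      have h1 := (hdH (hin p hp).2).comp p (hasFDerivAt_phiFd (hin p hp).1)
      have h2 := hψ.hasDerivAt.hasFDerivAt.comp p (hasFDerivAt_fst (𝕜 := ℝ))
      refine ((h1.mul h2).neg).congr_fderiv ?_
      simp only [hg', hW, hL]
      ext <;> simp [ContinuousLinearMap.smulRight_apply]
      ring)
    (by
      simp only [hval]
      exact (continuousOn_const.mul (Complex.continuous_ofReal.comp_continuousOn
        (hSc.comp continuous_phiFd.continuousOn fun p hp =>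
          im_phiFd_pos (hmem p hp).1 (hmem p hp).2))).integrableOn_compact isCompact_Icc)
  simp only [hval, integral_const_mul, integral_complex_ofReal] at hdiv
  rw [hdiv]
  -- the sides
  have hside : ∀ y ∈ Set.uIcc (0 : ℝ) T,
      Complex.I * Hc (phiFd (1 / 2, y)) = Complex.I * Hc (phiFd (-(1 / 2), y)) := by
    intro y hy
    rw [Set.uIcc_of_le hT] at hy
    have hp : 0 < (phiFd (-(1 / 2), y)).im :=
      im_phiFd_pos (left_mem_Icc.2 (by norm_num)) hy.1
    have hp' : 0 < (phiFd (1 / 2, y)).im := im_phiFd_pos (right_mem_Icc.2 (by norm_num)) hy.1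
    have hpt : phiFd (1 / 2, y) = phiFd (-(1 / 2), y) + 1 := by
      simp only [phiFd]
      push_cast
      norm_num
      ring
    rw [hpt, hper _ hp]
  -- the bottom
  set I0 := ∫ x in (-(1 / 2) : ℝ)..(1 / 2), -(Hc (phiFd (x, 0)) * psiFd x) with hI0
  have hbot : I0 = 0 := by
    have h1 : I0 = ∫ x in (-(1 / 2) : ℝ)..(1 / 2), -(Hc (phiFd (-x, 0)) * psiFd (-x)) := by
      rw [intervalIntegral.integral_comp_neg (fun x => -(Hc (phiFd (x, 0)) * psiFd x)), neg_neg]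
    have h2 : ∀ x ∈ Set.uIcc (-(1 / 2) : ℝ) (1 / 2),
        -(Hc (phiFd (-x, 0)) * psiFd (-x)) = -(-(Hc (phiFd (x, 0)) * psiFd x)) := by
      intro x hx
      rw [Set.uIcc_of_le (by norm_num : (-(1 / 2) : ℝ) ≤ 1 / 2)] at hx
      have hsq := one_sub_sq_pos hx
      set r := √(1 - x ^ 2) with hr
      have hr0 : 0 < r := Real.sqrt_pos.2 hsq
      have hr2 : (r : ℂ) ^ 2 = 1 - (x : ℂ) ^ 2 := by
        rw [hr, ← Complex.ofReal_pow, Real.sq_sqrt hsq.le]; push_cast; ring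
      set z := phiFd (x, 0) with hz
      have hzi : 0 < z.im := im_phiFd_pos hx le_rfl
      have hzv : z = (x : ℂ) + Complex.I * r := by simp [hz, phiFd, hr]
      have hne : z ≠ 0 := fun h => by simp [h] at hzi
      have hmt : -1 / z = phiFd (-x, 0) := by
        rw [div_eq_iff hne, hzv]
        simp only [phiFd, neg_sq, ← hr, add_zero, Complex.ofReal_neg]
        linear_combination -(r : ℂ) ^ 2 * Complex.I_sq + hr2
      have hψ : psiFd (-x) * z ^ 2 = -psiFd x := by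
        rw [hzv]
        simp only [psiFd, neg_sq, ← hr, neg_neg]
        have hrC : (r : ℂ) ≠ 0 := by exact_mod_cast hr0.ne'
        push_cast
        field_simp
        grind [Complex.I_sq]
      rw [← hmt, hinvS z hzi, neg_neg]
      linear_combination -(Hc z) * hψ
    rw [intervalIntegral.integral_congr h2, intervalIntegral.integral_neg, ← hI0] at h1
    linear_combination h1 / 2
  rw [intervalIntegral.integral_congr hside]
  rw [hbot]
  ring

/-- A nonnegative density with decaying boundary integrals vanishes. -/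
theorem vanish {Hc Ah : ℂ → ℂ} {S : ℂ → ℝ} {κ : ℂ} (hkap : κ ≠ 0)
    (hdH : ∀ {z : ℂ}, 0 < z.im → HasFDerivAt Hc (wirt (Ah z) (Complex.I * κ / 2 * (S z : ℂ))) z)
    (hSc : ContinuousOn S {z : ℂ | 0 < z.im}) (hSnn : ∀ y : ℂ, 0 < y.im → 0 ≤ S y)
    (hper : ∀ z : ℂ, 0 < z.im → Hc (z + 1) = Hc z)
    (hinvS : ∀ z : ℂ, 0 < z.im → Hc (-1 / z) = z ^ 2 * Hc z)
    (hzero : UpperHalfPlane.IsZeroAtImInfty fun τ : ℍ => Hc τ) :
    ∀ p ∈ Ioo (-(1 / 2) : ℝ) (1 / 2) ×ˢ Ioo (0 : ℝ) 1, S (phiFd p) = 0 := by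
  set J : ℝ := ∫ p in Icc ((-(1 / 2), 0) : ℝ × ℝ) (1 / 2, 1), S (phiFd p)
  have hSi : ∀ T : ℝ, IntegrableOn (fun p => S (phiFd p))
      (Icc ((-(1 / 2), 0) : ℝ × ℝ) (1 / 2, T)) :=
    fun T => (hSc.comp continuous_phiFd.continuousOn fun p hp =>
      im_phiFd_pos (p := p) ⟨hp.1.1, hp.2.1⟩ hp.1.2).integrableOn_compact isCompact_Icc
  have hSae : ∀ T : ℝ, 0 ≤ᵐ[volume.restrict (Icc ((-(1 / 2), 0) : ℝ × ℝ) (1 / 2, T))]
      fun p => S (phiFd p) := fun T => by
    filter_upwards [ae_restrict_mem measurableSet_Icc] with p hp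
    exact hSnn _ (im_phiFd_pos (p := p) ⟨hp.1.1, hp.2.1⟩ hp.1.2)
  have hJ : J = 0 := by
    refine le_antisymm (le_of_forall_pos_le_add fun ε hε => ?_) (integral_nonneg_of_ae (hSae 1))
    rw [zero_add]
    obtain ⟨A, hA⟩ := UpperHalfPlane.isZeroAtImInfty_iff.1 hzero (ε * ‖κ‖ / 2)
      (by positivity)
    set T := max A 1
    have hT : (1 : ℝ) ≤ T := le_max_right _ _
    have h := congrArg norm (stokes hdH hSc hper hinvS (T := T) (by linarith))
    rw [norm_mul, norm_neg, Complex.norm_real] at h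
    refine le_trans ?_ (le_of_mul_le_mul_left (a := ‖κ‖) (b := ∫ p in
      Icc ((-(1 / 2), 0) : ℝ × ℝ) (1 / 2, T), S (phiFd p)) ?_ (norm_pos_iff.2 hkap))
    · exact setIntegral_mono_set (hSi T) (hSae T)
        (Filter.Eventually.of_forall (Icc_subset_Icc le_rfl ⟨le_rfl, hT⟩))
    · refine (mul_le_mul_of_nonneg_left (le_abs_self _) (norm_nonneg _)).trans ?_
      rw [← Real.norm_eq_abs, h]
      refine (intervalIntegral.norm_integral_le_of_norm_le_const
        (C := ε * ‖κ‖) fun x hx => ?_).trans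
        (le_of_eq (by norm_num; ring))
      rw [uIoc_of_le (by norm_num : (-(1 / 2) : ℝ) ≤ 1 / 2)] at hx
      have hx' : x ∈ Icc (-(1 / 2) : ℝ) (1 / 2) := Ioc_subset_Icc_self hx
      have hp := im_phiFd_pos (p := (x, T)) hx' (by linarith : (0 : ℝ) ≤ T)
      have h1 := hA ⟨_, hp⟩ (show A ≤ (phiFd (x, T)).im by
        rw [im_phiFd]
        have := Real.sqrt_nonneg (1 - x ^ 2)
        have := le_max_left A 1
        simp only
        linarith)
      rw [norm_neg, norm_mul]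
      exact (mul_le_mul h1 (norm_psiFd_le hx') (norm_nonneg _) (by positivity)).trans
        (le_of_eq (by ring))
  -- the shadow vanishes near a point
  show ∀ p ∈ Ioo (-(1 / 2) : ℝ) (1 / 2) ×ˢ Ioo (0 : ℝ) 1, S (phiFd p) = 0
  set U := Ioo (-(1 / 2) : ℝ) (1 / 2) ×ˢ Ioo (0 : ℝ) 1
  have hU : U ⊆ Icc ((-(1 / 2), 0) : ℝ × ℝ) (1 / 2, 1) := fun p hp =>
    ⟨⟨hp.1.1.le, hp.2.1.le⟩, hp.1.2.le, hp.2.2.le⟩
  have h0 := (setIntegral_eq_zero_iff_of_nonneg_ae (hSae 1) (hSi 1)).1 hJ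
  exact Measure.eqOn_open_of_ae_eq (ae_restrict_of_ae_restrict_of_subset hU h0)
    (isOpen_Ioo.prod isOpen_Ioo) ((hSc.comp continuous_phiFd.continuousOn fun p hp =>
      im_phiFd_pos (p := p) (Ioo_subset_Icc_self hp.1) hp.2.1.le)) continuousOn_const

lemma sum_slash_invariant (G : Subgroup SL(2, ℤ)) [Fintype (SL(2, ℤ) ⧸ G)] {j : ℤ} {P : ℍ → ℂ}
    (hP : ∀ u ∈ G, P ∣[j] u = P) (γ : SL(2, ℤ)) :
    (∑ q : SL(2, ℤ) ⧸ G, P ∣[j] q.out⁻¹) ∣[j] γ = ∑ q : SL(2, ℤ) ⧸ G, P ∣[j] q.out⁻¹ := by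
  rw [SlashAction.sum_slash]
  refine Fintype.sum_equiv (MulAction.toPerm γ⁻¹) _ _ fun q => ?_
  show (P ∣[j] q.out⁻¹) ∣[j] γ = P ∣[j] (γ⁻¹ • q : SL(2, ℤ) ⧸ G).out⁻¹
  obtain ⟨⟨u, hu⟩, he⟩ := QuotientGroup.mk_out_eq_mul G (γ⁻¹ * q.out)
  rw [show (γ⁻¹ • q : SL(2, ℤ) ⧸ G) = QuotientGroup.mk (γ⁻¹ * q.out) by
    conv_lhs => rw [← QuotientGroup.out_eq' q]
    rfl, he, _root_.mul_inv_rev, _root_.mul_inv_rev, inv_inv,
    SlashAction.slash_mul j u⁻¹, hP u⁻¹ (inv_mem hu), SlashAction.slash_mul]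

lemma coeff_unique {f : ℍ → ℂ} {c : ℕ → ℂ} {h : ℝ} (hh : 0 < h)
    (ha : AnalyticAt ℂ (UpperHalfPlane.cuspFunction h f) 0)
    (hf : ∀ τ : ℍ, HasSum (fun m => c m • Function.Periodic.qParam h τ ^ m) (f τ)) (m : ℕ) :
    (UpperHalfPlane.qExpansion h f).coeff m = c m := by
  have h1 := (UpperHalfPlane.hasFPowerSeriesOnBall_cuspFunction hh ha hf).hasFPowerSeriesAt
  have h2 := ha.hasFPowerSeriesAt
  have := congr_arg (FormalMultilinearSeries.coeff · m) (h1.eq_formalMultilinearSeries h2)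
  simp [FormalMultilinearSeries.coeff_ofScalars] at this
  rw [UpperHalfPlane.qExpansion_coeff, this]
  ring

variable {n k : ℕ} {Φ : H3 → ℂ} {w : Vec → ℂ} [NeZero n] [NeZero k]
  (hΦ : IsCusp n Φ) (hn : 3 * k ∣ n) (hw : IsPer k w)

include hΦ hn hw

omit [NeZero n] hΦ hn in
/-- The lift has level `Γ (3 k)`. -/
theorem Lam_Gamma {γ : SL(2, ℤ)} (hγ : γ ∈ CongruenceSubgroup.Gamma (3 * k)) :
    Lam n k Φ w ∣[(1 : ℤ)] γ = Lam n k Φ w := by
  funext τ
  rw [ModularForm.SL_slash_apply, Lam, Lam, ModularGroup.denom_apply, _root_.zpow_neg_one,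
    ← integral_mul_const]
  refine integral_congr_ae (ae_of_all _ fun p => ?_)
  dsimp only
  rw [theta_Gamma γ hγ hw]
  have : (γ.1 1 0 : ℂ) * τ + γ.1 1 1 ≠ 0 := by
    simpa [ModularGroup.denom_apply] using UpperHalfPlane.denom_ne_zero γ τ
  field_simp

omit [NeZero n] hΦ hn hw in
lemma periodic_LamC : Function.Periodic (Lam n k Φ w ∘ UpperHalfPlane.ofComplex)
    ((3 * k : ℕ) : ℝ) := by
  have key : ∀ τ : ℍ, Lam n k Φ w (((3 * k : ℕ) : ℝ) +ᵥ τ) = Lam n k Φ w τ := fun τ => by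
    refine integral_congr_ae (ae_of_all _ fun p => ?_)
    dsimp only
    rw [show (((3 * k : ℕ) : ℝ)) = (((3 * k : ℕ) : ℤ) : ℝ) by norm_cast, theta_vadd]
    congr 1
    refine theta_congr (fun x => ?_) τ p
    rw [mE, show ((((3 * k : ℕ) : ℤ) * P3 x : ℤ) : ℝ) / ((3 * k : ℕ) : ℝ) = ((P3 x : ℤ) : ℝ) by
      have : ((3 * k : ℕ) : ℝ) ≠ 0 := by
        have := NeZero.ne k; positivity
      have : (k : ℝ) ≠ 0 := Nat.cast_ne_zero.2 (NeZero.ne k)
      push_cast; field_simp, ee_int, mul_one]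
  exact Curve.periodic_comp_ofComplex_of_vadd key

/-- The shadow vanishes. -/
theorem Xc_eq_zero {z : ℂ} (hz : 0 < z.im) : Xc n k Φ w z = 0 := by
  classical
  have hk : (0 : ℝ) < k := by exact_mod_cast Nat.pos_of_neZero k
  have : NeZero (3 * k) := ⟨by have := NeZero.ne k; omega⟩
  set Γ : Subgroup SL(2, ℤ) := CongruenceSubgroup.Gamma (3 * k)
  have : Fintype (SL(2, ℤ) ⧸ Γ) := Fintype.ofFinite _
  choose ws hws hwe using fun q : SL(2, ℤ) ⧸ Γ => exists_slash hw q.out⁻¹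
  have hX : ∀ q : SL(2, ℤ) ⧸ Γ, (fun τ : ℍ => Xc n k Φ w τ) ∣[(1 : ℤ)] q.out⁻¹ =
      fun τ : ℍ => Xc n k Φ (ws q) τ := fun q =>
    Xc_slash (hΦ := hΦ) (hn := hn) (hw := hw) (q.out⁻¹) (w' := ws q) (hws q) (hwe q)
  set P : ℍ → ℂ := Lam n k Φ w * fun τ : ℍ => Xc n k Φ w τ with hP
  have hPΓ : ∀ u ∈ Γ, P ∣[(2 : ℤ)] u = P := fun u hu => by
    rw [hP, show (2 : ℤ) = 1 + 1 by norm_num, ModularForm.mul_slash_SL2, Lam_Gamma hw hu,
      Xc_slash hΦ hn hw u hw (Lam_Gamma hw hu)]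
  set Hf : ℍ → ℂ := ∑ q : SL(2, ℤ) ⧸ Γ, P ∣[(2 : ℤ)] q.out⁻¹ with hHf
  have hterm : ∀ q, P ∣[(2 : ℤ)] q.out⁻¹ =
      Lam n k Φ (ws q) * fun τ : ℍ => Xc n k Φ (ws q) τ := fun q => by
    rw [hP, show (2 : ℤ) = 1 + 1 by norm_num, ModularForm.mul_slash_SL2, hwe, hX]
  have hinv : ∀ γ : SL(2, ℤ), Hf ∣[(2 : ℤ)] γ = Hf := fun γ => sum_slash_invariant Γ hPΓ γ
  -- derivative
  set Hc : ℂ → ℂ := fun z => ∑ q, LamC n k Φ (ws q) z * Xc n k Φ (ws q) z with hHc
  have hHceq : ∀ τ : ℍ, Hc τ = Hf τ := fun τ => by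
    rw [hHc, hHf, Finset.sum_apply]
    refine Finset.sum_congr rfl fun q _ => ?_
    rw [hterm q, Pi.mul_apply, LamC, Function.comp_apply, UpperHalfPlane.ofComplex_apply]
  set S : ℂ → ℝ := fun z => ∑ q, Complex.normSq (Xc n k Φ (ws q) z) / z.im with hS
  set Ah : ℂ → ℂ := fun z => ∑ q, ((∑' m : ℤ, Acf n k Φ (ws q) m z) * Xc n k Φ (ws q) z +
    LamC n k Φ (ws q) z * deriv (Xc n k Φ (ws q)) z) with hAh
  have hupper : IsOpen {z : ℂ | 0 < z.im} := isOpen_lt continuous_const Complex.continuous_im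
  have hdX : ∀ q {z : ℂ}, 0 < z.im →
      HasDerivAt (Xc n k Φ (ws q)) (deriv (Xc n k Φ (ws q)) z) z := fun q z hz =>
    ((differentiableOn_Xc hΦ hn (hws q)).differentiableAt (hupper.mem_nhds hz)).hasDerivAt
  have hdH : ∀ {z : ℂ}, 0 < z.im →
      HasFDerivAt Hc (wirt (Ah z) (Complex.I * kap k / 2 * (S z : ℂ))) z := by
    intro z hz
    refine (HasFDerivAt.fun_sum fun q _ => (hasFDerivAt_LamC hΦ hn (hws q) hz).mul
      (hdX q hz).complexToReal_fderiv).congr_fderiv ?_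
    ext h
    simp only [_root_.sum_apply, _root_.add_apply,
      _root_.smul_apply, one_apply_eq_self, wirt_apply, smul_eq_mul, hAh,
      hS, Finset.sum_mul, Complex.ofReal_sum, Finset.mul_sum, ← Finset.sum_add_distrib]
    refine Finset.sum_congr rfl fun q _ => ?_
    rw [Complex.ofReal_div, Complex.normSq_eq_conj_mul_self]
    ring
  have hSc : ContinuousOn S {z : ℂ | 0 < z.im} := by
    refine continuousOn_finsetSum _ fun q _ => ?_
    exact ((Complex.continuous_normSq.comp_continuousOn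
      (differentiableOn_Xc hΦ hn (hws q)).continuousOn).div Complex.continuous_im.continuousOn
      fun y hy => hy.ne')
  have hper : ∀ z : ℂ, 0 < z.im → Hc (z + 1) = Hc z := fun z hz => by
    set τ : ℍ := ⟨z, hz⟩
    have e := congrFun (hinv ModularGroup.T) τ
    rw [ModularForm.SL_slash_apply, ModularGroup.denom_apply, UpperHalfPlane.modular_T_smul] at e
    simp [ModularGroup.coe_T] at e
    have hpt : z + 1 = (((1 : ℝ) +ᵥ τ : ℍ) : ℂ) := by
      rw [UpperHalfPlane.coe_vadd]; simp [τ, add_comm]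
    rw [hpt, hHceq, e, ← hHceq τ]
  have hinvS : ∀ z : ℂ, 0 < z.im → Hc (-1 / z) = z ^ 2 * Hc z := fun z hz => by
    set τ : ℍ := ⟨z, hz⟩
    have e := congrFun (hinv ModularGroup.S) τ
    rw [ModularForm.SL_slash_apply, ModularGroup.denom_S, UpperHalfPlane.modular_S_smul] at e
    have hne : (τ : ℂ) ≠ 0 := τ.ne_zero
    rw [← hHceq, ← hHceq τ, _root_.zpow_neg, zpow_two] at e
    rw [show z = (τ : ℂ) from rfl, neg_div, one_div, ← inv_neg, ← e]
    field_simp
  have hzero : UpperHalfPlane.IsZeroAtImInfty Hf := by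
    simp only [hHf, hterm]
    have : Tendsto (fun τ : ℍ => ∑ q, Lam n k Φ (ws q) τ * Xc n k Φ (ws q) τ)
        UpperHalfPlane.atImInfty (𝓝 (∑ _q : SL(2, ℤ) ⧸ Γ, (0 : ℂ) * 0)) :=
      tendsto_finsetSum _ fun q _ => (isZeroAtImInfty_Lam hΦ hn (hws q)).1.mul
        (isZeroAtImInfty_Lam hΦ hn (hws q)).2
    simp only [mul_zero, Finset.sum_const_zero] at this
    refine this.congr fun τ => ?_
    rw [Finset.sum_apply]
    rfl
  have hzero' : UpperHalfPlane.IsZeroAtImInfty fun τ : ℍ => Hc τ := by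
    simpa only [hHceq] using hzero
  have hkap : kap k ≠ 0 := by
    rw [kap, Complex.ofReal_ne_zero]
    exact (Real.sqrt_pos.2 (by positivity)).ne'
  have hSnn : ∀ y : ℂ, 0 < y.im → 0 ≤ S y := fun y hy =>
    Finset.sum_nonneg fun q _ => div_nonneg (Complex.normSq_nonneg _) hy.le
  have hSzero := vanish hkap hdH hSc hSnn hper hinvS hzero'
  have hXq : ∀ q, Xc n k Φ (ws q) =ᶠ[𝓝 (phiFd (0, 1 / 2))] 0 := by
    intro q
    have hV : IsOpen {y : ℂ | (y.re, y.im - √(1 - y.re ^ 2)) ∈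
        Ioo (-(1 / 2) : ℝ) (1 / 2) ×ˢ Ioo (0 : ℝ) 1} :=
      (isOpen_Ioo.prod isOpen_Ioo).preimage (by fun_prop)
    refine eventually_of_mem (hV.mem_nhds (by simp [re_phiFd, im_phiFd]; norm_num)) fun y hy => ?_
    have e : phiFd (y.re, y.im - √(1 - y.re ^ 2)) = y := by
      apply Complex.ext <;> simp [re_phiFd, im_phiFd]
    have h := hSzero _ hy
    rw [e, hS, Finset.sum_eq_zero_iff_of_nonneg fun i _ => div_nonneg (Complex.normSq_nonneg _)
      (by rw [← e]; exact (im_phiFd_pos (Ioo_subset_Icc_self hy.1) hy.2.1.le).le)] at h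
    have hy0 : 0 < y.im := by rw [← e]; exact im_phiFd_pos (Ioo_subset_Icc_self hy.1) hy.2.1.le
    exact Complex.normSq_eq_zero.1
      ((div_eq_zero_iff.1 (h q (Finset.mem_univ q))).resolve_right hy0.ne')
  have h1 : Xc n k Φ (ws (QuotientGroup.mk 1)) =ᶠ[𝓝 (phiFd (0, 1 / 2))] 0 := hXq _
  have hu : (QuotientGroup.mk (1 : SL(2, ℤ)) : SL(2, ℤ) ⧸ Γ).out⁻¹ ∈ Γ := by
    obtain ⟨⟨u, hu⟩, he⟩ := QuotientGroup.mk_out_eq_mul Γ 1
    rw [he, one_mul]; exact inv_mem hu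
  have hsame : ∀ y : ℂ, 0 < y.im →
      Xc n k Φ (ws (QuotientGroup.mk 1)) y = Xc n k Φ w y := fun y hy => by
    have e := congrFun (hX (QuotientGroup.mk 1)) ⟨y, hy⟩
    rw [Xc_slash hΦ hn hw _ hw (Lam_Gamma hw hu)] at e
    exact e.symm
  have han : AnalyticOnNhd ℂ (Xc n k Φ w) {z : ℂ | 0 < z.im} :=
    (differentiableOn_Xc hΦ hn hw).analyticOnNhd hupper
  have hz₀ : 0 < (phiFd (0, 1 / 2)).im := im_phiFd_pos (by norm_num) (by norm_num)
  exact han.eqOn_zero_of_preconnected_of_eventuallyEq_zero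
    (convex_halfSpace_im_gt 0).isPreconnected hz₀ (by
      filter_upwards [h1, hupper.mem_nhds hz₀] with y hy hy0
      rw [← hsame y hy0]; exact hy) hz

/-- **Holomorphy**: the lift of a cuspidal radial eigenfunction is holomorphic, its shadow being
zero. -/
theorem mdiff_Lam : MDiff (Lam n k Φ w) := by
  rw [UpperHalfPlane.mdifferentiable_iff]
  intro z hz
  have h := hasFDerivAt_LamC hΦ hn hw hz
  rw [Xc_eq_zero hΦ hn hw hz, map_zero, mul_zero] at h
  refine (differentiableAt_complex_iff_differentiableAt_real.2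
    ⟨h.differentiableAt, ?_⟩).differentiableWithinAt
  show fderiv ℝ (LamC n k Φ w) z Complex.I = Complex.I • fderiv ℝ (LamC n k Φ w) z 1
  rw [h.fderiv]
  simp only [wirt_apply, map_one, mul_one, zero_mul, add_zero, smul_eq_mul]
  ring

/-- The negative levels are empty. -/
theorem cCoef_eq_zero (m : ℤ) : cCoef n Φ m (lev m w) = 0 := by
  have hk : (0 : ℝ) < k := by exact_mod_cast Nat.pos_of_neZero k
  obtain ⟨B, hB0, hB⟩ := hw.bounded
  have hwi := inv_congE_of_isPer hn hw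
  rcases lt_trichotomy m 0 with hm | hm | hm
  swap
  · subst hm; exact (GG_zero hΦ (isLev_lev hB0 hB 0) (lev_inv hwi 0) one_pos).2
  swap
  · exact cCoef_pos hΦ (isLev_lev hB0 hB m) (lev_inv hwi m) hm
  obtain ⟨K, hK0, hK⟩ := exists_term_bound hΦ hn hw
  set d : ℕ → ℂ := fun j => conj (cCoef n Φ (-(j : ℤ)) (lev (-(j : ℤ)) w)) with hd
  have hsum : ∀ τ : ℍ, HasSum
      (fun j : ℕ => d j • Function.Periodic.qParam ((3 * k : ℕ) : ℝ) τ ^ j)
      ((fun _ : ℍ => (0 : ℂ)) τ) := by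
    intro τ
    have hu : 0 < π * (τ : ℂ).im / k / 2 := by
      have : 0 < (τ : ℂ).im := τ.im_pos
      positivity
    have hs : Summable fun m : ℤ => conj (cCoef n Φ m (lev m w)) * qq k (-m) τ :=
      Summable.of_norm_bounded ((summable_poly_exp 4 hu).mul_left K) fun m => by
        refine (hK m τ τ.im_pos).2.2.trans (le_of_eq ?_)
        ring_nf
    have h0 := hs.hasSum
    rw [show (∑' m : ℤ, conj (cCoef n Φ m (lev m w)) * qq k (-m) τ) = 0 from
      Xc_eq_zero hΦ hn hw τ.im_pos] at h0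
    have hinj : Function.Injective fun j : ℕ => -(j : ℤ) := fun a b h => by simpa using h
    rw [← hinj.hasSum_iff] at h0
    · refine h0.congr_fun fun j => ?_
      simp only [Function.comp_apply, hd, smul_eq_mul, neg_neg, qq, Function.Periodic.qParam,
        ← Complex.exp_nat_mul]
      congr 2
      push_cast
      ring
    · intro x hx
      rw [cCoef_pos hΦ (isLev_lev hB0 hB x) (lev_inv hwi x), map_zero, zero_mul]
      by_contra hc
      exact hx ⟨x.natAbs, by simp only; omega⟩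
  have hpos : (0 : ℝ) < ((3 * k : ℕ) : ℝ) := by exact_mod_cast Nat.pos_of_neZero (3 * k)
  have h := coeff_unique hpos (UpperHalfPlane.analyticAt_cuspFunction_zero hpos (fun _ => rfl)
    mdifferentiable_const UpperHalfPlane.zero_form_isBoundedAtImInfty) hsum m.natAbs
  replace h : (0 : ℂ) = d m.natAbs := by
    rw [← h]
    show (0 : ℂ) = (UpperHalfPlane.qExpansion _ (0 : ℍ → ℂ)).coeff m.natAbs
    rw [UpperHalfPlane.qExpansion_zero, map_zero]
  simp only [hd] at h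
  rw [show -((m.natAbs : ℕ) : ℤ) = m by omega] at h
  simpa using h.symm

/-- The coefficients of the lift: the level `j` slices at width one, normalised. -/
def aCoef (n k : ℕ) (Φ : H3 → ℂ) (w : Vec → ℂ) (j : ℕ) : ℂ :=
  if j = 0 then 0 else kap k * GG n Φ 1 (lev (j : ℤ) w)

/-- The expansion of the lift. -/
theorem hasSum_aCoef (τ : ℍ) :
    HasSum (fun j : ℕ => aCoef n k Φ w j • Function.Periodic.qParam ((3 * k : ℕ) : ℝ) τ ^ j)
      (Lam n k Φ w τ) := by
  have hk : (0 : ℝ) < k := by exact_mod_cast Nat.pos_of_neZero k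
  obtain ⟨B, hB0, hB⟩ := hw.bounded
  have hwi := inv_congE_of_isPer hn hw
  obtain ⟨K, hK0, hK⟩ := exists_slice_bound hΦ hB0 hB hwi
  have hu : 0 < π * τ.im / k := by positivity
  have hneg : ∀ m : ℤ, m < 0 → GG n Φ (π * τ.im / k) (lev m w) = 0 := by
    intro m hm
    set g := fun u => GG n Φ u (lev m w)
    have hder : ∀ v, 0 < v → HasDerivAt g 0 v := fun v hv => by
      refine (hasDerivAt_GG hΦ.wave (isLev_lev hB0 hB m) (lev_inv hwi m) hv).congr_deriv ?_
      rw [GD_eq hΦ (isLev_lev hB0 hB m) (lev_inv hwi m) hv, cCoef_eq_zero hΦ hn hw m]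
      simp
    have hconst : ∀ v, 0 < v → g v = g (π * τ.im / k) := fun v hv =>
      IsOpen.is_const_of_deriv_eq_zero isOpen_Ioi isPreconnected_Ioi
        (fun v hv => (hder v hv).differentiableAt.differentiableWithinAt)
        (fun v hv => (hder v hv).deriv) hv (mem_Ioi.2 hu)
    have hm' : (m : ℝ) ≤ -1 := by exact_mod_cast (by omega : m ≤ -1)
    refine norm_le_zero_iff.1 (ge_of_tendsto (x := atTop)
      (f := fun v : ℝ => K * (1 + |(m : ℝ)|) ^ 4 * 2 ^ 4 * ((1 + v) * Real.exp (-v))) ?_ ?_)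
    · have h1 := ((Real.tendsto_pow_mul_exp_neg_atTop_nhds_zero 0).add
        (Real.tendsto_pow_mul_exp_neg_atTop_nhds_zero 1)).const_mul
        (K * (1 + |(m : ℝ)|) ^ 4 * 2 ^ 4)
      simp only [add_zero, mul_zero] at h1
      exact h1.congr fun v => by ring
    · filter_upwards [eventually_ge_atTop 1] with v hv
      have hv0 : 0 < v := by linarith
      rw [show GG n Φ (π * τ.im / k) (lev m w) = g v from (hconst v hv0).symm]
      have h1 := (hK m).2 v hv0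
      have h2 : (1 + 1 / v) ^ 4 ≤ 2 ^ 4 := pow_le_pow_left₀ (by positivity)
        (by have : 1 / v ≤ 1 := (div_le_one hv0).2 hv; linarith) 4
      calc ‖g v‖ = ‖g v‖ * Real.exp (-(2 * v * (m / 3))) * Real.exp (2 * v * (m / 3)) := by
            rw [mul_assoc, ← Real.exp_add, neg_add_cancel, Real.exp_zero, mul_one]
        _ ≤ K * (1 + |(m : ℝ)|) ^ 4 * ((1 + v) * (1 + 1 / v) ^ 4) *
            Real.exp (-(v * |(m : ℝ)| / 2)) * Real.exp (2 * v * (m / 3)) :=
            mul_le_mul_of_nonneg_right h1 (Real.exp_pos _).le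
        _ ≤ K * (1 + |(m : ℝ)|) ^ 4 * ((1 + v) * 2 ^ 4) * Real.exp (-v) := by
            rw [mul_assoc, ← Real.exp_add, abs_of_neg (by linarith : (m : ℝ) < 0)]
            exact mul_le_mul (mul_le_mul_of_nonneg_left (mul_le_mul_of_nonneg_left h2 (by linarith))
              (by positivity)) (Real.exp_le_exp.2 (by nlinarith))
              (Real.exp_pos _).le (by positivity)
        _ = _ := by ring
  have h := hasSum_Lam (k := k) hΦ.wave hB0 hB τ
  have hinj : Function.Injective fun j : ℕ => (j : ℤ) := fun a b h => by simpa using h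
  rw [← hinj.hasSum_iff] at h
  · refine h.congr_fun fun j => ?_
    rcases Nat.eq_zero_or_pos j with rfl | hj
    · simp only [Function.comp_apply, Nat.cast_zero]
      rw [(GG_zero hΦ (isLev_lev hB0 hB 0) (lev_inv hwi 0) hu).1]
      simp [aCoef]
    · simp only [Function.comp_apply, aCoef, if_neg hj.ne', smul_eq_mul, kap,
        GG_pos hΦ (isLev_lev hB0 hB (j : ℤ)) (lev_inv hwi _) (by exact_mod_cast hj) hu, qq,
        Function.Periodic.qParam, ← Complex.exp_nat_mul]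
      congr 2
      push_cast
      ring
  · intro x hx
    rw [hneg x (by by_contra hc; exact hx ⟨x.natAbs, by simp only; omega⟩), mul_zero, zero_mul]

/-- The lift is bounded at infinity. -/
theorem isBounded_Lam : UpperHalfPlane.IsBoundedAtImInfty (Lam n k Φ w) :=
  (isZeroAtImInfty_Lam hΦ hn hw).1.isBoundedAtImInfty

/-- The coefficients are those of the expansion. -/
theorem coeff_Lam (j : ℕ) :
    (UpperHalfPlane.qExpansion ((3 * k : ℕ) : ℝ) (Lam n k Φ w)).coeff j = aCoef n k Φ w j := by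
  have hpos : (0 : ℝ) < ((3 * k : ℕ) : ℝ) := by exact_mod_cast Nat.pos_of_neZero (3 * k)
  exact coeff_unique hpos
    (UpperHalfPlane.analyticAt_cuspFunction_zero hpos periodic_LamC (mdiff_Lam hΦ hn hw)
      (isBounded_Lam hΦ hn hw)) (hasSum_aCoef hΦ hn hw) j

/-- **Cuspidality**: the lift vanishes at every cusp. -/
theorem cusp_Lam (δ : SL(2, ℤ)) : UpperHalfPlane.IsZeroAtImInfty (Lam n k Φ w ∣[(1 : ℤ)] δ) := by
  obtain ⟨w', hw', e⟩ := exists_slash hw δ
  rw [e]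
  exact (isZeroAtImInfty_Lam hΦ hn hw').1

end FermatAgent.LT.Lift
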