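import Fermat.Agent.LT.Lift.Tiles
import Fermat.Agent.LT.Lift.Xi

/-!
# The coefficient of the cycle vector

The slice of the lift on the orbit of the cycle vector unfolds to an integral along the real plane;
for large width it tends to a multiple of the period.
-/

set_option autoImplicit false

noncomputable section

open Matrix MeasureTheory Filter Topology Set
open scoped MatrixGroups ENNReal UpperHalfPlane Modular Pointwise Real

namespace FermatAgent.LT.Lift

attribute [local simp] QuadraticAlgebra.re_ofNat QuadraticAlgebra.im_ofNat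

/-- An invariant wave is bounded. -/
theorem IsWave.exists_bound {n : ℕ} [NeZero n] {Φ : H3 → ℂ} (hΦ : IsWave n Φ) :
    ∃ B, 0 ≤ B ∧ ∀ p, ‖Φ p‖ ≤ B := by
  have := Fintype.ofFinite (SLE ⧸ congE n)
  choose C κ hC hκ hd using fun q : SLE ⧸ congE n => hΦ.decay q.out
  refine ⟨∑ q, C q, Finset.sum_nonneg fun q _ => hC q, fun p => ?_⟩
  obtain ⟨γ, hγ⟩ := exists_reduce p
  set q : SLE ⧸ congE n := QuotientGroup.mk γ⁻¹
  obtain ⟨⟨u, hu⟩, he⟩ := QuotientGroup.mk_out_eq_mul (congE n) γ⁻¹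
  have e : Φ p = Φ (q.out • γ • p) := by
    rw [show q.out = γ⁻¹ * u from he, ← mul_smul,
      show γ⁻¹ * u * γ = γ⁻¹ * u * (γ⁻¹)⁻¹ by rw [inv_inv]]
    exact (hΦ.inv _ ((inferInstance : (congE n).Normal).conj_mem u hu γ⁻¹) p).symm
  rw [e]
  refine (hd q (γ • p) hγ.2).trans ((le_of_eq_of_le (mul_comm _ _) ?_).trans
    (Finset.single_le_sum (f := C) (fun q _ => hC q) (Finset.mem_univ q)))
  refine mul_le_of_le_one_left (hC q) (Real.exp_le_one_iff.2 ?_)
  have := (γ • p).t_pos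
  have := hκ q
  nlinarith

open Classical in
/-- The weight of the cycle. -/
def wOrb (M : ℕ) (x : Vec) : ℂ := if ∃ y, x = v0 + subV (9 * M) y then 1 else 0

variable {M : ℕ}

/-- The orbit weight is periodic. -/
lemma isPer_wOrb : IsPer (9 * M) (wOrb M) := by
  classical
  intro x y
  unfold wOrb
  refine if_congr ⟨fun ⟨z, hz⟩ => ⟨z + -y, ?_⟩, fun ⟨z, hz⟩ => ⟨z + y, ?_⟩⟩ rfl rfl
  · rw [subV_add, subV_neg, ← add_assoc, ← hz, add_neg_cancel_right]
  · rw [subV_add, ← add_assoc, ← hz]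

lemma norm_wOrb_le (x : Vec) : ‖wOrb M x‖ ≤ 1 := by unfold wOrb; split_ifs <;> simp

lemma P3_v0 : P3 v0 = 9 := by
  simp [P3, v0, QuadraticAlgebra.norm_def, QuadraticAlgebra.re_ofNat, QuadraticAlgebra.im_ofNat]

/-- The orbit. -/
abbrev Orb (M : ℕ) := MulAction.orbit (congE (3 * M)) v0

section

variable [NeZero M]

lemma lev_wOrb [DecidablePred (· ∈ Orb M)] (x : Vec) :
    lev 9 (wOrb M) x = if x ∈ Orb M then 1 else 0 := by
  classical
  by_cases hx : x ∈ Orb M
  · obtain ⟨⟨g, hg⟩, e⟩ := hx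
    rw [if_pos ⟨⟨g, hg⟩, e⟩]
    obtain ⟨y, hy⟩ := smul_v0_congr hg
    have e' : g • v0 = x := e
    rw [lev, if_pos (by rw [← e', P3_smul, P3_v0]), wOrb, if_pos ⟨y, e' ▸ hy⟩]
  · rw [if_neg hx, lev]
    by_cases hP : P3 x = 9
    · rw [if_pos hP, wOrb, if_neg fun hy => hx ?_]
      obtain ⟨g, hg, e⟩ := exists_smul_v0 hP hy
      exact ⟨⟨g, hg⟩, e⟩
    · rw [if_neg hP]

lemma lev_wOrb_inv : ∀ g ∈ congE (3 * M), ∀ x, lev 9 (wOrb M) (g • x) = lev 9 (wOrb M) x := by
  classical
  intro g hg x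
  rw [lev_wOrb, lev_wOrb]
  refine if_congr ⟨fun ⟨a, ha⟩ => ⟨⟨g, hg⟩⁻¹ * a, ?_⟩, fun ⟨a, ha⟩ => ⟨⟨g, hg⟩ * a, ?_⟩⟩ rfl rfl
  · show ((⟨g, hg⟩ : congE (3 * M))⁻¹ * a) • v0 = x
    rw [mul_smul, show a • v0 = g • x from ha]
    exact inv_smul_smul (⟨g, hg⟩ : congE (3 * M)) x
  · show ((⟨g, hg⟩ : congE (3 * M)) * a) • v0 = g • x
    rw [mul_smul, show a • v0 = x from ha]
    rfl

end

lemma pglE_injOn {g g' : SLE} (hg : g ∈ congE (3 * M)) (hg' : g' ∈ congE (3 * M))
    (e : pglE g = pglE g') : g = g' := by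
  have h1 : g⁻¹ * g' ∈ congE (3 * M) := mul_mem (inv_mem hg) hg'
  have h2 : pglE (g⁻¹ * g') = 1 := by rw [map_mul, map_inv, e, inv_mul_cancel]
  set a := g⁻¹ * g'
  have h2' := (ProjGenLinGroup.mk_eq_one (g := glE a)).1 h2
  rw [GeneralLinearGroup.center_eq_range_scalar] at h2'
  obtain ⟨u, hu⟩ := h2'
  have hent : ∀ i j, toC (a.1 i j) = if i = j then (u : ℂ) else 0 := fun i j => by
    rw [← glE_apply, ← hu, GeneralLinearGroup.coe_scalar]
    simp [Matrix.scalar_apply, Matrix.diagonal_apply]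
  have h01 : a.1 0 1 = 0 := toC_injective (by rw [hent, map_zero]; rfl)
  have h10 : a.1 1 0 = 0 := toC_injective (by rw [hent, map_zero]; rfl)
  have h00 : a.1 0 0 = a.1 1 1 := toC_injective (by rw [hent, hent]; rfl)
  have hd := a.2
  rw [Matrix.det_fin_two, h01, h00, zero_mul, sub_zero, ← sq, sq_eq_one_iff] at hd
  rcases hd with hd | hd
  · refine inv_mul_eq_one.1 (Subtype.ext (Matrix.ext fun i j => ?_))
    fin_cases i <;> fin_cases j
    exacts [h00.trans hd, h01, h10, hd]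
  · exfalso
    obtain ⟨y, hy⟩ := redE_eq_zero_iff.1 (mem_congE_iff.1 h1 1 1)
    rw [hd] at hy
    have := congrArg QuadraticAlgebra.re hy
    simp [natCast_eis, QuadraticAlgebra.re_one] at this
    have h3 : (3 : ℤ) ∣ -2 := ⟨(M : ℤ) * y.re, by linarith⟩
    omega

/-- A representative moving `v0` to a point of the orbit. -/
def orbRep (x : Orb M) : SLE := (MulAction.mem_orbit_iff.1 x.2).choose.1

lemma orbRep_mem (x : Orb M) : orbRep x ∈ congE (3 * M) := (MulAction.mem_orbit_iff.1 x.2).choose.2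

lemma orbRep_smul (x : Orb M) : orbRep x • v0 = (x : Vec) :=
  (MulAction.mem_orbit_iff.1 x.2).choose_spec

/-- The translates of the domain along the orbit. -/
def orbSet (M : ℕ) [NeZero M] : Set H3 := ⋃ x : Orb M, (pglE (orbRep x))⁻¹ • fdE (3 * M)

lemma exists_of_mem_planeGrp {h : PGL(2, ℂ)}
    (hh : h ∈ planeGrp (CongruenceSubgroup.Gamma (3 * M))) :
    ∃ a ∈ congE (3 * M), a • v0 = v0 ∧ pglE a = h := by
  obtain ⟨g, hg, rfl⟩ := hh
  exact ⟨slE g, slE_mem_congE.2 hg, slE_smul_v0 g, rfl⟩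

variable [NeZero M]

/-- The translates of the domain along the orbit form a domain for the real congruence group. -/
theorem isFD_orbSet : IsFundamentalDomain (planeGrp (CongruenceSubgroup.Gamma (3 * M))) (orbSet M)
    H3.vol := by
  have := countable_subgroup (PG_le (3 * M))
  have hs := isFD_fdE (3 * M)
  have hpm : ∀ a ∈ congE (3 * M), ∀ x : Orb M, pglE (orbRep x) * pglE a ∈ PG (3 * M) :=
    fun a ha x => by rw [← map_mul]; exact pglE_mem (mul_mem (orbRep_mem x) ha)
  refine ⟨.iUnion fun x => (measurableSet_fdE _).nullMeasurableSet.smul _, ?_, ?_⟩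
  · filter_upwards [hs.ae_covers] with p ⟨g, hg⟩
    obtain ⟨a, ha, hag⟩ := g.2
    set x : Orb M := ⟨a • v0, ⟨⟨a, ha⟩, rfl⟩⟩
    have hfix : ((orbRep x)⁻¹ * a) • v0 = v0 := by
      rw [mul_smul, inv_smul_eq_iff, orbRep_smul]
    obtain ⟨G, hG⟩ := exists_slE_of_fix hfix
    have hGm : G ∈ CongruenceSubgroup.Gamma (3 * M) :=
      slE_mem_congE.1 (hG ▸ mul_mem (inv_mem (orbRep_mem x)) ha)
    refine ⟨⟨pglE (slE G), G, hGm, rfl⟩, mem_iUnion.2 ⟨x, ?_⟩⟩
    rw [mem_smul_set_iff_inv_smul_mem, inv_inv]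
    show pglE (orbRep x) • pglE (slE G) • p ∈ _
    rw [hG, ← mul_smul, ← map_mul, mul_inv_cancel_left, hag]
    exact hg
  · intro g₁ g₂ hne
    simp only [Function.onFun, orbSet, smul_set_iUnion, AEDisjoint.iUnion_left_iff,
      AEDisjoint.iUnion_right_iff]
    intro x y
    obtain ⟨a₁, ha₁, hf₁, e₁⟩ := exists_of_mem_planeGrp g₁.2
    obtain ⟨a₂, ha₂, hf₂, e₂⟩ := exists_of_mem_planeGrp g₂.2
    have key : ∀ (g : planeGrp (CongruenceSubgroup.Gamma (3 * M))) (a : SLE) (z : Orb M)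
        (ha : a ∈ congE (3 * M)), pglE a = g →
        g • (pglE (orbRep z))⁻¹ • fdE (3 * M) =
          (⟨pglE (a * (orbRep z)⁻¹), pglE_mem (mul_mem ha (inv_mem (orbRep_mem z)))⟩ : PG (3 * M)) •
            fdE (3 * M) := fun g a z ha e => by
      show (g : PGL(2, ℂ)) • (pglE (orbRep z))⁻¹ • fdE (3 * M) =
          pglE (a * (orbRep z)⁻¹) • fdE (3 * M)
      rw [map_mul, map_inv, e, mul_smul]
    rw [key g₁ a₁ _ ha₁ e₁, key g₂ a₂ _ ha₂ e₂]
    refine hs.aedisjoint fun hc => hne (Subtype.ext ?_)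
    have he :=
      pglE_injOn (mul_mem ha₁ (inv_mem (orbRep_mem _))) (mul_mem ha₂ (inv_mem (orbRep_mem _)))
      (congrArg Subtype.val hc)
    have hinv := congrArg (fun g : SLE => g⁻¹ • v0) he
    simp only [_root_.mul_inv_rev, inv_inv, mul_smul] at hinv
    have f₁ : a₁⁻¹ • v0 = v0 := by rw [inv_smul_eq_iff, hf₁]
    have f₂ : a₂⁻¹ • v0 = v0 := by rw [inv_smul_eq_iff, hf₂]
    rw [f₁, f₂, orbRep_smul, orbRep_smul] at hinv
    obtain rfl := Subtype.ext hinv
    rw [← e₁, ← e₂, mul_right_cancel he]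

/-- The gaussian of the plane. -/
def gau0 (u : ℝ) (p : H3) : ℂ := (Real.exp (-(u * fv v0 p ^ 2)) : ℂ)

omit [NeZero M] in
lemma gau0_inv {u : ℝ} {h : PGL(2, ℂ)} (hh : h ∈ planeGrp (CongruenceSubgroup.Gamma (3 * M)))
    (p : H3) :
    gau0 u (h • p) = gau0 u p := by
  obtain ⟨a, -, hf, rfl⟩ := exists_of_mem_planeGrp hh
  rw [gau0, gau0, pglE_smul]
  conv_lhs => rw [← hf]
  rw [fv_smul]

lemma continuous_gau0 (u : ℝ) : Continuous (gau0 u) := by
  have := continuous_fv v0
  unfold gau0; fun_prop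

variable {Φ : H3 → ℂ} (hΦ : IsWave (3 * M) Φ)
include hΦ

/-- The unfolded slice. -/
theorem unfold_slice {u : ℝ} (hu : 0 < u) {D : Set H3}
    (hD : IsFundamentalDomain (planeGrp (CongruenceSubgroup.Gamma (3 * M))) D H3.vol) :
    IntegrableOn (fun p => Φ p * gau0 u p) D H3.vol ∧
      ∫ p in fdE (3 * M), Φ p * sph 0 u (lev 9 (wOrb M)) p ∂H3.vol =
        ∫ p in D, Φ p * gau0 u p ∂H3.vol := by
  classical
  have := countable_subgroup (planeGrp_le (CongruenceSubgroup.Gamma (3 * M)))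
  have := countable_subgroup (PG_le (3 * M))
  have hL := isLev_lev zero_le_one (norm_wOrb_le (M := M)) 9
  set s := fdE (3 * M)
  set F : Orb M → H3 → ℂ := fun x p => Φ p * (gj 0 u (x : Vec) p : ℂ) with hF
  have hsph : ∀ p, Φ p * sph 0 u (lev 9 (wOrb M)) p = ∑' x : Orb M, F x p := fun p => by
    rw [hF, tsum_mul_left, sph]
    congr 1
    rw [tsum_subtype (Orb M) (fun x : Vec => (gj 0 u x p : ℂ))]
    refine tsum_congr fun x => ?_
    rw [lev_wOrb, Set.indicator_apply]
    split_ifs with h <;> simp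
  have hFc : ∀ x, Continuous (F x) := fun x =>
    hΦ.cont.mul (Complex.continuous_ofReal.comp (continuous_gj 0 u x))
  have hfin : ∑' x : Orb M, ∫⁻ p in s, ‖F x p‖ₑ ∂H3.vol ≠ ⊤ := by
    rw [← lintegral_tsum fun x => (hFc x).enorm.measurable.aemeasurable]
    refine ne_top_of_le_ne_top (((hΦ.integrable_majSum hu).const_mul (sphC 0 u 9 1)).2.ne)
      (lintegral_mono fun p => ?_)
    have hsum : Summable fun x : Orb M =>
      sphC 0 u 9 1 * ‖Φ p‖ * Real.exp (-(u * maj (x : Vec) p)) :=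
      ((summable_maj hu p).subtype _).mul_left _
    have hle : ∀ x : Orb M, ‖F x p‖ ≤ sphC 0 u 9 1 * ‖Φ p‖ * Real.exp (-(u * maj (x : Vec) p)) := by
      intro x
      have h :=
        norm_term_le' hL (norm_lev_le zero_le_one norm_wOrb_le 9) zero_le_one hu 0 (x : Vec) p
      rw [lev_wOrb, if_pos x.2, one_mul] at h
      rw [hF, norm_mul, mul_assoc, mul_left_comm]
      exact mul_le_mul_of_nonneg_left h (norm_nonneg _)
    calc ∑' x : Orb M, ‖F x p‖ₑ
        ≤ ∑' x : Orb M, ENNReal.ofReal (sphC 0 u 9 1 * ‖Φ p‖ * Real.exp (-(u * maj (x : Vec) p))) :=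
          ENNReal.tsum_le_tsum fun x => by
            rw [← ofReal_norm]; exact ENNReal.ofReal_le_ofReal (hle x)
      _ = ENNReal.ofReal (∑' x : Orb M, sphC 0 u 9 1 * ‖Φ p‖ * Real.exp (-(u * maj (x : Vec) p))) :=
          (ENNReal.ofReal_tsum_of_nonneg (fun x => by unfold sphC; positivity) hsum).symm
      _ ≤ ENNReal.ofReal ‖sphC 0 u 9 1 * (‖Φ p‖ * majSum u p)‖ := by
          refine ENNReal.ofReal_le_ofReal ((le_abs_self _).trans' ?_)
          rw [tsum_mul_left, mul_assoc]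
          refine mul_le_mul_of_nonneg_left (mul_le_mul_of_nonneg_left ?_ (norm_nonneg _))
            (by unfold sphC; positivity)
          exact Summable.tsum_subtype_le _ _ (fun _ => (Real.exp_pos _).le) (summable_maj hu p)
      _ = _ := by rw [ofReal_norm]
  -- move each term to the plane vector
  set a : Orb M → PGL(2, ℂ) := fun x => (pglE (orbRep x))⁻¹
  have hmove : ∀ (x : Orb M) (q : H3), F x (pglE (orbRep x) • q) = Φ q * gau0 u q := fun x q => by
    have hx : (x : Vec) = orbRep x • v0 := (orbRep_smul x).symm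
    simp only [hF, pglE_smul]
    rw [hΦ.inv _ (orbRep_mem x), gau0, gj, hx, fv_smul, pow_zero, one_mul]
  have hpiece : ∀ x : Orb M, ∫⁻ p in s, ‖F x p‖ₑ ∂H3.vol =
      ∫⁻ q in a x • s, ‖Φ q * gau0 u q‖ₑ ∂H3.vol := fun x => by
    rw [show a x • s = (fun p : H3 => a x • p) '' s from rfl,
      ← (measurePreserving_pgl (a x)).setLIntegral_comp_emb (measurableEmbedding_pgl (a x))
        (fun q => ‖Φ q * gau0 u q‖ₑ) s]
    refine lintegral_congr fun p => ?_
    show _ = ‖Φ (a x • p) * gau0 u (a x • p)‖ₑ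
    rw [← hmove x, smul_inv_smul]
  have hio : IntegrableOn (fun q => Φ q * gau0 u q) (orbSet M) H3.vol := by
    refine ⟨(hΦ.cont.mul (continuous_gau0 u)).aestronglyMeasurable, ?_⟩
    refine lt_of_le_of_lt (lintegral_iUnion_le _ _) (lt_of_eq_of_lt ?_ hfin.lt_top)
    exact tsum_congr fun x => (hpiece x).symm
  have hinv : ∀ (h : planeGrp (CongruenceSubgroup.Gamma (3 * M))) (q : H3),
      Φ (h • q) * gau0 u (h • q) = Φ q * gau0 u q := fun h q => by
    obtain ⟨b, hb, -, e⟩ := exists_of_mem_planeGrp h.2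
    show Φ ((h : PGL(2, ℂ)) • q) * gau0 u ((h : PGL(2, ℂ)) • q) = _
    rw [gau0_inv h.2, ← e, pglE_smul, hΦ.inv _ hb]
  have : MeasurableConstSMul (planeGrp (CongruenceSubgroup.Gamma (3 * M))) H3 :=
    measurableConst_sub _
  have : SMulInvariantMeasure (planeGrp (CongruenceSubgroup.Gamma (3 * M))) H3 H3.vol :=
    smulInv_sub _
  refine ⟨(isFD_orbSet.integrableOn_iff hD hinv).1 hio, ?_⟩
  rw [← isFD_orbSet.setIntegral_eq hD hinv]
  simp only [hsph]
  rw [integral_tsum (fun x => (hFc x).aestronglyMeasurable) hfin, orbSet,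
    integral_iUnion_ae (fun x => (measurableSet_fdE _).nullMeasurableSet.smul _) ?_ hio]
  · refine tsum_congr fun x => ?_
    rw [setIntegral_translate]
    refine integral_congr_ae (ae_of_all _ fun p => ?_)
    have h := hmove x ((pglE (orbRep x))⁻¹ • p)
    rw [smul_inv_smul] at h
    exact h
  · intro x y hxy
    have hsd := (isFD_fdE (3 * M)).aedisjoint
    have : (⟨(pglE (orbRep x))⁻¹, inv_mem (pglE_mem (orbRep_mem x))⟩ : PG (3 * M)) ≠
        ⟨(pglE (orbRep y))⁻¹, inv_mem (pglE_mem (orbRep_mem y))⟩ := fun e => hxy (Subtype.ext (by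
      rw [← orbRep_smul x, ← orbRep_smul y,
        pglE_injOn (orbRep_mem x) (orbRep_mem y) (inv_injective (congrArg Subtype.val e))]))
    exact hsd this

/-- The integral over the plane at a given distance. -/
def planeInt (M : ℕ) [NeZero M] (Φ : H3 → ℂ) (r : ℝ) : ℂ :=
  ∫ z in cycTile (3 * M), Φ (emb (z, r))

omit hΦ in
lemma tendsto_width {P : ℝ → ℂ} (hP : Continuous P) {B : ℝ} (hB : ∀ r, ‖P r‖ ≤ B) :
    Tendsto (fun u : ℝ => (√u : ℂ) *
        ∫ r : ℝ, ((Real.cosh r ^ 2 * Real.exp (-(u * (12 * Real.sinh r ^ 2))) : ℝ) : ℂ) * P r)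
      atTop (𝓝 ((√(π / 12) : ℂ) * P 0)) := by
  have hB0 : 0 ≤ B := (norm_nonneg _).trans (hB 0)
  have hcv : Tendsto (fun u : ℝ => ∫ s : ℝ,
      ((√(1 + (s / √u) ^ 2) * Real.exp (-(12 * s ^ 2)) : ℝ) : ℂ) *
      P (Real.arsinh (s / √u))) atTop
      (𝓝 (∫ s : ℝ, ((Real.exp (-(12 * s ^ 2)) : ℝ) : ℂ) * P 0)) := by
    refine tendsto_integral_filter_of_dominated_convergence
      (fun s => B * ((1 + s ^ 2) * Real.exp (-(12 * s ^ 2)))) ?_ ?_ ?_ (ae_of_all _ fun s => ?_)
    · exact Eventually.of_forall fun u =>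
        ((Complex.continuous_ofReal.comp ((Real.continuous_sqrt.comp
        (continuous_const.add ((continuous_id.div_const _).pow 2))).mul
          (Real.continuous_exp.comp ((continuous_const.mul (continuous_pow 2)).neg)))).mul
        (hP.comp (Real.continuous_arsinh.comp (continuous_id.div_const _)))).aestronglyMeasurable
    · filter_upwards [eventually_ge_atTop 1] with u hu
      refine ae_of_all _ fun s => ?_
      rw [norm_mul, Complex.norm_real, Real.norm_of_nonneg (by positivity), mul_comm B]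
      refine mul_le_mul (mul_le_mul_of_nonneg_right ?_ (Real.exp_pos _).le) (hB _) (norm_nonneg _)
        (by positivity)
      rw [Real.sqrt_le_iff]
      refine ⟨by positivity, ?_⟩
      rw [div_pow, Real.sq_sqrt (by linarith)]
      have : s ^ 2 / u ≤ s ^ 2 := div_le_self (sq_nonneg s) hu
      nlinarith [sq_nonneg s]
    · refine Integrable.const_mul ?_ B
      have h1 := integrable_exp_neg_mul_sq (b := 12) (by norm_num)
      have h2 := integrable_mul_exp_neg_mul_sq (b := 12) (by norm_num)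
      have h3 := integrable_rpow_mul_exp_neg_mul_sq (b := 12) (by norm_num) (s := 2) (by norm_num)
      refine (h1.add h3).congr (ae_of_all _ fun s => ?_)
      simp
      ring
    · have h0 : Tendsto (fun u : ℝ => s / √u) atTop (𝓝 0) :=
        tendsto_const_nhds.div_atTop Real.tendsto_sqrt_atTop
      have hcont : Continuous fun v : ℝ => ((√(1 + v ^ 2) * Real.exp (-(12 * s ^ 2)) : ℝ) : ℂ) *
          P (Real.arsinh v) :=
        (Complex.continuous_ofReal.comp ((Real.continuous_sqrt.comp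
          (continuous_const.add (continuous_pow 2))).mul continuous_const)).mul
          (hP.comp Real.continuous_arsinh)
      have h := (hcont.tendsto 0).comp h0
      rw [Real.arsinh_zero, zero_pow two_ne_zero, add_zero, Real.sqrt_one, one_mul] at h
      exact h
  rw [integral_mul_const, integral_complex_ofReal,
    show (fun s : ℝ => Real.exp (-(12 * s ^ 2))) = fun s : ℝ => Real.exp (-12 * s ^ 2) by
      funext s; ring_nf, integral_gaussian] at hcv
  refine hcv.congr' ?_
  filter_upwards [eventually_gt_atTop 0] with u hu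
  have hs : 0 < √u := Real.sqrt_pos.2 hu
  have himg : (fun r : ℝ => √u * Real.sinh r) '' univ = univ := by
    refine eq_univ_of_forall fun y => ⟨Real.arsinh (y / √u), trivial, ?_⟩
    show √u * Real.sinh (Real.arsinh (y / √u)) = y
    rw [Real.sinh_arsinh]; field_simp
  have h := integral_image_eq_integral_abs_deriv_smul (f := fun r : ℝ => √u * Real.sinh r)
    MeasurableSet.univ (fun r _ => ((Real.hasDerivAt_sinh r).const_mul √u).hasDerivWithinAt)
    (fun a _ b _ h => Real.sinh_injective (mul_left_cancel₀ hs.ne' h))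
    (fun s => ((√(1 + (s / √u) ^ 2) * Real.exp (-(12 * s ^ 2)) : ℝ) : ℂ) * P (Real.arsinh (s / √u)))
  rw [himg] at h
  simp only [Measure.restrict_univ] at h
  rw [h, ← integral_const_mul]
  refine integral_congr_ae (ae_of_all _ fun r => ?_)
  have e : √u * Real.sinh r / √u = Real.sinh r := by field_simp
  simp only [e, Real.arsinh_sinh, abs_of_pos (mul_pos hs (Real.cosh_pos r)), Complex.real_smul,
    ← Real.cosh_sq', Real.sqrt_sq (Real.cosh_pos r).le]
  rw [show (√u * Real.sinh r) ^ 2 = u * Real.sinh r ^ 2 by rw [mul_pow, Real.sq_sqrt hu.le]]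
  push_cast
  ring_nf

omit hΦ in
/-- **The coefficient of the cycle vector**: if the period of `Φ` along the real plane is nonzero,
so is the ninth coefficient of the lift with the weight of the cycle. -/
theorem aCoef_cycle_ne_zero [NeZero ((3 * M) ^ 2)] (hΦ : IsCusp (27 * M) Φ)
    (hinv : ∀ g ∈ congE (3 * M), ∀ p, Φ (g • p) = Φ p)
    (hcyc : ∀ g ∈ CongruenceSubgroup.Gamma0 ((3 * M) ^ 2), ∀ z : ℍ,
      Φ (emb (scaleN (3 * M) • (g • z), 0)) = Φ (emb (scaleN (3 * M) • z, 0)))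
    (hper : Period.periodSum ((3 * M) ^ 2) (fun z => Φ (emb (scaleN (3 * M) • z, 0))) ≠ 0) :
    aCoef (27 * M) (9 * M) Φ (wOrb M) 9 ≠ 0 := by
  classical
  have h3 : 3 ≤ 3 * M := by have := NeZero.ne M; omega
  have hw : IsWave (3 * M) Φ := ⟨hΦ.wave.cont, hinv, hΦ.wave.decay⟩
  obtain ⟨B, hB0, hB⟩ := hw.exists_bound
  have hL := isLev_lev zero_le_one (norm_wOrb_le (M := M)) 9
  have hwi : ∀ g ∈ congE (27 * M), ∀ x, lev 9 (wOrb M) (g • x) = lev 9 (wOrb M) x :=
    lev_inv (inv_congE_of_isPer (n := 27 * M) (k := 9 * M) ⟨1, by ring⟩ isPer_wOrb) 9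
  set P := planeInt M Φ
  have hvol : volume (cycTile (3 * M)) < ⊤ := volume_cycTile_lt_top
  have hfin : IsFiniteMeasure (volume.restrict (cycTile (3 * M))) := ⟨by simpa using hvol⟩
  have hPb : ∀ r, ‖P r‖ ≤ B * (volume (cycTile (3 * M))).toReal := fun r =>
    norm_setIntegral_le_of_norm_le_const hvol fun z _ => hB _
  have hPc : Continuous P := continuous_of_dominated
    (fun r => (hw.cont.comp
      (continuous_emb.comp (continuous_id.prodMk continuous_const))).aestronglyMeasurable)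
    (fun r => ae_of_all _ fun z => hB _) (integrable_const B)
    (ae_of_all _ fun z =>
      hw.cont.comp (continuous_emb.comp (continuous_const.prodMk continuous_id)))
  set idx : ℕ := (PG (27 * M)).relIndex (PG (3 * M))
  have hidx : idx ≠ 0 := relIndex_PG_ne_zero (27 * M) (PG_le (3 * M))
  -- the slice
  have hFF : ∀ u : ℝ, 0 < u → FF (27 * M) Φ 0 u (lev 9 (wOrb M)) = (idx : ℂ) *
      ∫ r : ℝ, ((Real.cosh r ^ 2 * Real.exp (-(u * (12 * Real.sinh r ^ 2))) : ℝ) : ℂ) * P r := by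
    intro u hu
    have hsinv : ∀ g ∈ congE (3 * M), ∀ p,
        Φ (g • p) * sph 0 u (lev 9 (wOrb M)) (g • p) = Φ p * sph 0 u (lev 9 (wOrb M)) p :=
      fun g hg p => by rw [hinv g hg, sph_inv lev_wOrb_inv 0 u g hg]
    rw [FF, (fold_fdE (m := 3 * M) (n := 27 * M) ⟨9, by ring⟩ hsinv
      (hw.integrable_sph hL lev_wOrb_inv hu 0)).2]
    congr 1
    obtain ⟨hi, he⟩ := unfold_slice hw hu (isFD_tile (isTile_cycTile h3))
    rw [he, measurePreserving_emb.setIntegral_image_emb measurableEmbedding_emb]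
    have hi' := (measurePreserving_emb.integrableOn_image measurableEmbedding_emb).1 hi
    have e0 : ∀ x : ℍ × ℝ, gau0 u (emb x) = (Real.exp (-(u * (12 * Real.sinh x.2 ^ 2))) : ℂ) :=
      fun x => by
      rw [gau0, fv_v0_emb, mul_pow, mul_pow, Real.sq_sqrt (by norm_num)]; norm_num
    simp only [Function.comp_def, e0] at hi' ⊢
    rw [IntegrableOn, ← Measure.prod_restrict, Measure.restrict_univ] at hi'
    rw [← Measure.prod_restrict, Measure.restrict_univ, integral_prod_symm _ hi', coshM,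
      integral_withDensity_eq_integral_toReal_smul
        (f := fun r : ℝ => ENNReal.ofReal (Real.cosh r ^ 2)) (by fun_prop)
        (ae_of_all _ fun _ => ENNReal.ofReal_lt_top)]
    refine integral_congr_ae (ae_of_all _ fun r => ?_)
    simp only [P, planeInt]
    rw [ENNReal.toReal_ofReal (sq_nonneg _), Complex.real_smul, Complex.ofReal_mul, mul_assoc,
      integral_mul_const]
    ring
  -- the limit
  have hlim : Tendsto (fun u => GG (27 * M) Φ u (lev 9 (wOrb M))) atTop
      (𝓝 ((idx : ℂ) * ((√(π / 12) : ℂ) * P 0))) := by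
    refine ((tendsto_width hPc hPb).const_mul (idx : ℂ)).congr' ?_
    filter_upwards [eventually_gt_atTop 0] with u hu
    rw [GG, hFF u hu]; ring
  have hconst : GG (27 * M) Φ 1 (lev 9 (wOrb M)) = (idx : ℂ) * ((√(π / 12) : ℂ) * P 0) := by
    refine tendsto_nhds_unique (tendsto_const_nhds.congr' ?_) hlim
    filter_upwards [eventually_gt_atTop 0] with u hu
    exact (GG_pos hΦ hL hwi (by norm_num) hu).symm
  have hP0 : P 0 ≠ 0 := by
    show (∫ z in cycTile (3 * M), Φ (emb (z, 0))) ≠ 0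
    rw [setIntegral_cycTile (F := fun z => Φ (emb (z, 0)))
      (hw.cont.comp (continuous_emb.comp (continuous_id.prodMk continuous_const))).measurable
      (fun z => hB _) hcyc]
    refine mul_ne_zero (Nat.cast_ne_zero.2 ?_) hper
    exact fun h0 => Subgroup.FiniteIndex.index_ne_zero (H := ES.pmSub (gamD (3 * M)))
      (Nat.eq_zero_of_zero_dvd (h0 ▸ Subgroup.relIndex_dvd_index_of_le (by
        intro g hg
        rcases hg with hg | hg
        · exact hg.1
        · have h := hg.1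
          simp only [CongruenceSubgroup.Gamma0_mem] at h ⊢
          simpa using h)))
  rw [aCoef, if_neg (by norm_num), show ((9 : ℕ) : ℤ) = 9 from rfl, hconst]
  refine mul_ne_zero ?_ (mul_ne_zero (Nat.cast_ne_zero.2 hidx) (mul_ne_zero ?_ hP0))
  · rw [kap, Complex.ofReal_ne_zero]
    have : (0 : ℝ) < ((9 * M : ℕ) : ℝ) := by exact_mod_cast Nat.pos_of_neZero (9 * M)
    exact (Real.sqrt_pos.2 (by positivity)).ne'
  · rw [Complex.ofReal_ne_zero]
    exact (Real.sqrt_pos.2 (by positivity)).ne'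

end FermatAgent.LT.Lift
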