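import Fermat.Agent.LT.Lift.LocalType

/-!
# The radial factor modulo three

The coefficients with which the family of a cuspidal prime is convolved lie in every valuation ring
in which three is not a unit, and are congruent there to differences of two indicators.
-/

set_option autoImplicit false

noncomputable section

open Finset

namespace FermatAgent.LT.Lift

attribute [local simp] QuadraticAlgebra.re_one QuadraticAlgebra.im_one QuadraticAlgebra.re_ofNat
  QuadraticAlgebra.im_ofNat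

/-! ## The maximal ideal -/

section Ring

variable {O : ValuationSubring ℂ}

/-- Membership in the maximal ideal. -/
def InM (O : ValuationSubring ℂ) (z : ℂ) : Prop :=
  ∃ h : z ∈ O, IsLocalRing.residue O ⟨z, h⟩ = 0

/-- Small elements are integral. -/
lemma InM.mem {z : ℂ} (h : InM O z) : z ∈ O := h.1

/-- Zero is small. -/
lemma inM_zero : InM O 0 := ⟨zero_mem O, map_zero _⟩

/-- Sums of small elements are small. -/
lemma InM.add {x y : ℂ} (hx : InM O x) (hy : InM O y) : InM O (x + y) :=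
  ⟨add_mem hx.1 hy.1, by
    rw [show (⟨x + y, add_mem hx.1 hy.1⟩ : O) = ⟨x, hx.1⟩ + ⟨y, hy.1⟩ from rfl, map_add, hx.2,
      hy.2, add_zero]⟩

/-- Integral multiples of small elements are small. -/
lemma InM.mulLeft {a z : ℂ} (ha : a ∈ O) (hz : InM O z) : InM O (a * z) :=
  ⟨mul_mem ha hz.1, by
    rw [show (⟨a * z, mul_mem ha hz.1⟩ : O) = ⟨a, ha⟩ * ⟨z, hz.1⟩ from rfl, map_mul, hz.2,
      mul_zero]⟩

lemma inM_sum {ι : Type*} (s : Finset ι) {f : ι → ℂ} (h : ∀ i ∈ s, InM O (f i)) :
    InM O (∑ i ∈ s, f i) := by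
  classical
  induction s using Finset.induction with
  | empty => simpa using inM_zero
  | insert a s ha ih =>
    rw [sum_insert ha]
    exact (h a (mem_insert_self a s)).add (ih fun i hi => h i (mem_insert_of_mem hi))

/-- Congruent integers have equal residues. -/
lemma residue_eq_of_inM {a b : O} (h : InM O ((a : ℂ) - (b : ℂ))) :
    IsLocalRing.residue O a = IsLocalRing.residue O b := by
  obtain ⟨hm, hz⟩ := h
  rw [← sub_eq_zero, ← map_sub, ← hz]
  rfl

lemma mem_of_pow {z : ℂ} {n : ℕ} (hn : 0 < n) (h : z ^ n = 1) : z ∈ O :=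
  (O.valuation_le_one_iff z).1 ((pow_le_one_iff hn.ne').1 (by rw [← map_pow, h, map_one]))

variable (h3 : (3 : O) ∈ IsLocalRing.maximalIdeal O)
include h3

lemma three_eq_zero_res : (3 : IsLocalRing.ResidueField O) = 0 := by
  rw [← map_ofNat (IsLocalRing.residue O) 3, IsLocalRing.residue_eq_zero_iff]
  exact h3

/-- Cube roots of unity are congruent to one. -/
lemma inM_cube {z : ℂ} (h : z ^ 3 = 1) : InM O (z - 1) := by
  have hz : z ∈ O := mem_of_pow (by norm_num) h
  refine ⟨sub_mem hz (one_mem O), ?_⟩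
  set r := IsLocalRing.residue O ⟨z, hz⟩
  have hr : r ^ 3 = 1 := by
    rw [← map_pow, show (⟨z, hz⟩ : O) ^ 3 = 1 from Subtype.ext h, map_one]
  rw [show (⟨z - 1, sub_mem hz (one_mem O)⟩ : O) = ⟨z, hz⟩ - 1 from rfl, map_sub, map_one]
  refine pow_eq_zero_iff (n := 3) (by norm_num) |>.1 ?_
  linear_combination hr - (r ^ 2 - r) * three_eq_zero_res h3

lemma natCast_res {n : ℕ} (h : n % 3 = 2) : (n : IsLocalRing.ResidueField O) = -1 := by
  conv_lhs => rw [← Nat.div_add_mod n 3, h]
  push_cast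
  linear_combination ((n / 3 : ℕ) : IsLocalRing.ResidueField O) * three_eq_zero_res h3 +
    three_eq_zero_res h3

lemma inM_inv {n : ℕ} (h : n % 3 = 2) : InM O ((n : ℂ)⁻¹ + 1) := by
  have hu : IsUnit (n : O) := by
    rw [← IsLocalRing.residue_ne_zero_iff_isUnit, map_natCast, natCast_res h3 h]
    exact neg_ne_zero.2 one_ne_zero
  obtain ⟨b, hb⟩ := hu.exists_right_inv
  have hb' : (n : ℂ)⁻¹ = (b : ℂ) := by
    refine inv_eq_of_mul_eq_one_right ?_
    exact_mod_cast congrArg Subtype.val hb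
  have hr : IsLocalRing.residue O b = -1 := by
    have e := congrArg (IsLocalRing.residue O) hb
    rw [map_mul, map_natCast, natCast_res h3 h, map_one, neg_one_mul] at e
    linear_combination -e
  rw [hb']
  refine ⟨add_mem b.2 (one_mem O), ?_⟩
  rw [show (⟨(b : ℂ) + 1, add_mem b.2 (one_mem O)⟩ : O) = b + 1 from rfl, map_add, hr, map_one,
    neg_add_cancel]

lemma inv_mem {n : ℕ} (h : n % 3 = 2) : (n : ℂ)⁻¹ ∈ O := by
  simpa using sub_mem (inM_inv h3 h).mem (one_mem O)

end Ring

variable {q : ℕ} [Fact q.Prime]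

lemma std_mem {O : ValuationSubring ℂ} (a : ZMod q) : ZMod.stdAddChar a ∈ O := by
  refine mem_of_pow (n := q) (Nat.pos_of_neZero q) ?_
  rw [← AddChar.map_nsmul_eq_pow, nsmul_eq_mul, ZMod.natCast_self, zero_mul,
    AddChar.map_zero_eq_one]

/-! ## The coefficients -/

/-- The residue of the radial factor. -/
def radM (A t n : ZMod q) : ℂ :=
  (if A = t then 0 else -(q : ℂ) * ZMod.stdAddChar (-(t * A / (A - t)) * n)) -
    ZMod.stdAddChar (-t * n)

open Classical in
/-- The radial factor as a function of the norm. -/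
def radR (κ : MulChar (EisMod q) ℂ) (A t n : ZMod q) : ℂ :=
  if h : n ≠ 0 ∧ ∃ β : EisMod q, IsUnit β ∧ nrm β = n then
    κ h.2.choose ^ 2 * radS κ A t h.2.choose
  else radM A t 0

/-- The coefficients of the convolved family. -/
def lowC (κ : MulChar (EisMod q) ℂ) (ρ t i m : ZMod q) : ℂ :=
  eps q / (q : ℂ) ^ 2 * ∑ n : ZMod q, radR κ (i * ρ) t n * ZMod.stdAddChar (-(m * ρ * n))

variable {κ : MulChar (EisMod q) ℂ}

lemma radR_nrm (hκ : κ ^ 3 = 1) (A t : ZMod q) {β : EisMod q} (hβ : IsUnit β) :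
    radR κ A t (nrm β) = κ β ^ 2 * radS κ A t β := by
  have h : nrm β ≠ 0 ∧ ∃ b : EisMod q, IsUnit b ∧ nrm b = nrm β :=
    ⟨(isUnit_iff_nrm β).1 hβ, β, hβ, rfl⟩
  rw [radR, dif_pos h]
  exact radS_fibre hκ A t hβ h.2.choose_spec.2

/-- The convolution of a member of the family, expanded in the family. -/
theorem conv_expand (hq : q % 3 = 2) (hκ : κ ^ 3 = 1) (hs : ∀ t : ZMod q, t ≠ 0 → κ (cQ t) = 1)
    (hne : κ ≠ 1) {ρ t : ZMod q} (hρ : ρ ≠ 0) (ht : t ≠ 0) (i : ZMod q) (v : VQ q) :
    eps q / (q : ℂ) ^ 2 * conv t (famU κ ρ i) v = ∑ m, lowC κ ρ t i m * famU κ ρ m v := by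
  have h3 : q ≠ 3 := by omega
  rw [conv_famU h3 ht]
  obtain ⟨x, d, β⟩ := v
  by_cases hd : d = 0
  swap
  · simp [famU, hd]
  subst hd
  have hrad : radS κ (i * ρ) t β = κ β * radR κ (i * ρ) t (nrm β) := by
    by_cases hβ : β = 0
    · rw [hβ, radS_zero hκ hs hne, MulChar.map_zero, zero_mul]
    · have hu : IsUnit β := (isUnit_iff_nrm β).2 (nrm_ne_zero_of_inert hq hβ)
      have hc := char_cube hκ hu.unit
      rw [IsUnit.unit_spec] at hc
      rw [radR_nrm hκ _ _ hu]
      linear_combination (-(radS κ (i * ρ) t β)) * hc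
  have hf : ∀ m, famU κ ρ m (x, 0, β) = ZMod.stdAddChar (m * ρ * nrm β) * κ β := fun m => by
    simp [famU, PQ]
  rw [if_pos rfl]
  simp only [hf, lowC, mul_sum, sum_mul]
  rw [sum_comm]
  have e : ∀ n m : ZMod q, eps q / (q : ℂ) ^ 2 * (radR κ (i * ρ) t n *
      ZMod.stdAddChar (-(m * ρ * n))) * (ZMod.stdAddChar (m * ρ * nrm β) * κ β) =
      eps q / (q : ℂ) ^ 2 * radR κ (i * ρ) t n * κ β *
        ZMod.stdAddChar (m * (ρ * (nrm β - n))) := fun n m => by
    rw [show m * (ρ * (nrm β - n)) = -(m * ρ * n) + m * ρ * nrm β by ring, AddChar.map_add_eq_mul]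
    ring
  simp only [e, ← mul_sum, sum_std_mul, mul_eq_zero, hρ, false_or, sub_eq_zero, mul_ite, mul_zero,
    sum_ite_eq, mem_univ, if_true, hrad]
  ring

/-- The full quadratic sum. -/
lemma sum_full (hq : q % 3 = 2) (A : ZMod q) {t : ZMod q} (ht : t ≠ 0) {β : EisMod q} (hβ : β ≠ 0) :
    ∑ x : EisMod q, ZMod.stdAddChar (A * nrm x + -t * nrm (β - x)) =
      if A = t then 0 else -(q : ℂ) * ZMod.stdAddChar (-(t * A / (A - t)) * nrm β) := by
  have h3 : q ≠ 3 := by omega
  have he : eps q = -1 := by rw [eps, if_neg (by omega)]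
  split_ifs with hA
  · subst hA
    set f : EisMod q → ℂ := fun x => ZMod.stdAddChar (A * nrm x + -A * nrm (β - x))
    set x0 : EisMod q := β * ⟨0, 1⟩
    set c := ZMod.stdAddChar (-A * nrm β)
    have hshift : ∀ x, f (x + x0) = c * f x := fun x => by
      simp only [f, c, ← AddChar.map_add_eq_mul]
      congr 1
      simp [x0, nrm, QuadraticAlgebra.norm_def]
      ring
    have hc : c ≠ 1 := fun h => mul_ne_zero (neg_ne_zero.2 ht) (nrm_ne_zero_of_inert hq hβ)
      (ZMod.injective_stdAddChar (by rw [AddChar.map_zero_eq_one]; exact h))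
    have hsum : ∑ x, f x = c * ∑ x, f x := by
      rw [mul_sum, ← Equiv.sum_comp (Equiv.addRight x0) f]
      exact sum_congr rfl fun x _ => hshift x
    show ∑ x, f x = 0
    exact (mul_eq_zero.1 (show (1 - c) * ∑ x, f x = 0 by linear_combination hsum)).resolve_left
      (sub_ne_zero.2 hc.symm)
  · have hAt : A - t ≠ 0 := sub_ne_zero.2 hA
    have e : ∀ x : EisMod q, A * nrm x + -t * nrm (β - x) =
        (A - t) * nrm (x + cQ (t / (A - t)) * β) + -(t * A / (A - t)) * nrm β := fun x => by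
      simp [nrm, QuadraticAlgebra.norm_def]
      field_simp
      ring
    simp only [e, AddChar.map_add_eq_mul, ← sum_mul]
    have hs := Equiv.sum_comp (Equiv.addRight (cQ (t / (A - t)) * β))
      (fun x => ZMod.stdAddChar ((A - t) * nrm x))
    simp only [Equiv.coe_addRight] at hs
    rw [hs, sum_nrm h3 hAt, he]
    ring

variable {O : ValuationSubring ℂ} (hO : (3 : O) ∈ IsLocalRing.maximalIdeal O)
include hO

lemma inM_radR (hq : q % 3 = 2) (hκ : κ ^ 3 = 1) (A : ZMod q) {t : ZMod q} (ht : t ≠ 0)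
    (n : ZMod q) : InM O (radR κ A t n - radM A t n) := by
  classical
  have h3 : q ≠ 3 := by omega
  by_cases hn : n = 0
  · subst hn
    rw [radR, dif_neg (fun h => h.1 rfl), sub_self]
    exact inM_zero
  obtain ⟨β, hβ, rfl⟩ := exists_nrm h3 hn
  rw [radR_nrm hκ A t hβ]
  have hb : β ≠ 0 := fun h => hn (by rw [h, nrm_zero'])
  have hM : radM A t (nrm β) = ∑ x ∈ univ.erase (0 : EisMod q),
      ZMod.stdAddChar (A * nrm x + -t * nrm (β - x)) := by
    rw [radM, ← sum_full hq A ht hb, ← sum_erase_add _ _ (mem_univ (0 : EisMod q)), sub_zero,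
      nrm_zero', mul_zero, zero_add, add_sub_cancel_right]
  rw [hM, radS, ← sum_erase_add _ _ (mem_univ (0 : EisMod q)), MulChar.map_zero, zero_mul, add_zero,
    mul_sum, ← sum_sub_distrib]
  refine inM_sum _ fun x hx => ?_
  rw [← mul_assoc, ← sub_one_mul, mul_comm]
  refine InM.mulLeft (std_mem _) (inM_cube hO ?_)
  have hx' : IsUnit x := (isUnit_iff_nrm x).2 (nrm_ne_zero_of_inert hq (mem_erase.1 hx).1)
  have h1 := char_cube hκ hβ.unit
  have h2 := char_cube hκ hx'.unit
  rw [IsUnit.unit_spec] at h1 h2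
  linear_combination (κ β ^ 3 * κ x ^ 3) * h1 + κ x ^ 3 * h1 + h2

/-- The congruence of the coefficients. -/
theorem inM_lowC (hq : q % 3 = 2) (hκ : κ ^ 3 = 1) {ρ t : ZMod q} (ht : t ≠ 0)
    (i m : ZMod q) :
    InM O (lowC κ ρ t i m -
      ((if i * ρ ≠ t ∧ m * ρ = -(t * (i * ρ) / (i * ρ - t)) then 1 else 0) -
        if m * ρ = -t then 1 else 0)) := by
  classical
  have he : eps q = -1 := by rw [eps, if_neg (by omega)]
  have hq0 : (q : ℂ) ≠ 0 := Nat.cast_ne_zero.2 (NeZero.ne q)
  set A := i * ρ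
  have hexact : eps q / (q : ℂ) ^ 2 * ∑ n : ZMod q, radM A t n * ZMod.stdAddChar (-(m * ρ * n)) =
      (if A ≠ t ∧ m * ρ = -(t * A / (A - t)) then 1 else 0) +
        (q : ℂ)⁻¹ * if m * ρ = -t then 1 else 0 := by
    have e : ∀ n : ZMod q, radM A t n * ZMod.stdAddChar (-(m * ρ * n)) =
        (if A = t then 0 else -(q : ℂ) *
          ZMod.stdAddChar (n * (-(t * A / (A - t)) - m * ρ))) -
        ZMod.stdAddChar (n * (-t - m * ρ)) := fun n => by
      rw [radM, sub_mul, ite_mul, zero_mul, mul_assoc (-(q : ℂ)), ← AddChar.map_add_eq_mul,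
        ← AddChar.map_add_eq_mul]
      ring_nf
    simp only [e, sum_sub_distrib, sum_std_mul, he]
    by_cases hA : A = t
    · simp only [hA, if_true, sum_const_zero, ne_eq, not_true, false_and, if_false, sub_eq_zero,
        eq_comm (a := -t)]
      split_ifs <;> field_simp <;> ring
    · simp only [hA, if_false, ne_eq, not_false_iff, true_and, ← mul_sum, sum_std_mul, sub_eq_zero,
        eq_comm (a := -t), eq_comm (a := -(t * A / (A - t)))]
      split_ifs <;> field_simp <;> ring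
  have hmain : InM O (lowC κ ρ t i m -
      eps q / (q : ℂ) ^ 2 * ∑ n : ZMod q, radM A t n * ZMod.stdAddChar (-(m * ρ * n))) := by
    rw [lowC, ← mul_sub, ← sum_sub_distrib]
    refine InM.mulLeft ?_ (inM_sum _ fun n _ => ?_)
    · rw [he, div_eq_mul_inv, ← inv_pow]
      exact mul_mem (neg_mem (one_mem O)) (pow_mem (inv_mem hO hq) 2)
    · rw [← sub_mul, mul_comm]
      exact InM.mulLeft (std_mem _) (inM_radR hO hq hκ A ht n)
  rw [hexact] at hmain
  have hlast : InM O (((q : ℂ)⁻¹ + 1) * if m * ρ = -t then 1 else 0) := by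
    rw [mul_comm]
    exact InM.mulLeft (by split_ifs <;> first | exact one_mem O | exact zero_mem O)
      (inM_inv hO hq)
  convert hmain.add hlast using 1
  ring

end FermatAgent.LT.Lift
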