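import Fermat.Agent.LT.Lift.Family
import Fermat.Agent.LT.Lift.Radial
import Fermat.Agent.LT.Mod3.Perms

/-!
# The action on the family modulo three

Under `Γ(27) ∩ Γ₀(MA)` the forms of the family are permuted, modulo the maximal ideal, like the
differences of the points on the product of projective lines.
-/

set_option autoImplicit false

noncomputable section

open Matrix MeasureTheory Finset Complex
open scoped MatrixGroups UpperHalfPlane Real ModularForm OnePoint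

namespace FermatAgent.LT.Lift

open FermatAgent.LT.Mod3

/-- Lower unipotent matrices. -/
def loM (c : ℤ) : SL(2, ℤ) := ⟨!![1, 0; c, 1], by simp [Matrix.det_fin_two]⟩

/-- Upper unipotent matrices. -/
def upM (x : ℤ) : SL(2, ℤ) := ⟨!![1, x; 0, 1], by simp [Matrix.det_fin_two]⟩

lemma coe_loM (c : ℤ) : (loM c).1 = !![1, 0; c, 1] := rfl

lemma coe_upM (x : ℤ) : (upM x).1 = !![1, x; 0, 1] := rfl

lemma loM_add (a b : ℤ) : loM (a + b) = loM a * loM b :=
  Subtype.ext (Matrix.ext fun i j => by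
    rw [Matrix.SpecialLinearGroup.coe_mul]
    fin_cases i <;> fin_cases j <;> simp [coe_loM, Matrix.mul_apply, Fin.sum_univ_two])

lemma loM_zero : loM 0 = 1 :=
  Subtype.ext (Matrix.ext fun i j => by fin_cases i <;> fin_cases j <;> simp [coe_loM])

lemma upM_add (a b : ℤ) : upM (a + b) = upM a * upM b :=
  Subtype.ext (Matrix.ext fun i j => by
    rw [Matrix.SpecialLinearGroup.coe_mul]
    fin_cases i <;> fin_cases j <;>
      simp [coe_upM, Matrix.mul_apply, Fin.sum_univ_two, add_comm])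

lemma upM_zero : upM 0 = 1 :=
  Subtype.ext (Matrix.ext fun i j => by fin_cases i <;> fin_cases j <;> simp [coe_upM])

lemma loM_mem_Gamma {n : ℕ} {c : ℤ} (h : (n : ℤ) ∣ c) : loM c ∈ CongruenceSubgroup.Gamma n := by
  rw [CongruenceSubgroup.Gamma_mem]
  simp [coe_loM, (ZMod.intCast_zmod_eq_zero_iff_dvd c n).2 h]

lemma upM_mem_Gamma {n : ℕ} {c : ℤ} (h : (n : ℤ) ∣ c) : upM c ∈ CongruenceSubgroup.Gamma n := by
  rw [CongruenceSubgroup.Gamma_mem]
  simp [coe_upM, (ZMod.intCast_zmod_eq_zero_iff_dvd c n).2 h]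

/-- The slash of a lift by a matrix of level `3 k`. -/
theorem Lam_gamma {n k : ℕ} [NeZero k] {Φ : H3 → ℂ} {w : Vec → ℂ} (hw : IsPer k w)
    (γ : SL(2, ℤ)) (hc : ((3 * k : ℕ) : ℤ) ∣ γ.1 1 0) (hd : (3 : ℤ) ∣ γ.1 1 1 - 1) :
    Lam n k Φ w ∣[(1 : ℤ)] γ =
      Lam n k Φ (mE k (γ.1 0 1 * γ.1 1 1) fun x => w (γ.1 1 1 • x)) := by
  funext τ
  rw [ModularForm.SL_slash_apply, Lam, Lam, ModularGroup.denom_apply, _root_.zpow_neg_one,
    ← integral_mul_const]
  refine integral_congr_ae (ae_of_all _ fun p => ?_)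
  dsimp only
  rw [theta_gamma γ hc hd hw]
  have : (γ.1 1 0 : ℂ) * τ + γ.1 1 1 ≠ 0 := by
    simpa [ModularGroup.denom_apply] using UpperHalfPlane.denom_ne_zero γ τ
  field_simp

/-! ## Products of characters -/

lemma ee_sum {ι : Type*} (s : Finset ι) (f : ι → ℝ) : ee (∑ i ∈ s, f i) = ∏ i ∈ s, ee (f i) := by
  classical
  induction s using Finset.induction with
  | empty => simp [ee]
  | insert a s ha ih => rw [sum_insert ha, prod_insert ha, ee_add, ih]

lemma dvd_of_forall_primes {Q : Finset Nat.Primes} {z : ℤ} (h : ∀ q ∈ Q, ((q : ℕ) : ℤ) ∣ z) :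
    (lvl Q : ℤ) ∣ z := by
  rw [lvl, Nat.cast_prod]
  exact Finset.prod_dvd_of_coprime (fun a _ b _ hab =>
    Nat.Coprime.cast (R := ℤ) (coprime_primes hab)) h

lemma prod_char_mE {Q : Finset Nat.Primes} (hQ : ∀ q ∈ Q, (q : ℕ) ≠ 3) {j : ℤ} (hj : (27 : ℤ) ∣ j)
    (x : Vec) :
    ee ((j * P3 x : ℤ) / (3 * (9 * lvl Q) : ℕ) : ℝ) =
      ∏ q ∈ Q, ZMod.stdAddChar ((j : ZMod (q : ℕ)) * rhoQ Q q * PQ (redL (q : ℕ) x)) := by
  have e1 : ∀ q ∈ Q, ZMod.stdAddChar ((j : ZMod (q : ℕ)) * rhoQ Q q * PQ (redL (q : ℕ) x)) =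
      ee (((j * (rhoQ Q q).val * P3 x : ℤ) : ℝ) / (q : ℕ)) := fun q _ => by
    rw [ee_div_std, PQ_redL]
    push_cast
    rw [ZMod.natCast_zmod_val]
  rw [prod_congr rfl e1, ← ee_sum]
  set sg : ℤ := ∑ q ∈ Q, ((rhoQ Q q).val : ℤ) * (27 * lvl (Q.erase q) : ℕ)
  have e2 : ∑ q ∈ Q, ((j * (rhoQ Q q).val * P3 x : ℤ) : ℝ) / (q : ℕ) =
      ((j * sg * P3 x : ℤ) : ℝ) / (3 * (9 * lvl Q) : ℕ) := by
    rw [show ((j * sg * P3 x : ℤ) : ℝ) = ∑ q ∈ Q,
      ((j * (rhoQ Q q).val * P3 x : ℤ) : ℝ) * ((27 * lvl (Q.erase q) : ℕ) : ℝ) by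
        simp only [sg, mul_sum, sum_mul]
        push_cast
        exact sum_congr rfl fun q _ => by ring, sum_div]
    refine sum_congr rfl fun q hq => ?_
    rw [← lvl_erase hq]
    have : ((q : ℕ) : ℝ) ≠ 0 := Nat.cast_ne_zero.2 q.2.ne_zero
    have : ((lvl (Q.erase q) : ℕ) : ℝ) ≠ 0 := Nat.cast_ne_zero.2 (NeZero.ne _)
    push_cast
    field_simp
    ring
  rw [e2]
  refine (ee_congr ?_).symm
  rw [show j * sg * P3 x - j * P3 x = j * (sg - 1) * P3 x by ring,
    show ((3 * (9 * lvl Q) : ℕ) : ℤ) = 27 * (lvl Q : ℤ) by push_cast; ring]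
  refine (mul_dvd_mul hj (dvd_of_forall_primes fun q hq => ?_)).mul_right _
  rw [← ZMod.intCast_zmod_eq_zero_iff_dvd]
  simp only [sg, Int.cast_sub, Int.cast_sum, Int.cast_mul, Int.cast_natCast, Int.cast_one]
  rw [sum_eq_single q (fun p hp hpq => ?_) (fun h => absurd hq h), ZMod.natCast_zmod_val, rhoQ,
    inv_mul_cancel₀, sub_self]
  · intro h
    exact rhoQ_ne_zero hQ hq (by rw [rhoQ, h, _root_.inv_zero])
  · rw [(ZMod.natCast_eq_zero_iff _ _).2 ((dvd_lvl (mem_erase.2 ⟨hpq.symm, hq⟩)).mul_left 27),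
      mul_zero]

/-! ## The family -/

/-- The extension of an index. -/
def extI (S : Finset Nat.Primes) (l : Idx S) (q : Nat.Primes) : ZMod (q : ℕ) :=
  if h : q ∈ S then l ⟨q, h⟩ else 0

/-- The extended index at a prime of the set. -/
lemma extI_apply {S : Finset Nat.Primes} (l : Idx S) {q : Nat.Primes} (h : q ∈ S) :
    extI S l q = l ⟨q, h⟩ := dif_pos h

variable (Q S : Finset Nat.Primes) (κ : ∀ q : Nat.Primes, MulChar (EisMod (q : ℕ)) ℂ)
  (F : ∀ q : Nat.Primes, VQ (q : ℕ) → ℂ) (Φ : H3 → ℂ)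

/-- The forms of the family. -/
def fam (l : Idx S) : ℍ → ℂ :=
  Lam (27 * lvl Q) (9 * lvl Q) Φ (wt Q (famW Q S κ F (extI S l)))

/-- The matrices which permute the family modulo the maximal ideal. -/
def SlashMod (O : ValuationSubring ℂ) (h : Idx S → ℍ → ℂ) (γ : SL(2, ℤ)) : Prop :=
  ∃ C : Idx S → Idx S → O,
    (∀ i l, IsLocalRing.residue O (C i l) = augMat (IsLocalRing.ResidueField O) γ i l) ∧
    ∀ i, h i ∣[(1 : ℤ)] γ = fun τ => ∑ l, (C i l : ℂ) * h l τ

variable {Q S κ F Φ} {O : ValuationSubring ℂ}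

lemma slash_sum {ι : Type*} [Fintype ι] (c : ι → ℂ) (f : ι → ℍ → ℂ) (g : SL(2, ℤ)) :
    (fun τ => ∑ l, c l * f l τ) ∣[(1 : ℤ)] g = fun τ => ∑ l, c l * (f l ∣[(1 : ℤ)] g) τ := by
  funext τ
  simp only [ModularForm.SL_slash_apply, sum_mul, mul_assoc]

/-- Products of permuting matrices permute. -/
theorem SlashMod.mul {h : Idx S → ℍ → ℂ} {a b : SL(2, ℤ)} (ha : SlashMod S O h a)
    (hb : SlashMod S O h b) : SlashMod S O h (a * b) := by
  classical
  obtain ⟨C, hC, hCs⟩ := ha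
  obtain ⟨D, hD, hDs⟩ := hb
  refine ⟨fun i m => ∑ l, C i l * D l m, fun i m => ?_, fun i => ?_⟩
  · rw [map_sum]
    simp only [map_mul, hC, hD]
    have e := congrFun (augMat_mulVec_mul S (IsLocalRing.ResidueField O) a b
      (Pi.single m 1 : Idx S → IsLocalRing.ResidueField O)) i
    simp only [Matrix.mulVec, dotProduct, Matrix.of_apply, Pi.single_apply, mul_ite, mul_one,
      mul_zero, sum_ite_eq', mem_univ, if_true] at e
    exact e.symm
  · rw [SlashAction.slash_mul, hCs, slash_sum]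
    simp only [hDs]
    funext τ
    simp only [mul_sum, AddSubmonoidClass.coe_finsetSum, MulMemClass.coe_mul, sum_mul]
    rw [sum_comm]
    exact sum_congr rfl fun m _ => sum_congr rfl fun l _ => by ring

variable (hQ : ∀ q ∈ Q, (q : ℕ) ≠ 3) (hΦ : IsWave (27 * lvl Q) Φ)
  (hκ : ∀ q ∈ Q, κ q ^ 3 = 1) {χ : ∀ q : Nat.Primes, ZMod (q : ℕ) → ℂ}
  (hst : IsStandard Q S κ χ F)
  (hO : (3 : O) ∈ IsLocalRing.maximalIdeal O)

lemma inM_prod_sub_one {ι : Type*} {s : Finset ι} {f : ι → ℂ} (h : ∀ i ∈ s, InM O (f i - 1)) :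
    InM O ((∏ i ∈ s, f i) - 1) := by
  classical
  induction s using Finset.induction with
  | empty => simpa using inM_zero
  | insert a s ha ih =>
    have hs := ih fun i hi => h i (mem_insert_of_mem hi)
    have ha' := h a (mem_insert_self a s)
    have hm : f a ∈ O := by simpa using add_mem ha'.mem (one_mem O)
    rw [prod_insert ha,
      show f a * ∏ i ∈ s, f i - 1 = f a * ((∏ i ∈ s, f i) - 1) + (f a - 1) by ring]
    exact (InM.mulLeft hm hs).add ha'

/-- The matrix of a lower unipotent at one prime, as a difference of two indicators. -/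
private def lowT {p : ℕ} [Fact p.Prime] (R : Type*) [Ring R] (c x m : ZMod p) : R :=
  (if c * x + 1 ≠ 0 ∧ x / (c * x + 1) = m then 1 else 0) - if c⁻¹ = m then 1 else 0

private lemma map_lowT {p : ℕ} [Fact p.Prime] {R R' : Type*} [Ring R] [Ring R'] (f : R →+* R')
    (c x m : ZMod p) : f (lowT R c x m) = lowT R' c x m := by
  simp only [lowT, map_sub, apply_ite f, map_one, map_zero]

/-- The coefficients of the convolved family are congruent to the matrix. -/
private lemma inM_lowC_sub_lowT {p : ℕ} [Fact p.Prime] (h3O : (3 : O) ∈ IsLocalRing.maximalIdeal O)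
    (h2 : p % 3 = 2) {μ : MulChar (EisMod p) ℂ} (hμ : μ ^ 3 = 1) {ρ t c : ZMod p} (hρ : ρ ≠ 0)
    (hc : c ≠ 0) (htc : -t = ρ * c⁻¹) (x m : ZMod p) :
    InM O (lowC μ ρ t x m - lowT ℂ c x m) := by
  have ht0 : t ≠ 0 := neg_ne_zero.1 (htc ▸ mul_ne_zero hρ (inv_ne_zero hc))
  have h := inM_lowC h3O h2 hμ (ρ := ρ) ht0 x m
  have e2 : (m * ρ = -t) ↔ c⁻¹ = m := by
    rw [htc, mul_comm ρ, mul_left_inj' hρ, eq_comm]
  have e1 : (x * ρ ≠ t ∧ m * ρ = -(t * (x * ρ) / (x * ρ - t))) ↔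
      (c * x + 1 ≠ 0 ∧ x / (c * x + 1) = m) := by
    have hfac : x * ρ - t = ρ * c⁻¹ * (c * x + 1) := by
      rw [show t = -(ρ * c⁻¹) by rw [← htc, neg_neg]]
      field_simp
      ring
    have hiff : x * ρ ≠ t ↔ c * x + 1 ≠ 0 := by
      rw [not_iff_not, ← sub_eq_zero, hfac]
      simp [hρ, hc]
    rw [hiff]
    refine and_congr_right fun hne'' => ?_
    rw [hfac, show -(t * (x * ρ) / (ρ * c⁻¹ * (c * x + 1))) = x / (c * x + 1) * ρ by
      rw [show t = -(ρ * c⁻¹) by rw [← htc, neg_neg]]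
      field_simp, mul_left_inj' hρ, eq_comm]
  simpa only [lowT, e1, e2] using h

/-- A lower unipotent which is trivial at the other primes acts at one prime only. -/
private lemma augMat_loM {q : Nat.Primes} (hq : q ∈ S) (k : Type*) [CommRing k] {cc : ℤ}
    (hcq : (cc : ZMod (q : ℕ)) ≠ 0)
    (hdvd : ∀ p : S, p ≠ ⟨q, hq⟩ → ((p.1 : ℕ) : ℤ) ∣ cc) (i l : Idx S) :
    augMat k (loM cc) i l = if l = Function.update i ⟨q, hq⟩ (l ⟨q, hq⟩) then
      lowT k (cc : ZMod (q : ℕ)) (i ⟨q, hq⟩) (l ⟨q, hq⟩) else 0 := by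
  classical
  have hfac : ∀ p : S, p ≠ ⟨q, hq⟩ → ∀ z, moebius p.1 (loM cc) z = z := by
    intro p hp z
    have e : tld (p.1 : ℕ) (loM cc) = tld (p.1 : ℕ) 1 := Subtype.ext (Matrix.ext fun a b => by
      have h0 := (ZMod.intCast_zmod_eq_zero_iff_dvd cc (p.1 : ℕ)).2 (hdvd p hp)
      fin_cases a <;> fin_cases b <;> simp [tld, coe_loM, h0])
    rw [moebius, e, ← moebius, moebius_one]
  split_ifs with hl
  · have hinf : moebius q (loM cc) ∞ = (((cc : ZMod (q : ℕ))⁻¹ : ZMod (q : ℕ)) : OnePoint _) := by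
      rw [moebius, OnePoint.smul_infty_eq_ite]
      change (if (cc : ZMod (q : ℕ)) = 0 then ∞ else
        ((((1 : ℤ) : ZMod (q : ℕ)) / (cc : ZMod (q : ℕ)) : ZMod (q : ℕ)) :
          OnePoint (ZMod (q : ℕ)))) = _
      rw [if_neg hcq, Int.cast_one, one_div]
    have hpt : ∀ x : ZMod (q : ℕ), moebius q (loM cc) (x : OnePoint _) =
        if (cc : ZMod (q : ℕ)) * x + 1 = 0 then ∞ else
          ((x / ((cc : ZMod (q : ℕ)) * x + 1) : ZMod (q : ℕ)) : OnePoint _) := by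
      intro x
      rw [moebius, OnePoint.smul_some_eq_ite]
      change (if (cc : ZMod (q : ℕ)) * x + ((1 : ℤ) : ZMod (q : ℕ)) = 0 then ∞ else
        (((((1 : ℤ) : ZMod (q : ℕ)) * x + ((0 : ℤ) : ZMod (q : ℕ))) /
          ((cc : ZMod (q : ℕ)) * x + ((1 : ℤ) : ZMod (q : ℕ))) : ZMod (q : ℕ)) :
          OnePoint (ZMod (q : ℕ)))) = _
      simp
    have hprod : augMat k (loM cc) i l =
        (if moebius q (loM cc) (i ⟨q, hq⟩ : OnePoint _) = (l ⟨q, hq⟩ : OnePoint _) then 1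
          else 0) -
          (if moebius q (loM cc) ∞ = (l ⟨q, hq⟩ : OnePoint _) then 1 else 0) := by
      refine prod_eq_single (⟨q, hq⟩ : S) (fun p _ hp => ?_) (fun h => absurd (mem_univ _) h)
      have e : l p = i p := by rw [hl, Function.update_of_ne hp]
      rw [hfac p hp, hfac p hp, e, if_pos rfl, if_neg (OnePoint.infty_ne_coe _), sub_zero]
    rw [hprod, hinf, hpt, lowT]
    simp only [OnePoint.coe_eq_coe]
    congr 1
    by_cases h : (cc : ZMod (q : ℕ)) * i ⟨q, hq⟩ + 1 = 0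
    · simp [h]
    · simp [h]
  · obtain ⟨p, hp⟩ := Function.ne_iff.1 hl
    have hpq : p ≠ ⟨q, hq⟩ := fun e => hp (by rw [e, Function.update_self])
    rw [Function.update_of_ne hpq] at hp
    refine prod_eq_zero (mem_univ p) ?_
    rw [hfac p hpq, hfac p hpq, if_neg (fun e => hp (OnePoint.coe_eq_coe.1 e).symm),
      if_neg (OnePoint.infty_ne_coe _), sub_zero]

include hQ hΦ hκ hst hO

omit hΦ hκ in
/-- The Borel part. -/
theorem slashMod_borel {γ : SL(2, ℤ)} (hγ : γ ∈ CongruenceSubgroup.Gamma 27)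
    (hc : ((27 * lvl Q : ℕ) : ℤ) ∣ γ.1 1 0) : SlashMod S O (fam Q S κ F Φ) γ := by
  classical
  rw [CongruenceSubgroup.Gamma_mem] at hγ
  obtain ⟨ha1, hb0, -, hd1⟩ := hγ
  set a := γ.1 0 0
  set b := γ.1 0 1
  set c := γ.1 1 0
  set d := γ.1 1 1
  have hdet : a * d - b * c = 1 := by
    have h := γ.det_coe
    rwa [Matrix.det_fin_two] at h
  have hcq : ∀ q ∈ Q, (c : ZMod (q : ℕ)) = 0 := fun q hq =>
    (ZMod.intCast_zmod_eq_zero_iff_dvd _ _).2
      ((Int.natCast_dvd_natCast.2 ((dvd_lvl hq).mul_left 27)).trans hc)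
  have had : ∀ q ∈ Q, (a : ZMod (q : ℕ)) * d = 1 := fun q hq => by
    have h := congrArg (fun z : ℤ => (z : ZMod (q : ℕ))) hdet
    push_cast at h
    rwa [hcq q hq, mul_zero, sub_zero] at h
  have hdq : ∀ q ∈ Q, (d : ZMod (q : ℕ)) ≠ 0 := fun q hq h => by
    have := had q hq
    rw [h, mul_zero] at this
    exact zero_ne_one this
  have hd27 : ((27 : ℕ) : ℤ) ∣ d - 1 := by
    rw [← ZMod.intCast_zmod_eq_zero_iff_dvd, Int.cast_sub, hd1, Int.cast_one, sub_self]
  have hb27 : ((27 : ℕ) : ℤ) ∣ b := (ZMod.intCast_zmod_eq_zero_iff_dvd _ _).1 hb0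
  set e : ℂ := ∏ q ∈ Q, if q ∈ S then 1 else χ q d
  have he : InM O (e - 1) := by
    refine inM_prod_sub_one fun q hq => ?_
    split_ifs with h
    · simpa using inM_zero
    · exact inM_cube hO ((hst.ps q hq h).2.1 _ (hdq q hq))
  set prm : Idx S → Idx S := fun i q => (d : ZMod ((q.1 : Nat.Primes) : ℕ)) * d * i q + b * d
  refine ⟨fun i l => if l = prm i then ⟨e, by simpa using add_mem he.mem (one_mem O)⟩ else 0,
    fun i l => ?_, fun i => ?_⟩
  · have hm : ∀ q : S, moebius q.1 γ ∞ = ∞ := fun q =>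
      (moebius_eq_infty_iff q.1 γ).2
        ((Int.natCast_dvd_natCast.2 ((dvd_lvl (hst.subset q.2)).mul_left 27)).trans hc)
    have hi : ∀ q : S, moebius q.1 γ (i q : OnePoint _) = ((prm i q : ZMod _) : OnePoint _) := by
      intro q
      rw [moebius, OnePoint.smul_some_eq_ite]
      change (if (c : ZMod _) * i q + (a : ZMod _) = 0 then ∞ else
        ((((d : ZMod _) * i q + (b : ZMod _)) / ((c : ZMod _) * i q + (a : ZMod _)) : ZMod _) :
          OnePoint (ZMod ((q.1 : Nat.Primes) : ℕ)))) = _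
      have h := had q.1 (hst.subset q.2)
      have ha0 : (a : ZMod ((q.1 : Nat.Primes) : ℕ)) ≠ 0 := left_ne_zero_of_mul_eq_one h
      rw [hcq q.1 (hst.subset q.2), zero_mul, zero_add, if_neg ha0]
      congr 1
      simp only [prm]
      rw [div_eq_iff ha0]
      linear_combination (-((d : ZMod ((q.1 : Nat.Primes) : ℕ)) * i q) - b) * h
    have haug : augMat (IsLocalRing.ResidueField O) γ i l = if l = prm i then 1 else 0 := by
      simp only [augMat, hm, hi, OnePoint.infty_ne_coe, if_false, sub_zero, OnePoint.coe_eq_coe]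
      split_ifs with h
      · exact prod_eq_one fun q _ => if_pos (by rw [h])
      · obtain ⟨q, hq⟩ := Function.ne_iff.1 h
        exact prod_eq_zero (mem_univ q) (if_neg (Ne.symm hq))
    rw [haug]
    dsimp only
    split_ifs with h
    · rw [← map_one (IsLocalRing.residue O)]
      exact residue_eq_of_inM (by simpa using he)
    · exact map_zero _
  · rw [fam, Lam_gamma isPer_wt γ (by rwa [show 3 * (9 * lvl Q) = 27 * lvl Q by ring])
      ((dvd_trans (by norm_num) hd27 : (3 : ℤ) ∣ d - 1))]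
    funext τ
    dsimp only
    rw [sum_eq_single (prm i) (fun l _ hl => by rw [if_neg hl]; simp)
      (fun h => absurd (mem_univ _) h), if_pos rfl, fam, ← Lam_smul]
    refine congrFun (Lam_congr fun x => ?_) τ
    have h9 : dl9 (d • x) = dl9 x := by
      obtain ⟨m, hm⟩ := hd27
      obtain ⟨y, hy⟩ := exists_subV_smul (k := 9) m x
      have hx : d • x = x + subV 9 y := by
        rw [← hy, show d = 1 + 3 * ((9 : ℕ) : ℤ) * m by push_cast at hm ⊢; linear_combination hm,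
          add_smul, one_smul]
      simp only [dl9]
      refine if_congr ⟨fun ⟨z, hz⟩ => ⟨z + -y, ?_⟩, fun ⟨z, hz⟩ => ⟨z + y, ?_⟩⟩ rfl rfl
      · rw [subV_add, subV_neg, ← add_assoc, ← hz, hx, add_neg_cancel_right]
      · rw [subV_add, hx, hz, add_assoc]
    simp only [mE, wt, Pi.smul_apply, smul_eq_mul]
    rw [show γ.1 1 1 = d from rfl, show γ.1 0 1 = b from rfl, h9]
    rw [prod_char_mE hQ (hb27.mul_right d) x]
    simp only [e]
    rw [mul_assoc (dl9 x), ← prod_mul_distrib, mul_left_comm _ (dl9 x), ← prod_mul_distrib]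
    congr 1
    refine prod_congr rfl fun q hq => ?_
    rw [map_zsmul, ← Int.cast_smul_eq_zsmul (ZMod (q : ℕ))]
    set v := redL (q : ℕ) x
    by_cases hqS : q ∈ S
    · obtain ⟨h2, hs, -⟩ := hst.cusp q hqS
      simp only [famW, if_pos hqS, extI_apply _ hqS, prm, one_mul]
      simp only [famU, PQ_smul, Prod.smul_fst, Prod.smul_snd, smul_eq_mul]
      by_cases hv : v.2.1 = 0
      · rw [hv, mul_zero, if_pos rfl, if_pos rfl]
        have hk : κ q ((d : ZMod (q : ℕ)) • v.2.2) = κ q v.2.2 := by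
          rw [show (d : ZMod (q : ℕ)) • v.2.2 = cQ (d : ZMod (q : ℕ)) * v.2.2 by ext <;> simp,
            map_mul, hs _ (hdq q hq), one_mul]
        rw [hk, mul_right_comm, ← AddChar.map_add_eq_mul]
        congr 2
        push_cast
        ring
      · rw [if_neg hv, if_neg (mul_ne_zero (hdq q hq) hv), zero_mul]
    · simp only [famW, if_neg hqS]
      obtain ⟨hsupp, -, hsc⟩ := hst.ps q hq hqS
      rw [hsc _ (hdq q hq)]
      by_cases hP : PQ v = 0
      · rw [hP, mul_zero, AddChar.map_zero_eq_one, mul_one]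
      · rw [hsupp v hP]; ring

omit hO in
/-- The slash of a form of the family by a lower unipotent at one cuspidal prime. -/
private lemma fam_slash_loM {q : Nat.Primes} (hq : q ∈ S) {j : ℤ} (hj : (j : ZMod (q : ℕ)) ≠ 0)
    (i : Idx S) :
    fam Q S κ F Φ i ∣[(1 : ℤ)] loM (((27 * lvl (Q.erase q) : ℕ) : ℤ) * j) = fun τ =>
      ∑ m : ZMod (q : ℕ),
        lowC (κ q) (rhoQ Q q) (-(rhoQ Q q ^ 2 * (j : ZMod (q : ℕ))⁻¹)) (i ⟨q, hq⟩) m *
          fam Q S κ F Φ (Function.update i ⟨q, hq⟩ m) τ := by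
  classical
  obtain ⟨h2, hs, hne⟩ := hst.cusp q hq
  have hqQ := hst.subset hq
  set N : ℕ := 9 * lvl (Q.erase q) with hN
  set ρ := rhoQ Q q with hρdef
  have hρ : ρ ≠ 0 := rhoQ_ne_zero hQ hqQ
  set t : ZMod (q : ℕ) := -(ρ ^ 2 * (j : ZMod (q : ℕ))⁻¹) with ht
  have ht0 : t ≠ 0 := neg_ne_zero.2 (mul_ne_zero (pow_ne_zero _ hρ) (inv_ne_zero hj))
  have hk : (q : ℕ) * N = 9 * lvl Q := by rw [hN, ← lvl_erase hqQ]; ring
  set u : ZMod (q : ℕ) := i ⟨q, hq⟩
  set R := wt (Q.erase q) (famW Q S κ F (extI S i))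
  have hw : ∀ m, wt Q (famW Q S κ F (extI S (Function.update i ⟨q, hq⟩ m))) =
      tw (q : ℕ) R (famU (κ q) ρ m) := fun m => by
    rw [wt_eq_tw hqQ]
    congr 1
    · refine wt_congr fun p hp => ?_
      have hpq := (mem_erase.1 hp).1
      by_cases hpS : p ∈ S
      · simp only [famW, if_pos hpS, extI_apply _ hpS]
        rw [Function.update_of_ne fun e => hpq (congrArg Subtype.val e)]
      · simp only [famW, if_neg hpS]
    · simp only [famW, if_pos hq, extI_apply _ hq, Function.update_self, hρdef]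
  have hi' : fam Q S κ F Φ i = Lam (27 * lvl Q) ((q : ℕ) * N) Φ
      (tw (q : ℕ) R (famU (κ q) ρ u)) := by
    rw [← hw, Function.update_eq_self, hk]
    rfl
  rw [hi', Lam_lower (n := 27 * lvl Q) (Φ := Φ) (k := N) (coprime_rest hQ hqQ) hj
    (R := R) isPer_wt (famU (κ q) ρ u) _ (by rw [coe_loM, hN]; push_cast; ring_nf)]
  funext τ
  have ht' : -((((3 * N : ℕ) : ZMod (q : ℕ))⁻¹) ^ 2 * (j : ZMod (q : ℕ))⁻¹) = t := by
    rw [ht, hρdef, rhoQ, show 3 * N = 27 * lvl (Q.erase q) by rw [hN]; ring]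
  rw [ht', ← Lam_smul]
  have hexp : (eps (q : ℕ) / ((q : ℕ) : ℂ) ^ 2) • tw (q : ℕ) R (conv t (famU (κ q) ρ u)) =
      fun x => ∑ m : ZMod (q : ℕ), (lowC (κ q) ρ t u m • tw (q : ℕ) R (famU (κ q) ρ m)) x := by
    funext x
    simp only [Pi.smul_apply, smul_eq_mul, tw]
    rw [mul_left_comm, conv_expand h2 (hκ q hqQ) hs hne hρ ht0, mul_sum]
    exact sum_congr rfl fun m _ => by ring
  rw [hexp, Lam_sum hΦ univ fun m => (isPer_tw isPer_wt _).smul' _]
  simp only [Lam_smul]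
  exact sum_congr rfl fun m _ => by rw [fam, hw, hk]

/-- The lower unipotent matrices at one cuspidal prime. -/
theorem slashMod_lower {q : Nat.Primes} (hq : q ∈ S) {j : ℤ} (hj : (j : ZMod (q : ℕ)) ≠ 0) :
    SlashMod S O (fam Q S κ F Φ) (loM (((27 * lvl (Q.erase q) : ℕ) : ℤ) * j)) := by
  classical
  obtain ⟨h2, -, -⟩ := hst.cusp q hq
  have hqQ := hst.subset hq
  set cc := ((27 * lvl (Q.erase q) : ℕ) : ℤ) * j with hcc
  set ρ := rhoQ Q q with hρdef
  have hρ : ρ ≠ 0 := rhoQ_ne_zero hQ hqQ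
  set t : ZMod (q : ℕ) := -(ρ ^ 2 * (j : ZMod (q : ℕ))⁻¹) with ht
  have hcbar : (cc : ZMod (q : ℕ)) = ρ⁻¹ * j := by
    simp [hcc, hρdef, rhoQ]
  have hcq0 : (cc : ZMod (q : ℕ)) ≠ 0 := by
    rw [hcbar]; exact mul_ne_zero (inv_ne_zero hρ) hj
  have htc : -t = ρ * (cc : ZMod (q : ℕ))⁻¹ := by
    rw [ht, hcbar, neg_neg, _root_.mul_inv_rev, inv_inv]; ring
  have hdvd : ∀ p : S, p ≠ ⟨q, hq⟩ → ((p.1 : ℕ) : ℤ) ∣ cc := fun p hp =>
    (Int.natCast_dvd_natCast.2 ((dvd_lvl (mem_erase.2 ⟨fun h => hp (Subtype.ext h),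
      hst.subset p.2⟩)).mul_left 27)).mul_right _
  let C : Idx S → Idx S → ℂ := fun i l =>
    if l = Function.update i ⟨q, hq⟩ (l ⟨q, hq⟩) then lowC (κ q) ρ t (i ⟨q, hq⟩) (l ⟨q, hq⟩) else 0
  let T : Idx S → Idx S → O := fun i l => if l = Function.update i ⟨q, hq⟩ (l ⟨q, hq⟩) then
    lowT O (cc : ZMod (q : ℕ)) (i ⟨q, hq⟩) (l ⟨q, hq⟩) else 0
  have hT : ∀ i l, InM O (C i l - T i l) := fun i l => by
    simp only [C, T]
    split_ifs
    · rw [← O.coe_subtype, map_lowT]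
      exact inM_lowC_sub_lowT hO h2 (hκ q hqQ) hρ hcq0 htc _ _
    · simpa using inM_zero
  have hmem : ∀ i l, C i l ∈ O := fun i l => by simpa using add_mem (hT i l).mem (T i l).2
  refine ⟨fun i l => ⟨C i l, hmem i l⟩, fun i l => ?_, fun i => ?_⟩
  · rw [augMat_loM hq _ hcq0 hdvd, residue_eq_of_inM (b := T i l) (hT i l)]
    simp only [T, apply_ite (IsLocalRing.residue O), map_lowT, map_zero]
  · rw [fam_slash_loM hQ hΦ hκ hst hq hj]
    funext τ
    simp only [C, ite_mul, zero_mul]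
    rw [← sum_filter]
    refine sum_bij (fun m _ => Function.update i ⟨q, hq⟩ m) (fun m _ => mem_filter.2
      ⟨mem_univ _, by rw [Function.update_self]⟩) (fun a _ b _ e => ?_)
      (fun l hl => ?_) fun m _ => ?_
    · simpa using congrFun e ⟨q, hq⟩
    · exact ⟨l ⟨q, hq⟩, mem_univ _, (mem_filter.1 hl).2.symm⟩
    · rw [Function.update_self]

/-- Lower unipotent matrices. -/
theorem slashMod_loM {y : ℤ} (hy : ((27 * lvl (Q \ S) : ℕ) : ℤ) ∣ y) :
    SlashMod S O (fam Q S κ F Φ) (loM y) := by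
  classical
  suffices h : ∀ T ⊆ S, ∀ y : ℤ, ((27 * lvl (Q \ T) : ℕ) : ℤ) ∣ y →
      SlashMod S O (fam Q S κ F Φ) (loM y) from h S subset_rfl y hy
  intro T hT
  induction T using Finset.induction with
  | empty =>
    intro y hy
    rw [sdiff_empty] at hy
    exact slashMod_borel hQ hst hO
      (loM_mem_Gamma ((Int.natCast_dvd_natCast.2 (dvd_mul_right 27 _)).trans hy))
      (by simpa [coe_loM] using hy)
  | insert q T hqT ih =>
    intro y hy
    have hqS : q ∈ S := hT (mem_insert_self q T)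
    have hqQ := hst.subset hqS
    obtain ⟨j, hj⟩ := ZMod.intCast_surjective ((y : ZMod (q : ℕ)) * rhoQ Q q)
    set N : ℤ := ((27 * lvl (Q.erase q) : ℕ) : ℤ)
    have hN : (N : ZMod (q : ℕ)) = (rhoQ Q q)⁻¹ := by simp [N, rhoQ]
    have h1 : ((q : ℕ) : ℤ) ∣ y - N * j := by
      rw [← ZMod.intCast_zmod_eq_zero_iff_dvd]
      push_cast
      rw [hN, hj]
      have := rhoQ_ne_zero hQ hqQ
      field_simp
      ring
    set P := Q \ insert q T
    have hP : Q \ T = insert q P := by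
      ext p
      simp only [P, mem_sdiff, mem_insert]
      by_cases h : p = q
      · subst h; simp [hqQ, hqT]
      · simp [h]
    have hqP : q ∉ P := by simp [P]
    have hsub : lvl P ∣ lvl (Q.erase q) := prod_dvd_prod_of_subset _ _ _ fun p hp => by
      simp only [P, mem_sdiff, mem_insert, not_or] at hp
      exact mem_erase.2 ⟨hp.2.1, hp.1⟩
    have h2 : ((27 * lvl P : ℕ) : ℤ) ∣ y - N * j :=
      dvd_sub hy ((Int.natCast_dvd_natCast.2 (Nat.mul_dvd_mul_left 27 hsub)).mul_right j)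
    have h3 : ((27 * lvl (Q \ T) : ℕ) : ℤ) ∣ y - N * j := by
      rw [hP, lvl, prod_insert hqP, ← lvl, mul_left_comm, Nat.cast_mul]
      refine IsCoprime.mul_dvd (Nat.Coprime.cast (R := ℤ) ?_) h1 h2
      exact (Nat.Coprime.pow_right 3 ((Nat.coprime_primes q.2 Nat.prime_three).2
        (hQ q hqQ))).mul_right (coprime_lvl hqP)
    have hy' := ih ((subset_insert q T).trans hT) _ h3
    rw [show y = N * j + (y - N * j) by ring, loM_add]
    refine SlashMod.mul ?_ hy'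
    by_cases hj0 : (j : ZMod (q : ℕ)) = 0
    · have hd : ((27 * lvl Q : ℕ) : ℤ) ∣ N * j := by
        obtain ⟨s, hs⟩ := (ZMod.intCast_zmod_eq_zero_iff_dvd _ _).1 hj0
        refine ⟨s, ?_⟩
        rw [hs, ← lvl_erase hqQ]
        simp only [N]
        push_cast; ring
      exact slashMod_borel hQ hst hO
        (loM_mem_Gamma ((Int.natCast_dvd_natCast.2 (dvd_mul_right 27 _)).trans hd))
        (by simpa [coe_loM] using hd)
    · exact slashMod_lower hQ hΦ hκ hst hO hqS hj0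

/-- **The action on the family**: modulo the maximal ideal `Γ(27) ∩ Γ₀(∏_{q ∈ Q ∖ S} q)` permutes
the forms of a family with standard components by the augmented permutation matrices. -/
theorem slashMod_all {γ : SL(2, ℤ)}
    (hγ : γ ∈ CongruenceSubgroup.Gamma 27 ⊓ CongruenceSubgroup.Gamma0 (lvl (Q \ S))) :
    SlashMod S O (fam Q S κ F Φ) γ := by
  classical
  obtain ⟨h27, h0⟩ := Subgroup.mem_inf.1 hγ
  rw [CongruenceSubgroup.Gamma0_mem, ZMod.intCast_zmod_eq_zero_iff_dvd] at h0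
  set c := γ.1 1 0
  set d := γ.1 1 1
  have hn27 : ∀ q ∈ S, ¬ (q : ℕ) ∣ 27 := fun q hq h => hQ q (hst.subset hq)
    ((Nat.prime_dvd_prime_iff_eq q.2 Nat.prime_three).1
      (q.2.dvd_of_dvd_pow (show (q : ℕ) ∣ 3 ^ 3 from h)))
  obtain ⟨x, hx27, hx⟩ := exists_int_prescribed (S := S) 27 hn27
    fun q => if ((d : ZMod ((q.1 : Nat.Primes) : ℕ))) = 0 then 1 else 0
  have hne : ∀ q : S, ((c * x + d : ℤ) : ZMod ((q.1 : Nat.Primes) : ℕ)) ≠ 0 := by
    intro q
    push_cast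
    rw [hx q]
    split_ifs with hd
    · rw [hd, mul_one, add_zero]
      intro hc
      have h := congrArg (fun z : ℤ => (z : ZMod ((q.1 : Nat.Primes) : ℕ))) γ.det_coe
      simp only [Matrix.det_fin_two, Int.cast_sub, Int.cast_mul, Int.cast_one] at h
      rw [show ((γ.1 1 1 : ℤ) : ZMod ((q.1 : Nat.Primes) : ℕ)) = 0 from hd,
        show ((γ.1 1 0 : ℤ) : ZMod ((q.1 : Nat.Primes) : ℕ)) = 0 from hc] at h
      simp at h
    · rwa [mul_zero, zero_add]
  obtain ⟨y, hy27, hy⟩ := exists_int_prescribed (S := S) (27 * lvl (Q \ S)) (fun q hq h => by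
      rcases (Nat.Prime.dvd_mul q.2).1 h with h' | h'
      · exact hn27 q hq h'
      · exact (Nat.Prime.coprime_iff_not_dvd q.2).1 (coprime_lvl fun h'' =>
          (mem_sdiff.1 h'').2 hq) h')
    fun q =>
      -(c : ZMod ((q.1 : Nat.Primes) : ℕ)) / ((c * x + d : ℤ) : ZMod ((q.1 : Nat.Primes) : ℕ))
  set g1 := γ * upM x * loM y
  have h27x : ((27 : ℕ) : ℤ) ∣ x := hx27
  have h27y : ((27 : ℕ) : ℤ) ∣ y := (Int.natCast_dvd_natCast.2 (dvd_mul_right 27 _)).trans hy27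
  have hMAy : ((lvl (Q \ S) : ℕ) : ℤ) ∣ y :=
    (Int.natCast_dvd_natCast.2 (dvd_mul_left _ 27)).trans hy27
  have hg1 : g1 ∈ CongruenceSubgroup.Gamma 27 :=
    Subgroup.mul_mem _ (Subgroup.mul_mem _ h27 (upM_mem_Gamma h27x)) (loM_mem_Gamma h27y)
  have hc' : g1.1 1 0 = c + (c * x + d) * y := by
    simp only [g1, Matrix.SpecialLinearGroup.coe_mul]
    simp [coe_loM, coe_upM, Matrix.mul_apply, Fin.sum_univ_two, c, d]
  have hdvd : ((27 * lvl Q : ℕ) : ℤ) ∣ g1.1 1 0 := by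
    push_cast
    refine IsCoprime.mul_dvd ?_ ?_ (dvd_of_forall_primes fun q hq => ?_)
    · have h3 : ∀ q ∈ Q, (27 : ℕ).Coprime (q : ℕ) := fun q hq =>
        Nat.Coprime.pow_left 3 ((Nat.coprime_primes Nat.prime_three q.2).2 (hQ q hq).symm)
      exact_mod_cast (Nat.Coprime.cast (R := ℤ) (Nat.Coprime.prod_right h3))
    · have := hg1
      rw [CongruenceSubgroup.Gamma_mem] at this
      exact_mod_cast (ZMod.intCast_zmod_eq_zero_iff_dvd _ _).1 this.2.2.1
    · rw [hc', ← ZMod.intCast_zmod_eq_zero_iff_dvd]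
      by_cases hqS : q ∈ S
      · have h := hne ⟨q, hqS⟩
        simp only [Int.cast_add, Int.cast_mul] at h ⊢
        rw [hy ⟨q, hqS⟩]
        push_cast
        field_simp
        ring
      · have hmem : q ∈ Q \ S := mem_sdiff.2 ⟨hq, hqS⟩
        rw [ZMod.intCast_zmod_eq_zero_iff_dvd]
        have hqd := Int.natCast_dvd_natCast.2 (dvd_lvl hmem)
        exact dvd_add (hqd.trans h0) ((hqd.trans hMAy).mul_left _)
  have hγeq : γ = g1 * loM (-y) * upM (-x) := by
    simp only [g1, mul_assoc]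
    rw [← mul_assoc (loM y), ← loM_add, add_neg_cancel, loM_zero, one_mul, ← upM_add,
      add_neg_cancel, upM_zero, mul_one]
  rw [hγeq]
  refine SlashMod.mul (SlashMod.mul (slashMod_borel hQ hst hO hg1 hdvd) ?_) ?_
  · exact slashMod_loM hQ hΦ hκ hst hO (dvd_neg.2 hy27)
  · exact slashMod_borel hQ hst hO (upM_mem_Gamma (dvd_neg.2 h27x))
      (by simp [coe_upM])

end FermatAgent.LT.Lift
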