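import Mathlib
import Fermat.Agent.LT.Base.Proper

/-!
# Hermitian forms over the Eisenstein integers

The lattice of hermitian matrices `[[a, β / θ], [conj (β / θ), d]]` with `a, d` rational integers,
`β` an Eisenstein integer and `θ = √-3`, the linear functional attached to a point of hyperbolic
space, and the action of two by two matrices.
-/

set_option autoImplicit false

noncomputable section

open Matrix ComplexConjugate
open scoped MatrixGroups

namespace FermatAgent.LT.Lift

/-- The Eisenstein integers. -/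
abbrev Eis := QuadraticAlgebra ℤ (-1) (-1)

/-- The square root of `-3`. -/
def thE : Eis := ⟨1, 2⟩

/-- The cube root of unity in `ℂ`. -/
def zC : ℂ := ⟨-1 / 2, √3 / 2⟩

/-- The square root of `-3` in `ℂ`. -/
def thC : ℂ := ⟨0, √3⟩

/-- The square of the square root of three. -/
lemma sqrt3_sq : √(3 : ℝ) * √(3 : ℝ) = 3 := Real.mul_self_sqrt (by norm_num)

/-- The relation of the cube root of unity. -/
lemma zC_rel : zC * zC = (-1 : ℤ) • (1 : ℂ) + (-1 : ℤ) • zC := by
  simp only [zC, neg_smul, one_smul]
  apply Complex.ext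
  · simp; nlinarith [sqrt3_sq]
  · simp; ring

/-- The embedding. -/
def toC : Eis →+* ℂ := (QuadraticAlgebra.lift ⟨zC, zC_rel⟩).toRingHom

/-- The embedding in coordinates. -/
lemma toC_apply (x : Eis) : toC x = (x.re : ℂ) + (x.im : ℂ) * zC := by
  show x.re • (1 : ℂ) + x.im • zC = _
  rw [zsmul_eq_mul, zsmul_eq_mul, mul_one]

lemma conj_zC : conj zC = -1 - zC := by
  apply Complex.ext
  · simp [zC]; norm_num
  · simp [zC]

lemma toC_star (x : Eis) : toC (star x) = conj (toC x) := by
  rw [toC_apply, toC_apply, QuadraticAlgebra.re_star, QuadraticAlgebra.im_star]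
  simp only [map_add, map_mul, map_intCast, conj_zC, Int.cast_add, Int.cast_mul, Int.cast_neg,
    Int.cast_one]
  ring

/-- The element `θ` as `1 + 2ζ`. -/
lemma thC_eq : thC = 1 + 2 * zC := by
  apply Complex.ext
  · simp [thC, zC]; norm_num
  · simp [thC, zC]; ring

lemma toC_thE : toC thE = thC := by
  rw [toC_apply, thC_eq]
  simp [thE]

lemma conj_thC : conj thC = -thC := by
  apply Complex.ext <;> simp [thC]

/-- The square of `θ`. -/
lemma thC_mul_self : thC * thC = -3 := by
  apply Complex.ext
  · simp [thC]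
  · simp [thC]

/-- The element `θ` is nonzero. -/
lemma thC_ne_zero : thC ≠ 0 := fun h => by
  have := thC_mul_self
  rw [h] at this
  norm_num at this

/-- The embedding is injective. -/
lemma toC_injective : Function.Injective toC := by
  intro x y h
  rw [toC_apply, toC_apply] at h
  have h2 := congrArg Complex.im h
  have h1 := congrArg Complex.re h
  simp [zC] at h1 h2
  have e2 : x.im = y.im := by exact_mod_cast h2
  rw [e2] at h1
  have e1 : x.re = y.re := by
    have : (x.re : ℝ) = y.re := by linarith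
    exact_mod_cast this
  exact QuadraticAlgebra.ext e1 e2

/-- Absolute squares are norms. -/
lemma normSq_toC (x : Eis) : Complex.normSq (toC x) = (QuadraticAlgebra.norm x : ℤ) := by
  rw [toC_apply, QuadraticAlgebra.norm_def, Complex.normSq_apply]
  simp [zC]
  linear_combination ((x.im : ℝ) ^ 2 / 4) * sqrt3_sq

lemma toC_sub_star (x : Eis) : toC x - conj (toC x) = (x.im : ℂ) * thC := by
  rw [← toC_star, toC_apply, toC_apply, thC_eq, QuadraticAlgebra.re_star, QuadraticAlgebra.im_star]
  push_cast
  ring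

/-- The lattice, in coordinates. -/
abbrev Vec := ℤ × ℤ × Eis

/-- The hermitian matrix of a vector. -/
def mat (x : Vec) : Matrix (Fin 2) (Fin 2) ℂ :=
  !![(x.1 : ℂ), toC x.2.2 / thC; conj (toC x.2.2 / thC), (x.2.1 : ℂ)]

/-- Vectors are determined by their matrices. -/
lemma mat_injective : Function.Injective mat := by
  intro x y h
  have h00 := congrFun (congrFun h 0) 0
  have h01 := congrFun (congrFun h 0) 1
  have h11 := congrFun (congrFun h 1) 1
  simp [mat, thC_ne_zero] at h00 h01 h11
  exact Prod.ext h00 (Prod.ext h11 (toC_injective h01))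

lemma mat_add (x y : Vec) : mat (x + y) = mat x + mat y := by
  ext i j
  fin_cases i <;> fin_cases j <;> simp [mat, add_div]

lemma mat_neg (x : Vec) : mat (-x) = -mat x := by
  ext i j
  fin_cases i <;> fin_cases j <;> simp [mat, neg_div]

/-- Three times the quadratic form. -/
def P3 (x : Vec) : ℤ := QuadraticAlgebra.norm x.2.2 - 3 * x.1 * x.2.1

/-- The polar form of `P3`. -/
def B3 (x y : Vec) : ℤ := P3 (x + y) - P3 x - P3 y

/-- The quadratic form. -/
def qf (x : Vec) : ℝ := (P3 x : ℝ) / 3

/-- The determinant is minus the form. -/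
lemma det_mat (x : Vec) : (mat x).det = -(qf x : ℂ) := by
  rw [Matrix.det_fin_two]
  have h : toC x.2.2 / thC * conj (toC x.2.2 / thC) =
      ((QuadraticAlgebra.norm x.2.2 : ℤ) : ℂ) / 3 := by
    rw [map_div₀, conj_thC, div_mul_div_comm, Complex.mul_conj, normSq_toC, mul_neg, thC_mul_self]
    norm_num
  simp only [mat, of_apply, cons_val', cons_val_zero, cons_val_one, cons_val_fin_one, empty_val',
    h, qf, P3]
  push_cast
  ring

/-- The pairing in coordinates. -/
lemma B3_eq (x y : Vec) : B3 x y = (x.2.2 * star y.2.2 + y.2.2 * star x.2.2).re -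
    3 * (x.1 * y.2.1 + y.1 * x.2.1) := by
  simp only [B3, P3, Prod.fst_add, Prod.snd_add, QuadraticAlgebra.norm_def, QuadraticAlgebra.re_add,
    QuadraticAlgebra.im_add, QuadraticAlgebra.re_mul, QuadraticAlgebra.re_star,
    QuadraticAlgebra.im_star]
  ring

/-- The pairing is symmetric. -/
lemma B3_comm (x y : Vec) : B3 x y = B3 y x := by
  rw [B3, B3, add_comm x y]; ring

/-- The pairing is additive. -/
lemma B3_add_left (x y z : Vec) : B3 (x + y) z = B3 x z + B3 y z := by
  simp only [B3_eq, Prod.fst_add, Prod.snd_add, QuadraticAlgebra.re_add, QuadraticAlgebra.im_add,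
    QuadraticAlgebra.re_mul, QuadraticAlgebra.re_star, QuadraticAlgebra.im_star, star_add]
  ring

/-- The polarisation identity. -/
lemma P3_add (x y : Vec) : P3 (x + y) = P3 x + P3 y + B3 x y := by rw [B3]; ring

/-- The action of a matrix, `X ↦ g X gᴴ`. -/
def cj (g : Matrix (Fin 2) (Fin 2) Eis) (x : Vec) : Vec :=
  (QuadraticAlgebra.norm (g 0 0) * x.1 + QuadraticAlgebra.norm (g 0 1) * x.2.1 +
      (g 0 0 * x.2.2 * star (g 0 1)).im,
   QuadraticAlgebra.norm (g 1 0) * x.1 + QuadraticAlgebra.norm (g 1 1) * x.2.1 +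
      (g 1 0 * x.2.2 * star (g 1 1)).im,
   thE * ((x.1 : Eis) * (g 0 0 * star (g 1 0)) + (x.2.1 : Eis) * (g 0 1 * star (g 1 1))) +
      g 0 0 * x.2.2 * star (g 1 1) - g 0 1 * star x.2.2 * star (g 1 0))

/-- Entries in `ℂ`. -/
def matC (g : Matrix (Fin 2) (Fin 2) Eis) : Matrix (Fin 2) (Fin 2) ℂ := g.map toC

/-- The congruence action on matrices. -/
lemma mat_cj (g : Matrix (Fin 2) (Fin 2) Eis) (x : Vec) :
    mat (cj g x) = matC g * mat x * (matC g)ᴴ := by
  have h0 := thC_ne_zero
  have key : ∀ y : Eis, ((y.im : ℤ) : ℂ) = (toC y - conj (toC y)) / thC := fun y => by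
    rw [toC_sub_star]; field_simp
  have hn : ∀ y : Eis, ((QuadraticAlgebra.norm y : ℤ) : ℂ) = toC y * conj (toC y) := fun y => by
    rw [Complex.mul_conj, normSq_toC]; norm_cast
  have hcc : ∀ a b c : ℂ, conj (a * b * c) = conj a * conj b * conj c := fun a b c => by
    rw [map_mul, map_mul]
  ext i j
  fin_cases i <;> fin_cases j <;>
    simp only [mat, cj, matC, Matrix.mul_apply, Fin.sum_univ_two, Matrix.conjTranspose_apply,
      Matrix.map_apply, of_apply, cons_val', cons_val_zero, cons_val_one, cons_val_fin_one,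
      empty_val', Fin.zero_eta, Fin.mk_one, Int.cast_add, Int.cast_mul, map_add, map_sub, map_mul,
      map_div₀, map_intCast, key, hn, toC_star, toC_thE, conj_thC, RCLike.star_def,
      Complex.conj_conj, hcc] <;>
    field_simp <;> ring

lemma cj_one (x : Vec) : cj 1 x = x :=
  mat_injective (by simp [mat_cj, matC])

/-- The congruence action is multiplicative. -/
lemma cj_mul (g h : Matrix (Fin 2) (Fin 2) Eis) (x : Vec) : cj (g * h) x = cj g (cj h x) :=
  mat_injective (by
    simp only [mat_cj, matC, Matrix.map_mul, Matrix.conjTranspose_mul, Matrix.mul_assoc])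

lemma cj_add (g : Matrix (Fin 2) (Fin 2) Eis) (x y : Vec) : cj g (x + y) = cj g x + cj g y :=
  mat_injective (by simp only [mat_cj, mat_add, Matrix.mul_add, Matrix.add_mul])

/-- The action of a matrix as an additive homomorphism. -/
def cjHom (g : Matrix (Fin 2) (Fin 2) Eis) : Vec →+ Vec :=
  AddMonoidHom.mk' (cj g) (cj_add g)

/-- The congruence action scales the form by the norm of the determinant. -/
lemma P3_cj (g : Matrix (Fin 2) (Fin 2) Eis) (x : Vec) :
    P3 (cj g x) = QuadraticAlgebra.norm g.det * P3 x := by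
  have h1 := det_mat (cj g x)
  rw [mat_cj, Matrix.det_mul, Matrix.det_mul, Matrix.det_conjTranspose, det_mat,
    show (matC g).det = toC g.det from (toC.map_det g).symm] at h1
  have h2 : ((QuadraticAlgebra.norm g.det * P3 x : ℤ) : ℂ) = (P3 (cj g x) : ℂ) := by
    rw [Int.cast_mul, show ((QuadraticAlgebra.norm g.det : ℤ) : ℂ) = toC g.det * conj (toC g.det) by
      rw [Complex.mul_conj, normSq_toC]; norm_cast]
    simp only [qf, RCLike.star_def] at h1
    push_cast at h1
    linear_combination -3 * h1
  exact_mod_cast h2.symm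

/-- The groups of integral matrices of determinant one. -/
abbrev SLE := Matrix.SpecialLinearGroup (Fin 2) Eis

instance : MulAction SLE Vec where
  smul g x := cj g.1 x
  one_smul x := cj_one x
  mul_smul g h x := cj_mul g.1 h.1 x

/-- The action on vectors. -/
lemma smul_vec (g : SLE) (x : Vec) : g • x = cj g.1 x := rfl

/-- The action preserves the form. -/
@[simp] lemma P3_smul (g : SLE) (x : Vec) : P3 (g • x) = P3 x := by
  rw [smul_vec, P3_cj, g.2, map_one, one_mul]

/-- Integral matrices in `GL₂(ℂ)`. -/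
def glE : SLE →* GL (Fin 2) ℂ :=
  Matrix.SpecialLinearGroup.toGL.comp (Matrix.SpecialLinearGroup.map toC)

/-- The complex matrix of a special linear matrix. -/
lemma glE_val (g : SLE) : (glE g).val = matC g.1 := rfl

/-- The complex matrix has determinant one. -/
lemma det_glE (g : SLE) : (glE g).val.det = 1 := by
  rw [glE_val, matC, ← RingHom.mapMatrix_apply, ← toC.map_det, g.2, map_one]

instance : MulAction SLE H3 := MulAction.compHom H3 glE

/-- The action on points. -/
lemma smul_pt (g : SLE) (p : H3) : g • p = glE g • p := rfl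

/-- The linear functional of a point on hermitian matrices. -/
def fval (X : Matrix (Fin 2) (Fin 2) ℂ) (p : H3) : ℝ :=
  (((H3.herm p).adjugate * X).trace).re

/-- The linear functional of a point on the lattice. -/
def fv (x : Vec) (p : H3) : ℝ := fval (mat x) p

/-- The form transforms under the action. -/
lemma fval_conj_act (g : GL (Fin 2) ℂ) (X : Matrix (Fin 2) (Fin 2) ℂ) (p : H3) :
    fval (g.val * X * g.valᴴ) (g • p) = ‖g.val.det‖ * fval X p := by
  have hn : (‖g.val.det‖ : ℂ) ≠ 0 := by
    exact_mod_cast (norm_pos_iff.mpr (Matrix.GeneralLinearGroup.det g).ne_zero).ne'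
  have hsq : g.val.det * star g.val.det = (‖g.val.det‖ : ℂ) ^ 2 := by
    rw [Complex.star_def, Complex.mul_conj, Complex.normSq_eq_norm_sq]; push_cast; ring
  have key : ((H3.herm (g • p)).adjugate * (g.val * X * g.valᴴ)).trace =
      (‖g.val.det‖ : ℂ) * ((H3.herm p).adjugate * X).trace := by
    rw [H3.smul_def, H3.herm_act, Matrix.adjugate_smul, Matrix.adjugate_mul_distrib,
      Matrix.adjugate_mul_distrib]
    simp only [Fintype.card_fin, Nat.add_one_sub_one, pow_one, Matrix.smul_mul, Matrix.trace_smul,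
      smul_eq_mul]
    have e : (g.valᴴ.adjugate * ((H3.herm p).adjugate * g.val.adjugate) *
        (g.val * X * g.valᴴ)).trace =
        g.val.det * star g.val.det * ((H3.herm p).adjugate * X).trace := by
      calc (g.valᴴ.adjugate * ((H3.herm p).adjugate * g.val.adjugate) *
            (g.val * X * g.valᴴ)).trace
          = (g.valᴴ.adjugate * ((H3.herm p).adjugate * (g.val.adjugate * g.val) * X) *
              g.valᴴ).trace := by simp only [Matrix.mul_assoc]
        _ = (g.val.det • (g.valᴴ * g.valᴴ.adjugate * ((H3.herm p).adjugate * X))).trace := by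
            rw [Matrix.adjugate_mul, Matrix.trace_mul_cycle]
            simp [Matrix.mul_assoc]
        _ = g.val.det * star g.val.det * ((H3.herm p).adjugate * X).trace := by
            rw [Matrix.mul_adjugate, Matrix.det_conjTranspose]
            simp [Matrix.trace_smul, mul_assoc]
    rw [e, hsq]
    field_simp
  simp only [fval, key, Complex.re_ofReal_mul]

/-- The form is invariant. -/
lemma fv_smul (g : SLE) (x : Vec) (p : H3) : fv (g • x) (g • p) = fv x p := by
  rw [fv, fv, smul_vec, smul_pt, mat_cj, ← glE_val, fval_conj_act, det_glE, norm_one, one_mul]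

/-- The form under a matrix of any determinant. -/
lemma fv_cj (g : Matrix (Fin 2) (Fin 2) Eis) (G : GL (Fin 2) ℂ) (hG : G.val = matC g) (x : Vec)
    (p : H3) : fv (cj g x) (G • p) = ‖toC g.det‖ * fv x p := by
  rw [fv, fv, mat_cj, ← hG, fval_conj_act, hG, matC, ← RingHom.mapMatrix_apply, ← toC.map_det]

/-- The form is odd. -/
lemma fv_neg (x : Vec) (p : H3) : fv (-x) p = -fv x p := by
  rw [fv, fv, mat_neg, fval, fval, Matrix.mul_neg, Matrix.trace_neg, Complex.neg_re]

/-- The off-diagonal entry. -/
def bv (x : Vec) : ℂ := toC x.2.2 / thC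

/-- The absolute square of the off-diagonal coordinate. -/
lemma normSq_bv (x : Vec) : Complex.normSq (bv x) = (QuadraticAlgebra.norm x.2.2 : ℤ) / 3 := by
  rw [bv, map_div₀, normSq_toC]
  congr 1
  simp [thC, Complex.normSq_apply]

/-- The form in coordinates. -/
lemma fv_eq (x : Vec) (p : H3) :
    fv x p = ((x.1 : ℝ) + (x.2.1 : ℝ) * (p.t ^ 2 + Complex.normSq p.z) -
      2 * (conj p.z * bv x).re) / p.t := by
  have ht : (p.t : ℂ) ≠ 0 := by exact_mod_cast p.t_pos.ne'
  have e : ((H3.herm p).adjugate * mat x).trace =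
      ((((x.1 : ℝ) + (x.2.1 : ℝ) * (p.t ^ 2 + Complex.normSq p.z) -
      2 * (conj p.z * bv x).re) / p.t : ℝ) : ℂ) := by
    rw [Complex.ofReal_div, Complex.ofReal_sub, Complex.ofReal_mul, Complex.re_eq_add_conj]
    simp only [H3.herm, mat, bv, Matrix.adjugate_fin_two, Matrix.trace_fin_two, Matrix.mul_apply,
      Fin.sum_univ_two, of_apply, cons_val', cons_val_zero, cons_val_one, cons_val_fin_one,
      empty_val', map_mul, Complex.conj_conj]
    push_cast
    field_simp
    ring
  rw [fv, fval, e, Complex.ofReal_re]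

/-- The majorant. -/
def maj (x : Vec) (p : H3) : ℝ := qf x + fv x p ^ 2 / 2

/-- The square size of the coordinates. -/
def size (x : Vec) : ℝ :=
  (x.1 : ℝ) ^ 2 + (x.2.1 : ℝ) ^ 2 + (QuadraticAlgebra.norm x.2.2 : ℤ)

/-- Norms are nonnegative. -/
lemma norm_nonneg' (y : Eis) : (0 : ℤ) ≤ QuadraticAlgebra.norm y := by
  have := Complex.normSq_nonneg (toC y)
  rw [normSq_toC] at this
  exact_mod_cast this

lemma size_nonneg (x : Vec) : 0 ≤ size x := by
  have : (0 : ℝ) ≤ (QuadraticAlgebra.norm x.2.2 : ℤ) := by exact_mod_cast norm_nonneg' _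
  unfold size
  positivity

/-- The functional on real hermitian coordinates. -/
def freal (a d : ℝ) (b : ℂ) (p : H3) : ℝ :=
  (a + d * (p.t ^ 2 + Complex.normSq p.z) - 2 * (conj p.z * b).re) / p.t

/-- The coordinates are bounded by the majorant and the gauge, over the reals. -/
theorem size_le_real (a d : ℝ) (b : ℂ) (p : H3) :
    a ^ 2 + d ^ 2 + 3 * ‖b‖ ^ 2 ≤
      100 * H3.bnd p ^ 2 * (Complex.normSq b - a * d + freal a d b p ^ 2 / 2) := by
  obtain ⟨t, ht, z, hz, hp⟩ : ∃ t, t = p.t ∧ ∃ z, z = p.z ∧ 0 < t := ⟨_, rfl, _, rfl, p.t_pos⟩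
  set b' := b - z * (d : ℂ) with hb'
  set A := freal a d b p - d * t with hA
  set D := d * t with hD
  set R2 := A ^ 2 + D ^ 2 + 2 * Complex.normSq b' with hR
  have hmaj : Complex.normSq b - a * d + freal a d b p ^ 2 / 2 = R2 / 2 := by
    rw [hR, hA, hD, hb']
    simp only [freal, ← ht, ← hz]
    simp only [Complex.normSq_apply, Complex.sub_re, Complex.sub_im, Complex.mul_re, Complex.mul_im,
      Complex.ofReal_re, Complex.ofReal_im, Complex.conj_re, Complex.conj_im]
    field_simp
    ring
  have ha : a = t * A + 2 * (conj z * b').re + Complex.normSq z * d := by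
    rw [hA, hb', freal, ← ht, ← hz]
    simp only [Complex.normSq_apply, Complex.sub_re, Complex.sub_im, Complex.mul_re, Complex.mul_im,
      Complex.ofReal_re, Complex.ofReal_im, Complex.conj_re, Complex.conj_im]
    field_simp
    ring
  have hbb : b = b' + z * (d : ℂ) := by rw [hb']; ring
  set R := √R2
  have hR0 : 0 ≤ R2 := by rw [hR]; have := Complex.normSq_nonneg b'; positivity
  have hRsq : R ^ 2 = R2 := Real.sq_sqrt hR0
  have hAR : |A| ≤ R := Real.abs_le_sqrt (by rw [hR]; nlinarith [Complex.normSq_nonneg b'])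
  have hDR : |D| ≤ R := Real.abs_le_sqrt (by rw [hR]; nlinarith [Complex.normSq_nonneg b'])
  have hbR : ‖b'‖ ≤ R := Real.le_sqrt_of_sq_le (by
    rw [hR, ← Complex.normSq_eq_norm_sq]; nlinarith [Complex.normSq_nonneg b',
      sq_nonneg A, sq_nonneg D])
  set C := H3.bnd p
  have hC : C = t + (2 * Complex.normSq z + 2) / t := by simp only [C, H3.bnd, ht, hz]
  have hz0 := Complex.normSq_nonneg z
  have hC1 : t ≤ C := by rw [hC]; exact le_add_of_nonneg_right (by positivity)
  have hC2 : 1 / t ≤ C := by
    rw [hC]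
    refine le_trans ?_ (le_add_of_nonneg_left hp.le)
    exact div_le_div_of_nonneg_right (by linarith) hp.le
  have hC3 : Complex.normSq z / t ≤ C := by
    rw [hC]
    refine le_trans ?_ (le_add_of_nonneg_left hp.le)
    exact div_le_div_of_nonneg_right (by linarith) hp.le
  have hC0 : 0 ≤ C := hp.le.trans hC1
  have hzC : ‖z‖ ≤ C := by
    refine (sq_le_sq₀ (norm_nonneg _) hC0).1 ?_
    rw [← Complex.normSq_eq_norm_sq, show Complex.normSq z = Complex.normSq z / t * t by field_simp,
      sq]
    exact mul_le_mul hC3 hC1 hp.le hC0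
  have hzt : ‖z‖ / t ≤ C := by
    refine (sq_le_sq₀ (by positivity) hC0).1 ?_
    rw [div_pow, ← Complex.normSq_eq_norm_sq,
      show Complex.normSq z / t ^ 2 = Complex.normSq z / t * (1 / t) by field_simp, sq]
    exact mul_le_mul hC3 hC2 (by positivity) hC0
  have hd : d = D / t := by rw [hD]; field_simp
  have hdC : |d| ≤ C * R := by
    rw [hd, abs_div, abs_of_pos hp, div_eq_mul_one_div, mul_comm]
    exact mul_le_mul hC2 hDR (abs_nonneg _) hC0
  have haC : |a| ≤ 4 * C * R := by
    rw [ha]
    have e1 : |t * A| ≤ C * R := by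
      rw [abs_mul, abs_of_pos hp]; exact mul_le_mul hC1 hAR (abs_nonneg _) hC0
    have e2 : |2 * (conj z * b').re| ≤ 2 * (C * R) := by
      rw [abs_mul, abs_two]
      refine mul_le_mul_of_nonneg_left ((Complex.abs_re_le_norm _).trans ?_) two_pos.le
      rw [norm_mul, Complex.norm_conj]
      exact mul_le_mul hzC hbR (norm_nonneg _) hC0
    have e3 : |Complex.normSq z * d| ≤ C * R := by
      rw [hd, show Complex.normSq z * (D / t) = Complex.normSq z / t * D by ring, abs_mul,
        abs_of_nonneg (div_nonneg hz0 hp.le)]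
      exact mul_le_mul hC3 hDR (abs_nonneg _) hC0
    calc |t * A + 2 * (conj z * b').re + Complex.normSq z * d|
        ≤ |t * A| + |2 * (conj z * b').re| + |Complex.normSq z * d| := abs_add_three _ _ _
      _ ≤ 4 * C * R := by linarith
  have hC4 : 1 ≤ C := by
    have : 1 ≤ t + 1 / t := by
      rw [le_iff_eq_or_lt]; right
      rcases le_or_gt 1 t with h | h
      · linarith [show 0 < 1 / t by positivity]
      · linarith [show 1 ≤ 1 / t by rw [le_div_iff₀ hp]; linarith]
    rw [hC]
    refine this.trans (add_le_add le_rfl ?_)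
    exact div_le_div_of_nonneg_right (by linarith) hp.le
  have hbC : ‖b‖ ≤ 2 * C * R := by
    rw [hbb]
    refine (norm_add_le _ _).trans ?_
    have e3 : ‖z * (d : ℂ)‖ ≤ C * R := by
      rw [norm_mul, Complex.norm_real, Real.norm_eq_abs, hd, abs_div, abs_of_pos hp,
        show ‖z‖ * (|D| / t) = ‖z‖ / t * |D| by ring]
      exact mul_le_mul hzt hDR (abs_nonneg _) hC0
    linarith [le_mul_of_one_le_left ((norm_nonneg b').trans hbR) hC4]
  rw [hmaj]
  have e1 : a ^ 2 ≤ (4 * C * R) ^ 2 := by rw [← sq_abs]; exact pow_le_pow_left₀ (abs_nonneg _) haC 2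
  have e2 : d ^ 2 ≤ (C * R) ^ 2 := by rw [← sq_abs]; exact pow_le_pow_left₀ (abs_nonneg _) hdC 2
  have e3 : ‖b‖ ^ 2 ≤ (2 * C * R) ^ 2 := pow_le_pow_left₀ (norm_nonneg _) hbC 2
  have : 0 ≤ C ^ 2 * R2 := by positivity
  simp only [mul_pow, hRsq] at e1 e2 e3
  linarith

/-- The coordinates of a vector are bounded by the majorant and the gauge. -/
theorem size_le (x : Vec) (p : H3) : size x ≤ 100 * H3.bnd p ^ 2 * maj x p := by
  have h := size_le_real (x.1 : ℝ) (x.2.1 : ℝ) (bv x) p
  have hN : ((QuadraticAlgebra.norm x.2.2 : ℤ) : ℝ) = 3 * ‖bv x‖ ^ 2 := by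
    rw [← Complex.normSq_eq_norm_sq, normSq_bv]; ring
  have hq : qf x = Complex.normSq (bv x) - x.1 * x.2.1 := by
    rw [qf, P3, normSq_bv]; push_cast; ring
  rw [size, hN, maj, hq, fv_eq]
  exact h

/-- The majorant form is nonnegative. -/
lemma maj_nonneg (x : Vec) (p : H3) : 0 ≤ maj x p := by
  have h := (size_nonneg x).trans (size_le x p)
  by_contra hc
  have hb : 0 < H3.bnd p := by
    have := p.t_pos
    have := Complex.normSq_nonneg p.z
    unfold H3.bnd
    positivity
  have : 100 * H3.bnd p ^ 2 * maj x p < 0 := mul_neg_of_pos_of_neg (by positivity) (not_le.1 hc)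
  linarith

end FermatAgent.LT.Lift
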