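import Fermat.Agent.LT.Lift.Types
import Fermat.Agent.LT.Lift.Slash
import Fermat.Agent.LT.Lift.Coef
import Fermat.Agent.LT2.Lift.Main
import Fermat.Agent.LT.Period.Nonzero
import Fermat.Agent.LT.Period.RamTyped
import Fermat.Agent.LT.Descent.Spec.Main
import Fermat.Agent.LT.Mod3.Galois.Main
import Fermat.Agent.DS.ArtinBound

/-!
# The weight one input

The descended eigenform has a typed vector with a nonzero period.  Its theta lift from hyperbolic
space to the upper half plane has weight one, is holomorphic and has eigenvalue `± 2` at the split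
primes of central Frobenius class; with standard components at the primes of the level it gives
the family of cusp forms required by the mod three step.
-/

set_option autoImplicit false

noncomputable section

open Matrix IsDedekindDomain NumberField MeasureTheory UpperHalfPlane
open scoped MatrixGroups

namespace FermatAgent.LT.Lift

open FermatAgent.LT.Period (IsEis IsGood IsTypGen IsTyp place offThree badProd periodSum cycle)
open FermatAgent.LT.Whit (glob dG)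
open FermatAgent.LT.Mod3

variable {K : Type*} [Field K] [NumberField K] [IsTotallyComplex K] {θ : K}

omit [IsTotallyComplex K] in
lemma isEis_neg (h : IsEis θ) : IsEis (-θ) := ⟨by rw [neg_sq, h.sq], h.deg⟩

omit [IsTotallyComplex K] in
lemma exists_isEis_emb (h : IsEis θ) :
    ∃ θ' : K, IsEis θ' ∧ (place K).embedding θ' = thC := by
  have e : (place K).embedding θ * (place K).embedding θ = thC * thC := by
    rw [thC_mul_self, ← map_mul, ← sq, h.sq, map_neg, map_ofNat]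
  rcases mul_self_eq_mul_self_iff.1 e with e' | e'
  · exact ⟨θ, h, e'⟩
  · exact ⟨-θ, isEis_neg h, by rw [map_neg, e', neg_neg]⟩

/-- The primes of the level prime to three. -/
def levelPrimes (bad : Finset ℕ) : Finset Nat.Primes := (bad.erase 3).subtype Nat.Prime

lemma mem_levelPrimes {bad : Finset ℕ} {q : Nat.Primes} :
    q ∈ levelPrimes bad ↔ (q : ℕ) ≠ 3 ∧ (q : ℕ) ∈ bad := by
  unfold levelPrimes
  exact (Finset.mem_subtype (p := Nat.Prime) (s := bad.erase 3)).trans Finset.mem_erase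

lemma levelPrimes_ne_three {bad : Finset ℕ} : ∀ q ∈ levelPrimes bad, (q : ℕ) ≠ 3 :=
  fun _ hq => (mem_levelPrimes.1 hq).1

lemma badProd_eq {bad : Finset ℕ} (h3 : 3 ∈ bad) : badProd bad = 3 * lvl (levelPrimes bad) := by
  classical
  have hset : bad.filter Nat.Prime =
      insert 3 ((levelPrimes bad).image fun q : Nat.Primes => (q : ℕ)) := by
    ext p
    rw [Finset.mem_filter, Finset.mem_insert, Finset.mem_image]
    constructor
    · rintro ⟨hp, hpp⟩
      by_cases h : p = 3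
      · exact Or.inl h
      · exact Or.inr ⟨⟨p, hpp⟩, mem_levelPrimes.2 ⟨h, hp⟩, rfl⟩
    · rintro (rfl | ⟨q, hq, rfl⟩)
      · exact ⟨h3, Nat.prime_three⟩
      · exact ⟨(mem_levelPrimes.1 hq).2, q.2⟩
  rw [badProd, hset, Finset.prod_insert,
    Finset.prod_image (g := fun q : Nat.Primes => (q : ℕ)) fun _ _ _ _ e => Subtype.ext e]
  · rfl
  · rw [Finset.mem_image]
    rintro ⟨q, hq, e⟩
    exact levelPrimes_ne_three q hq e

lemma squarefree_lvl (Q : Finset Nat.Primes) : Squarefree (lvl Q) := by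
  classical
  induction Q using Finset.induction with
  | empty => simp [lvl]
  | insert q Q hq ih =>
    rw [show lvl (insert q Q) = (q : ℕ) * lvl Q from Finset.prod_insert hq,
      Nat.squarefree_mul (coprime_lvl hq)]
    exact ⟨q.2.squarefree, ih⟩

section Parts

variable {R : Octa.OctaRep} (D : Octa.OctaData R)

/-- The typed generator of the descended eigenform. -/
private lemma exists_typGen {c : HeightOneSpectrum (𝓞 D.K) → ℂ}
    {f₀ : InfPts D.K → Whit.adelGrp D.K → ℂ}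
    (hf₀ : IsGood (Finset.cons D.C.v₃ D.C.Ram D.C.v₃_notMem_Ram) c f₀)
    (hne : D.C.Ram.toList.foldr Ctx.ramAct f₀ ≠ 0) :
    ∃ ψ, ψ ≠ 0 ∧ IsTypGen (Finset.cons D.C.v₃ D.C.Ram D.C.v₃_notMem_Ram) c
      (offThree (Finset.cons D.C.v₃ D.C.Ram D.C.v₃_notMem_Ram)) ψ := by
  classical
  obtain ⟨ψ, hψ0, hψ, hψA⟩ := Period.exists_typGen_of_foldr D.C.Ram.toList (Finset.nodup_toList _)
    (fun w hw => by
      rw [Finset.mem_toList] at hw
      exact ⟨Finset.mem_cons_of_mem hw,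
        D.C.v₃_uniq w fun e => D.C.v₃_notMem_Ram (e ▸ hw), D.eis.zetaO, by
          rw [show D.eis.zetaO ^ 2 + D.eis.zetaO + 1 = 0 from
            RingOfIntegers.ext (by push_cast; exact D.eis.zeta_rel)]
          exact zero_mem _⟩) hf₀ hne
  refine ⟨ψ, hψ0, hψ, fun w hw => ?_⟩
  obtain ⟨hw1, hw3⟩ := Finset.mem_filter.1 hw
  rcases Finset.mem_cons.1 hw1 with rfl | hw1
  · refine absurd ((D.C.v₃.valuation_lt_one_iff_mem (K := D.K) 3).1 ?_) hw3
    show D.C.v₃.valuation D.K (algebraMap (𝓞 D.K) D.K 3) < 1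
    rw [map_ofNat]
    exact D.C.v₃_three
  · exact hψA w (Finset.mem_toList.2 hw1)

variable {c : HeightOneSpectrum (𝓞 D.K) → ℂ}
  (hc : ∀ v, D.C.IsSplit v → v ≠ D.C.v₃ → c v = D.cK v)
include hc

/-- The descended eigenvalues at the split primes with Frobenius class `± 1`. -/
private lemma eigen_split {p : ℕ} (hp : p.Prime) (hb : p ∉ D.bad) (h1 : p % 3 = 1)
    (v : HeightOneSpectrum (𝓞 D.K)) (hv : (p : 𝓞 D.K) ∈ v.asIdeal) :
    (D.g p = 1 → c v = (√(p : ℝ) : ℂ) * 2) ∧ (D.g p = -1 → c v = (√(p : ℝ) : ℂ) * -2) := by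
  have hq8 : ∀ x : Period.GL3, x = 1 ∨ x = -1 → Octa.IsQ8 x := by
    rintro x (rfl | rfl)
    · exact ⟨by simp, one_pow 4⟩
    · exact ⟨by simp [Matrix.det_fin_two], by rw [show (4 : ℕ) = 2 * 2 by norm_num, pow_mul, neg_sq,
        one_pow, one_pow]⟩
  obtain ⟨h3, -, hs⟩ := D.good p hp hb v hv
  exact ⟨fun h => by rw [hc v (hs (Or.inr (hq8 _ (Or.inl h)))) h3, (D.hsplit p hp hb h1 v hv).1 h],
    fun h => by rw [hc v (hs (Or.inr (hq8 _ (Or.inr h)))) h3, (D.hsplit p hp hb h1 v hv).2 h]⟩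

/-- The descended eigenvalues at the inert primes. -/
private lemma eigen_inert {p : ℕ} (hp : p.Prime) (hb : p ∉ D.bad) (h2 : p % 3 = 2)
    (v : HeightOneSpectrum (𝓞 D.K)) (hv : (p : 𝓞 D.K) ∈ v.asIdeal) :
    (IsConj Period.refl3 (D.g p) → c v = (p : ℂ) * 2) ∧
      (¬IsConj Period.refl3 (D.g p) → c v = 0) := by
  obtain ⟨h3, -, hs⟩ := D.good p hp hb v hv
  rw [hc v (hs (Or.inl h2)) h3]
  exact D.hinert p hp hb h2 v hv

/-- The Hecke relations of the family at the primes of the lifted eigensystem. -/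
private lemma hecke_fam {θ : D.K} (hE : IsEis θ) (hemb : (place D.K).embedding θ = thC)
    {Q : Finset Nat.Primes} {S : Finset (HeightOneSpectrum (𝓞 D.K))}
    (hS : ∀ v ∈ S, ((27 * lvl Q : ℕ) : 𝓞 D.K) ∈ v.asIdeal)
    {f : InfPts D.K → Whit.adelGrp D.K → ℂ} (hf : IsGood S c f)
    (hΦ : IsCusp (27 * lvl Q) (clsF hE f)) (T : Finset Nat.Primes)
    (κ : ∀ q : Nat.Primes, MulChar (EisMod (q : ℕ)) ℂ) (F : ∀ q : Nat.Primes, VQ (q : ℕ) → ℂ)
    {p : ℕ} (hp : p ∈ liftPrimes D (lvl Q)) (i : Idx T) :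
    IsHeckeSeq (fun n => (qExpansion ((27 * lvl Q : ℕ) : ℝ) (fam Q T κ F (clsF hE f) i)).coeff n) p
      (liftTrace D p : ℂ) := by
  intro n
  dsimp only
  obtain ⟨hpp, hpb, hpM, hcm, hg⟩ := hp
  have hp3 : p ≠ 3 := fun e => hpM (e ▸ Dvd.dvd.mul_right (by norm_num) (lvl Q))
  have h3 : 3 ∣ 27 * lvl Q := ⟨9 * lvl Q, by ring⟩
  have hpn : ¬p ∣ 27 * lvl Q := fun h => by
    rcases hpp.dvd_mul.1 h with h' | h'
    · exact hp3 ((Nat.prime_dvd_prime_iff_eq hpp Nat.prime_three).1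
        (hpp.dvd_of_dvd_pow (show p ∣ 3 ^ 3 from h')))
    · exact hpM (h'.mul_left 6)
  have hmod : p % 3 = 1 := Mod3.mod_three_of_cast_eq_one h3 hcm.cast_eq_one
  obtain ⟨ϖ, hsp⟩ := LT2.Lift.exists_isSplitOne hpp hp3 hcm
  set w := primePlace hE hsp
  have hpw : (p : 𝓞 D.K) ∈ w.asIdeal := natCast_mem_primePlace hE hsp
  have hwS : w ∉ S := fun h =>
    Period.coprime_notMem (hpp.coprime_iff_not_dvd.2 hpn) hpw (hS w h)
  have hcv : c w = (√(p : ℝ) : ℂ) * (liftTrace D p : ℂ) := by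
    obtain ⟨e1, e2⟩ := eigen_split D hc hpp hpb hmod w hpw
    rcases hg with h | h
    · rw [e1 h, liftTrace, if_pos h]; norm_num
    · rw [e2 h, liftTrace, if_neg]
      · norm_num
      · rw [h]; decide
  have hn : 3 * (9 * lvl Q) ∣ 27 * lvl Q := ⟨1, by ring⟩
  rw [show 27 * lvl Q = 3 * (9 * lvl Q) by ring]
  exact hecke_Lam (k := 9 * lvl Q) (w := wt Q (famW Q T κ F (extI T i))) hsp hpn hΦ hn isPer_wt
    (fun q => hcv ▸ LT2.Lift.sum_nbr_clsF hE hemb hsp
      (LT2.Lift.isLiftForm_of_isGood hE hf h3 hS) h3 dvd_rfl (hf.eigen w hwS) hpn q) n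

end Parts

omit [NumberField K] [IsTotallyComplex K] in
/-- The bad places contain three times the level. -/
private lemma three_mul_lvl_mem {bad : Finset ℕ} (h3 : 3 ∈ bad) {v : HeightOneSpectrum (𝓞 K)}
    (hv : ∃ p ∈ bad, p.Prime ∧ (p : 𝓞 K) ∈ v.asIdeal) :
    ((3 * lvl (levelPrimes bad) : ℕ) : 𝓞 K) ∈ v.asIdeal := by
  obtain ⟨p, hp, hpp, hpv⟩ := hv
  obtain ⟨m, hm⟩ := badProd_eq h3 ▸ Period.dvd_badProd hpp hp
  rw [hm, Nat.cast_mul]
  exact Ideal.mul_mem_right _ _ hpv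

/-- A nonzero period gives a nonzero coefficient of the cycle vector. -/
private lemma aCoef_typed_ne_zero (hE : IsEis θ) (hemb : (place K).embedding θ = thC)
    {bad : Finset ℕ} [NeZero (badProd bad ^ 2)] (h3 : 3 ∈ bad)
    {S : Finset (HeightOneSpectrum (𝓞 K))}
    (hS : ∀ v ∈ S, ∃ p ∈ bad, p.Prime ∧ (p : 𝓞 K) ∈ v.asIdeal)
    {c : HeightOneSpectrum (𝓞 K) → ℂ} {φ : InfPts K → Whit.adelGrp K → ℂ} (hφ : IsGood S c φ)
    (hper : periodSum (badProd bad ^ 2) (cycle hE bad φ) ≠ 0)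
    (hinvc : ∀ g ∈ CongruenceSubgroup.Gamma0 (badProd bad ^ 2), ∀ z : ℍ,
      cycle hE bad φ (g • z) = cycle hE bad φ z) :
    aCoef (27 * lvl (levelPrimes bad)) (9 * lvl (levelPrimes bad)) (clsF hE φ)
      (wOrb (lvl (levelPrimes bad))) 9 ≠ 0 := by
  set M := lvl (levelPrimes bad)
  have hbp : badProd bad = 3 * M := badProd_eq h3
  have hS3 : ∀ v ∈ S, ((3 * M : ℕ) : 𝓞 K) ∈ v.asIdeal := fun v hv =>
    three_mul_lvl_mem h3 (hS v hv)
  have hS27 : ∀ v ∈ S, ((27 * M : ℕ) : 𝓞 K) ∈ v.asIdeal := fun v hv => by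
    rw [show 27 * M = 3 * M * 9 by ring, Nat.cast_mul]
    exact Ideal.mul_mem_right _ _ (hS3 v hv)
  have h327 : 3 ∣ 27 * M := ⟨9 * M, by ring⟩
  have : NeZero (3 * M) := ⟨mul_ne_zero three_ne_zero (NeZero.ne M)⟩
  have : NeZero ((3 * M) ^ 2) := ⟨pow_ne_zero _ (NeZero.ne _)⟩
  have hlift := LT2.Lift.isLiftForm_of_isGood hE hφ (dvd_mul_right 3 M) hS3
  have hcyc : cycle hE bad φ = fun z => clsF hE φ (emb (scaleN (3 * M) • z, 0)) :=
    funext fun z => by rw [← LT2.Lift.cyc_eq_clsF hE hlift z, cycle, hbp]; rfl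
  refine aCoef_cycle_ne_zero
    (LT2.Lift.isCusp_clsF hE hemb (LT2.Lift.isLiftForm_of_isGood hE hφ h327 hS27) h327 dvd_rfl)
    (fun g hg p => LT2.Lift.clsF_inv hE hemb hlift (dvd_mul_right 3 M) dvd_rfl hg p)
    (fun g hg z => ?_) ?_
  · have h := hinvc g (by rwa [hbp]) z
    rwa [hcyc] at h
  · rw [hcyc] at hper
    convert hper using 2; rw [hbp]

/-- **The weight one input**: every octahedral datum has, at some place over `3`, a family of weight
one cusp forms with eigenvalue `2` resp. `-2` at the primes `p = π π̄`, `π ≡ 1 (mod 27 M)`, of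
Frobenius class `1` resp. `-1`. -/
theorem weightOneInput (R : Octa.OctaRep) (D : Octa.OctaData R) :
    ∃ (M : ℕ) (O : ValuationSubring ℂ),
      IsInputLevel M ∧ (3 : O) ∈ IsLocalRing.maximalIdeal O ∧
        Nonempty (Input M O (liftTrace D) (liftPrimes D M)) := by
  classical
  obtain ⟨c, f₀, hc, hf₀, hne⟩ := D.exists_descent
  obtain ⟨ψ, hψ0, hgen⟩ := exists_typGen D hf₀ hne
  obtain ⟨θ, hE, hemb⟩ := exists_isEis_emb D.eis
  have hbad : ∀ {p : ℕ}, p ∉ D.bad ∪ {5} → p ∉ D.bad := fun h h' => h (Finset.mem_union_left _ h')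
  -- the period
  obtain ⟨bad, S, φ, hNeZ, hsub, h3, hmem, hφ, hper, hinvc⟩ :=
    Period.exists_typed_period hE D.N (g := D.g) (bad₀ := D.bad ∪ {5})
      ⟨D.eN_surj, fun p hp hb => D.hg p hp (hbad hb), fun p hp hb => D.hdet p hp (hbad hb),
        fun p hp hb => eigen_split D hc hp (hbad hb),
        fun p hp hb => eigen_inert D hc hp (hbad hb)⟩ hgen hψ0
  set Q := levelPrimes bad
  set M := lvl Q with hM
  have hQ : ∀ q ∈ Q, (q : ℕ) ≠ 3 := levelPrimes_ne_three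
  have h5 : (⟨5, by norm_num⟩ : Nat.Primes) ∈ Q :=
    mem_levelPrimes.2 ⟨show (5 : ℕ) ≠ 3 by norm_num, hsub (by simp)⟩
  have hS27 : ∀ v ∈ S, ((27 * M : ℕ) : 𝓞 D.K) ∈ v.asIdeal := fun v hv => by
    rw [show 27 * M = 3 * M * 9 by ring, Nat.cast_mul]
    exact Ideal.mul_mem_right _ _ (three_mul_lvl_mem h3 ((hmem v).1 hv))
  have hSQ : ∀ v ∈ S, (3 : 𝓞 D.K) ∉ v.asIdeal →
      ∃ q ∈ Q, (((q : Nat.Primes) : ℕ) : 𝓞 D.K) ∈ v.asIdeal := fun v hv h3v => by
    obtain ⟨p, hp, hpp, hpv⟩ := (hmem v).1 hv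
    exact ⟨⟨p, hpp⟩, mem_levelPrimes.2 ⟨fun e => h3v (by simpa [show p = 3 from e] using hpv), hp⟩,
      hpv⟩
  have ha := aCoef_typed_ne_zero hE hemb h3 (fun v hv => (hmem v).1 hv) hφ.good hper hinvc
  -- the family
  obtain ⟨f, κ, F₀, hf, hκ, hty, hΦ, ha'⟩ := exists_typed_weight hE hemb hSQ hQ hφ ha
  set Φ := clsF hE f
  have : NeZero (3 * (9 * M)) := ⟨mul_ne_zero three_ne_zero (NeZero.ne _)⟩
  have hn : 3 * (9 * M) ∣ 27 * M := ⟨1, by ring⟩
  have hLam : Lam (27 * M) (9 * M) Φ (wt Q F₀) ≠ 0 := fun h0 => ha' (by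
    rw [← coeff_Lam hΦ hn isPer_wt, h0, UpperHalfPlane.qExpansion_zero, map_zero])
  obtain ⟨T, χ, F, l, hst, hne'⟩ := exists_family hΦ.wave hQ hκ hty hLam
  obtain ⟨O, hO⟩ := DS.exists_place Nat.prime_three
  have hlvl : lvl (Q \ T) * ∏ q ∈ T, (q : ℕ) = M := Finset.prod_sdiff hst.subset
  refine ⟨M, O, ⟨squarefree_lvl Q, ?_, 5, by norm_num, dvd_lvl h5, by norm_num⟩, hO, ⟨?_⟩⟩
  · rw [← Nat.Prime.coprime_iff_not_dvd Nat.prime_three]
    exact coprime_lvl (q := ⟨3, Nat.prime_three⟩) fun h => hQ _ h rfl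
  refine
    { MA := lvl (Q \ T)
      S := T
      level_eq := hlvl
      h := fam Q T κ F Φ
      mdiff := fun i => mdiff_Lam hΦ hn isPer_wt
      cusp := fun i δ => cusp_Lam hΦ hn isPer_wt δ
      invariant := fun γ hγ i => Lam_Gamma isPer_wt
        (by rwa [show 3 * (9 * M) = 27 * M by ring])
      slash := fun γ hγ => slashMod_all hQ hΦ.wave hκ hst hO hγ
      ne_zero := ⟨fun q => l q.1, fun h0 => hne' ?_⟩
      hecke := fun p hp i => hecke_fam D hc hE hemb hS27 hf hΦ T κ F hp i }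
  rw [← h0, fam, wt_congr (F := famW Q T κ F l) (F' := famW Q T κ F (extI T fun q => l q.1))]
  intro q hq
  by_cases hqT : q ∈ T
  · simp only [famW, if_pos hqT, extI_apply _ hqT]
  · simp only [famW, if_neg hqT]

end FermatAgent.LT.Lift
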