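import Fermat.Agent.LT.Lift.Deriv

/-!
# The orbit of the cycle vector

The vectors of norm nine congruent to the vector `v0` of the real hyperbolic plane form one orbit
of the congruence group, and the stabiliser of `v0` is the real congruence group.
-/

set_option autoImplicit false

noncomputable section

open Matrix
open scoped MatrixGroups

namespace FermatAgent.LT.Lift

attribute [local simp] QuadraticAlgebra.re_ofNat QuadraticAlgebra.im_ofNat

instance : IsDomain Eis := toC_injective.isDomain toC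

/-- The vector of the real plane. -/
def v0 : Vec := (0, 0, 3)

/-- Rational integral matrices. -/
def slE : SL(2, ℤ) →* SLE := SpecialLinearGroup.map (Int.castRingHom Eis)

/-- The entries of an integral matrix. -/
lemma slE_apply (g : SL(2, ℤ)) (i j : Fin 2) : (slE g).1 i j = ((g.1 i j : ℤ) : Eis) := rfl

/-- Integral matrices fix the base vector. -/
lemma slE_smul_v0 (g : SL(2, ℤ)) : slE g • v0 = v0 := by
  have h := congrArg (fun z : ℤ => (z : Eis)) g.det_coe
  simp only [Matrix.det_fin_two, Int.cast_sub, Int.cast_mul, Int.cast_one] at h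
  refine Prod.ext ?_ (Prod.ext ?_ ?_)
  · simp [smul_vec, cj, v0, slE_apply]
  · simp [smul_vec, cj, v0, slE_apply]
  · simp only [smul_vec, cj, v0, slE_apply, star_intCast, star_ofNat]
    push_cast
    linear_combination 3 * h

/-- The reduction of an integer. -/
lemma redE_intCast (n : ℕ) (z : ℤ) : redE n (z : Eis) = (z : EisMod n) := map_intCast (redE n) z

/-- The kernel of reduction. -/
lemma redE_eq_zero_iff {n : ℕ} {x : Eis} : redE n x = 0 ↔ ∃ y : Eis, x = (n : Eis) * y := by
  constructor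
  · intro h
    obtain ⟨a, ha⟩ := (ZMod.intCast_zmod_eq_zero_iff_dvd _ n).1 (congrArg QuadraticAlgebra.re h)
    obtain ⟨b, hb⟩ := (ZMod.intCast_zmod_eq_zero_iff_dvd _ n).1 (congrArg QuadraticAlgebra.im h)
    refine ⟨⟨a, b⟩, QuadraticAlgebra.ext ?_ ?_⟩ <;> simp [natCast_eis, ha, hb]
  · rintro ⟨y, rfl⟩
    rw [map_mul, map_natCast]
    have : (n : EisMod n) = 0 := by ext <;> simp
    rw [this, zero_mul]

/-- Membership in a congruence subgroup by differences. -/
lemma mem_congE_iff {n : ℕ} {g : SLE} :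
    g ∈ congE n ↔ ∀ i j, redE n (g.1 i j - (1 : Matrix (Fin 2) (Fin 2) Eis) i j) = 0 := by
  rw [mem_congE]
  refine forall₂_congr fun i j => ?_
  rw [map_sub, sub_eq_zero]
  fin_cases i <;> fin_cases j <;> simp

/-- Integral congruence subgroups. -/
lemma slE_mem_congE {n : ℕ} {g : SL(2, ℤ)} :
    slE g ∈ congE n ↔ g ∈ CongruenceSubgroup.Gamma n := by
  rw [mem_congE, CongruenceSubgroup.Gamma_mem]
  simp only [Fin.forall_fin_two, slE_apply, redE_intCast]
  simp [QuadraticAlgebra.ext_iff, QuadraticAlgebra.re_one, QuadraticAlgebra.im_one]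
  tauto

/-! ## Euclidean division -/

lemma exists_quot (a : Eis) {b : Eis} (hb : b ≠ 0) :
    ∃ q : Eis, QuadraticAlgebra.norm (a - q * b) < QuadraticAlgebra.norm b := by
  have hb' : toC b ≠ 0 := fun h => hb (toC_injective (by rw [h, map_zero]))
  have hpos : (0 : ℝ) < Complex.normSq (toC b) := Complex.normSq_pos.2 hb'
  obtain ⟨c, hc⟩ := exists_round (toC a / toC b)
  refine ⟨-c, ?_⟩
  have e : toC (a - -c * b) = (toC a / toC b + toC c) * toC b := by
    rw [map_sub, map_mul, map_neg]; field_simp; ring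
  have h : ((QuadraticAlgebra.norm (a - -c * b) : ℤ) : ℝ) < (QuadraticAlgebra.norm b : ℤ) := by
    rw [← normSq_toC, ← normSq_toC, e, map_mul]
    calc Complex.normSq (toC a / toC b + toC c) * Complex.normSq (toC b)
        ≤ 3 / 4 * Complex.normSq (toC b) := mul_le_mul_of_nonneg_right hc hpos.le
      _ < Complex.normSq (toC b) := by linarith
  exact_mod_cast h

lemma exists_bezout {v₁ v₂ : Eis} (hv : v₁ ≠ 0 ∨ v₂ ≠ 0) :
    ∃ δ a b s t : Eis, δ ≠ 0 ∧ v₁ = δ * a ∧ v₂ = δ * b ∧ s * a + t * b = 1 := by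
  classical
  set P : ℕ → Prop := fun N => ∃ s t : Eis, s * v₁ + t * v₂ ≠ 0 ∧
    (QuadraticAlgebra.norm (s * v₁ + t * v₂)).toNat = N
  have hex : ∃ N, P N := by
    rcases hv with h | h
    · exact ⟨_, 1, 0, by simpa using h, rfl⟩
    · exact ⟨_, 0, 1, by simpa using h, rfl⟩
  obtain ⟨s, t, hne, hN⟩ := Nat.find_spec hex
  set δ := s * v₁ + t * v₂ with hδ
  have hdvd : ∀ s' t' : Eis, ∃ a, s' * v₁ + t' * v₂ = δ * a := by
    intro s' t'
    obtain ⟨q, hq⟩ := exists_quot (s' * v₁ + t' * v₂) hne
    refine ⟨q, ?_⟩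
    by_contra hc
    have hne' : (s' - q * s) * v₁ + (t' - q * t) * v₂ ≠ 0 := fun h => hc (by
      rw [hδ]; linear_combination h)
    have hm := Nat.find_min' hex (m := _) ⟨_, _, hne', rfl⟩
    rw [← hN, show (s' - q * s) * v₁ + (t' - q * t) * v₂ = s' * v₁ + t' * v₂ - q * δ by
      rw [hδ]; ring] at hm
    have h0 := norm_nonneg' (s' * v₁ + t' * v₂ - q * δ)
    omega
  obtain ⟨a, ha⟩ := hdvd 1 0
  obtain ⟨b, hb⟩ := hdvd 0 1
  simp only [one_mul, zero_mul, add_zero, zero_add] at ha hb
  refine ⟨δ, a, b, s, t, hne, ha, hb, mul_left_cancel₀ hne ?_⟩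
  linear_combination -hδ - s * ha - t * hb

/-- Reduction modulo the square root of minus three. -/
def red3 : Eis →+* ZMod 3 where
  toFun x := ((x.re + x.im : ℤ) : ZMod 3)
  map_one' := by simp [QuadraticAlgebra.re_one, QuadraticAlgebra.im_one]
  map_zero' := by simp
  map_mul' x y := by
    simp only [QuadraticAlgebra.re_mul, QuadraticAlgebra.im_mul]
    push_cast
    have h3 : (3 : ZMod 3) = 0 := rfl
    linear_combination (-((x.im : ZMod 3) * (y.im : ZMod 3))) * h3
  map_add' x y := by simp; ring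

lemma red3_star (x : Eis) : red3 (star x) = red3 x := by
  show (((star x).re + (star x).im : ℤ) : ZMod 3) = ((x.re + x.im : ℤ) : ZMod 3)
  rw [QuadraticAlgebra.re_star, QuadraticAlgebra.im_star]
  push_cast
  have h3 : (3 : ZMod 3) = 0 := rfl
  linear_combination (-(x.im : ZMod 3)) * h3

lemma sub_star_eis (x : Eis) : x - star x = (x.im : Eis) * thE := by
  ext <;> simp [thE]
  ring

lemma exists_sqrt_unit {ε : Eis} (hN : QuadraticAlgebra.norm ε = 1) (h3 : red3 ε = 1) :
    ∃ μ : Eis, μ * star μ = 1 ∧ star μ * ε = μ := by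
  obtain ⟨x, y⟩ := ε
  rw [QuadraticAlgebra.norm_def] at hN
  simp only at hN
  have hy : -1 ≤ y ∧ y ≤ 1 := by
    constructor <;> nlinarith [sq_nonneg (2 * x - y), sq_nonneg (y - 1), sq_nonneg (y + 1)]
  have hx : -1 ≤ x ∧ x ≤ 1 := by
    constructor <;> nlinarith [sq_nonneg (2 * y - x), sq_nonneg (x - 1), sq_nonneg (x + 1)]
  obtain ⟨hy1, hy2⟩ := hy
  obtain ⟨hx1, hx2⟩ := hx
  refine ⟨⟨x, y⟩ * ⟨x, y⟩, ?_⟩
  interval_cases x <;> interval_cases y <;> first
    | omega
    | (revert h3; decide)

lemma exists_coprime_shift {N : ℕ} {a b c d : ℤ} (hc : c ≠ 0)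
    (h : (N : ℤ) ∣ a * d - b * c - 1) : ∃ d' : ℤ, (N : ℤ) ∣ d' - d ∧ IsCoprime d' c := by
  have : NeZero c.natAbs := ⟨by simpa using hc⟩
  set G := Nat.gcd N c.natAbs
  have hGN : G ∣ N := Nat.gcd_dvd_left _ _
  have hGc : G ∣ c.natAbs := Nat.gcd_dvd_right _ _
  have hu : IsUnit ((d : ℤ) : ZMod G) := by
    refine IsUnit.of_mul_eq_one (a : ZMod G) ?_
    have h1 : ((a * d - b * c - 1 : ℤ) : ZMod G) = 0 :=
      (ZMod.intCast_zmod_eq_zero_iff_dvd _ _).2 ((Int.natCast_dvd_natCast.2 hGN).trans h)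
    have h2 : ((c : ℤ) : ZMod G) = 0 :=
      (ZMod.intCast_zmod_eq_zero_iff_dvd _ _).2
        ((Int.natCast_dvd_natCast.2 hGc).trans (Int.natAbs_dvd.2 dvd_rfl))
    push_cast at h1
    rw [h2, mul_zero, sub_zero, sub_eq_zero] at h1
    rw [mul_comm]; exact h1
  obtain ⟨u, hu'⟩ := ZMod.unitsMap_surjective hGc hu.unit
  set e : ℤ := ((u : ZMod c.natAbs).val : ℤ)
  obtain ⟨s, hs⟩ : (G : ℤ) ∣ e - d := by
    rw [← ZMod.intCast_zmod_eq_zero_iff_dvd]
    have := congrArg Units.val hu'
    rw [ZMod.unitsMap_val, IsUnit.unit_spec, ZMod.cast_eq_val] at this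
    simp only [e, Int.cast_sub, Int.cast_natCast, this, sub_self]
  have hB := Nat.gcd_eq_gcd_ab N c.natAbs
  set x := Nat.gcdA N c.natAbs
  set y := Nat.gcdB N c.natAbs
  refine ⟨d + s * x * N, ⟨s * x, by ring⟩, ?_⟩
  have hcop : IsCoprime e c := by
    rw [Int.isCoprime_iff_gcd_eq_one]
    show Nat.gcd e.natAbs c.natAbs = 1
    simp only [e, Int.natAbs_natCast]
    exact ZMod.val_coe_unit_coprime u
  have he : d + s * x * N = e + (-(s * y) * (c.natAbs : ℤ)) := by
    linear_combination -hs - s * hB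
  rw [he]
  obtain ⟨m, hm⟩ : c ∣ (c.natAbs : ℤ) := Int.dvd_natAbs.2 dvd_rfl
  rw [hm, show e + -(s * y) * (c * m) = e + c * (-(s * y) * m) by ring]
  exact hcop.add_mul_left_left _

/-- Lifting from a congruence. -/
lemma exists_sl_lift {N : ℕ} [NeZero N] {a b c d : ℤ} (h : (N : ℤ) ∣ a * d - b * c - 1) :
    ∃ G : SL(2, ℤ), (N : ℤ) ∣ G.1 0 0 - a ∧ (N : ℤ) ∣ G.1 0 1 - b ∧ (N : ℤ) ∣ G.1 1 0 - c ∧
      (N : ℤ) ∣ G.1 1 1 - d := by
  obtain ⟨c', hc', hc0⟩ : ∃ c', (N : ℤ) ∣ c' - c ∧ c' ≠ 0 := by
    by_cases hc : c = 0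
    · exact ⟨c + N, by simp, by simp [hc, NeZero.ne N]⟩
    · exact ⟨c, by simp, hc⟩
  have h' : (N : ℤ) ∣ a * d - b * c' - 1 := by
    rw [show a * d - b * c' - 1 = a * d - b * c - 1 - b * (c' - c) by ring]
    exact h.sub (hc'.mul_left b)
  obtain ⟨d', hd', x, y, hxy⟩ := exists_coprime_shift hc0 h'
  obtain ⟨s, hs⟩ : (N : ℤ) ∣ 1 - (a * d' - b * c') := by
    rw [show 1 - (a * d' - b * c') = -(a * d - b * c' - 1) - a * (d' - d) by ring]
    exact h'.neg_right.sub (hd'.mul_left a)
  refine ⟨⟨!![a + N * s * x, b - N * s * y; c', d'], ?_⟩, ?_, ?_, ?_, ?_⟩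
  · rw [Matrix.det_fin_two_of]
    linear_combination (N : ℤ) * s * hxy - hs
  · exact ⟨s * x, by simp; ring⟩
  · exact ⟨-(s * y), by simp; ring⟩
  · simpa using hc'
  · simpa using hd'

/-! ## The orbit -/

/-- A real basis of the twisted conjugation. -/
theorem exists_real_basis {p q r : Eis} (hdet : p * star p - q * r = 1) (hq : star q = -q)
    (hr : star r = -r) (hp3 : red3 p = 1) (hq3 : red3 q = 0) (hr3 : red3 r = 0) :
    ∃ g : SLE, g.1 0 0 = p * star (g.1 0 0) + q * star (g.1 1 0) ∧
      g.1 1 0 = r * star (g.1 0 0) + star p * star (g.1 1 0) ∧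
      g.1 0 1 = p * star (g.1 0 1) + q * star (g.1 1 1) ∧
      g.1 1 1 = r * star (g.1 0 1) + star p * star (g.1 1 1) := by
  have hfix : ∀ a b : Eis, p * star (p * star a + q * star b) +
      q * star (r * star a + star p * star b) = a
      ∧ r * star (p * star a + q * star b) + star p * star (r * star a + star p * star b) = b := by
    intro a b
    simp only [star_add, star_mul', star_star, hq, hr]
    exact ⟨by linear_combination a * hdet, by linear_combination b * hdet⟩
  have hv : (1 + p) ≠ 0 ∨ r ≠ 0 := Or.inl fun h => by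
    have := congrArg red3 h
    rw [map_add, map_one, hp3, map_zero] at this
    exact absurd this (by decide)
  obtain ⟨δ, a, b, s, t, hδ, ha, hb, hab⟩ := exists_bezout hv
  set w₁ := p * star a + q * star b with hw₁
  set w₂ := r * star a + star p * star b with hw₂
  have hd' : star δ ≠ 0 := fun h => hδ (by rw [← star_star δ, h, star_zero])
  have e₁ : star δ * w₁ = δ * a := by
    rw [hw₁, ← ha]
    have h1 : star δ * star a = 1 + star p := by rw [← star_mul', ← ha, star_add, star_one]
    have h2 : star δ * star b = -r := by rw [← star_mul', ← hb, hr]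
    linear_combination p * h1 + q * h2 + hdet
  have e₂ : star δ * w₂ = δ * b := by
    rw [hw₂, ← hb]
    have h1 : star δ * star a = 1 + star p := by rw [← star_mul', ← ha, star_add, star_one]
    have h2 : star δ * star b = -r := by rw [← star_mul', ← hb, hr]
    linear_combination r * h1 + star p * h2
  set ε := s * w₁ + t * w₂ with hεdef
  have hε : star δ * ε = δ := by
    rw [hεdef]; linear_combination s * e₁ + t * e₂ + δ * hab
  have ew₁ : w₁ = ε * a := mul_left_cancel₀ hd' (by linear_combination e₁ - a * hε)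
  have ew₂ : w₂ = ε * b := mul_left_cancel₀ hd' (by linear_combination e₂ - b * hε)
  have hN : QuadraticAlgebra.norm ε = 1 := by
    have h := congrArg QuadraticAlgebra.norm hε
    rw [map_mul, QuadraticAlgebra.norm_star] at h
    have h0 : QuadraticAlgebra.norm δ ≠ 0 := fun h0 => hδ (toC_injective (by
      rw [map_zero, ← Complex.normSq_eq_zero, normSq_toC, h0, Int.cast_zero]))
    exact mul_left_cancel₀ h0 (by linear_combination h)
  have hε3 : red3 ε = 1 := by
    have h1 := congrArg red3 hab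
    rw [hεdef, hw₁, hw₂]
    simp only [map_add, map_mul, red3_star, hp3, hq3, hr3, map_one, one_mul, zero_mul, add_zero,
      zero_add] at h1 ⊢
    exact h1
  obtain ⟨μ, hμ1, hμ2⟩ := exists_sqrt_unit hN hε3
  set u₁ := -(t * star μ) with hu₁
  set u₂ := s * star μ with hu₂
  set z₁ := p * star u₁ + q * star u₂ with hz₁
  set z₂ := r * star u₁ + star p * star u₂ with hz₂
  set v₁ := μ * a with hv₁
  set v₂ := μ * b with hv₂
  have fv₁ : p * star v₁ + q * star v₂ = v₁ := by
    simp only [hv₁, hv₂, star_mul']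
    linear_combination a * hμ2 + star μ * ew₁ - star μ * hw₁
  have fv₂ : r * star v₁ + star p * star v₂ = v₂ := by
    simp only [hv₁, hv₂, star_mul']
    linear_combination b * hμ2 + star μ * ew₂ - star μ * hw₂
  have hvu : v₁ * u₂ - v₂ * u₁ = 1 := by
    simp only [hv₁, hv₂, hu₁, hu₂]
    linear_combination (s * a + t * b) * hμ1 + hab
  have hvz : v₁ * z₂ - v₂ * z₁ = 1 := by
    have h := congrArg star hvu
    simp only [star_sub, star_mul', star_one] at h
    rw [hz₁, hz₂]
    linear_combination (r * star u₁ + star p * star u₂) * (-fv₁) +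
      (p * star u₁ + q * star u₂) * fv₂ + (p * star p - q * r) * h + hdet
  set lam := u₂ * (z₁ - u₁) - u₁ * (z₂ - u₂) with hlam
  have el₁ : z₁ - u₁ = lam * v₁ := by
    rw [hlam]; linear_combination -(z₁ - u₁) * hvu + u₁ * (hvz - hvu)
  have el₂ : z₂ - u₂ = lam * v₂ := by
    rw [hlam]; linear_combination -(z₂ - u₂) * hvu + u₂ * (hvz - hvu)
  obtain ⟨hf₁, hf₂⟩ := hfix u₁ u₂
  rw [← hz₁, ← hz₂] at hf₁ hf₂
  have hs₁ : (lam + star lam) * v₁ = 0 := by
    have h1 := congrArg star el₁
    have h2 := congrArg star el₂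
    simp only [star_sub, star_mul'] at h1 h2
    linear_combination -el₁ - p * h1 - q * h2 + hf₁ - hz₁ - star lam * fv₁
  have hs₂ : (lam + star lam) * v₂ = 0 := by
    have h1 := congrArg star el₁
    have h2 := congrArg star el₂
    simp only [star_sub, star_mul'] at h1 h2
    linear_combination -el₂ - r * h1 - star p * h2 + hf₂ - hz₂ - star lam * fv₂
  have hsym : lam + star lam = 0 := by
    linear_combination u₂ * hs₁ - u₁ * hs₂ - (lam + star lam) * hvu
  have him : lam.im = 2 * lam.re := by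
    have := congrArg QuadraticAlgebra.re hsym
    simp at this
    linarith
  set ν : Eis := ⟨0, lam.re⟩
  have hν : ν - star ν = lam := by
    ext <;> simp [ν, him]; ring
  refine ⟨⟨!![v₁, u₁ + ν * v₁; v₂, u₂ + ν * v₂], ?_⟩, fv₁.symm, fv₂.symm, ?_, ?_⟩
  · rw [Matrix.det_fin_two_of]; linear_combination hvu
  · show u₁ + ν * v₁ = p * star (u₁ + ν * v₁) + q * star (u₂ + ν * v₂)
    simp only [star_add, star_mul']
    linear_combination -el₁ + hz₁ + v₁ * hν - star ν * fv₁
  · show u₂ + ν * v₂ = r * star (u₁ + ν * v₁) + star p * star (u₂ + ν * v₂)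
    simp only [star_add, star_mul']
    linear_combination -el₂ + hz₂ + v₂ * hν - star ν * fv₂

variable {M : ℕ} [NeZero M]

/-- The congruence group moves `v0` inside its class. -/
theorem smul_v0_congr {g : SLE} (hg : g ∈ congE (3 * M)) :
    ∃ y, g • v0 = v0 + subV (9 * M) y := by
  rw [mem_congE_iff] at hg
  obtain ⟨X, hX⟩ := redE_eq_zero_iff.1 (hg 0 0)
  obtain ⟨B, hB⟩ := redE_eq_zero_iff.1 (hg 0 1)
  obtain ⟨C, hC⟩ := redE_eq_zero_iff.1 (hg 1 0)
  obtain ⟨Y, hY⟩ := redE_eq_zero_iff.1 (hg 1 1)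
  have hdet := g.2
  rw [Matrix.det_fin_two] at hdet
  simp only [Matrix.one_apply_eq, Matrix.one_apply_ne, ne_eq, zero_ne_one, one_ne_zero,
    not_false_eq_true, sub_zero, sub_eq_iff_eq_add] at hX hB hC hY
  set m : Eis := ((3 * M : ℕ) : Eis) with hm
  have hm3 : m = -(thE * thE) * (M : Eis) := by
    rw [hm, show (thE * thE : Eis) = -3 by ext <;> simp [thE]]
    push_cast; ring
  have hms : star m = m := by rw [hm, star_natCast]
  have hXY : m * (X + Y) = m * m * (B * C - X * Y) := by
    rw [hX, hB, hC, hY] at hdet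
    linear_combination hdet
  have hXY' : X + Y = m * (B * C - X * Y) := by
    refine mul_left_cancel₀ (fun h0 => ?_) (by linear_combination hXY : m * (X + Y) = m * _)
    rw [hm] at h0
    exact NeZero.ne (3 * M) (by simpa [natCast_eis, QuadraticAlgebra.ext_iff] using h0)
  refine ⟨((g.1 0 0 * star B).im, (C * star (g.1 1 1)).im, -(Y.im : Eis) +
    -thE * (M : Eis) * (B * C - X * Y + X * star Y - B * star C)), Prod.ext ?_ (Prod.ext ?_ ?_)⟩
  · simp only [smul_vec, cj, v0, subV, Prod.fst_add, hB]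
    simp [hm, natCast_eis, star_mul']
    ring
  · simp only [smul_vec, cj, v0, subV, Prod.snd_add, Prod.fst_add, hC]
    simp [hm, natCast_eis]
    ring
  · simp only [smul_vec, cj, v0, subV, Prod.snd_add, Int.cast_zero, zero_mul, add_zero, mul_zero,
      zero_add, hX, hB, hC, hY, star_add, star_one, star_mul', hms, star_ofNat]
    have h9 : ((9 * M : ℕ) : Eis) = 3 * m := by rw [hm]; push_cast; ring
    rw [h9]
    linear_combination 3 * m * hXY' - 3 * m * sub_star_eis Y +
      3 * m * (B * C - X * Y + X * star Y - B * star C) * hm3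

/-- One orbit. -/
theorem exists_smul_v0 {x : Vec} (hP : P3 x = 9) (hx : ∃ y, x = v0 + subV (9 * M) y) :
    ∃ g ∈ congE (3 * M), g • v0 = x := by
  obtain ⟨⟨a, d, γ⟩, rfl⟩ := hx
  set m : Eis := ((3 * M : ℕ) : Eis) with hm
  set p : Eis := 1 + m * (thE * γ) with hp
  set q : Eis := -(m * thE * (a : Eis)) with hq
  set r : Eis := m * thE * (d : Eis) with hr
  have hth : star thE = -thE := by ext <;> simp [thE]
  have hms : star m = m := by rw [hm, star_natCast]
  have hth2 : thE * thE = -3 := by ext <;> simp [thE]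
  have hm3 : red3 m = 0 := by
    rw [hm, map_natCast]; push_cast
    rw [show (3 : ZMod 3) = 0 from rfl, zero_mul]
  have hdet : p * star p - q * r = 1 := by
    have h := congrArg (fun z : ℤ => (z : Eis)) hP
    simp only [P3, v0, subV, Prod.fst_add, Prod.snd_add, zero_add, Int.cast_sub, Int.cast_mul,
      Int.cast_natCast, Int.cast_ofNat] at h
    have hN : ∀ z : Eis, ((QuadraticAlgebra.norm z : ℤ) : Eis) = z * star z := fun z => by
      ext <;> simp [QuadraticAlgebra.norm_def] <;> ring
    rw [hN, show (3 : Eis) + ((9 * M : ℕ) : Eis) * (thE * γ) = 3 * p by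
      rw [hp, hm]; push_cast; ring, star_mul', star_ofNat,
      show ((9 * M : ℕ) : Eis) = 3 * m by rw [hm]; push_cast; ring] at h
    refine mul_left_cancel₀ (a := (9 : Eis)) (by simp) ?_
    rw [hq, hr]
    linear_combination h + 9 * m * m * (a : Eis) * (d : Eis) * hth2
  obtain ⟨g, h00, h10, h01, h11⟩ := exists_real_basis hdet
    (by rw [hq, star_neg, star_mul', star_mul', hth, hms, star_intCast]; ring)
    (by rw [hr, star_mul', star_mul', hth, hms, star_intCast]; ring)
    (by rw [hp, map_add, map_one, map_mul, hm3, zero_mul, add_zero])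
    (by rw [hq, map_neg, map_mul, map_mul, hm3, zero_mul, zero_mul, neg_zero])
    (by rw [hr, map_mul, map_mul, hm3, zero_mul, zero_mul])
  have hdg := g.2
  rw [Matrix.det_fin_two] at hdg
  have hdg' := congrArg star hdg
  simp only [star_sub, star_mul', star_one] at hdg'
  have ep : g.1 0 0 * star (g.1 1 1) - g.1 0 1 * star (g.1 1 0) = p := by
    linear_combination star (g.1 1 1) * h00 - star (g.1 1 0) * h01 + p * hdg'
  have eq' : g.1 0 0 * star (g.1 0 1) - g.1 0 1 * star (g.1 0 0) = -q := by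
    linear_combination star (g.1 0 1) * h00 - star (g.1 0 0) * h01 - q * hdg'
  have er : g.1 1 0 * star (g.1 1 1) - g.1 1 1 * star (g.1 1 0) = r := by
    linear_combination star (g.1 1 1) * h10 - star (g.1 1 0) * h11 + r * hdg'
  have hcancel : ∀ z w : Eis, z * thE = w * thE → z = w := fun z w h =>
    mul_right_cancel₀ (by simp [thE, QuadraticAlgebra.ext_iff]) h
  have e01 : ((g.1 0 0 * star (g.1 0 1)).im : Eis) = m * (a : Eis) := hcancel _ _ (by
    rw [← sub_star_eis, star_mul', star_star, show g.1 0 0 * star (g.1 0 1) -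
      star (g.1 0 0) * g.1 0 1 = -q by linear_combination eq', hq]
    ring)
  have e11 : ((g.1 1 0 * star (g.1 1 1)).im : Eis) = m * (d : Eis) := hcancel _ _ (by
    rw [← sub_star_eis, star_mul', star_star, show g.1 1 0 * star (g.1 1 1) -
      star (g.1 1 0) * g.1 1 1 = r by linear_combination er, hr]
    ring)
  have hgx : g • v0 = v0 + subV (9 * M) (a, d, γ) := by
    refine Prod.ext ?_ (Prod.ext ?_ ?_)
    · have h := congrArg QuadraticAlgebra.re e01
      simp [hm, natCast_eis] at h
      simp [smul_vec, cj, v0, subV, natCast_eis] at h ⊢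
      linear_combination 3 * h
    · have h := congrArg QuadraticAlgebra.re e11
      simp [hm, natCast_eis] at h
      simp [smul_vec, cj, v0, subV, natCast_eis] at h ⊢
      linear_combination 3 * h
    · simp only [smul_vec, cj, v0, subV, Prod.snd_add, Int.cast_zero, zero_mul, add_zero, mul_zero,
        zero_add, star_ofNat]
      rw [show ((9 * M : ℕ) : Eis) = 3 * m by rw [hm]; push_cast; ring]
      linear_combination 3 * ep + 3 * hp
  -- the imaginary parts vanish
  have him : ∀ i j, ((3 * M : ℕ) : ℤ) ∣ (g.1 i j).im := by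
    have key : ∀ (z X : Eis), z - star z = m * thE * X → ((3 * M : ℕ) : ℤ) ∣ z.im := fun z X h =>
      ⟨X.re, by
        have := congrArg QuadraticAlgebra.re (hcancel _ (m * X) (by rw [← sub_star_eis, h]; ring))
        simpa [hm, natCast_eis] using this⟩
    refine Fin.forall_fin_two.2 ⟨Fin.forall_fin_two.2 ⟨?_, ?_⟩, Fin.forall_fin_two.2 ⟨?_, ?_⟩⟩
    · exact key _ (γ * star (g.1 0 0) - (a : Eis) * star (g.1 1 0)) (by
        rw [hp, hq] at h00; linear_combination h00)
    · exact key _ (γ * star (g.1 0 1) - (a : Eis) * star (g.1 1 1)) (by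
        rw [hp, hq] at h01; linear_combination h01)
    · exact key _ ((d : Eis) * star (g.1 0 0) - star γ * star (g.1 1 0)) (by
        rw [hp, hr, star_add, star_one, star_mul', star_mul', hms, hth] at h10
        linear_combination h10)
    · exact key _ ((d : Eis) * star (g.1 0 1) - star γ * star (g.1 1 1)) (by
        rw [hp, hr, star_add, star_one, star_mul', star_mul', hms, hth] at h11
        linear_combination h11)
  have hred : ∀ i j, redE (3 * M) (g.1 i j) = (((g.1 i j).re : ℤ) : EisMod (3 * M)) := fun i j => by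
    ext
    · simp [redE]
    · simp only [redE, RingHom.coe_mk, MonoidHom.coe_mk, OneHom.coe_mk, QuadraticAlgebra.im_intCast,
        (ZMod.intCast_zmod_eq_zero_iff_dvd _ _).2 (him i j)]
  have hN : ((3 * M : ℕ) : ℤ) ∣
      (g.1 0 0).re * (g.1 1 1).re - (g.1 0 1).re * (g.1 1 0).re - 1 := by
    rw [← ZMod.intCast_zmod_eq_zero_iff_dvd]
    have h := congrArg (fun z => (redE (3 * M) z).re) hdg
    simp only [map_sub, map_mul, hred, map_one] at h
    simp [QuadraticAlgebra.re_one] at h
    push_cast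
    linear_combination h
  have : NeZero (3 * M) := ⟨by have := NeZero.ne M; omega⟩
  obtain ⟨G, hG00, hG01, hG10, hG11⟩ := exists_sl_lift hN
  refine ⟨g * (slE G)⁻¹, ?_, ?_⟩
  · rw [congE, MonoidHom.mem_ker, map_mul, map_inv, mul_inv_eq_one]
    have hz : ∀ x y : ℤ, ((3 * M : ℕ) : ℤ) ∣ x - y → (x : EisMod (3 * M)) = (y : EisMod (3 * M)) :=
      fun x y h => by
        rw [← sub_eq_zero, ← Int.cast_sub]
        ext <;> simp only [QuadraticAlgebra.re_intCast, QuadraticAlgebra.im_intCast,
          QuadraticAlgebra.re_zero, QuadraticAlgebra.im_zero]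
        exact (ZMod.intCast_zmod_eq_zero_iff_dvd _ _).2 h
    refine Subtype.ext (Matrix.ext fun i j => ?_)
    show redE (3 * M) (g.1 i j) = redE (3 * M) ((slE G).1 i j)
    rw [hred, slE_apply, redE_intCast]
    fin_cases i <;> fin_cases j
    exacts [(hz _ _ hG00).symm, (hz _ _ hG01).symm, (hz _ _ hG10).symm, (hz _ _ hG11).symm]
  · rw [mul_smul, inv_smul_eq_iff.2 (slE_smul_v0 G).symm, hgx]

/-- The stabiliser is real. -/
theorem exists_slE_of_fix {g : SLE} (h : g • v0 = v0) : ∃ G : SL(2, ℤ), slE G = g := by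
  have hth : (thE : Eis) ≠ 0 := by simp [thE, QuadraticAlgebra.ext_iff]
  have h1 : (g.1 0 0 * star (g.1 0 1)).im = 0 := by
    have := congrArg Prod.fst h
    simp [smul_vec, cj, v0] at this ⊢
    linarith
  have h2 : (g.1 1 0 * star (g.1 1 1)).im = 0 := by
    have := congrArg (fun x : Vec => x.2.1) h
    simp [smul_vec, cj, v0] at this ⊢
    linarith
  have h3 : g.1 0 0 * star (g.1 1 1) - g.1 0 1 * star (g.1 1 0) = 1 := by
    have := congrArg (fun x : Vec => x.2.2) h
    simp only [smul_vec, cj, v0, Int.cast_zero, zero_mul, add_zero, mul_zero, zero_add,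
      star_ofNat] at this
    exact mul_left_cancel₀ (a := (3 : Eis)) (by simp)
      (by linear_combination this)
  have h3' := congrArg star h3
  simp only [star_sub, star_mul', star_star, star_one] at h3'
  have e1 : g.1 0 0 * star (g.1 0 1) - star (g.1 0 0) * g.1 0 1 = 0 := by
    have := sub_star_eis (g.1 0 0 * star (g.1 0 1))
    rw [h1, Int.cast_zero, zero_mul, star_mul', star_star] at this
    exact this
  have e2 : g.1 1 0 * star (g.1 1 1) - star (g.1 1 0) * g.1 1 1 = 0 := by
    have := sub_star_eis (g.1 1 0 * star (g.1 1 1))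
    rw [h2, Int.cast_zero, zero_mul, star_mul', star_star] at this
    exact this
  have hd := g.2
  rw [Matrix.det_fin_two] at hd
  have hd' := congrArg star hd
  simp only [star_sub, star_mul', star_one] at hd'
  have key : ∀ i j, star (g.1 i j) = g.1 i j := by
    intro i j
    fin_cases i <;> fin_cases j
    · show star (g.1 0 0) = g.1 0 0
      linear_combination -star (g.1 0 0) * h3 + star (g.1 1 0) * e1 + g.1 0 0 * hd'
    · show star (g.1 0 1) = g.1 0 1
      linear_combination -star (g.1 0 1) * h3 + star (g.1 1 1) * e1 + g.1 0 1 * hd'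
    · show star (g.1 1 0) = g.1 1 0
      linear_combination -star (g.1 1 0) * h3' - star (g.1 0 0) * e2 + g.1 1 0 * hd'
    · show star (g.1 1 1) = g.1 1 1
      linear_combination -star (g.1 1 1) * h3' - star (g.1 0 1) * e2 + g.1 1 1 * hd'
  have him : ∀ i j, g.1 i j = ((g.1 i j).re : Eis) := fun i j => by
    have := congrArg QuadraticAlgebra.im (key i j)
    simp at this
    ext <;> simp
    linarith
  refine ⟨⟨g.1.map QuadraticAlgebra.re, ?_⟩, Subtype.ext (Matrix.ext fun i j => (him i j).symm)⟩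
  have := congrArg QuadraticAlgebra.re hd
  rw [him 0 0, him 0 1, him 1 0, him 1 1] at this
  simp [QuadraticAlgebra.re_one] at this
  rw [Matrix.det_fin_two]
  simpa using this

end FermatAgent.LT.Lift
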