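import Fermat.Agent.LT.Lift.Xi
import Fermat.Agent.LT.Lift.Orbit

/-!
# The Hecke relation for the coefficients of the lift

At a prime `p = π π̄` with `π ≡ 1` modulo the level, an eigenvalue of the neighbours of the form
becomes the Hecke relation between the coefficients of its lift.
-/

set_option autoImplicit false

noncomputable section

open Matrix MeasureTheory Set Filter
open scoped MatrixGroups Pointwise Real

namespace FermatAgent.LT.Lift

/-- A matrix with Eisenstein entries as a projective transformation. -/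
def pgM (A : Matrix (Fin 2) (Fin 2) Eis) : PGL(2, ℂ) :=
  if h : (matC A).det ≠ 0 then ProjGenLinGroup.mk (GeneralLinearGroup.mkOfDetNeZero (matC A) h)
  else 1

lemma det_matC (A : Matrix (Fin 2) (Fin 2) Eis) : (matC A).det = toC A.det :=
  (toC.map_det A).symm

lemma toC_ne_zero {x : Eis} (h : x ≠ 0) : toC x ≠ 0 := fun e =>
  h (toC_injective (by rw [e, map_zero]))

lemma pgM_eq {A : Matrix (Fin 2) (Fin 2) Eis} (h : A.det ≠ 0) (G : GL (Fin 2) ℂ)
    (hG : G.val = matC A) : pgM A = ProjGenLinGroup.mk G := by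
  rw [pgM, dif_pos (by rw [det_matC]; exact toC_ne_zero h)]
  congr 1
  exact Units.ext hG.symm

/-- The action of a nonsingular matrix. -/
lemma pgM_smul {A : Matrix (Fin 2) (Fin 2) Eis} (h : A.det ≠ 0) (G : GL (Fin 2) ℂ)
    (hG : G.val = matC A) (q : H3) : pgM A • q = G • q := by
  rw [pgM_eq h G hG, H3.mk_smul]

lemma exists_gl {A : Matrix (Fin 2) (Fin 2) Eis} (h : A.det ≠ 0) :
    ∃ G : GL (Fin 2) ℂ, G.val = matC A :=
  ⟨GeneralLinearGroup.mkOfDetNeZero (matC A) (by rw [det_matC]; exact toC_ne_zero h), rfl⟩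

lemma pgM_mul {A B : Matrix (Fin 2) (Fin 2) Eis} (hA : A.det ≠ 0) (hB : B.det ≠ 0) :
    pgM (A * B) = pgM A * pgM B := by
  obtain ⟨G, hG⟩ := exists_gl hA
  obtain ⟨H, hH⟩ := exists_gl hB
  rw [pgM_eq hA G hG, pgM_eq hB H hH, ← map_mul,
    pgM_eq (by rw [det_mul]; exact mul_ne_zero hA hB) (G * H)
      (by rw [Units.val_mul, hG, hH, matC, matC, matC, Matrix.map_mul])]

/-- The class of a special linear matrix. -/
lemma pgM_coe (g : SLE) : pgM g.1 = pglE g :=
  pgM_eq (by rw [g.2]; exact one_ne_zero) (glE g) (glE_val g)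

lemma pgM_scalar {x : Eis} (hx : x ≠ 0) : pgM (x • (1 : Matrix (Fin 2) (Fin 2) Eis)) = 1 := by
  rw [pgM_eq (by rw [Matrix.det_smul, det_one, mul_one]; exact pow_ne_zero _ hx)
    (GeneralLinearGroup.scalar (Fin 2) (Units.mk0 (toC x) (toC_ne_zero hx))) ?_,
    ProjGenLinGroup.mk_scalar]
  ext i j
  fin_cases i <;> fin_cases j <;> simp [GeneralLinearGroup.coe_scalar, matC]

/-- A matrix times its adjugate is trivial. -/
lemma pgM_mul_adjugate {A : Matrix (Fin 2) (Fin 2) Eis} (hA : A.det ≠ 0) :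
    pgM A * pgM A.adjugate = 1 := by
  rw [← pgM_mul hA (by rw [det_adjugate]; simpa using hA), mul_adjugate, pgM_scalar hA]

lemma pgM_adjugate {A : Matrix (Fin 2) (Fin 2) Eis} (hA : A.det ≠ 0) :
    pgM A.adjugate = (pgM A)⁻¹ := eq_inv_of_mul_eq_one_right (pgM_mul_adjugate hA)

/-! ## Reversing the passage to a subgroup -/

section Fold

variable {G H : Subgroup PGL(2, ℂ)} {s t : Set H3}

attribute [local instance] measurableConst_sub smulInv_sub

/-- Integrability passes to the domain of a subgroup of finite index. -/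
theorem integrableOn_of_fold (hHG : H ≤ G) (hG : G ≤ PGall)
    (hs : IsFundamentalDomain G s H3.vol) (ht : IsFundamentalDomain H t H3.vol)
    [(H.subgroupOf G).FiniteIndex] {f : H3 → ℂ}
    (hf : ∀ g ∈ G, ∀ p, f (g • p) = f p) (hi : IntegrableOn f t H3.vol) :
    IntegrableOn f s H3.vol := by
  have := countable_subgroup hG
  have := countable_subgroup (hHG.trans hG)
  have hfG : ∀ (g : G) p, f (g • p) = f p := fun g p => hf g g.2 p
  have hfH : ∀ (h : H) p, f (h • p) = f p := fun h p => hf h (hHG h.2) p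
  have hF := (ht.integrableOn_iff (isFD_foldSet hHG hG hs) hfH).1 hi
  have hq := hF.mono_set
    (Set.subset_iUnion (fun q : G ⧸ H.subgroupOf G => ((q.out)⁻¹ : G) • s) (QuotientGroup.mk 1))
  exact ((hs.smul _).integrableOn_iff hs hfG).1 hq

/-- Passing to a subgroup of finite index multiplies the volume by the index. -/
theorem fold_vol (hHG : H ≤ G) (hG : G ≤ PGall) (hs : IsFundamentalDomain G s H3.vol)
    (ht : IsFundamentalDomain H t H3.vol) [(H.subgroupOf G).FiniteIndex] (hfin : H3.vol s < ⊤) :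
    (H.relIndex G : ℂ) * (H3.vol s).toReal = (H3.vol t).toReal := by
  have h := (fold hHG hG hs ht (f := fun _ => (1 : ℂ)) (fun _ _ _ => rfl)
    (integrableOn_const hfin.ne)).2
  simp only [setIntegral_const, measureReal_def, Complex.real_smul, mul_one] at h
  exact h.symm

end Fold

/-- The volume of the domain. -/
def volE (n : ℕ) : ℝ := (H3.vol (fdE n)).toReal

lemma volE_ne_zero (n : ℕ) [NeZero n] : (volE n : ℂ) ≠ 0 := by
  exact_mod_cast (ENNReal.toReal_pos vol_fdE_pos.ne' vol_fdE_lt_top.ne).ne'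

lemma fold_fdE_vol {m n : ℕ} [NeZero m] [NeZero n] (hmn : m ∣ n) {f : H3 → ℂ}
    (hf : ∀ h ∈ congE m, ∀ p, f (h • p) = f p) (hi : IntegrableOn f (fdE m) H3.vol) :
    ∫ p in fdE n, f p ∂H3.vol = (volE n / volE m : ℂ) * ∫ p in fdE m, f p ∂H3.vol := by
  have := finiteIndex_of_PG_le (n := n) le_rfl (PG_le m)
  have h := fold_vol (PG_anti hmn) (PG_le m) (isFD_fdE m) (isFD_fdE n) vol_fdE_lt_top
  rw [(fold_fdE hmn hf hi).2]
  congr 1
  rw [eq_div_iff (volE_ne_zero m)]
  exact h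

lemma IsWave.anti {m n : ℕ} {Φ : H3 → ℂ} (hΦ : IsWave m Φ) (h : m ∣ n) : IsWave n Φ :=
  ⟨hΦ.cont, fun g hg => hΦ.inv g (congE_anti h hg), hΦ.decay⟩

lemma natCast_ne_zero' {p : ℕ} (h : p ≠ 0) : (p : Eis) ≠ 0 := by
  intro e
  have := congrArg QuadraticAlgebra.re e
  simp [natCast_eis] at this
  exact h (by exact_mod_cast this)

/-! ## The data at the prime -/

/-- A split prime congruent to one. -/
structure IsSplitOne (n p : ℕ) (ϖ : Eis) : Prop where
  prime : p.Prime
  ne_three : p ≠ 3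
  norm : QuadraticAlgebra.norm ϖ = p
  dvd : (n : Eis) ∣ ϖ - 1

variable {n p : ℕ} {ϖ : Eis}

namespace IsSplitOne

variable (h : IsSplitOne n p ϖ)
include h

/-- The norm of the split prime. -/
lemma star_mul : star ϖ * ϖ = (p : Eis) := by
  rw [mul_comm, ← QuadraticAlgebra.algebraMap_norm_eq_mul_star, h.norm]
  simp

/-- The split prime is nonzero. -/
lemma ne_zero : ϖ ≠ 0 := fun e => by
  have := h.norm
  rw [e, QuadraticAlgebra.norm_zero] at this
  exact h.prime.ne_zero (by exact_mod_cast this.symm)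

lemma redE_eq_one : redE n ϖ = 1 := by
  rw [← sub_eq_zero, ← map_one (redE n), ← map_sub, redE_eq_zero_iff]
  exact h.dvd

lemma cast_eq_one : (p : ZMod n) = 1 := by
  have e := congrArg (redE n) h.star_mul
  rw [map_mul, redE_star, h.redE_eq_one, star_one, one_mul, map_natCast] at e
  simpa [QuadraticAlgebra.re_one] using congrArg QuadraticAlgebra.re e.symm

lemma dvd_sub_one : (n : ℤ) ∣ (p : ℤ) - 1 := by
  rw [← ZMod.intCast_zmod_eq_zero_iff_dvd]
  push_cast
  rw [h.cast_eq_one, sub_self]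

/-- The imaginary part is prime to `p`. -/
lemma not_dvd_im : ¬(p : ℤ) ∣ ϖ.im := by
  intro hd
  have hN := h.norm
  rw [QuadraticAlgebra.norm_def] at hN
  have hre : (p : ℤ) ∣ ϖ.re := by
    have : (p : ℤ) ∣ ϖ.re * ϖ.re := by
      obtain ⟨c, hc⟩ := hd
      exact ⟨1 + ϖ.re * c - c * c * p, by rw [hc] at hN; linear_combination hN⟩
    exact (Nat.prime_iff_prime_int.1 h.prime).dvd_or_dvd this |>.elim id id
  obtain ⟨a, ha⟩ := hre
  obtain ⟨b, hb⟩ := hd
  rw [ha, hb] at hN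
  have h1 : (p : ℤ) * (p * (a * a - a * b + b * b)) = p * 1 := by linear_combination hN
  have h2 := mul_left_cancel₀ (Nat.cast_ne_zero.2 h.prime.ne_zero) h1
  exact (Nat.prime_iff_prime_int.1 h.prime).not_isUnit (IsUnit.of_mul_eq_one _ h2)

end IsSplitOne

/-- A matrix of the determinant congruent to one. -/
structure IsGoodMat (n : ℕ) (ϖ : Eis) (A : Matrix (Fin 2) (Fin 2) Eis) : Prop where
  det : A.det = ϖ
  congr : ∀ i j, redE n (A i j) = (1 : Matrix (Fin 2) (Fin 2) (EisMod n)) i j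

lemma inv_of_isPer_congr {k : ℕ} [NeZero k] {w : Vec → ℂ} (hk : 3 * k ∣ n)
    (hw : IsPer k w) (x y : Vec) :
    w (x + (n : ℤ) • y) = w x := by
  obtain ⟨m, rfl⟩ := hk
  obtain ⟨y', hy'⟩ := exists_subV_smul (k := k) m y
  rw [show ((3 * k * m : ℕ) : ℤ) = 3 * (k : ℤ) * m by push_cast; ring, hy', hw]

lemma IsGoodMat.weight {k : ℕ} [NeZero k] {w : Vec → ℂ} {A : Matrix (Fin 2) (Fin 2) Eis}
    (hA : IsGoodMat n ϖ A) (hk : 3 * k ∣ n) (hw : IsPer k w) (x : Vec) : w (cj A x) = w x := by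
  obtain ⟨y, hy⟩ := exists_cj_congr hA.congr x
  rw [hy, inv_of_isPer_congr hk hw]

lemma IsGoodMat.adjugate {A : Matrix (Fin 2) (Fin 2) Eis} (hA : IsGoodMat n ϖ A) :
    IsGoodMat n ϖ A.adjugate := by
  refine ⟨by rw [det_adjugate]; simpa using hA.det, fun i j => ?_⟩
  have := hA.congr
  rw [adjugate_fin_two]
  fin_cases i <;> fin_cases j <;> simp [this]

/-- Conjugation lowers the level by `p`. -/
theorem exists_conj (h : IsSplitOne n p ϖ) {N : ℕ} {A : Matrix (Fin 2) (Fin 2) Eis}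
    (hA : A.det = ϖ) {g : SLE} (hg : g ∈ congE (N * p)) :
    ∃ g' ∈ congE N, g'.1 * A = A * g.1 := by
  have hX : ∀ i j, ∃ y : Eis, g.1 i j = (1 : Matrix (Fin 2) (Fin 2) Eis) i j + (N * p : ℕ) * y :=
    fun i j => by
      obtain ⟨y, hy⟩ := redE_eq_zero_iff.1 (mem_congE_iff.1 hg i j)
      exact ⟨y, by rw [← hy]; ring⟩
  choose X hX using hX
  set Y : Matrix (Fin 2) (Fin 2) Eis := star ϖ • (A * Matrix.of X * A.adjugate) with hY
  set M : Matrix (Fin 2) (Fin 2) Eis := 1 + (N : Eis) • Y with hM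
  have hgX : g.1 = 1 + ((N * p : ℕ) : Eis) • Matrix.of X := by
    ext i j : 1
    rw [Matrix.add_apply, Matrix.smul_apply, Matrix.of_apply, smul_eq_mul]
    exact hX i j
  have e : M * A = A * g.1 := by
    rw [hM, hgX, add_mul, one_mul, mul_add, mul_one, hY, smul_mul_assoc, smul_mul_assoc,
      Matrix.mul_assoc _ A.adjugate A, adjugate_mul, hA, Matrix.mul_smul, Matrix.mul_smul,
      Matrix.mul_one, smul_smul, smul_smul, Nat.cast_mul, ← h.star_mul, mul_assoc]
  have hdet : M.det = 1 := by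
    have := congrArg Matrix.det e
    rw [det_mul, det_mul, g.2, mul_one, hA] at this
    exact mul_right_cancel₀ h.ne_zero (this.trans (one_mul ϖ).symm)
  refine ⟨⟨M, hdet⟩, mem_congE_iff.2 fun i j => redE_eq_zero_iff.2 ⟨Y i j, ?_⟩, e⟩
  show M i j - _ = _
  rw [hM, Matrix.add_apply, Matrix.smul_apply, smul_eq_mul]
  ring

/-- The conjugate of the domain's group. -/
def PGA (n p : ℕ) (A : Matrix (Fin 2) (Fin 2) Eis) : Subgroup PGL(2, ℂ) :=
  (PG (n * p)).map (MulAut.conj (pgM A) : PGL(2, ℂ) →* PGL(2, ℂ))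

lemma PGA_le (h : IsSplitOne n p ϖ) {A : Matrix (Fin 2) (Fin 2) Eis} (hA : IsGoodMat n ϖ A) :
    PGA n p A ≤ PG n := by
  rintro _ ⟨_, ⟨g, hg, rfl⟩, rfl⟩
  obtain ⟨g', hg', e⟩ := exists_conj h hA.det hg
  refine ⟨g', hg', ?_⟩
  show pglE g' = pgM A * pglE g * (pgM A)⁻¹
  have hA0 : A.det ≠ 0 := hA.det ▸ h.ne_zero
  rw [eq_mul_inv_iff_mul_eq, ← pgM_coe, ← pgM_coe, ← pgM_mul (by rw [g'.2]; exact one_ne_zero) hA0,
    ← pgM_mul hA0 (by rw [g.2]; exact one_ne_zero), e]

lemma le_PGA (h : IsSplitOne n p ϖ) {A : Matrix (Fin 2) (Fin 2) Eis} (hA : IsGoodMat n ϖ A) :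
    PG (n * p * p) ≤ PGA n p A := by
  rintro _ ⟨g, hg, rfl⟩
  obtain ⟨g', hg', e⟩ := exists_conj h hA.adjugate.det hg
  refine ⟨pglE g', ⟨g', hg', rfl⟩, ?_⟩
  show pgM A * pglE g' * (pgM A)⁻¹ = pglE g
  have hA0 : A.det ≠ 0 := hA.det ▸ h.ne_zero
  have e2 : pglE g' * (pgM A)⁻¹ = (pgM A)⁻¹ * pglE g := by
    rw [← pgM_adjugate hA0, ← pgM_coe, ← pgM_coe,
      ← pgM_mul (by rw [g'.2]; exact one_ne_zero) (by rw [hA.adjugate.det]; exact h.ne_zero),
      ← pgM_mul (by rw [hA.adjugate.det]; exact h.ne_zero) (by rw [g.2]; exact one_ne_zero), e]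
  rw [mul_assoc, e2, mul_inv_cancel_left]

/-! ## Translated slices -/

variable {k : ℕ} [NeZero k] {Φ : H3 → ℂ} {w : Vec → ℂ} {m : ℤ} {u : ℝ}

open Classical in
/-- The weight on the image of a level. -/
def imgW (A : Matrix (Fin 2) (Fin 2) Eis) (m : ℤ) (w : Vec → ℂ) (y : Vec) : ℂ :=
  if y ∈ Set.range (cj A) then lev m w y else 0

lemma isLev_imgW {B : ℝ} (hB0 : 0 ≤ B) (hB : ∀ x, ‖w x‖ ≤ B) (A : Matrix (Fin 2) (Fin 2) Eis) :
    IsLev m (imgW A m w) where
  bdd := ⟨B, hB0, fun y => by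
    unfold imgW; split_ifs
    exacts [norm_lev_le hB0 hB m y, by simpa using hB0]⟩
  supp y hy := by simp [imgW, lev, hy]

lemma cj_injective {A : Matrix (Fin 2) (Fin 2) Eis} (hA : A.det ≠ 0) :
    Function.Injective (cj A) := by
  intro x y e
  have h0 : (matC A).det ≠ 0 := by rw [det_matC]; exact toC_ne_zero hA
  have := congrArg mat e
  rw [mat_cj, mat_cj] at this
  refine mat_injective ?_
  have hu : IsUnit (matC A) := (Matrix.isUnit_iff_isUnit_det _).2 (Ne.isUnit h0)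
  exact hu.mul_left_cancel ((hu.star).mul_right_cancel (by
    simpa [Matrix.star_eq_conjTranspose] using this))

lemma norm_toC_sq (h : IsSplitOne n p ϖ) : ‖toC ϖ‖ ^ 2 = (p : ℝ) := by
  rw [← Complex.normSq_eq_norm_sq, normSq_toC, h.norm]
  simp

/-- A translated slice is a slice of the image. -/
theorem sph_adjugate (h : IsSplitOne n p ϖ) {A : Matrix (Fin 2) (Fin 2) Eis}
    (hA : IsGoodMat n ϖ A) (hk : 3 * k ∣ n) (hw : IsPer k w) (q : H3) :
    sph 0 u (lev m w) (pgM A.adjugate • q) = sph 0 (u / p) (imgW A (p * m) w) q := by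
  classical
  have hA0 : A.det ≠ 0 := hA.det ▸ h.ne_zero
  obtain ⟨G, hG⟩ := exists_gl hA0
  set r := pgM A.adjugate • q with hr
  have hq : G • r = q := by
    rw [← pgM_smul hA0 G hG, hr, ← mul_smul, pgM_mul_adjugate hA0, one_smul]
  have hp0 : (p : ℝ) ≠ 0 := Nat.cast_ne_zero.2 h.prime.ne_zero
  rw [sph, sph,
    ← (cj_injective hA0).tsum_eq (f := fun y => imgW A (p * m) w y * (gj 0 (u / p) y q : ℂ))]
  · refine tsum_congr fun x => ?_
    have hf : fv (cj A x) q = ‖toC ϖ‖ * fv x r := by rw [← hA.det, ← hq, fv_cj A G hG x r]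
    refine congrArg₂ (· * ·) ?_ ?_
    · simp only [imgW, Set.mem_range_self, if_true, lev, P3_cj, hA.det, h.norm,
        mul_right_inj' (Nat.cast_ne_zero.2 h.prime.ne_zero), hA.weight hk hw]
    · rw [gj, gj, pow_zero, pow_zero, hf, mul_pow, norm_toC_sq h]
      congr 3
      field_simp
  · intro y hy
    by_contra hne
    exact hy (by simp only [imgW, hne, if_false, zero_mul])

/-- The integral against a translate. -/
def transInt (n p : ℕ) (Φ : H3 → ℂ) (u : ℝ) (v : Vec → ℂ) (A : Matrix (Fin 2) (Fin 2) Eis) : ℂ :=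
  ∫ q in fdE (n * p), Φ (pgM A • q) * sph 0 u v q ∂H3.vol

omit [NeZero k] in
lemma trans_inv (h : IsSplitOne n p ϖ) (hΦ : IsWave n Φ) (hk : 3 * k ∣ n) (hw : IsPer k w)
    {A : Matrix (Fin 2) (Fin 2) Eis} (hA : IsGoodMat n ϖ A) :
    ∀ g ∈ congE (n * p), ∀ q,
      Φ (pgM A • g • q) * sph 0 u (lev m w) (g • q) = Φ (pgM A • q) * sph 0 u (lev m w) q := by
  intro g hg q
  obtain ⟨g', hg', e⟩ := exists_conj h hA.det hg
  have hA0 : A.det ≠ 0 := hA.det ▸ h.ne_zero
  have e' : pgM A • g • q = g' • pgM A • q := by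
    rw [← pglE_smul, ← pglE_smul, ← mul_smul, ← mul_smul, ← pgM_coe, ← pgM_coe,
      ← pgM_mul hA0 (by rw [g.2]; exact one_ne_zero),
      ← pgM_mul (by rw [g'.2]; exact one_ne_zero) hA0, e]
  rw [e', hΦ.inv g' hg',
    sph_inv (lev_inv (inv_congE_of_isPer hk hw) m) 0 u g (congE_anti (dvd_mul_right n p) hg)]

lemma transInt_mul_left (h : IsSplitOne n p ϖ) (hΦ : IsWave n Φ) {v : Vec → ℂ}
    {A : Matrix (Fin 2) (Fin 2) Eis} (hA : A.det = ϖ) {g : SLE} (hg : g ∈ congE n) :
    transInt n p Φ u v (g.1 * A) = transInt n p Φ u v A := by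
  refine integral_congr_ae (ae_of_all _ fun q => ?_)
  dsimp only
  rw [pgM_mul (by rw [g.2]; exact one_ne_zero) (hA ▸ h.ne_zero), mul_smul, pgM_coe, pglE_smul,
    hΦ.inv g hg]

omit [NeZero k] in
lemma transInt_mul_right (h : IsSplitOne n p ϖ) (hΦ : IsWave n Φ) (hk : 3 * k ∣ n) (hw : IsPer k w)
    {A : Matrix (Fin 2) (Fin 2) Eis} (hA : IsGoodMat n ϖ A) {g : SLE} (hg : g ∈ congE n) :
    transInt n p Φ u (lev m w) (A * g.1) = transInt n p Φ u (lev m w) A := by
  conv_rhs => rw [transInt, ← setIntegral_fdE_smul g (trans_inv h hΦ hk hw hA)]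
  refine integral_congr_ae (ae_of_all _ fun q => ?_)
  dsimp only
  rw [pgM_mul (hA.det ▸ h.ne_zero) (by rw [g.2]; exact one_ne_zero), mul_smul, pgM_coe, pglE_smul,
    sph_inv (lev_inv (inv_congE_of_isPer hk hw) m) 0 u g hg]

lemma imgW_inv (h : IsSplitOne n p ϖ) (hk : 3 * k ∣ n) (hw : IsPer k w)
    {A : Matrix (Fin 2) (Fin 2) Eis} (hA : IsGoodMat n ϖ A) :
    ∀ g ∈ congE (n * p * p), ∀ q,
      sph 0 (u / p) (imgW A (p * m) w) (g • q) = sph 0 (u / p) (imgW A (p * m) w) q := by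
  intro g hg q
  have hA0 : A.det ≠ 0 := hA.det ▸ h.ne_zero
  rw [← sph_adjugate h hA hk hw, ← sph_adjugate h hA hk hw]
  obtain ⟨_, ⟨g₀, hg₀, rfl⟩, e⟩ := le_PGA h hA (pglE_mem hg)
  rw [← pglE_smul, ← mul_smul, pgM_adjugate hA0, ← e]
  show sph 0 u _ (((pgM A)⁻¹ * (pgM A * pglE g₀ * (pgM A)⁻¹)) • q) = _
  rw [show (pgM A)⁻¹ * (pgM A * pglE g₀ * (pgM A)⁻¹) = pglE g₀ * (pgM A)⁻¹ by group, mul_smul,
      pglE_smul, sph_inv (lev_inv (inv_congE_of_isPer hk hw) m) 0 u g₀
        (congE_anti (dvd_mul_right n p) hg₀)]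

section

variable [NeZero (n * p)] [NeZero (n * p * p)]

/-- Unfolding a translate to the finer level. -/
theorem transInt_eq (h : IsSplitOne n p ϖ) (hΦ : IsWave n Φ) (hk : 3 * k ∣ n) (hw : IsPer k w)
    (hu : 0 < u) {A : Matrix (Fin 2) (Fin 2) Eis} (hA : IsGoodMat n ϖ A) :
    IntegrableOn (fun q => Φ (pgM A • q) * sph 0 u (lev m w) q) (fdE (n * p)) H3.vol ∧
    (volE (n * p * p) / volE (n * p) : ℂ) * transInt n p Φ u (lev m w) A =
      ∫ q in fdE (n * p * p), Φ q * sph 0 (u / p) (imgW A (p * m) w) q ∂H3.vol := by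
  have hA0 : A.det ≠ 0 := hA.det ▸ h.ne_zero
  obtain ⟨B, hB0, hB⟩ := hw.bounded
  have hlev := isLev_imgW (m := (p : ℤ) * m) hB0 hB A
  set f : H3 → ℂ := fun q => Φ q * sph 0 u (lev m w) (pgM A.adjugate • q) with hf
  have hfe : f = fun q => Φ q * sph 0 (u / p) (imgW A (p * m) w) q := by
    funext q
    simp only [hf, sph_adjugate h hA hk hw]
  have hfinv : ∀ g ∈ PGA n p A, ∀ q, f (g • q) = f q := by
    intro g hg q
    obtain ⟨g₁, hg₁, rfl⟩ := PGA_le h hA hg
    obtain ⟨_, ⟨g₀, hg₀, rfl⟩, e⟩ := hg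
    refine congrArg₂ (· * ·) ((congrArg Φ (pglE_smul g₁ q)).trans (hΦ.inv g₁ hg₁ q)) ?_
    rw [← mul_smul, pgM_adjugate hA0, ← e]
    show sph 0 u _ (((pgM A)⁻¹ * (pgM A * pglE g₀ * (pgM A)⁻¹)) • q) = _
    rw [show (pgM A)⁻¹ * (pgM A * pglE g₀ * (pgM A)⁻¹) = pglE g₀ * (pgM A)⁻¹ by group, mul_smul,
      pglE_smul, sph_inv (lev_inv (inv_congE_of_isPer hk hw) m) 0 u g₀
        (congE_anti (dvd_mul_right n p) hg₀)]
  have hfine : IntegrableOn f (fdE (n * p * p)) H3.vol := by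
    rw [hfe]
    refine (hΦ.anti ⟨p * p, by ring⟩).integrableOn_mul (hlev.continuous_sph (by
      have := h.prime.pos; positivity) 0) (hlev.isMod_sph (by have := h.prime.pos; positivity) 0)
      fun g hg q => ?_
    rw [imgW_inv h hk hw hA g hg q]
  have hG : PGA n p A ≤ PGall := (PGA_le h hA).trans (PG_le n)
  have := finiteIndex_of_PG_le (n := n * p * p) le_rfl hG
  have hs : IsFundamentalDomain (PGA n p A) (pgM A • fdE (n * p)) H3.vol :=
    isFD_translate _ (isFD_fdE _)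
  have hi := integrableOn_of_fold (le_PGA h hA) hG hs (isFD_fdE _) hfinv hfine
  have hcomp : (fun q => f (pgM A • q)) = fun q => Φ (pgM A • q) * sph 0 u (lev m w) q := by
    funext q
    simp only [hf, pgM_adjugate hA0, inv_smul_smul]
  have hvol : H3.vol (pgM A • fdE (n * p)) = H3.vol (fdE (n * p)) := measure_smul _ _ _
  refine ⟨?_, ?_⟩
  · rw [← hcomp]; exact (integrableOn_translate _ _ _).1 hi
  · have h1 := (fold (le_PGA h hA) hG hs (isFD_fdE _) hfinv hi).2
    have h2 := fold_vol (le_PGA h hA) hG hs (isFD_fdE _) (hvol ▸ vol_fdE_lt_top)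
    rw [hvol] at h2
    rw [transInt, ← hcomp, ← setIntegral_translate, ← congrArg (fun F : H3 → ℂ =>
      ∫ q in fdE (n * p * p), F q ∂H3.vol) hfe, h1]
    congr 1
    rw [div_eq_iff (volE_ne_zero _)]
    exact h2.symm

end

/-! ## The two sets of neighbours -/

/-- The neighbours. -/
def nbrM (n p : ℕ) (ϖ : Eis) : Option (Fin p) → Matrix (Fin 2) (Fin 2) Eis
  | none => !![1, 0; 0, ϖ]
  | some i => !![ϖ, ((n * i : ℕ) : Eis); 0, 1]

/-- The neighbour matrices are good. -/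
lemma isGood_nbrM (h : IsSplitOne n p ϖ) (i : Option (Fin p)) : IsGoodMat n ϖ (nbrM n p ϖ i) := by
  have h0 : redE n ((n : Eis)) = 0 := redE_eq_zero_iff.2 ⟨1, (mul_one _).symm⟩
  cases i with
  | none =>
    refine ⟨by simp [nbrM, det_fin_two], fun a b => ?_⟩
    fin_cases a <;> fin_cases b <;> simp [nbrM, h.redE_eq_one]
  | some i =>
    refine ⟨by simp [nbrM, det_fin_two], fun a b => ?_⟩
    fin_cases a <;> fin_cases b <;> simp [nbrM, h.redE_eq_one, h0]

/-- The torus neighbour. -/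
def torM (ϖ : Eis) : Matrix (Fin 2) (Fin 2) Eis := !![ϖ, 0; 0, 1]

lemma isGood_torM (h : IsSplitOne n p ϖ) : IsGoodMat n ϖ (torM ϖ) := by
  refine ⟨by simp [torM, det_fin_two], fun a b => ?_⟩
  fin_cases a <;> fin_cases b <;> simp [torM, h.redE_eq_one]

lemma trE_mem {b : Eis} (hb : (n : Eis) ∣ b) : trE b ∈ congE n := by
  rw [mem_congE_iff]
  intro i j
  fin_cases i <;> fin_cases j <;> simp [trE, redE_eq_zero_iff.2 hb]

omit [NeZero k] in
/-- Both kinds of neighbours give the same integral. -/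
theorem transInt_nbrM (h : IsSplitOne n p ϖ) (hΦ : IsWave n Φ) (hk : 3 * k ∣ n) (hw : IsPer k w)
    (i : Option (Fin p)) :
    transInt n p Φ u (lev m w) (nbrM n p ϖ i) = transInt n p Φ u (lev m w) (torM ϖ) ∧
      transInt n p Φ u (lev m w) (nbrM n p ϖ i).adjugate = transInt n p Φ u (lev m w) (torM ϖ) := by
  have hinf : transInt n p Φ u (lev m w) (nbrM n p ϖ none) =
      transInt n p Φ u (lev m w) (torM ϖ) := by
    obtain ⟨s, hs⟩ := h.dvd
    have hp : ϖ = 1 + (n : Eis) * s := by linear_combination hs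
    let g : SLE := ⟨!![ϖ, (n : Eis); -((n : Eis) * (s * s)), 1 - (n : Eis) * s], by
      rw [det_fin_two, hp]; simp; ring⟩
    let g' : SLE := ⟨!![1, (n : Eis); -((n : Eis) * (s * s)), ϖ * (1 - (n : Eis) * s)], by
      rw [det_fin_two, hp]; simp; ring⟩
    have e0 : redE n (n : Eis) = 0 := redE_eq_zero_iff.2 ⟨1, (mul_one _).symm⟩
    have hg : g ∈ congE n := by
      rw [mem_congE]
      intro a b
      fin_cases a <;> fin_cases b <;> simp [g, h.redE_eq_one, e0]
    have hg' : g' ∈ congE n := by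
      rw [mem_congE]
      intro a b
      fin_cases a <;> fin_cases b <;> simp [g', h.redE_eq_one, e0]
    have e : nbrM n p ϖ none * g.1 = g'.1 * torM ϖ := by
      ext a b : 1
      fin_cases a <;> fin_cases b <;>
        simp [nbrM, torM, g, g', Matrix.mul_apply, Fin.sum_univ_two]; ring
    rw [← transInt_mul_right h hΦ hk hw (isGood_nbrM h none) hg, e,
      transInt_mul_left h hΦ (isGood_torM h).det hg']
  cases i with
  | none =>
    refine ⟨hinf, ?_⟩
    congr 1
    rw [show nbrM n p ϖ none = !![1, 0; 0, ϖ] from rfl, adjugate_fin_two_of, neg_zero, torM]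
  | some i =>
    have hd : (n : Eis) ∣ ((n * i : ℕ) : Eis) := ⟨(i : ℕ), by push_cast; ring⟩
    have e : nbrM n p ϖ (some i) = (trE ((n * i : ℕ) : Eis)).1 * torM ϖ := by
      ext a b : 1
      fin_cases a <;> fin_cases b <;> simp [nbrM, torM, trE, Matrix.mul_apply, Fin.sum_univ_two]
    have e' : (nbrM n p ϖ (some i)).adjugate =
        nbrM n p ϖ none * (trE (-((n * i : ℕ) : Eis))).1 := by
      rw [show nbrM n p ϖ (some i) = !![ϖ, ((n * i : ℕ) : Eis); 0, 1] from rfl, adjugate_fin_two_of]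
      ext a b : 1
      fin_cases a <;> fin_cases b <;> simp [nbrM, trE, Matrix.mul_apply, Fin.sum_univ_two]
    refine ⟨?_, ?_⟩
    · rw [e, transInt_mul_left h hΦ (isGood_torM h).det (trE_mem hd)]
    · rw [e', transInt_mul_right h hΦ hk hw (isGood_nbrM h none) (trE_mem hd.neg_right), hinf]

/-! ## Counting -/

open Classical in
lemma card_lines {F : Type*} [Field F] [Fintype F] {t a d B B' : F} (ht : t ≠ 0)
    (hBB : B * B' + t ^ 2 * a * d = 0) :
    (Finset.univ.filter fun b : F => B = t * b * d ∧ a + b ^ 2 * d - b * ((B - B') / t) = 0).card +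
      (if d = 0 ∧ B' = 0 then 1 else 0) =
      if a = 0 ∧ d = 0 ∧ B = 0 ∧ B' = 0 then Fintype.card F + 1 else 1 := by
  by_cases hd : d = 0
  · subst hd
    rcases mul_eq_zero.1 (show B * B' = 0 by linear_combination hBB) with hB | hB
    · subst hB
      by_cases hB' : B' = 0
      · subst hB'
        by_cases ha : a = 0
        · simp [ha]
        · simp [ha]
      · have : (Finset.univ.filter fun b : F => (0 : F) = t * b * 0 ∧
            a + b ^ 2 * 0 - b * ((0 - B') / t) = 0) = {-(t * a) / B'} := by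
          ext b
          simp only [Finset.mem_filter, Finset.mem_univ, true_and, Finset.mem_singleton, mul_zero]
          field_simp
          constructor
          · intro e; linear_combination e
          · intro e; linear_combination e
        rw [this]
        simp [hB']
    · subst hB
      by_cases hB : B = 0
      · subst hB
        by_cases ha : a = 0
        · simp [ha]
        · simp [ha]
      · simp [hB]
  · have : (Finset.univ.filter fun b : F => B = t * b * d ∧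
        a + b ^ 2 * d - b * ((B - B') / t) = 0) = {B / (t * d)} := by
      ext b
      simp only [Finset.mem_filter, Finset.mem_univ, true_and, Finset.mem_singleton]
      constructor
      · rintro ⟨e, -⟩
        field_simp
        linear_combination -e
      · rintro rfl
        refine ⟨by field_simp, ?_⟩
        field_simp
        linear_combination hBB
    rw [this, if_neg (fun e => hd e.1), if_neg (fun e => hd e.2.1)]
    simp

lemma dvd_vec_iff {p : ℕ} {y : Vec} :
    (∃ z : Vec, y = (p : ℤ) • z) ↔ (p : ℤ) ∣ y.1 ∧ (p : ℤ) ∣ y.2.1 ∧ (p : Eis) ∣ y.2.2 := by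
  constructor
  · rintro ⟨z, rfl⟩
    refine ⟨⟨z.1, zsmul_fst _ _⟩, ⟨z.2.1, zsmul_snd_fst _ _⟩, ⟨z.2.2, ?_⟩⟩
    rw [zsmul_snd_snd]
    push_cast
    ring
  · rintro ⟨⟨a, ha⟩, ⟨d, hd⟩, ⟨b, hb⟩⟩
    refine ⟨(a, d, b), Prod.ext ?_ (Prod.ext ?_ ?_)⟩
    · rw [zsmul_fst, ha]
    · rw [zsmul_snd_fst, hd]
    · rw [zsmul_snd_snd, hb]
      push_cast
      ring

lemma cj_scalar (x : Eis) (y : Vec) :
    cj (x • (1 : Matrix (Fin 2) (Fin 2) Eis)) y = QuadraticAlgebra.norm x • y := by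
  have hs : x * y.2.2 * star x = ((QuadraticAlgebra.norm x : ℤ) : Eis) * y.2.2 := by
    rw [show x * y.2.2 * star x = x * star x * y.2.2 by ring,
      ← QuadraticAlgebra.algebraMap_norm_eq_mul_star]
    simp
  refine Prod.ext ?_ (Prod.ext ?_ ?_)
  · rw [zsmul_fst]; simp [cj]
  · rw [zsmul_snd_fst]; simp [cj]
  · rw [zsmul_snd_snd]; simp [cj, hs]

lemma mem_range_cj_iff (h : IsSplitOne n p ϖ) {A : Matrix (Fin 2) (Fin 2) Eis} (hA : A.det = ϖ)
    (y : Vec) : y ∈ Set.range (cj A) ↔ ∃ z : Vec, cj A.adjugate y = (p : ℤ) • z := by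
  constructor
  · rintro ⟨x, rfl⟩
    exact ⟨x, by rw [← cj_mul, adjugate_mul, hA, cj_scalar, h.norm]⟩
  · rintro ⟨z, hz⟩
    refine ⟨z, cj_injective (A := A.adjugate) ?_ ?_⟩
    · rw [det_adjugate, hA]; simpa using h.ne_zero
    · rw [hz, ← cj_mul, adjugate_mul, hA, cj_scalar, h.norm]

/-- The residue map at `ϖ`. -/
def resW (p : ℕ) [Fact p.Prime] (ϖ : Eis) (x : Eis) : ZMod p :=
  x.re + x.im * (-(ϖ.re : ZMod p) / ϖ.im)

/-- `-Re ϖ / Im ϖ` is a primitive cube root of unity modulo `p`, and reduction with it in place of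
`ω` is a ring homomorphism. -/
private lemma exists_resW_hom [Fact p.Prime] (h : IsSplitOne n p ϖ) :
    (-(ϖ.re : ZMod p) / ϖ.im) ^ 2 + (-(ϖ.re : ZMod p) / ϖ.im) + 1 = 0 ∧
      ∃ ψ : Eis →+* ZMod p, ∀ x, ψ x = (x.re : ZMod p) + x.im * (-(ϖ.re : ZMod p) / ϖ.im) := by
  set r : ZMod p := -(ϖ.re : ZMod p) / ϖ.im with hr
  have him : (ϖ.im : ZMod p) ≠ 0 := fun e =>
    h.not_dvd_im ((ZMod.intCast_zmod_eq_zero_iff_dvd _ _).1 e)
  have hrel : r ^ 2 + r + 1 = 0 := by
    have hN := congrArg (fun z : ℤ => (z : ZMod p)) h.norm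
    simp only [QuadraticAlgebra.norm_def] at hN
    push_cast at hN
    rw [ZMod.natCast_self] at hN
    rw [hr]
    field_simp
    linear_combination hN
  exact ⟨hrel,
    { toFun := resW p ϖ
      map_one' := by simp [resW, QuadraticAlgebra.re_one, QuadraticAlgebra.im_one]
      map_zero' := by simp [resW]
      map_add' := fun a b => by simp [resW]; ring
      map_mul' := fun a b => by
        simp only [resW, ← hr, QuadraticAlgebra.re_mul, QuadraticAlgebra.im_mul]
        push_cast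
        linear_combination (-(a.im : ZMod p) * (b.im : ZMod p)) * hrel }, fun x => rfl⟩

/-- An Eisenstein integer is divisible by `p` if both of its residues at the places over `p`
vanish. -/
private lemma natCast_dvd_eis_iff [Fact p.Prime] {r : ZMod p} (ψ : Eis →+* ZMod p)
    (hψ : ∀ x, ψ x = (x.re : ZMod p) + x.im * r)
    (hψs : ∀ x, ψ (star x) = (x.re : ZMod p) + x.im * (-1 - r)) (ht0 : 2 * r + 1 ≠ 0) (x : Eis) :
    (p : Eis) ∣ x ↔ ψ x = 0 ∧ ψ (star x) = 0 := by
  constructor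
  · rintro ⟨c, rfl⟩
    simp [star_mul, map_mul]
  · rintro ⟨e1, e2⟩
    rw [hψ] at e1
    rw [hψs] at e2
    have hi : (x.im : ZMod p) = 0 := (mul_eq_zero.1
      (show (2 * r + 1) * (x.im : ZMod p) = 0 by linear_combination e1 - e2)).resolve_left ht0
    rw [hi, zero_mul, add_zero] at e1
    obtain ⟨a, ha⟩ := (ZMod.intCast_zmod_eq_zero_iff_dvd _ p).1 e1
    obtain ⟨b, hb⟩ := (ZMod.intCast_zmod_eq_zero_iff_dvd _ p).1 hi
    exact ⟨⟨a, b⟩, QuadraticAlgebra.ext (by simp [natCast_eis, ha]) (by simp [natCast_eis, hb])⟩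

open Classical in
/-- The number of neighbours whose image contains a vector. -/
theorem card_images (h : IsSplitOne n p ϖ) (hn : ¬p ∣ n) {y : Vec} (hy : (p : ℤ) ∣ P3 y) :
    (Finset.univ.filter fun i => y ∈ Set.range (cj (nbrM n p ϖ i))).card =
      if ∃ z : Vec, y = (p : ℤ) • z then p + 1 else 1 := by
  have := Fact.mk h.prime
  set r : ZMod p := -(ϖ.re : ZMod p) / ϖ.im with hr
  have him : (ϖ.im : ZMod p) ≠ 0 := fun e =>
    h.not_dvd_im ((ZMod.intCast_zmod_eq_zero_iff_dvd _ _).1 e)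
  obtain ⟨hrel, ψ, hψ⟩ := exists_resW_hom h
  rw [← hr] at hrel hψ
  have hψs : ∀ x : Eis, ψ (star x) = (x.re : ZMod p) + x.im * (-1 - r) := fun x => by
    rw [hψ, QuadraticAlgebra.re_star, QuadraticAlgebra.im_star]
    push_cast
    ring
  set t := 2 * r + 1 with ht
  have hp3 : ((3 : ℕ) : ZMod p) ≠ 0 := fun e =>
    h.ne_three ((Nat.prime_dvd_prime_iff_eq h.prime Nat.prime_three).1
      ((ZMod.natCast_eq_zero_iff _ _).1 e))
  have ht0 : t ≠ 0 := fun e => hp3 (by push_cast; linear_combination (-t) * e + 4 * hrel)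
  have hdvd : ∀ x : Eis, (p : Eis) ∣ x ↔ ψ x = 0 ∧ ψ (star x) = 0 :=
    natCast_dvd_eis_iff ψ hψ hψs ht0
  have hπ : ψ ϖ = 0 := by rw [hψ, hr]; field_simp; ring
  have hπ' : ψ (star ϖ) ≠ 0 := by
    rw [hψs]
    intro e
    rw [hψ] at hπ
    exact him
      ((mul_eq_zero.1 (show t * (ϖ.im : ZMod p) = 0 by linear_combination hπ - e)).resolve_left ht0)
  have hth : ψ thE = t := by simp [hψ, thE, ht]; ring
  have hths : ψ (star thE) = -t := by rw [hψs]; simp [thE, ht]; ring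
  set a : ZMod p := Int.cast y.1
  set d : ZMod p := Int.cast y.2.1
  set B := ψ y.2.2 with hB
  set B' := ψ (star y.2.2) with hB'
  have hIm : (y.2.2.im : ZMod p) = (B - B') / t := by
    rw [eq_div_iff ht0, hB, hB', hψ, hψs, ht]; ring
  have hBB : B * B' + t ^ 2 * a * d = 0 := by
    rw [← ZMod.intCast_zmod_eq_zero_iff_dvd, P3] at hy
    have hn' : ((QuadraticAlgebra.norm y.2.2 : ℤ) : ZMod p) = B * B' := by
      rw [hB, hB', ← map_mul, ← QuadraticAlgebra.algebraMap_norm_eq_mul_star]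
      simp
    push_cast at hy
    rw [hn'] at hy
    linear_combination hy + 4 * a * d * hrel
  have hnF : (n : ZMod p) ≠ 0 := fun e => hn ((ZMod.natCast_eq_zero_iff _ _).1 e)
  let e : Fin p → ZMod p := fun i => (n : ZMod p) * (i : ℕ)
  have he : Function.Bijective e := by
    rw [Fintype.bijective_iff_injective_and_card]
    refine ⟨fun i j hij => Fin.ext ?_, by rw [Fintype.card_fin, ZMod.card]⟩
    have := congrArg ZMod.val (mul_left_cancel₀ hnF hij)
    rwa [ZMod.val_natCast_of_lt i.2, ZMod.val_natCast_of_lt j.2] at this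
  have hsome : ∀ i : Fin p, y ∈ Set.range (cj (nbrM n p ϖ (some i))) ↔
      B = t * e i * d ∧ a + e i ^ 2 * d - e i * ((B - B') / t) = 0 := fun i => by
    rw [mem_range_cj_iff h (isGood_nbrM h _).det, dvd_vec_iff, hdvd,
      ← ZMod.intCast_zmod_eq_zero_iff_dvd, ← ZMod.intCast_zmod_eq_zero_iff_dvd]
    simp only [nbrM, adjugate_fin_two_of]
    set b : Eis := ((n * i : ℕ) : Eis) with hb
    have hbre : (b.re : ZMod p) = e i ∧ b.im = 0 := by simp [hb, natCast_eis, e]
    have hb1 : ψ b = e i := by simp [hb, e]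
    have hb2 : star b = b := by
      ext <;> simp [hb, natCast_eis]
    have hb3 : ((QuadraticAlgebra.norm b : ℤ) : ZMod p) = e i ^ 2 := by
      simp [QuadraticAlgebra.norm_def, hbre.1, hbre.2]; ring
    have hbim : (b.im : ZMod p) = 0 := by rw [hbre.2, Int.cast_zero]
    have c1 : (((cj !![1, -b; -0, ϖ] y).1 : ℤ) : ZMod p) =
        a + e i ^ 2 * d - e i * ((B - B') / t) := by
      rw [← hIm]
      simp [cj, hb2, QuadraticAlgebra.im_mul, hb3, hbim, hbre.1, a, d]
      ring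
    have c2 : (((cj !![1, -b; -0, ϖ] y).2.1 : ℤ) : ZMod p) = 0 := by
      simp [cj, h.norm]
    have c3 : ψ (cj !![1, -b; -0, ϖ] y).2.2 = ψ (star ϖ) * (B - t * e i * d) := by
      simp [cj, hb1, hth, hB, d]
      ring
    have c4 : ψ (star (cj !![1, -b; -0, ϖ] y).2.2) = 0 := by
      simp [cj, hπ]
    rw [c1, c2, c3, c4]
    constructor
    · rintro ⟨h1, -, h3, -⟩
      exact ⟨sub_eq_zero.1 ((mul_eq_zero.1 h3).resolve_left hπ'), h1⟩
    · rintro ⟨e1, e2⟩
      exact ⟨e2, rfl, by rw [e1, sub_self, mul_zero], rfl⟩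
  have hnone : y ∈ Set.range (cj (nbrM n p ϖ none)) ↔ d = 0 ∧ B' = 0 := by
    rw [mem_range_cj_iff h (isGood_nbrM h _).det, dvd_vec_iff, hdvd,
      ← ZMod.intCast_zmod_eq_zero_iff_dvd, ← ZMod.intCast_zmod_eq_zero_iff_dvd]
    simp only [nbrM, adjugate_fin_two_of, neg_zero]
    simp [cj, h.norm, hπ, hπ', d, hB']
  have hall : (∃ z : Vec, y = (p : ℤ) • z) ↔ a = 0 ∧ d = 0 ∧ B = 0 ∧ B' = 0 := by
    rw [dvd_vec_iff, hdvd, ← ZMod.intCast_zmod_eq_zero_iff_dvd,
      ← ZMod.intCast_zmod_eq_zero_iff_dvd]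
  rw [Finset.card_filter, Fintype.sum_option, add_comm]
  simp only [hsome, hnone, hall]
  rw [he.sum_comp (fun b =>
    if B = t * b * d ∧ a + b ^ 2 * d - b * ((B - B') / t) = 0 then 1 else 0),
    ← Finset.card_filter]
  rw [show p + 1 = Fintype.card (ZMod p) + 1 by rw [ZMod.card]]
  convert card_lines ht0 hBB

/-! ## The relation -/

open Classical in
/-- The weight of the multiples. -/
def mulW (p : ℕ) (m : ℤ) (w : Vec → ℂ) (x : Vec) : ℂ := if (p : ℤ) * P3 x = m then w x else 0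

/-- The slices of the images under the neighbours: the level itself and `p` times the multiples. -/
theorem sum_slices (h : IsSplitOne n p ϖ) (hn : ¬p ∣ n) (hk : 3 * k ∣ n) (hw : IsPer k w)
    (hu : 0 < u) (q : H3) :
    ∑ i, sph 0 (u / p) (imgW (nbrM n p ϖ i) (p * m) w) q =
      sph 0 (u / p) (lev (p * m) w) q + p * sph 0 (u * p) (mulW p m w) q := by
  classical
  obtain ⟨B, hB0, hB⟩ := hw.bounded
  have hp : (0 : ℝ) < p := Nat.cast_pos.2 h.prime.pos
  have hu' : 0 < u / p := div_pos hu hp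
  have hS := ((isLev_lev hB0 hB ((p : ℤ) * m)).summable hu' 0 q).of_norm
  set G : Vec → ℂ := fun y => lev (p * m) w y * (gj 0 (u / p) y q : ℂ) with hG
  set R : Set Vec := Set.range fun z : Vec => (p : ℤ) • z with hR
  have hterm : ∀ y, ∑ i, imgW (nbrM n p ϖ i) (p * m) w y * (gj 0 (u / p) y q : ℂ) =
      G y + (p : ℂ) * R.indicator G y := fun y => by
    by_cases hy : P3 y = p * m
    · rw [← Finset.sum_mul, show ∑ i, imgW (nbrM n p ϖ i) (p * m) w y =
        ((Finset.univ.filter fun i => y ∈ Set.range (cj (nbrM n p ϖ i))).card : ℂ) *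
          lev (p * m) w y by
          simp [imgW, ← Finset.sum_filter], card_images h hn ⟨m, hy⟩]
      have hmem : y ∈ R ↔ ∃ z : Vec, y = (p : ℤ) • z :=
        ⟨fun ⟨z, hz⟩ => ⟨z, hz.symm⟩, fun ⟨z, hz⟩ => ⟨z, hz.symm⟩⟩
      by_cases hz : ∃ z : Vec, y = (p : ℤ) • z
      · rw [if_pos hz, Set.indicator_of_mem (hmem.2 hz), hG]; push_cast; ring
      · rw [if_neg hz, Set.indicator_of_notMem (fun e => hz (hmem.1 e)), hG]; push_cast; ring
    · have h0 : lev ((p : ℤ) * m) w y = 0 := if_neg hy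
      simp [hG, imgW, h0, Set.indicator]
  simp only [sph]
  rw [← Summable.tsum_finsetSum fun i _ =>
    ((isLev_imgW (m := (p : ℤ) * m) hB0 hB _).summable hu' 0 q).of_norm,
    tsum_congr hterm, hS.tsum_add ((hS.indicator R).mul_left _), tsum_mul_left]
  congr 2
  have hinj : Function.Injective fun z : Vec => (p : ℤ) • z := fun a b e => by
    have hp0 : (p : ℤ) ≠ 0 := Nat.cast_ne_zero.2 h.prime.ne_zero
    refine Prod.ext ?_ (Prod.ext ?_ ?_)
    · exact mul_left_cancel₀ hp0 (by simpa [zsmul_fst] using congrArg Prod.fst e)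
    · exact mul_left_cancel₀ hp0 (by simpa [zsmul_snd_fst] using congrArg (fun v : Vec => v.2.1) e)
    · exact mul_left_cancel₀ (natCast_ne_zero' h.prime.ne_zero)
        (by simpa [zsmul_snd_snd] using congrArg (fun v : Vec => v.2.2) e)
  rw [← hinj.tsum_eq (f := R.indicator G) Set.support_indicator_subset]
  refine tsum_congr fun z => ?_
  rw [Set.indicator_of_mem (show (p : ℤ) • z ∈ R from ⟨z, rfl⟩), hG]
  have hP : P3 ((p : ℤ) • z) = (p : ℤ) * ((p : ℤ) * P3 z) := by
    simp only [P3, zsmul_fst, zsmul_snd_fst, zsmul_snd_snd, map_mul,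
      show QuadraticAlgebra.norm ((p : ℤ) : Eis) = (p : ℤ) * p by
        simp [QuadraticAlgebra.norm_def, natCast_eis]]
    ring
  have hwz : w ((p : ℤ) • z) = w z := by
    obtain ⟨c, hc⟩ := h.dvd_sub_one
    rw [show (p : ℤ) • z = z + (n : ℤ) • (c • z) by
      rw [show (p : ℤ) = 1 + n * c by linear_combination hc, add_smul, one_smul, mul_smul],
      inv_of_isPer_congr hk hw]
  have hf : fv ((p : ℤ) • z) q = p * fv z q := by
    rw [fv_eq, fv_eq]
    simp only [zsmul_fst, zsmul_snd_fst, zsmul_snd_snd, bv, map_mul, map_intCast]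
    push_cast
    simp [Complex.mul_re, mul_div_assoc]
    ring
  simp only [lev, mulW, hP, mul_right_inj' (Nat.cast_ne_zero.2 h.prime.ne_zero : (p : ℤ) ≠ 0), hwz]
  rw [gj, gj, hf, pow_zero, pow_zero]
  congr 3
  field_simp

variable [NeZero (n * p)] [NeZero (n * p * p)]
variable [NeZero n]

/-- The relation between the slices. -/
theorem hecke_slice (h : IsSplitOne n p ϖ) (hn : ¬p ∣ n) (hΦ : IsWave n Φ)
    (hk : 3 * k ∣ n) (hw : IsPer k w) (hu : 0 < u) {c : ℂ}
    (hH : ∀ q, ∑ i, Φ (pgM (nbrM n p ϖ i).adjugate • q) = c * Φ q) :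
    c * FF n Φ 0 u (lev m w) =
      FF n Φ 0 (u / p) (lev (p * m) w) + p * FF n Φ 0 (u * p) (mulW p m w) := by
  obtain ⟨B, hB0, hB⟩ := hw.bounded
  have hp : (0 : ℝ) < p := Nat.cast_pos.2 h.prime.pos
  have hu' : 0 < u / p := div_pos hu hp
  have hwi := inv_congE_of_isPer hk hw
  have hlev := isLev_lev hB0 hB (w := w)
  have hmulW : IsLev (if (p : ℤ) ∣ m then m / p else 0) (mulW p m w) := ⟨⟨B, hB0, fun x => by
    unfold mulW; split_ifs <;> first | exact hB x | simpa using hB0⟩, fun x hx => by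
    refine if_neg fun e => hx ?_
    rw [if_pos ⟨_, e.symm⟩, ← e, Int.mul_ediv_cancel_left _ (Nat.cast_ne_zero.2 h.prime.ne_zero)]⟩
  have hminv : ∀ g ∈ congE n, ∀ x, mulW p m w (g • x) = mulW p m w x := fun g hg x => by
    simp only [mulW, P3_smul, hwi g hg]
  set T := transInt n p Φ u (lev m w) (torM ϖ)
  have hi0 := hΦ.integrable_sph (hlev m) (lev_inv hwi m) hu 0
  have hadj : c * ((volE (n * p) / volE n : ℂ) * FF n Φ 0 u (lev m w)) = (p + 1 : ℕ) * T := by
    rw [FF, ← fold_fdE_vol (dvd_mul_right n p)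
      (fun g hg q => by rw [hΦ.inv g hg, sph_inv (lev_inv hwi m) 0 u g hg]) hi0,
      ← integral_const_mul]
    calc ∫ q in fdE (n * p), c * (Φ q * sph 0 u (lev m w) q) ∂H3.vol
        = ∫ q in fdE (n * p),
            ∑ i, Φ (pgM (nbrM n p ϖ i).adjugate • q) * sph 0 u (lev m w) q ∂H3.vol :=
          integral_congr_ae (ae_of_all _ fun q => by dsimp only; rw [← Finset.sum_mul, hH q]; ring)
      _ = ∑ i, transInt n p Φ u (lev m w) (nbrM n p ϖ i).adjugate :=
          integral_finsetSum _ fun i _ => (transInt_eq h hΦ hk hw hu (isGood_nbrM h i).adjugate).1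
      _ = _ := by
          rw [Finset.sum_congr rfl fun i _ => (transInt_nbrM h hΦ hk hw i).2, Finset.sum_const,
            nsmul_eq_mul]
          simp [T]
  set K : H3 → ℂ := fun q =>
    sph 0 (u / p) (lev (p * m) w) q + p * sph 0 (u * p) (mulW p m w) q
  have hKinv : ∀ g ∈ congE n, ∀ q, Φ (g • q) * K (g • q) = Φ q * K q := fun g hg q => by
    simp only [K, hΦ.inv g hg, sph_inv (lev_inv hwi _) 0 _ g hg, sph_inv hminv 0 _ g hg]
  have hiA := hΦ.integrable_sph (hlev ((p : ℤ) * m)) (lev_inv hwi _) hu' 0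
  have hiB := (hΦ.integrable_sph hmulW hminv (mul_pos hu hp) 0).const_mul (p : ℂ)
  have hiK : IntegrableOn (fun q => Φ q * K q) (fdE n) H3.vol :=
    (hiA.add hiB).congr (ae_of_all _ fun q => by simp only [K, Pi.add_apply]; ring)
  have hright : (volE (n * p * p) / volE (n * p) : ℂ) * ((p + 1 : ℕ) * T) =
      (volE (n * p * p) / volE n : ℂ) *
        (FF n Φ 0 (u / p) (lev (p * m) w) + p * FF n Φ 0 (u * p) (mulW p m w)) := by
    rw [FF, FF, ← integral_const_mul (p : ℂ), ← integral_add hiA hiB]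
    rw [integral_congr_ae (g := fun q => Φ q * K q) (ae_of_all _ fun q => by simp only [K]; ring),
      ← fold_fdE_vol ⟨p * p, by ring⟩ hKinv hiK]
    calc (volE (n * p * p) / volE (n * p) : ℂ) * ((p + 1 : ℕ) * T)
        = ∑ i, (volE (n * p * p) / volE (n * p) : ℂ) *
            transInt n p Φ u (lev m w) (nbrM n p ϖ i) := by
          rw [Finset.sum_congr rfl fun i _ => by rw [(transInt_nbrM h hΦ hk hw i).1],
            Finset.sum_const,
            nsmul_eq_mul]
          simp [T]; ring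
      _ = ∑ i, ∫ q in fdE (n * p * p),
            Φ q * sph 0 (u / p) (imgW (nbrM n p ϖ i) (p * m) w) q ∂H3.vol :=
          Finset.sum_congr rfl fun i _ => (transInt_eq h hΦ hk hw hu (isGood_nbrM h i)).2
      _ = ∫ q in fdE (n * p * p),
            ∑ i, Φ q * sph 0 (u / p) (imgW (nbrM n p ϖ i) (p * m) w) q ∂H3.vol := by
          refine (integral_finsetSum _ fun i _ => ?_).symm
          have hv := isLev_imgW (m := (p : ℤ) * m) hB0 hB (nbrM n p ϖ i)
          exact ((hΦ.anti ⟨p * p, by ring⟩).integrableOn_mul (hv.continuous_sph hu' 0)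
            (hv.isMod_sph hu' 0) fun g hg q => by
              rw [imgW_inv h hk hw (isGood_nbrM h i) g hg q])
      _ = _ := integral_congr_ae (ae_of_all _ fun q => by
          dsimp only; rw [← Finset.mul_sum, sum_slices h hn hk hw hu q])
  rw [← hadj] at hright
  have h1 := volE_ne_zero n
  have h2 := volE_ne_zero (n * p)
  have h3 := volE_ne_zero (n * p * p)
  field_simp at hright
  linear_combination hright

omit [NeZero (n * p)] [NeZero (n * p * p)] in
/-- **The Hecke relation**: if the neighbours of `Φ` at `p = π π̄`, `π ≡ 1 (mod n)`, sum to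
`√p a Φ`, the coefficients `b` of the lift satisfy `b (p j) + b (j / p) = a b j`. -/
theorem hecke_Lam (h : IsSplitOne n p ϖ) (hn : ¬p ∣ n) (hΦ : IsCusp n Φ) (hk : 3 * k ∣ n)
    (hw : IsPer k w) {a : ℂ}
    (hH : ∀ q, ∑ i, Φ (pgM (nbrM n p ϖ i).adjugate • q) = (√(p : ℝ) : ℂ) * a * Φ q) (j : ℕ) :
    (UpperHalfPlane.qExpansion ((3 * k : ℕ) : ℝ) (Lam n k Φ w)).coeff (p * j) +
        (if p ∣ j then (UpperHalfPlane.qExpansion ((3 * k : ℕ) : ℝ) (Lam n k Φ w)).coeff (j / p)
          else 0) =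
      a * (UpperHalfPlane.qExpansion ((3 * k : ℕ) : ℝ) (Lam n k Φ w)).coeff j := by
  have : NeZero (3 * k) := ⟨mul_ne_zero three_ne_zero (NeZero.ne k)⟩
  rw [coeff_Lam hΦ hk hw, coeff_Lam hΦ hk hw, coeff_Lam hΦ hk hw, eq_comm]
  have hp0 : p ≠ 0 := h.prime.ne_zero
  have : NeZero p := ⟨hp0⟩
  have : NeZero (n * p) := ⟨mul_ne_zero (NeZero.ne n) hp0⟩
  have : NeZero (n * p * p) := ⟨mul_ne_zero (NeZero.ne (n * p)) hp0⟩
  have hp : (0 : ℝ) < p := Nat.cast_pos.2 h.prime.pos
  have hs0 : (√(p : ℝ) : ℂ) ≠ 0 := by exact_mod_cast (Real.sqrt_pos.2 hp).ne'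
  rcases Nat.eq_zero_or_pos j with rfl | hj
  · simp [aCoef]
  obtain ⟨B, hB0, hB⟩ := hw.bounded
  have hwi := inv_congE_of_isPer hk hw
  have hrel := hecke_slice h hn hΦ.wave hk hw (m := (j : ℤ)) one_pos hH
  have hG : ∀ (i : ℕ), 0 < i → ∀ v : ℝ, 0 < v →
      (√v : ℂ) * FF n Φ 0 v (lev (i : ℤ) w) = GG n Φ 1 (lev (i : ℤ) w) := fun i hi v hv =>
    GG_pos hΦ (isLev_lev hB0 hB (i : ℤ)) (lev_inv hwi _) (by exact_mod_cast hi) hv
  have h1 : FF n Φ 0 1 (lev (j : ℤ) w) = GG n Φ 1 (lev (j : ℤ) w) := by simp [GG]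
  have h2 : FF n Φ 0 (1 / p) (lev ((p : ℤ) * j) w) =
      (√(p : ℝ) : ℂ) * GG n Φ 1 (lev (((p * j : ℕ) : ℤ)) w) := by
    rw [← hG (p * j) (Nat.mul_pos h.prime.pos hj) (1 / p) (by positivity), ← mul_assoc,
      ← Complex.ofReal_mul, ← Real.sqrt_mul hp.le, mul_one_div_cancel hp.ne', Real.sqrt_one,
      Complex.ofReal_one, one_mul, Nat.cast_mul]
  rw [h1, h2, one_mul] at hrel
  simp only [aCoef, if_neg hj.ne', if_neg (mul_ne_zero hp0 hj.ne')]
  by_cases hd : p ∣ j
  · obtain ⟨i, rfl⟩ := hd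
    have hi : 0 < i := Nat.pos_of_mul_pos_left hj
    have e : mulW p ((p * i : ℕ) : ℤ) w = lev (i : ℤ) w := funext fun x => by
      simp only [mulW, lev, Nat.cast_mul, mul_right_inj' (Nat.cast_ne_zero.2 hp0 : (p : ℤ) ≠ 0)]
    rw [if_pos (dvd_mul_right p i), Nat.mul_div_cancel_left _ h.prime.pos, if_neg hi.ne']
    have h3 : (p : ℂ) * FF n Φ 0 p (lev (i : ℤ) w) =
        (√(p : ℝ) : ℂ) * GG n Φ 1 (lev (i : ℤ) w) := by
      rw [← hG i hi p hp, ← mul_assoc, ← Complex.ofReal_mul, Real.mul_self_sqrt hp.le,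
        Complex.ofReal_natCast]
    rw [e, h3] at hrel
    refine mul_left_cancel₀ hs0 ?_
    linear_combination kap k * hrel
  · have e : mulW p (j : ℤ) w = 0 := funext fun x => if_neg fun e => hd (by
      exact_mod_cast Dvd.intro (P3 x) e)
    rw [e, show FF n Φ 0 p (0 : Vec → ℂ) = 0 by simp [FF, sph], mul_zero, add_zero] at hrel
    rw [if_neg hd, add_zero]
    refine mul_left_cancel₀ hs0 ?_
    linear_combination kap k * hrel

end FermatAgent.LT.Lift
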