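import Fermat.Agent.LT.Period.Main
import Fermat.Agent.LT.Lift.Hecke

/-!
# From eigenforms on the adelic group to functions on hyperbolic space

The value at the different of a form over the Eisenstein field is a function on hyperbolic space;
left translations are right translations, and the Hecke neighbours at a prime congruent to one
come from the translations by rational integers.
-/

set_option autoImplicit false

noncomputable section

open Matrix IsDedekindDomain NumberField Filter MeasureTheory WithZero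
open scoped MatrixGroups ContDiff

namespace FermatAgent.LT.Lift

open FermatAgent.LT.Period (IsEis zeta IsGood place offThree)
open FermatAgent.LT.Whit (adelGrp glob atV levelGrp IsForm hT nB dG)

variable {K : Type*} [Field K] [NumberField K] [IsTotallyComplex K] {θ : K} (hE : IsEis θ)

/-- The Eisenstein integers inside the field. -/
def toO : Eis →+* 𝓞 K :=
  (QuadraticAlgebra.lift ⟨hE.zetaO, show hE.zetaO * hE.zetaO =
      (-1 : ℤ) • (1 : 𝓞 K) + (-1 : ℤ) • hE.zetaO from RingOfIntegers.ext (by
    have h := hE.zeta_rel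
    simp only [neg_smul, one_smul]
    push_cast
    show zeta θ * zeta θ = -1 + -zeta θ
    linear_combination h)⟩).toRingHom

section

omit [IsTotallyComplex K]

lemma toO_apply (x : Eis) : toO hE x = (x.re : 𝓞 K) + (x.im : 𝓞 K) * hE.zetaO := by
  show x.re • (1 : 𝓞 K) + x.im • hE.zetaO = _
  rw [zsmul_eq_mul, zsmul_eq_mul, mul_one]

/-- The Eisenstein numbers in the field. -/
def toK : Eis →+* K := (algebraMap (𝓞 K) K).comp (toO hE)

lemma toK_apply (x : Eis) : toK hE x = (x.re : K) + (x.im : K) * zeta θ := by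
  show algebraMap (𝓞 K) K (toO hE x) = _
  rw [toO_apply, map_add, map_mul, map_intCast, map_intCast]
  rfl

lemma toK_thE : toK hE thE = θ := by
  rw [toK_apply]
  simp [thE, zeta]
  ring

/-- The embedding of the Eisenstein integers is injective. -/
lemma toK_injective : Function.Injective (toK hE) := fun x y h => by
  rw [toK_apply, toK_apply] at h
  obtain ⟨h1, h2⟩ := hE.repr_unique h
  exact QuadraticAlgebra.ext h1 h2

/-- Eisenstein integers are integral at every place. -/
lemma val_toK_le (v : HeightOneSpectrum (𝓞 K)) (x : Eis) : v.valuation K (toK hE x) ≤ 1 :=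
  v.valuation_le_one _

/-- The maximal ideals seen on the Eisenstein integers. -/
lemma val_toK_lt_iff (v : HeightOneSpectrum (𝓞 K)) (x : Eis) :
    v.valuation K (toK hE x) < 1 ↔ toO hE x ∈ v.asIdeal :=
  v.valuation_lt_one_iff_mem _

/-- Units seen on the Eisenstein integers. -/
lemma val_toK_eq_one_iff (v : HeightOneSpectrum (𝓞 K)) (x : Eis) :
    v.valuation K (toK hE x) = 1 ↔ toO hE x ∉ v.asIdeal := by
  rw [← val_toK_lt_iff]
  exact ⟨fun h => h ▸ lt_irrefl _, fun h => le_antisymm (val_toK_le hE v x) (not_lt.1 h)⟩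

end

/-- The ring of integers is the Eisenstein integers. -/
lemma toO_surjective : Function.Surjective (toO hE) := fun z => by
  obtain ⟨a, b, h⟩ := hE.exists_int_repr z
  exact ⟨⟨a, b⟩, RingOfIntegers.ext (show toK hE ⟨a, b⟩ = _ by rw [toK_apply, h])⟩

/-- Integral matrices in the projective group of the field. -/
def gK : SLE →* G2 K :=
  ProjGenLinGroup.mk.comp (SpecialLinearGroup.toGL.comp (SpecialLinearGroup.map (toK hE)))

/-- A point at every infinite place. -/
def infPt (p : H3) : InfPts K := fun _ => p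

omit [NumberField K] [IsTotallyComplex K] in
/-- The point at infinity is continuous. -/
lemma continuous_infPt : Continuous (infPt : H3 → InfPts K) :=
  continuous_pi fun _ => continuous_id

include hE in
/-- There is one infinite place. -/
lemma update_infPt [DecidableEq (InfinitePlace K)] (p q : H3) (w : InfinitePlace K) :
    Function.update (infPt p : InfPts K) w q = infPt q := by
  funext w'
  rw [hE.eq_place w', hE.eq_place w]
  simp [infPt]

variable (hemb : (place K).embedding θ = thC)
include hemb

omit [IsTotallyComplex K] in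
lemma emb_toK (x : Eis) : (place K).embedding (toK hE x) = toC x := by
  have hz : (place K).embedding (zeta θ) = zC := by
    rw [zeta, map_div₀, map_sub, hemb, map_one, map_ofNat, thC_eq]
    ring
  rw [toK_apply, toC_apply, map_add, map_mul, hz, map_intCast, map_intCast]

/-- The action at the place of a matrix with integral entries. -/
lemma mk_smul_infPt (M : GL (Fin 2) K) (A : Matrix (Fin 2) (Fin 2) Eis)
    (hM : M.val = A.map (toK hE)) (p : H3) :
    (ProjGenLinGroup.mk M : G2 K) • infPt p = (infPt (pgM A • p) : InfPts K) := by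
  funext w
  rw [infPts_smul_apply, hE.eq_place w, ProjGenLinGroup.map_mk, H3.mk_smul]
  have h0 : A.det ≠ 0 := by
    intro h
    have := (Matrix.GeneralLinearGroup.det M).ne_zero
    rw [Matrix.GeneralLinearGroup.val_det_apply, hM, ← RingHom.mapMatrix_apply, ← RingHom.map_det,
      h, map_zero] at this
    exact this rfl
  show _ = pgM A • p
  rw [pgM_smul h0 (GeneralLinearGroup.map (place K).embedding M)]
  · rfl
  · ext i j
    simp [hM, emb_toK hE hemb, matC]

/-- The action at infinity is the action on hyperbolic space. -/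
lemma gK_smul_infPt (g : SLE) (p : H3) : gK hE g • infPt p = (infPt (g • p) : InfPts K) := by
  rw [← pglE_smul, ← pgM_coe]
  exact mk_smul_infPt hE hemb _ _ rfl p

omit hemb

/-- The different. -/
def thU : Kˣ := Units.mk0 θ hE.ne_zero

/-- The function on hyperbolic space of a form. -/
def clsF (f : InfPts K → adelGrp K → ℂ) (p : H3) : ℂ := f (infPt p) (glob (dG (thU hE)))

/-- The linear map to functions on hyperbolic space. -/
def clsL : (InfPts K → adelGrp K → ℂ) →ₗ[ℂ] (H3 → ℂ) where
  toFun := clsF hE
  map_add' _ _ := rfl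
  map_smul' _ _ := rfl

variable {n : ℕ}
variable {S : Finset (HeightOneSpectrum (𝓞 K))} {c : HeightOneSpectrum (𝓞 K) → ℂ}
  {f : InfPts K → adelGrp K → ℂ}

section

omit [IsTotallyComplex K]

/-- The conjugate of a matrix by the different. -/
def cjM (g : SLE) : GL (Fin 2) K :=
  GeneralLinearGroup.mkOfDetNeZero
    !![toK hE (g.1 0 0), toK hE (g.1 0 1) / θ; θ * toK hE (g.1 1 0), toK hE (g.1 1 1)] (by
    rw [det_fin_two_of, div_mul_eq_mul_div, mul_div_assoc, mul_div_cancel_left₀ _ hE.ne_zero,
      ← map_mul, ← map_mul, ← map_sub, ← det_fin_two, g.2, map_one]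
    exact one_ne_zero)

/-- The conjugated matrix. -/
lemma cjM_val (g : SLE) : (cjM hE g).val =
    !![toK hE (g.1 0 0), toK hE (g.1 0 1) / θ; θ * toK hE (g.1 1 0), toK hE (g.1 1 1)] := rfl

/-- The conjugated class. -/
lemma mk_cjM (g : SLE) :
    (ProjGenLinGroup.mk (cjM hE g) : G2 K) = (dG (thU hE))⁻¹ * gK hE g * dG (thU hE) := by
  rw [mul_assoc, eq_inv_mul_iff_mul_eq, dG, gK, MonoidHom.comp_apply, ← map_mul, ← map_mul]
  congr 1
  apply Units.ext
  have hθ := hE.ne_zero
  ext i j
  fin_cases i <;> fin_cases j <;>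
    simp [cjM_val, thU, Matrix.mul_apply, Fin.sum_univ_two] <;> field_simp

/-- The conjugated matrix has determinant one. -/
lemma det_cjM (g : SLE) : (cjM hE g).val.det = 1 := by
  rw [cjM_val, det_fin_two_of, div_mul_eq_mul_div, mul_div_assoc, mul_div_cancel_left₀ _ hE.ne_zero,
    ← map_mul, ← map_mul, ← map_sub, ← det_fin_two, g.2, map_one]

/-- A congruent matrix stays integral after conjugation by the different. -/
lemma exists_congE_repr {g : SLE} (hn : 3 ∣ n) (hg : g ∈ congE n) :
    ∃ X : Matrix (Fin 2) (Fin 2) K, (∀ v : HeightOneSpectrum (𝓞 K), ∀ i j,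
        v.valuation K (X i j) ≤ 1) ∧
      (cjM hE g).val =
        !![1 + (n : K) * X 0 0, θ * X 0 1; (n : K) * θ * X 1 0, 1 + (n : K) * X 1 1] ∧
      X 0 1 = -((n / 3 : ℕ) : K) * toK hE (Classical.choose
        (redE_eq_zero_iff.1 (mem_congE_iff.1 hg 0 1))) := by
  obtain ⟨m, rfl⟩ := hn
  have h := fun i j => redE_eq_zero_iff.1 (mem_congE_iff.1 hg i j)
  set y := fun i j => Classical.choose (h i j) with hy
  have hyv : ∀ i j, g.1 i j - (1 : Matrix (Fin 2) (Fin 2) Eis) i j = ((3 * m : ℕ) : Eis) * y i j :=
    fun i j => Classical.choose_spec (h i j)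
  refine ⟨!![toK hE (y 0 0), -(m : K) * toK hE (y 0 1); toK hE (y 1 0), toK hE (y 1 1)],
    fun v i j => ?_, ?_, by simp [y]⟩
  · fin_cases i <;> fin_cases j <;> simp [val_toK_le]
    refine mul_le_one' ?_ (val_toK_le hE v _)
    rw [← map_natCast (algebraMap (𝓞 K) K)]
    exact v.valuation_le_one _
  · have e : ∀ i j, toK hE (g.1 i j) =
        toK hE ((1 : Matrix (Fin 2) (Fin 2) Eis) i j) + ((3 * m : ℕ) : K) * toK hE (y i j) :=
      fun i j => by rw [← map_natCast (toK hE), ← map_mul, ← hyv, ← map_add]; congr 1; ring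
    have hθ := hE.ne_zero
    rw [cjM_val]
    ext i j
    fin_cases i <;> fin_cases j <;> simp [e]
    · field_simp
      linear_combination ((m : K) * toK hE (y 0 1)) * hE.sq
    · ring

include hE in
/-- The element `θ` is in the prime above three. -/
lemma three_theta_mem {v : HeightOneSpectrum (𝓞 K)} (h : (3 : 𝓞 K) ∈ v.asIdeal) :
    v.valuation K θ < 1 := by
  have := hE.ne_zero
  have h3 : v.valuation K (3 : K) < 1 := by
    rw [← map_ofNat (algebraMap (𝓞 K) K) 3, v.valuation_lt_one_iff_mem]
    exact h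
  by_contra hge
  have : v.valuation K θ ^ 2 = v.valuation K (3 : K) := by
    rw [← map_pow, hE.sq, Valuation.map_neg]
  exact not_le.2 h3 (this ▸ one_le_pow₀ (not_lt.1 hge))

end

include hemb

/-- Left translation as right translation. -/
lemma clsF_smul (hf : IsForm S f) (g : SLE) (p : H3) :
    clsF hE f (g • p) = clsF hE (Whit.rt (glob (ProjGenLinGroup.mk (cjM hE g⁻¹))) f) p := by
  show f (infPt (g • p)) _ = f (infPt p) (_ * glob _)
  rw [← gK_smul_infPt hE hemb, ← map_mul, mk_cjM, ← mul_assoc, mul_inv_cancel_left, map_mul,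
    map_inv]
  conv_lhs => rw [show glob (dG (thU hE)) =
    glob (gK hE g) * (glob ((gK hE g)⁻¹ * dG (thU hE))) by rw [← map_mul, mul_inv_cancel_left],
    hf.glob_smul]
  rw [map_mul, map_inv]

omit hemb

/-! ## Hecke operators -/

section HeckeRel

variable {p : ℕ} {ϖ : Eis} (hp : IsSplitOne n p ϖ)
include hp

omit [IsTotallyComplex K] in
/-- The multiples of the prime are the kernel of the residue map. -/
lemma dvd_iff_resW [Fact p.Prime] (x : Eis) : ϖ ∣ x ↔ resW p ϖ x = 0 := by
  set r : ZMod p := -(ϖ.re : ZMod p) / ϖ.im with hr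
  have him : (ϖ.im : ZMod p) ≠ 0 := fun e =>
    hp.not_dvd_im ((ZMod.intCast_zmod_eq_zero_iff_dvd _ _).1 e)
  have hrel : r ^ 2 + r + 1 = 0 := by
    have hN := congrArg (fun z : ℤ => (z : ZMod p)) hp.norm
    simp only [QuadraticAlgebra.norm_def] at hN
    push_cast at hN
    rw [ZMod.natCast_self] at hN
    rw [hr]
    field_simp
    linear_combination hN
  have hmul : ∀ a b : Eis, resW p ϖ (a * b) = resW p ϖ a * resW p ϖ b := fun a b => by
    simp only [resW, ← hr, QuadraticAlgebra.re_mul, QuadraticAlgebra.im_mul]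
    push_cast
    linear_combination (-(a.im : ZMod p) * (b.im : ZMod p)) * hrel
  have h0 : resW p ϖ ϖ = 0 := by simp only [resW]; field_simp; ring
  constructor
  · rintro ⟨y, rfl⟩
    rw [hmul, h0, zero_mul]
  · intro h
    have hd : (p : Eis) ∣ star ϖ * x := by
      have h1 : resW p ϖ (star ϖ * x) = 0 := by rw [hmul, h, mul_zero]
      have h2 : resW p ϖ (star (star ϖ * x)) = 0 := by rw [star_mul, star_star, hmul, h0, mul_zero]
      rw [resW] at h1 h2
      rw [QuadraticAlgebra.re_star, QuadraticAlgebra.im_star] at h2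
      push_cast at h2
      rw [← hr] at h1 h2
      set a := ((star ϖ * x).re : ZMod p)
      set b := ((star ϖ * x).im : ZMod p)
      have ht : (2 * r + 1 : ZMod p) ≠ 0 := by
        intro e
        have h3 : ((3 : ℕ) : ZMod p) ≠ 0 := fun e => hp.ne_three
          ((Nat.prime_dvd_prime_iff_eq hp.prime Nat.prime_three).1
            ((ZMod.natCast_eq_zero_iff _ _).1 e))
        exact h3 (by push_cast; linear_combination (-(2 * r + 1)) * e + 4 * hrel)
      have hb : b = 0 := (mul_eq_zero.1
        (show (2 * r + 1) * b = 0 by linear_combination h1 - h2)).resolve_left ht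
      have ha : a = 0 := by rw [hb, zero_mul, add_zero] at h1; exact h1
      obtain ⟨a', ha'⟩ := (ZMod.intCast_zmod_eq_zero_iff_dvd _ p).1 ha
      obtain ⟨b', hb'⟩ := (ZMod.intCast_zmod_eq_zero_iff_dvd _ p).1 hb
      exact ⟨⟨a', b'⟩, QuadraticAlgebra.ext (by rw [ha']; simp [natCast_eis])
        (by rw [hb']; simp [natCast_eis])⟩
    obtain ⟨y, hy⟩ := hd
    refine ⟨y, mul_left_cancel₀ (star_ne_zero.2 hp.ne_zero) ?_⟩
    rw [hy, ← mul_assoc, hp.star_mul]

/-- The place of the prime. -/
def primePlace : HeightOneSpectrum (𝓞 K) where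
  asIdeal := Ideal.span {toO hE ϖ}
  isPrime := by
    have := Fact.mk hp.prime
    refine ⟨fun htop => ?_, fun {a b} hab => ?_⟩
    · have h1 : (1 : 𝓞 K) ∈ Ideal.span {toO hE ϖ} := by rw [htop]; trivial
      obtain ⟨z, hz⟩ := Ideal.mem_span_singleton.1 h1
      obtain ⟨y, rfl⟩ := toO_surjective hE z
      rw [← map_mul, ← map_one (toO hE)] at hz
      have := (dvd_iff_resW hp 1).1 ⟨y, toK_injective hE (congrArg (algebraMap (𝓞 K) K) hz)⟩
      simp [resW, QuadraticAlgebra.re_one, QuadraticAlgebra.im_one] at this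
    · obtain ⟨a, rfl⟩ := toO_surjective hE a
      obtain ⟨b, rfl⟩ := toO_surjective hE b
      rw [← map_mul, Ideal.mem_span_singleton] at hab
      have hd : ϖ ∣ a * b := by
        obtain ⟨z, hz⟩ := hab
        obtain ⟨y, rfl⟩ := toO_surjective hE z
        rw [← map_mul] at hz
        exact ⟨y, toK_injective hE (congrArg (algebraMap (𝓞 K) K) hz)⟩
      have hpr : resW p ϖ a = 0 ∨ resW p ϖ b = 0 := by
        by_contra hcon
        push Not at hcon
        have h0 := (dvd_iff_resW hp (a * b)).1 hd
        have hr : ((-(ϖ.re : ZMod p) / ϖ.im) ^ 2 + (-(ϖ.re : ZMod p) / ϖ.im) + 1) = 0 := by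
          have him : (ϖ.im : ZMod p) ≠ 0 := fun e =>
            hp.not_dvd_im ((ZMod.intCast_zmod_eq_zero_iff_dvd _ _).1 e)
          have hN := congrArg (fun z : ℤ => (z : ZMod p)) hp.norm
          simp only [QuadraticAlgebra.norm_def] at hN
          push_cast at hN
          rw [ZMod.natCast_self] at hN
          field_simp
          linear_combination hN
        refine mul_ne_zero hcon.1 hcon.2 ?_
        rw [← h0]
        simp only [resW, QuadraticAlgebra.re_mul, QuadraticAlgebra.im_mul]
        push_cast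
        linear_combination ((a.im : ZMod p) * (b.im : ZMod p)) * hr
      rcases hpr with h | h
      · exact Or.inl (Ideal.mem_span_singleton.2 (map_dvd _ ((dvd_iff_resW hp a).2 h)))
      · exact Or.inr (Ideal.mem_span_singleton.2 (map_dvd _ ((dvd_iff_resW hp b).2 h)))
  ne_bot := by
    rw [Ne, Ideal.span_singleton_eq_bot]
    intro h
    exact hp.ne_zero (toK_injective hE (by
      rw [map_zero]
      exact (congrArg (algebraMap (𝓞 K) K) h).trans (map_zero _)))

/-- The prime lies in its place. -/
lemma natCast_mem_primePlace : (p : 𝓞 K) ∈ (primePlace hE hp).asIdeal := by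
  rw [← map_natCast (toO hE), ← hp.star_mul, map_mul]
  exact Ideal.mul_mem_left _ _ (Ideal.mem_span_singleton_self _)

lemma mem_primePlace_iff [Fact p.Prime] (x : Eis) :
    toO hE x ∈ (primePlace hE hp).asIdeal ↔ resW p ϖ x = 0 := by
  rw [← dvd_iff_resW hp]
  show toO hE x ∈ Ideal.span {toO hE ϖ} ↔ _
  rw [Ideal.mem_span_singleton]
  refine ⟨fun ⟨z, hz⟩ => ?_, map_dvd _⟩
  obtain ⟨y, rfl⟩ := toO_surjective hE z
  rw [← map_mul] at hz
  exact ⟨y, toK_injective hE (congrArg (algebraMap (𝓞 K) K) hz)⟩

/-- The generator has order one at its place. -/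
lemma val_primePlace : (primePlace hE hp).valuation K (toK hE ϖ) = exp (-1 : ℤ) := by
  show (primePlace hE hp).valuation K (algebraMap (𝓞 K) K (toO hE ϖ)) = _
  rw [HeightOneSpectrum.valuation_of_algebraMap]
  refine HeightOneSpectrum.intValuation_singleton _ ?_ rfl
  intro h
  exact hp.ne_zero (toK_injective hE (by
    rw [map_zero]
    exact (congrArg (algebraMap (𝓞 K) K) h).trans (map_zero _)))

/-- The matrix of a neighbour over the field. -/
def nbrK (i : Option (Fin p)) : GL (Fin 2) K :=
  match i with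
  | none => GeneralLinearGroup.mkOfDetNeZero !![1, 0; 0, toK hE ϖ]
      (by simpa using (map_ne_zero_iff _ (toK_injective hE)).2 hp.ne_zero)
  | some i => GeneralLinearGroup.mkOfDetNeZero !![toK hE ϖ, ((n * i : ℕ) : K) / θ; 0, 1]
      (by simpa using (map_ne_zero_iff _ (toK_injective hE)).2 hp.ne_zero)

/-- The different is a unit at the prime. -/
lemma val_theta_primePlace : (primePlace hE hp).valuation K θ = 1 := by
  set v := primePlace hE hp
  have h3v : (3 : 𝓞 K) ∉ v.asIdeal := fun h =>
    Period.coprime_notMem ((Nat.coprime_primes hp.prime Nat.prime_three).2 hp.ne_three)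
      (natCast_mem_primePlace hE hp) (by exact_mod_cast h)
  refine le_antisymm (hE.coe_thetaO ▸ v.valuation_le_one _) (not_lt.1 fun h => h3v ?_)
  rw [← v.valuation_lt_one_iff_mem (K := K)]
  show v.valuation K (algebraMap (𝓞 K) K 3) < 1
  rw [map_ofNat, ← Valuation.map_neg, ← hE.sq, map_pow]
  exact pow_lt_one₀ zero_le h two_ne_zero

/-- The translations of the neighbours exhaust the residues at the prime. -/
lemma exists_translate_residue (hpn : ¬p ∣ n) {s : K}
    (hs : (primePlace hE hp).valuation K s ≤ 1) :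
    ∃ i : Fin p, (primePlace hE hp).valuation K (s - ((n * i : ℕ) : K) / θ) < 1 := by
  have := Fact.mk hp.prime
  set v := primePlace hE hp
  obtain ⟨z, hz⟩ := exists_integer_near v hs
  obtain ⟨x, hx⟩ := toO_surjective hE z
  have hnF : (n : ZMod p) ≠ 0 := fun e => hpn ((ZMod.natCast_eq_zero_iff _ _).1 e)
  set l : ZMod p := resW p ϖ (thE * x) * (n : ZMod p)⁻¹
  refine ⟨⟨l.val, l.val_lt⟩, ?_⟩
  have hm : toO hE (thE * x - ((n * l.val : ℕ) : Eis)) ∈ v.asIdeal := by
    rw [mem_primePlace_iff]
    have hres' : ∀ y : Eis, ∀ k : ℕ, resW p ϖ (y - (k : Eis)) = resW p ϖ y - k := fun y k => by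
      simp only [resW, natCast_eis, QuadraticAlgebra.re_sub, QuadraticAlgebra.im_sub]
      push_cast
      ring
    rw [hres', Nat.cast_mul, ZMod.natCast_zmod_val]
    field_simp [l]
    simp only [l]
    field_simp
    ring
  rw [← val_toK_lt_iff, map_sub, map_mul, toK_thE, map_natCast] at hm
  rw [show s - ((n * l.val : ℕ) : K) / θ =
    (s - (z : K)) + ((z : K) - ((n * l.val : ℕ) : K) / θ) by ring]
  refine (v.valuation K).map_add_lt hz ?_
  rw [show (z : K) - ((n * l.val : ℕ) : K) / θ = (θ * toK hE x - ((n * l.val : ℕ) : K)) / θ by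
      rw [show (z : K) = toK hE x from congrArg (algebraMap (𝓞 K) K) hx.symm]
      field_simp [hE.ne_zero], map_div₀, val_theta_primePlace hE hp, div_one]
  exact hm

/-- The translations of the neighbours are distinct modulo the prime. -/
lemma translate_eq_of_near (hpn : ¬p ∣ n) {i j : Fin p}
    (h : (primePlace hE hp).valuation K (((n * i : ℕ) : K) / θ - ((n * j : ℕ) : K) / θ) < 1) :
    i = j := by
  have := Fact.mk hp.prime
  rw [← sub_div, map_div₀, val_theta_primePlace hE hp, div_one] at h
  have hm : toO hE (((n * i : ℕ) : Eis) - ((n * j : ℕ) : Eis)) ∈ (primePlace hE hp).asIdeal := by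
    rw [← val_toK_lt_iff, map_sub, map_natCast, map_natCast]; exact h
  rw [mem_primePlace_iff] at hm
  simp [resW, natCast_eis] at hm
  rw [← mul_sub] at hm
  have hnF : (n : ZMod p) ≠ 0 := fun e => hpn ((ZMod.natCast_eq_zero_iff _ _).1 e)
  have h2 := congrArg ZMod.val (sub_eq_zero.1 ((mul_eq_zero.1 hm).resolve_left hnF))
  rw [ZMod.val_natCast_of_lt i.2, ZMod.val_natCast_of_lt j.2] at h2
  exact Fin.ext h2

end HeckeRel

end FermatAgent.LT.Lift
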