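import Fermat.Agent.LT.Lift.Flow

/-!
# The differential equation of the slices of a lift

For a cuspidal radial eigenfunction `Φ` the integrals of `Φ` against the gaussians of the vectors of
one level of the form satisfy a second order differential equation in the width.
-/

set_option autoImplicit false

noncomputable section

open Matrix MeasureTheory Filter Topology ComplexConjugate Set
open scoped MatrixGroups ContDiff ENNReal Pointwise

namespace FermatAgent.LT.Lift

open Whit (kint IsLocBdd lapK box)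

/-- An eigenfunction of all radial kernels with the trivial parameter. -/
def IsEigen (Φ : H3 → ℂ) : Prop :=
  ∀ k : ℝ → ℝ, ContDiff ℝ ∞ k → HasCompactSupport k → ∀ p : H3,
    kint (fun q => k (H3.coshDist p q)) Φ = Whit.hT k * Φ p

/-! ## Majorants -/

lemma maj_smul (g : SLE) (x : Vec) (p : H3) : maj (g • x) (g • p) = maj x p := by
  simp [maj, fv_smul, qf]

/-- The majorant is invariant. -/
lemma majSum_smul (u : ℝ) (g : SLE) (p : H3) : majSum u (g • p) = majSum u p := by
  rw [majSum, majSum, ← (MulAction.toPerm g).tsum_eq]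
  simp [maj_smul]

lemma one_le_gau (p : H3) : 1 ≤ gau p := by
  have hp := p.t_pos
  simp only [gau, H3.bnd]
  rw [add_comm, div_add' _ _ _ hp.ne', le_div_iff₀ hp]
  nlinarith [Complex.normSq_nonneg p.z, sq_nonneg (p.t - 1)]

/-- The majorant is nonnegative. -/
lemma majSum_nonneg (u : ℝ) (p : H3) : 0 ≤ majSum u p := tsum_nonneg fun _ => (Real.exp_pos _).le

/-- A polynomial bound for the majorant. -/
lemma majSum_le_pow {u : ℝ} (hu : 0 < u) (p : H3) :
    majSum u p ≤ 9 ^ 4 * (2 + 200 / u) ^ 4 * gau p ^ 8 := by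
  refine (majSum_le hu p).trans ?_
  have h1 : (2 + 200 / u) ^ 4 * gau p ^ 8 = ((2 + 200 / u) * gau p ^ 2) ^ 4 := by ring
  rw [mul_assoc _ _ (gau p ^ 8), h1]
  refine mul_le_mul_of_nonneg_left (pow_le_pow_left₀ (by positivity) ?_ 4) (by norm_num)
  have h2 : 1 ≤ gau p ^ 2 := one_le_pow₀ (one_le_gau p)
  rw [add_mul, div_mul_eq_mul_div]
  linarith

lemma isMod_majSum {u : ℝ} (hu : 0 < u) : IsMod fun p => (majSum u p : ℂ) :=
  ⟨9 ^ 4 * (2 + 200 / u) ^ 4, 8, fun p => by
    rw [Complex.norm_real, Real.norm_of_nonneg (majSum_nonneg u p)]; exact majSum_le_pow hu p⟩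

lemma kint_integrable {k : ℝ → ℝ} (hk : Continuous k) (hks : HasCompactSupport k) (p : H3)
    {h : H3 → ℂ} (hh : Continuous h) :
    Integrable (fun q => (k (H3.coshDist p q) : ℂ) * h q) H3.vol :=
  Whit.integrable_radial_mul hk hks p (isLocBdd_of_continuous hh)

lemma kint_comb {k : ℝ → ℝ} (hk : Continuous k) (hks : HasCompactSupport k) (p : H3)
    {h₁ h₂ h₃ : H3 → ℂ} (h1 : Continuous h₁) (h2 : Continuous h₂)
    (h3 : Continuous h₃) (a b c : ℂ) :
    kint (fun q => k (H3.coshDist p q)) (fun q => a * h₁ q + b * h₂ q - c * h₃ q) =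
      a * kint (fun q => k (H3.coshDist p q)) h₁ + b * kint (fun q => k (H3.coshDist p q)) h₂ -
        c * kint (fun q => k (H3.coshDist p q)) h₃ := by
  simp only [kint, ← integral_const_mul]
  have i1 := (kint_integrable hk hks p h1).const_mul a
  have i2 := (kint_integrable hk hks p h2).const_mul b
  have i3 := (kint_integrable hk hks p h3).const_mul c
  rw [← integral_add i1 i2, ← integral_sub]
  · exact integral_congr_ae (ae_of_all _ fun q => by ring)
  · exact i1.add i2
  · exact i3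

lemma maj_base_le (x : Vec) : maj x H3.base ≤ 2 * size x := by
  have hN : (0 : ℝ) ≤ (QuadraticAlgebra.norm x.2.2 : ℤ) := by exact_mod_cast norm_nonneg' _
  simp only [maj, fv_eq, qf, P3, size, H3.base, map_zero, zero_mul, Complex.zero_re,
    mul_zero, sub_zero, one_pow, add_zero, mul_one, div_one]
  push_cast
  nlinarith [sq_nonneg ((x.1 : ℝ) - x.2.1), sq_nonneg ((x.1 : ℝ) + x.2.1)]

/-- Gaussian sums over the lattice converge. -/
lemma summable_size {c : ℝ} (hc : 0 < c) : Summable fun x : Vec => Real.exp (-(c * size x)) :=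
  (summable_maj (half_pos hc) H3.base).of_nonneg_of_le (fun _ => (Real.exp_pos _).le) fun x =>
    Real.exp_le_exp.2 (by nlinarith [maj_base_le x])

/-- Exponential majorants through the size. -/
lemma maj_exp_le {u G : ℝ} (hu : 0 ≤ u) {p : H3} (hG : gau p ≤ G) (x : Vec) :
    Real.exp (-(u * maj x p)) ≤ Real.exp (-(u / (100 * G ^ 2) * size x)) := by
  have h0 := gau_pos p
  refine Real.exp_le_exp.2 (neg_le_neg ?_)
  have hG0 : 0 < G := h0.trans_le hG
  rw [div_mul_eq_mul_div, div_le_iff₀ (by positivity), mul_assoc]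
  refine mul_le_mul_of_nonneg_left ?_ hu
  refine (size_le x p).trans ?_
  rw [show 100 * H3.bnd p ^ 2 * maj x p = maj x p * (100 * gau p ^ 2) by rw [gau]; ring]
  exact mul_le_mul_of_nonneg_left (by gcongr) (maj_nonneg x p)

/-- The majorant is continuous. -/
lemma continuous_majSum {u : ℝ} (hu : 0 < u) : Continuous fun p => majSum u p := by
  refine continuous_iff_continuousAt.2 fun p => ?_
  refine (continuousOn_tsum (fun x => ?_) (summable_size (c := u / (100 * (gau p + 1) ^ 2))
    (by have := gau_pos p; positivity))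
      fun x q (hq : q ∈ {q : H3 | gau q < gau p + 1}) => ?_).continuousAt
    (exists_gau_nhds p)
  · have := continuous_fv x
    exact (by unfold maj; fun_prop : Continuous fun q => Real.exp (-(u * maj x q))).continuousOn
  · rw [Real.norm_of_nonneg (Real.exp_pos _).le]
    exact maj_exp_le hu.le hq.le x

/-! ## Slices -/

/-- A bounded weight on one level of the form. -/
structure IsLev (m : ℤ) (w : Vec → ℂ) : Prop where
  bdd : ∃ B, 0 ≤ B ∧ ∀ x, ‖w x‖ ≤ B
  supp : ∀ x, P3 x ≠ m → w x = 0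

/-- The summand. -/
def gj (j : ℕ) (u : ℝ) (x : Vec) (p : H3) : ℝ := (fv x p ^ 2) ^ j * Real.exp (-(u * fv x p ^ 2))

/-- The gaussian sum of a weight. -/
def sph (j : ℕ) (u : ℝ) (w : Vec → ℂ) (p : H3) : ℂ := ∑' x : Vec, w x * (gj j u x p : ℂ)

/-- The constant bounding the summands. -/
def sphC (j : ℕ) (u : ℝ) (m : ℤ) (B : ℝ) : ℝ :=
  B * (j.factorial * (2 / u) ^ j) * Real.exp (u * (m / 3))

lemma gj_le {u : ℝ} (hu : 0 < u) (j : ℕ) (x : Vec) (p : H3) :
    gj j u x p ≤ j.factorial * (2 / u) ^ j *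
      (Real.exp (u * qf x) * Real.exp (-(u * maj x p))) := by
  rw [← Real.exp_add, show u * qf x + -(u * maj x p) = -(u / 2 * fv x p ^ 2) by rw [maj]; ring,
    show gj j u x p = (fv x p ^ 2) ^ j * Real.exp (-(u / 2 * fv x p ^ 2)) *
      Real.exp (-(u / 2 * fv x p ^ 2)) by rw [gj, mul_assoc, ← Real.exp_add]; ring_nf]
  refine mul_le_mul_of_nonneg_right ((exp_pow_bound (half_pos hu) j _ (sq_nonneg _)).trans ?_)
    (Real.exp_pos _).le
  rw [div_pow, div_pow]; field_simp; exact le_rfl

variable {m : ℤ} {w : Vec → ℂ}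

/-- A bound for the Gaussian terms. -/
lemma norm_term_le' (hw : IsLev m w) {B : ℝ} (hB : ∀ x, ‖w x‖ ≤ B) (hB0 : 0 ≤ B) {u : ℝ}
    (hu : 0 < u) (j : ℕ) (x : Vec) (p : H3) :
    ‖w x * (gj j u x p : ℂ)‖ ≤ sphC j u m B * Real.exp (-(u * maj x p)) := by
  by_cases h : P3 x = m
  · have hq : qf x = (m : ℝ) / 3 := by rw [qf, h]
    rw [norm_mul, Complex.norm_real, Real.norm_of_nonneg (by unfold gj; positivity), sphC, ← hq,
      mul_assoc B, mul_assoc B]
    refine mul_le_mul (hB x) ((gj_le hu j x p).trans (le_of_eq (by ring)))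
      (by unfold gj; positivity)
      hB0
  · rw [hw.supp x h]; simp [sphC]; positivity

/-- The Gaussian series converges. -/
lemma IsLev.summable (hw : IsLev m w) {u : ℝ} (hu : 0 < u) (j : ℕ) (p : H3) :
    Summable fun x => ‖w x * (gj j u x p : ℂ)‖ := by
  obtain ⟨B, hB0, hB⟩ := hw.bdd
  exact ((summable_maj hu p).mul_left (sphC j u m B)).of_nonneg_of_le (fun _ => norm_nonneg _)
    fun x => norm_term_le' hw hB hB0 hu j x p

/-- The Gaussian sum is bounded by the majorant. -/
lemma norm_sph_le (hw : IsLev m w) {B : ℝ} (hB : ∀ x, ‖w x‖ ≤ B) (hB0 : 0 ≤ B) {u : ℝ}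
    (hu : 0 < u) (j : ℕ) (p : H3) : ‖sph j u w p‖ ≤ sphC j u m B * majSum u p := by
  rw [majSum, ← tsum_mul_left]
  exact tsum_of_norm_bounded ((summable_maj hu p).mul_left _).hasSum fun x =>
    norm_term_le' hw hB hB0 hu j x p

/-- The Gaussian sum has moderate growth. -/
lemma IsLev.isMod_sph (hw : IsLev m w) {u : ℝ} (hu : 0 < u) (j : ℕ) : IsMod (sph j u w) := by
  obtain ⟨B, hB0, hB⟩ := hw.bdd
  refine ⟨sphC j u m B * (9 ^ 4 * (2 + 200 / u) ^ 4), 8, fun p => ?_⟩
  refine (norm_sph_le hw hB hB0 hu j p).trans ?_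
  rw [mul_assoc]
  exact mul_le_mul_of_nonneg_left (majSum_le_pow hu p) (by unfold sphC; positivity)

/-- The Gaussian term is continuous. -/
lemma continuous_gj (j : ℕ) (u : ℝ) (x : Vec) : Continuous (gj j u x) := by
  have := continuous_fv x
  unfold gj; fun_prop

/-- The Gaussian sum is continuous. -/
lemma IsLev.continuous_sph (hw : IsLev m w) {u : ℝ} (hu : 0 < u) (j : ℕ) :
    Continuous (sph j u w) := by
  obtain ⟨B, hB0, hB⟩ := hw.bdd
  refine continuous_iff_continuousAt.2 fun p => ?_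
  refine (continuousOn_tsum (fun x => ?_) ((summable_size (c := u / (100 * (gau p + 1) ^ 2))
    (by have := gau_pos p; positivity)).mul_left (sphC j u m B))
    fun x q (hq : q ∈ {q : H3 | gau q < gau p + 1}) => ?_).continuousAt (exists_gau_nhds p)
  · exact (continuous_const.mul (Complex.continuous_ofReal.comp (continuous_gj j u x))).continuousOn
  · exact (norm_term_le' hw hB hB0 hu j x q).trans
      (mul_le_mul_of_nonneg_left (maj_exp_le hu.le hq.le x) (by unfold sphC; positivity))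

/-- The Gaussian sum at a transformed point. -/
lemma sph_smul_pt (j : ℕ) (u : ℝ) (w : Vec → ℂ) (g : SLE) (p : H3) :
    sph j u w (g • p) = sph j u (fun x => w (g • x)) p := by
  rw [sph, sph, ← (MulAction.toPerm g).tsum_eq]
  simp [gj, fv_smul]

/-- The Gaussian sum is invariant with the weight. -/
lemma sph_inv {n : ℕ} (hwi : ∀ g ∈ congE n, ∀ x, w (g • x) = w x) (j : ℕ) (u : ℝ) :
    ∀ g ∈ congE n, ∀ p, sph j u w (g • p) = sph j u w p := fun g hg p => by
  rw [sph_smul_pt]; simp only [sph, hwi g hg]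

/-! ## Radial kernels on slices -/

lemma mat_isHermitian (x : Vec) : (mat x).IsHermitian := by
  ext i j
  fin_cases i <;> fin_cases j <;> simp [mat]

lemma kint_translate {p : H3} {g : GL (Fin 2) ℂ} (hg : g • H3.base = p) (k : ℝ → ℝ) (h : H3 → ℂ) :
    kint (fun q => k (H3.coshDist p q)) h =
      kint (fun q => k (H3.coshDist H3.base q)) fun q => h (g • q) := by
  rw [kint, kint, ← (H3.measurePreserving_smul g).integral_comp
    (Homeomorph.smul g).measurableEmbedding fun q => (k (H3.coshDist p q) : ℂ) * h q]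
  refine integral_congr_ae (ae_of_all _ fun q => ?_)
  show (k (H3.coshDist p (g • q)) : ℂ) * h (g • q) = _
  rw [← hg, H3.coshDist_smul]

/-- Against a function of one lattice vector the Laplacian of a radial kernel becomes the Casimir
operator. -/
theorem kint_lapK_at {k : ℝ → ℝ} (hk : ContDiff ℝ ∞ k) (hks : HasCompactSupport k) {φ : ℝ → ℝ}
    (hφ : ContDiff ℝ ∞ φ) (x : Vec) (p : H3) :
    kint (fun q => lapK k (H3.coshDist p q)) (fun q => (φ (fv x q) : ℂ)) =
      kint (fun q => k (H3.coshDist p q)) fun q => (casOp φ (qf x) (fv x q) : ℂ) := by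
  obtain ⟨g, hg, hgv⟩ := H3.exists_smul_base p
  have ht := p.t_pos
  have hd : g.val.det = (p.t : ℂ) := by rw [hgv]; simp [Matrix.det_fin_two]
  set Z := g.inv * mat x * g.invᴴ with hZ
  set X := (p.t : ℂ) • Z with hX
  have hXh : X.IsHermitian := by
    rw [Matrix.IsHermitian, hX, Matrix.conjTranspose_smul, RCLike.star_def, Complex.conj_ofReal, hZ,
      Matrix.conjTranspose_mul, Matrix.conjTranspose_mul, Matrix.conjTranspose_conjTranspose,
      (mat_isHermitian x).eq, Matrix.mul_assoc]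
  have hf : ∀ q, fv x (g • q) = fval X q := fun q => by
    have e : mat x = g.val * Z * g.valᴴ := by
      rw [hZ, ← Matrix.mul_assoc, ← Matrix.mul_assoc, g.val_inv, Matrix.one_mul, Matrix.mul_assoc,
        ← Matrix.conjTranspose_mul, g.val_inv, Matrix.conjTranspose_one, Matrix.mul_one]
    rw [fv, e, fval_conj_act, hd, Complex.norm_real, Real.norm_of_nonneg ht.le, hX, fval_smul]
  have hdet : -X.det.re = qf x := by
    have hi : g.inv.det = (p.t : ℂ)⁻¹ := eq_inv_of_mul_eq_one_left (by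
      rw [← hd, ← Matrix.det_mul, g.inv_val, Matrix.det_one])
    rw [hX, Matrix.det_smul, Fintype.card_fin, hZ, Matrix.det_mul, Matrix.det_mul,
      Matrix.det_conjTranspose, hi, det_mat]
    have : (p.t : ℂ) ≠ 0 := by exact_mod_cast ht.ne'
    simp only [RCLike.star_def, map_inv₀, Complex.conj_ofReal]
    field_simp
    simp
  rw [kint_translate hg, kint_translate hg]
  simp only [hf]
  rw [kint_lapK hk hks hφ hXh, hdet]

/-- The Laplacian of the slice. -/
def dlt (u : ℝ) (m : ℤ) (w : Vec → ℂ) (p : H3) : ℂ :=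
  ((4 * u ^ 2 : ℝ) : ℂ) * sph 2 u w p + ((16 * (m / 3) * u ^ 2 - 8 * u : ℝ) : ℂ) * sph 1 u w p -
    ((8 * u * (m / 3) : ℝ) : ℂ) * sph 0 u w p

lemma hasSum_kint (hw : IsLev m w) {u : ℝ} (hu : 0 < u) (j : ℕ) {k : ℝ → ℝ} (hk : Continuous k)
    (hks : HasCompactSupport k) (p : H3) :
    HasSum (fun x => w x * kint (fun q => k (H3.coshDist p q)) fun q => (gj j u x q : ℂ))
      (kint (fun q => k (H3.coshDist p q)) (sph j u w)) := by
  obtain ⟨B, hB0, hB⟩ := hw.bdd
  obtain ⟨Bz, c, C, hc, hbox⟩ := Whit.exists_box_support hks p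
  obtain ⟨N, hN⟩ := hk.bounded_above_of_compact_support hks
  obtain ⟨G, hG⟩ := (Whit.isCompact_box Bz hc C).exists_bound_of_continuousOn
    H3.continuous_bnd.continuousOn
  set G' := max G 1
  have hG' : ∀ q ∈ box Bz c C, gau q ≤ G' := fun q hq =>
    (le_abs_self _).trans ((hG q hq).trans (le_max_left _ _))
  have hG0 : 0 < G' := zero_lt_one.trans_le (le_max_right _ _)
  simp only [kint, sph, ← integral_const_mul]
  have hsum := (summable_size (c := u / (100 * G' ^ 2)) (by positivity)).mul_left (N * sphC j u m B)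
  refine hasSum_integral_of_dominated_convergence
    (bound := fun x q => (box Bz c C).indicator
      (fun _ => N * sphC j u m B * Real.exp (-(u / (100 * G' ^ 2) * size x))) q)
    (fun x => ?_) (fun x => ae_of_all _ fun q => ?_) (ae_of_all _ fun q => ?_) ?_
    (ae_of_all _ fun q => ?_)
  · exact (continuous_const.mul ((Complex.continuous_ofReal.comp
      (hk.comp (H3.continuous_coshDist p))).mul
      (Complex.continuous_ofReal.comp (continuous_gj j u x)))).aestronglyMeasurable
  · by_cases hq : q ∈ box Bz c C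
    · rw [indicator_of_mem hq, show w x * ((k (H3.coshDist p q) : ℂ) * (gj j u x q : ℂ)) =
        (k (H3.coshDist p q) : ℂ) * (w x * (gj j u x q : ℂ)) by ring, norm_mul, Complex.norm_real,
        mul_assoc]
      refine mul_le_mul (hN _) ((norm_term_le' hw hB hB0 hu j x q).trans
        (mul_le_mul_of_nonneg_left (maj_exp_le hu.le (hG' q hq) x) (by unfold sphC; positivity)))
        (norm_nonneg _) ((norm_nonneg _).trans (hN 0))
    · rw [indicator_of_notMem hq, hbox q hq]; simp
  · by_cases hq : q ∈ box Bz c C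
    · simpa only [indicator_of_mem hq] using hsum
    · simp only [indicator_of_notMem hq]; exact summable_zero
  · refine (((integrable_indicator_iff (Whit.measurableSet_box Bz c C)).2
      (integrableOn_const (C := ∑' x : Vec, N * sphC j u m B *
        Real.exp (-(u / (100 * G' ^ 2) * size x))) (Whit.vol_box_ne_top Bz hc C)))).congr
      (ae_of_all _ fun q => ?_)
    by_cases hq : q ∈ box Bz c C
    · simp only [indicator_of_mem hq]
    · simp only [indicator_of_notMem hq, tsum_zero]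
  · have := (hw.summable hu j q).of_norm.hasSum.mul_left (k (H3.coshDist p q) : ℂ)
    simpa [mul_left_comm] using this

/-- The Laplacian moves from a radial kernel to the slices. -/
theorem kint_lapK_sph (hw : IsLev m w) {u : ℝ} (hu : 0 < u) {k : ℝ → ℝ} (hk : ContDiff ℝ ∞ k)
    (hks : HasCompactSupport k) (p : H3) :
    kint (fun q => lapK k (H3.coshDist p q)) (sph 0 u w) =
      kint (fun q => k (H3.coshDist p q)) (dlt u m w) := by
  have hφ : ContDiff ℝ ∞ fun f : ℝ => Real.exp (-(u * f ^ 2)) := by fun_prop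
  have d1 : ∀ f : ℝ, HasDerivAt (fun f => Real.exp (-(u * f ^ 2)))
      (-(2 * u * f) * Real.exp (-(u * f ^ 2))) f := fun f => by
    refine ((((hasDerivAt_pow 2 f).const_mul u).neg).exp).congr_deriv ?_
    simp only [Pi.neg_apply]; push_cast; ring
  have d2 : ∀ f : ℝ, HasDerivAt (fun f => -(2 * u * f) * Real.exp (-(u * f ^ 2)))
      ((4 * u ^ 2 * f ^ 2 - 2 * u) * Real.exp (-(u * f ^ 2))) f := fun f => by
    refine ((((hasDerivAt_id' f).const_mul (2 * u)).neg).mul (d1 f)).congr_deriv ?_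
    simp only [Pi.neg_apply]; ring
  have hcas : ∀ x, P3 x = m → ∀ q, casOp (fun f => Real.exp (-(u * f ^ 2))) (qf x) (fv x q) =
      4 * u ^ 2 * gj 2 u x q + (16 * (m / 3) * u ^ 2 - 8 * u) * gj 1 u x q -
        8 * u * (m / 3) * gj 0 u x q := fun x hx q => by
    rw [casOp, funext fun f => (d1 f).deriv, (d2 _).deriv, show qf x = (m : ℝ) / 3 by rw [qf, hx]]
    simp only [gj]; ring
  have h0 := hasSum_kint hw hu 0 (Whit.contDiff_lapK hk).continuous
    (Whit.hasCompactSupport_lapK hks) p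
  have hj := fun j => hasSum_kint hw hu j hk.continuous hks p
  have hR := (((hj 2).mul_left ((4 * u ^ 2 : ℝ) : ℂ)).add
    ((hj 1).mul_left ((16 * (m / 3) * u ^ 2 - 8 * u : ℝ) : ℂ))).sub
    ((hj 0).mul_left ((8 * u * (m / 3) : ℝ) : ℂ))
  have hc := fun j => hw.continuous_sph hu j
  refine h0.unique ?_
  have e := kint_comb hk.continuous hks p (hc 2) (hc 1) (hc 0) ((4 * u ^ 2 : ℝ) : ℂ)
    ((16 * (m / 3) * u ^ 2 - 8 * u : ℝ) : ℂ) ((8 * u * (m / 3) : ℝ) : ℂ)
  rw [show dlt u m w = fun q => ((4 * u ^ 2 : ℝ) : ℂ) * sph 2 u w q +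
    ((16 * (m / 3) * u ^ 2 - 8 * u : ℝ) : ℂ) * sph 1 u w q -
    ((8 * u * (m / 3) : ℝ) : ℂ) * sph 0 u w q from rfl, e]
  refine hR.congr_fun fun x => ?_
  by_cases hx : P3 x = m
  · have hg := fun j => Complex.continuous_ofReal.comp (continuous_gj j u x)
    have hk0 := kint_lapK_at hk hks hφ x p
    have e0 : ∀ q, Real.exp (-(u * fv x q ^ 2)) = gj 0 u x q := fun q => by simp [gj]
    simp only [hcas x hx, e0] at hk0
    have e2 := kint_comb hk.continuous hks p (hg 2) (hg 1) (hg 0) ((4 * u ^ 2 : ℝ) : ℂ)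
      ((16 * (m / 3) * u ^ 2 - 8 * u : ℝ) : ℂ) ((8 * u * (m / 3) : ℝ) : ℂ)
    simp only [Function.comp_def] at e2
    push_cast at hk0 e2 ⊢
    rw [hk0, e2]
    ring
  · simp [hw.supp x hx]

/-! ## Symmetry of radial kernels on the quotient -/

variable {n : ℕ}

/-- Radial kernels are symmetric against a wave on the fundamental domain. -/
theorem kint_symm [NeZero n] {Φ S : H3 → ℂ} (hΦ : IsWave n Φ) (hSc : Continuous S) (hS : IsMod S)
    (hSi : ∀ g ∈ congE n, ∀ p, S (g • p) = S p) {k : ℝ → ℝ} (hk : Continuous k)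
    (hks : HasCompactSupport k) :
    ∫ p in fdE n, Φ p * kint (fun q => k (H3.coshDist p q)) S ∂H3.vol =
      ∫ p in fdE n, S p * kint (fun q => k (H3.coshDist p q)) Φ ∂H3.vol := by
  have := countable_subgroup (PG_le n)
  have : MeasurableConstSMul (PG n) (H3 × H3) := ⟨fun g =>
    ((continuous_const_smul (g : PGL(2, ℂ))).comp continuous_fst).prodMk
      ((continuous_const_smul (g : PGL(2, ℂ))).comp continuous_snd) |>.measurable⟩
  have : SMulInvariantMeasure (PG n) (H3 × H3) (H3.vol.prod H3.vol) :=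
    ⟨fun g s hs => ((measurePreserving_pgl (g : PGL(2, ℂ))).prod
      (measurePreserving_pgl (g : PGL(2, ℂ)))).measure_preimage hs.nullMeasurableSet⟩
  have h1 : IsFundamentalDomain (PG n) (fdE n ×ˢ (univ : Set H3)) (H3.vol.prod H3.vol) := by
    rw [prod_univ]
    exact (isFD_fdE n).preimage_of_equiv Measure.quasiMeasurePreserving_fst Function.bijective_id
      fun g x => rfl
  have h2 : IsFundamentalDomain (PG n) ((univ : Set H3) ×ˢ fdE n) (H3.vol.prod H3.vol) := by
    rw [univ_prod]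
    exact (isFD_fdE n).preimage_of_equiv Measure.quasiMeasurePreserving_snd Function.bijective_id
      fun g x => rfl
  set I : H3 × H3 → ℂ := fun z => Φ z.1 * ((k (H3.coshDist z.1 z.2) : ℂ) * S z.2) with hI
  have hIi : ∀ (g : PG n) z, I (g • z) = I z := fun g z => by
    obtain ⟨a, ha, hag⟩ := g.2
    show Φ ((g : PGL(2, ℂ)) • z.1) *
      ((k (H3.coshDist ((g : PGL(2, ℂ)) • z.1) ((g : PGL(2, ℂ)) • z.2)) : ℂ) *
        S ((g : PGL(2, ℂ)) • z.2)) = _
    rw [← hag, pglE_smul, pglE_smul, hΦ.inv a ha, hSi a ha, smul_pt, smul_pt, H3.coshDist_smul]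
  have hcd : Continuous fun z : H3 × H3 => H3.coshDist z.1 z.2 := by
    have := H3.continuous_z
    have := H3.continuous_t
    unfold H3.coshDist
    refine continuous_const.add (Continuous.div₀ (by fun_prop) (by fun_prop) fun z =>
      mul_ne_zero (mul_ne_zero two_ne_zero z.1.t_pos.ne') z.2.t_pos.ne')
  have hIc : Continuous I := (hΦ.cont.comp continuous_fst).mul
    ((Complex.continuous_ofReal.comp (hk.comp hcd)).mul (hSc.comp continuous_snd))
  obtain ⟨Cm, A, hCm⟩ := hS
  obtain ⟨R, hR⟩ := hks.bddAbove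
  set K0 := ∫⁻ q, ‖(k (H3.coshDist H3.base q) : ℂ)‖ₑ ∂H3.vol with hK0
  have hK0top : K0 < ⊤ := by
    have h := (kint_integrable hk hks H3.base (h := fun _ => 1) continuous_const).hasFiniteIntegral
    simp only [mul_one] at h
    exact h
  have hKp : ∀ p, ∫⁻ q, ‖(k (H3.coshDist p q) : ℂ)‖ₑ ∂H3.vol = K0 := fun p => by
    obtain ⟨g, hg, -⟩ := H3.exists_smul_base p
    rw [hK0, ← (H3.measurePreserving_smul g).lintegral_comp_emb
      (Homeomorph.smul g).measurableEmbedding fun q => ‖(k (H3.coshDist p q) : ℂ)‖ₑ]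
    refine lintegral_congr fun q => ?_
    show ‖(k (H3.coshDist p (g • q)) : ℂ)‖ₑ = _
    rw [← hg, H3.coshDist_smul]
  have hint : IntegrableOn I (fdE n ×ˢ (univ : Set H3)) (H3.vol.prod H3.vol) := by
    refine ⟨hIc.aestronglyMeasurable, ?_⟩
    show ∫⁻ z, ‖I z‖ₑ ∂((H3.vol.prod H3.vol).restrict _) < ⊤
    rw [← Measure.prod_restrict, Measure.restrict_univ, lintegral_prod _ hIc.enorm.aemeasurable]
    refine setLIntegral_lt_top hΦ (fun g hg p => ?_)
      (C := |Cm| * H3.nearC R ^ A * K0.toReal) (A := A) fun p => ?_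
    · rw [← (H3.measurePreserving_smul (glE g)).lintegral_comp_emb
        (Homeomorph.smul (glE g)).measurableEmbedding fun q => ‖I (g • p, q)‖ₑ]
      refine lintegral_congr fun q => ?_
      have := hIi ⟨pglE g, pglE_mem hg⟩ (p, q)
      exact congrArg (‖·‖ₑ) this
    · calc ∫⁻ q, ‖I (p, q)‖ₑ ∂H3.vol
          ≤ ∫⁻ q, ENNReal.ofReal (‖Φ p‖ * (|Cm| * (H3.nearC R * gau p) ^ A)) *
              ‖(k (H3.coshDist p q) : ℂ)‖ₑ ∂H3.vol := by
            refine lintegral_mono fun q => ?_
            by_cases h0 : k (H3.coshDist p q) = 0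
            · simp [hI, h0]
            have hd : H3.coshDist p q ≤ R := hR (subset_closure h0)
            rw [← ofReal_norm, ← ofReal_norm, hI, norm_mul, norm_mul,
              ← ENNReal.ofReal_mul' (norm_nonneg _)]
            refine ENNReal.ofReal_le_ofReal ?_
            rw [mul_assoc, mul_comm ‖(k (H3.coshDist p q) : ℂ)‖]
            refine mul_le_mul_of_nonneg_left (mul_le_mul_of_nonneg_right ?_ (norm_nonneg _))
              (norm_nonneg _)
            refine (hCm q).trans ((mul_le_mul_of_nonneg_right (le_abs_self _)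
              (pow_nonneg (gau_pos q).le _)).trans ?_)
            exact mul_le_mul_of_nonneg_left
              (pow_le_pow_left₀ (gau_pos q).le (H3.bnd_le_of_coshDist hd) A) (abs_nonneg _)
        _ = ENNReal.ofReal (‖Φ p‖ * (|Cm| * (H3.nearC R * gau p) ^ A)) * K0 := by
            rw [lintegral_const_mul' _ _ ENNReal.ofReal_ne_top, hKp]
        _ ≤ _ := by
            conv_lhs => rw [← ENNReal.ofReal_toReal hK0top.ne,
              ← ENNReal.ofReal_mul' ENNReal.toReal_nonneg]
            exact ENNReal.ofReal_le_ofReal (le_of_eq (by ring))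
  have hint2 : IntegrableOn I ((univ : Set H3) ×ˢ fdE n) (H3.vol.prod H3.vol) :=
    (h1.integrableOn_iff h2 hIi).1 hint
  have key := h1.setIntegral_eq h2 hIi
  have hswap : IntegrableOn (fun z : H3 × H3 => I z.swap) (fdE n ×ˢ (univ : Set H3))
      (H3.vol.prod H3.vol) := by
    rw [IntegrableOn, ← Measure.prod_restrict] at hint2 ⊢
    exact hint2.swap
  rw [setIntegral_prod _ hint, ← setIntegral_prod_swap, setIntegral_prod _ hswap] at key
  simp only [Measure.restrict_univ] at key
  refine Eq.trans ?_ (key.trans ?_)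
  · refine integral_congr_ae (ae_of_all _ fun p => ?_)
    show Φ p * kint _ S = _
    rw [kint, ← integral_const_mul]
  · refine integral_congr_ae (ae_of_all _ fun q => ?_)
    show _ = S q * kint _ Φ
    rw [kint, ← integral_const_mul]
    refine integral_congr_ae (ae_of_all _ fun p => ?_)
    simp only [hI, Prod.swap_prod_mk, H3.coshDist_comm q p]
    ring

/-! ## The slices -/

/-- A cuspidal radial eigenfunction of the level. -/
structure IsCusp (n : ℕ) (Φ : H3 → ℂ) : Prop where
  wave : IsWave n Φ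
  eigen : IsEigen Φ

/-- The slice. -/
def FF (n : ℕ) (Φ : H3 → ℂ) (j : ℕ) (u : ℝ) (w : Vec → ℂ) : ℂ :=
  ∫ p in fdE n, Φ p * sph j u w p ∂H3.vol

variable [NeZero n] {Φ : H3 → ℂ}

/-- Waves against Gaussian sums are integrable. -/
lemma IsWave.integrable_sph (hΦ : IsWave n Φ) (hw : IsLev m w)
    (hwi : ∀ g ∈ congE n, ∀ x, w (g • x) = w x) {u : ℝ} (hu : 0 < u) (j : ℕ) :
    IntegrableOn (fun p => Φ p * sph j u w p) (fdE n) H3.vol :=
  hΦ.integrableOn_mul (hw.continuous_sph hu j) (hw.isMod_sph hu j)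
    fun g hg p => by rw [sph_inv hwi j u g hg p]

/-- Waves against majorants are integrable. -/
lemma IsWave.integrable_majSum (hΦ : IsWave n Φ) {u : ℝ} (hu : 0 < u) :
    IntegrableOn (fun p => ‖Φ p‖ * majSum u p) (fdE n) H3.vol := by
  refine ((hΦ.integrableOn_mul (Ψ := fun p => (majSum u p : ℂ))
    (Complex.continuous_ofReal.comp (continuous_majSum hu)) (isMod_majSum hu)
    fun g _ p => by rw [majSum_smul]).norm).congr (ae_of_all _ fun p => ?_)
  show ‖Φ p * (majSum u p : ℂ)‖ = _
  rw [norm_mul, Complex.norm_real, Real.norm_of_nonneg (majSum_nonneg u p)]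

lemma sphC_le {u v : ℝ} (hv : v ∈ Ioo (u / 2) (2 * u)) (hu : 0 < u) (j : ℕ) (m : ℤ) {B : ℝ}
    (hB : 0 ≤ B) :
    sphC j v m B ≤ B * (j.factorial * (4 / u) ^ j) * Real.exp (2 * u * |(m : ℝ) / 3|) := by
  have hv0 : 0 < v := (half_pos hu).trans hv.1
  refine mul_le_mul (mul_le_mul_of_nonneg_left (mul_le_mul_of_nonneg_left
    (pow_le_pow_left₀ (by positivity) ?_ j) (by positivity)) hB) (Real.exp_le_exp.2 ?_)
    (Real.exp_pos _).le (by positivity)
  · rw [div_le_div_iff₀ hv0 hu]; linarith [hv.1]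
  · exact (mul_le_mul_of_nonneg_left (le_abs_self _) hv0.le).trans
      (mul_le_mul_of_nonneg_right hv.2.le (abs_nonneg _))

lemma majSum_exp_le {u v : ℝ} (hv : v ∈ Ioo (u / 2) (2 * u)) (x : Vec) (p : H3) :
    Real.exp (-(v * maj x p)) ≤ Real.exp (-(u / 2 * maj x p)) :=
  Real.exp_le_exp.2 (neg_le_neg (mul_le_mul_of_nonneg_right hv.1.le (maj_nonneg x p)))

lemma hasDerivAt_sph (hw : IsLev m w) {u : ℝ} (hu : 0 < u) (j : ℕ) (p : H3) :
    HasDerivAt (fun v => sph j v w p) (-sph (j + 1) u w p) u := by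
  obtain ⟨B, hB0, hB⟩ := hw.bdd
  have hu' : u ∈ Ioo (u / 2) (2 * u) := ⟨by linarith, by linarith⟩
  rw [sph, ← tsum_neg]
  refine hasDerivAt_tsum_of_isPreconnected (t := Ioo (u / 2) (2 * u))
    (g := fun x v => w x * (gj j v x p : ℂ)) (g' := fun x v => -(w x * (gj (j + 1) v x p : ℂ)))
    (((summable_maj (half_pos hu) p)).mul_left
      (B * ((j + 1).factorial * (4 / u) ^ (j + 1)) * Real.exp (2 * u * |(m : ℝ) / 3|)))
    isOpen_Ioo isPreconnected_Ioo (fun x v hv => ?_) (fun x v hv => ?_) hu'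
    ((hw.summable hu j p).of_norm) hu'
  · have h : HasDerivAt (fun v => gj j v x p) (-gj (j + 1) v x p) v := by
      refine ((((hasDerivAt_id' v).mul_const (fv x p ^ 2)).neg).exp.const_mul _).congr_deriv ?_
      simp only [gj, Pi.neg_apply]; ring
    simpa using h.ofReal_comp.const_mul (w x)
  · rw [norm_neg]
    exact (norm_term_le' hw hB hB0 ((half_pos hu).trans hv.1) (j + 1) x p).trans
      (mul_le_mul (sphC_le hv hu _ m hB0) (majSum_exp_le hv x p) (Real.exp_pos _).le
        (by positivity))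

/-- The slices are differentiable in the width, with derivative minus the next slice. -/
theorem hasDerivAt_FF (hΦ : IsWave n Φ) (hw : IsLev m w)
    (hwi : ∀ g ∈ congE n, ∀ x, w (g • x) = w x) {u : ℝ} (hu : 0 < u) (j : ℕ) :
    HasDerivAt (fun v => FF n Φ j v w) (-FF n Φ (j + 1) u w) u := by
  obtain ⟨B, hB0, hB⟩ := hw.bdd
  set K := B * ((j + 1).factorial * (4 / u) ^ (j + 1)) * Real.exp (2 * u * |(m : ℝ) / 3|)
  have hu' : u ∈ Ioo (u / 2) (2 * u) := ⟨by linarith, by linarith⟩
  have h := hasDerivAt_integral_of_dominated_loc_of_deriv_le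
    (μ := H3.vol.restrict (fdE n)) (x₀ := u) (F := fun v p => Φ p * sph j v w p)
    (F' := fun v p => Φ p * -sph (j + 1) v w p) (bound := fun p => K * (‖Φ p‖ * majSum (u / 2) p))
    (isOpen_Ioo.mem_nhds hu')
    (eventually_of_mem (isOpen_Ioo.mem_nhds hu') fun v hv =>
      (hΦ.cont.mul (hw.continuous_sph ((half_pos hu).trans hv.1) j)).aestronglyMeasurable)
    (hΦ.integrable_sph hw hwi hu j)
    ((hΦ.cont.mul (hw.continuous_sph hu (j + 1)).neg).aestronglyMeasurable)
    (ae_of_all _ fun p v hv => ?_) ((hΦ.integrable_majSum (half_pos hu)).const_mul K)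
    (ae_of_all _ fun p v hv => (hasDerivAt_sph hw ((half_pos hu).trans hv.1) j p).const_mul (Φ p))
  · refine h.2.congr_deriv ?_
    rw [FF, ← integral_neg]
    exact integral_congr_ae (ae_of_all _ fun p => by simp)
  · have hv0 : 0 < v := (half_pos hu).trans hv.1
    rw [norm_mul, norm_neg, show K * (‖Φ p‖ * majSum (u / 2) p) = ‖Φ p‖ * (K * majSum (u / 2) p) by
      ring]
    refine mul_le_mul_of_nonneg_left ((norm_sph_le hw hB hB0 hv0 _ p).trans ?_) (norm_nonneg _)
    exact mul_le_mul (sphC_le hv hu _ m hB0) (majSum_anti (half_pos hu) hv.1.le p)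
      (majSum_nonneg _ _) (by positivity)

/-- **The Casimir equation**: a second order differential equation in the width for the slices of a
cuspidal radial eigenfunction. -/
theorem casimir (hΦ : IsCusp n Φ) (hw : IsLev m w) (hwi : ∀ g ∈ congE n, ∀ x, w (g • x) = w x)
    {u : ℝ} (hu : 0 < u) :
    ((4 * u ^ 2 : ℝ) : ℂ) * FF n Φ 2 u w +
      ((16 * (m / 3) * u ^ 2 - 8 * u : ℝ) : ℂ) * FF n Φ 1 u w -
      ((8 * u * (m / 3) : ℝ) : ℂ) * FF n Φ 0 u w = -FF n Φ 0 u w := by
  set k : ℝ → ℝ := (Whit.bump : ℝ → ℝ)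
  have hk : ContDiff ℝ ∞ k := Whit.contDiff_bump
  have hks : HasCompactSupport k := Whit.bump.hasCompactSupport
  have hk0 : Whit.hT k ≠ 0 := Whit.hT_bump_ne_zero
  set a := ((4 * u ^ 2 : ℝ) : ℂ)
  set b := ((16 * (m / 3) * u ^ 2 - 8 * u : ℝ) : ℂ)
  set c := ((8 * u * (m / 3) : ℝ) : ℂ)
  obtain ⟨C2, A2, h2⟩ := hw.isMod_sph hu 2
  obtain ⟨C1, A1, h1⟩ := hw.isMod_sph hu 1
  obtain ⟨C0, A0, h0⟩ := hw.isMod_sph hu 0
  have hdc : Continuous (dlt u m w) :=
    (((hw.continuous_sph hu 2).const_smul a).add ((hw.continuous_sph hu 1).const_smul b)).sub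
      ((hw.continuous_sph hu 0).const_smul c)
  have hdm : IsMod (dlt u m w) := by
    refine ⟨‖a‖ * |C2| + ‖b‖ * |C1| + ‖c‖ * |C0|, A2 + A1 + A0, fun p => ?_⟩
    have hg := one_le_gau p
    have hb : ∀ (C : ℝ) (A : ℕ), A ≤ A2 + A1 + A0 → C * gau p ^ A ≤ |C| * gau p ^ (A2 + A1 + A0) :=
      fun C A hA => mul_le_mul (le_abs_self C) (pow_le_pow_right₀ hg hA)
        (pow_nonneg (gau_pos p).le _) (abs_nonneg C)
    refine (norm_sub_le _ _).trans ((add_le_add (norm_add_le _ _) le_rfl).trans ?_)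
    rw [add_mul, add_mul, mul_assoc ‖a‖, mul_assoc ‖b‖, mul_assoc ‖c‖, norm_mul, norm_mul, norm_mul]
    exact add_le_add (add_le_add
      (mul_le_mul_of_nonneg_left ((h2 p).trans (hb _ _ (by omega))) (norm_nonneg _))
      (mul_le_mul_of_nonneg_left ((h1 p).trans (hb _ _ (by omega))) (norm_nonneg _)))
      (mul_le_mul_of_nonneg_left ((h0 p).trans (hb _ _ (by omega))) (norm_nonneg _))
  have hdi : ∀ g ∈ congE n, ∀ p, dlt u m w (g • p) = dlt u m w p := fun g hg p => by
    simp only [dlt, sph_inv hwi _ u g hg p]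
  have hsym : ∀ (k' : ℝ → ℝ), ContDiff ℝ ∞ k' → HasCompactSupport k' → ∀ S : H3 → ℂ, Continuous S →
      IsMod S → (∀ g ∈ congE n, ∀ p, S (g • p) = S p) →
      ∫ p in fdE n, Φ p * kint (fun q => k' (H3.coshDist p q)) S ∂H3.vol =
        Whit.hT k' * ∫ p in fdE n, Φ p * S p ∂H3.vol := fun k' hk' hks' S hS hSm hSi => by
    rw [kint_symm hΦ.wave hS hSm hSi hk'.continuous hks', ← integral_const_mul]
    exact integral_congr_ae (ae_of_all _ fun p => by dsimp only; rw [hΦ.eigen k' hk' hks' p]; ring)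
  have e1 := hsym k hk hks _ hdc hdm hdi
  have e2 := hsym (lapK k) (Whit.contDiff_lapK hk) (Whit.hasCompactSupport_lapK hks) _
    (hw.continuous_sph hu 0) (hw.isMod_sph hu 0) (sph_inv hwi 0 u)
  rw [Whit.hT_lapK hk hks hk0] at e2
  simp only [kint_lapK_sph hw hu hk hks] at e2
  rw [e1] at e2
  have e3 : ∫ p in fdE n, Φ p * dlt u m w p ∂H3.vol = -FF n Φ 0 u w :=
    mul_left_cancel₀ hk0 (e2.trans (by rw [FF]; ring))
  rw [← e3]
  have hI := fun j => hΦ.wave.integrable_sph hw hwi hu j
  simp only [FF, ← integral_const_mul]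
  rw [← integral_add ((hI 2).const_mul a) ((hI 1).const_mul b), ← integral_sub]
  · exact integral_congr_ae (ae_of_all _ fun p => by simp only [dlt, a, b, c]; ring)
  · exact ((hI 2).const_mul a).add ((hI 1).const_mul b)
  · exact (hI 0).const_mul c

end FermatAgent.LT.Lift
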