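import Fermat.Agent.LT.Lift.Domain

/-!
# Comparison of integrals over fundamental domains

Passage to subgroups of finite index, translates of domains, and invariance of integrals over the
domain of a normal congruence subgroup.
-/

set_option autoImplicit false

noncomputable section

open Matrix MeasureTheory Filter Topology Set Function
open scoped MatrixGroups ENNReal Pointwise

namespace FermatAgent.LT.Lift

variable {G H : Subgroup PGL(2, ℂ)} {s t : Set H3}

/-- Subgroups act measurably. -/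
lemma measurableConst_sub (G : Subgroup PGL(2, ℂ)) : MeasurableConstSMul G H3 :=
  ⟨fun g => measurable_const_smul (g : PGL(2, ℂ))⟩

/-- Subgroups preserve the volume. -/
lemma smulInv_sub (G : Subgroup PGL(2, ℂ)) : SMulInvariantMeasure G H3 H3.vol :=
  ⟨fun g _ hs => SMulInvariantMeasure.measure_preimage_smul (g : PGL(2, ℂ)) hs⟩

attribute [local instance] measurableConst_sub smulInv_sub

/-- The union of the translates of a domain along the cosets of a subgroup. -/
def foldSet (H G : Subgroup PGL(2, ℂ)) (s : Set H3) : Set H3 :=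
  ⋃ q : G ⧸ H.subgroupOf G, ((q.out)⁻¹ : G) • s

/-- The union of the translates along the cosets is a fundamental domain of the subgroup. -/
theorem isFD_foldSet (hHG : H ≤ G) (hG : G ≤ PGall) (hs : IsFundamentalDomain G s H3.vol)
    [(H.subgroupOf G).FiniteIndex] : IsFundamentalDomain H (foldSet H G s) H3.vol := by
  have := countable_subgroup hG
  refine ⟨.iUnion fun q => hs.nullMeasurableSet_smul _, ?_, fun h₁ h₂ hne => ?_⟩
  · refine hs.ae_covers.mono fun x ⟨g, hg⟩ => ?_
    obtain ⟨⟨u, hu⟩, he⟩ := QuotientGroup.mk_out_eq_mul (H.subgroupOf G) g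
    refine ⟨⟨(u : PGL(2, ℂ))⁻¹, inv_mem (Subgroup.mem_subgroupOf.1 hu)⟩⁻¹⁻¹,
      mem_iUnion.2 ⟨QuotientGroup.mk g, ?_⟩⟩
    rw [mem_smul_set_iff_inv_smul_mem, inv_inv, he, inv_inv]
    show ((g * u : G) : PGL(2, ℂ)) • ((u : PGL(2, ℂ))⁻¹ • x) ∈ s
    rw [← mul_smul, Subgroup.coe_mul, mul_inv_cancel_right]
    exact hg
  · simp only [onFun, foldSet, smul_set_iUnion, AEDisjoint.iUnion_left_iff,
      AEDisjoint.iUnion_right_iff]
    intro r q
    have key : ∀ (h : H) (a : G), h • a • s = ((⟨h, hHG h.2⟩ : G) * a) • s := fun h a => by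
      rw [mul_smul]; rfl
    rw [key, key]
    refine hs.aedisjoint fun e => hne ?_
    have e' : (⟨h₁, hHG h₁.2⟩ : G)⁻¹ * ⟨h₂, hHG h₂.2⟩ = q.out⁻¹ * r.out := by
      rw [inv_mul_eq_iff_eq_mul, ← mul_assoc, e, inv_mul_cancel_right]
    have hqr : q = r := by
      rw [← QuotientGroup.out_eq' q, ← QuotientGroup.out_eq' r, QuotientGroup.eq, ← e',
        Subgroup.mem_subgroupOf]
      exact H.mul_mem (H.inv_mem h₁.2) h₂.2
    rw [hqr] at e
    have := congrArg Subtype.val (mul_right_cancel e)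
    exact Subtype.ext this

/-- Passing to a subgroup of finite index multiplies the integral by the index. -/
theorem fold (hHG : H ≤ G) (hG : G ≤ PGall) (hs : IsFundamentalDomain G s H3.vol)
    (ht : IsFundamentalDomain H t H3.vol) [(H.subgroupOf G).FiniteIndex] {f : H3 → ℂ}
    (hf : ∀ g ∈ G, ∀ p, f (g • p) = f p) (hi : IntegrableOn f s H3.vol) :
    IntegrableOn f t H3.vol ∧
      ∫ p in t, f p ∂H3.vol = (H.relIndex G : ℂ) * ∫ p in s, f p ∂H3.vol := by
  have := countable_subgroup hG
  have := countable_subgroup (hHG.trans hG)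
  have := Fintype.ofFinite (G ⧸ H.subgroupOf G)
  have hF := isFD_foldSet hHG hG hs
  have hfG : ∀ (g : G) p, f (g • p) = f p := fun g p => hf g g.2 p
  have hfH : ∀ (h : H) p, f (h • p) = f p := fun h p => hf h (hHG h.2) p
  have hpiece : ∀ q : G ⧸ H.subgroupOf G, IntegrableOn f ((q.out⁻¹ : G) • s) H3.vol := fun q =>
    (hs.integrableOn_iff (hs.smul _) hfG).1 hi
  have hiF : IntegrableOn f (foldSet H G s) H3.vol := integrableOn_finite_iUnion.2 hpiece
  refine ⟨(hF.integrableOn_iff ht hfH).1 hiF, ?_⟩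
  rw [← hF.setIntegral_eq ht hfH, foldSet, Measure.restrict_iUnion_ae ?_
    fun q => hs.nullMeasurableSet_smul _, Measure.sum_fintype,
    integral_finsetSum_measure fun q _ => hpiece q]
  · rw [Finset.sum_congr rfl fun q _ => (hs.smul (q.out⁻¹ : G)).setIntegral_eq hs hfG,
      Finset.sum_const, nsmul_eq_mul, Finset.card_univ, Subgroup.relIndex,
      Subgroup.index_eq_card, Nat.card_eq_fintype_card]
  · intro q r hqr
    exact hs.aedisjoint fun e => hqr (by
      rw [← QuotientGroup.out_eq' q, ← QuotientGroup.out_eq' r, inv_injective e])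

/-- The image of a fundamental domain is one for the conjugate group. -/
theorem isFD_translate (δ : PGL(2, ℂ)) (hs : IsFundamentalDomain G s H3.vol) :
    IsFundamentalDomain (G.map (MulAut.conj δ : PGL(2, ℂ) →* PGL(2, ℂ))) (δ • s) H3.vol := by
  refine hs.image_of_equiv (MulAction.toPerm δ)
    (measurePreserving_pgl δ⁻¹).quasiMeasurePreserving
    ((MulAut.conj δ).subgroupMap G).toEquiv.symm fun g x => ?_
  obtain ⟨a, rfl⟩ := ((MulAut.conj δ).subgroupMap G).surjective g
  show δ • ((((MulAut.conj δ).subgroupMap G).symm ((MulAut.conj δ).subgroupMap G a) : G) :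
    PGL(2, ℂ)) • x = _
  rw [MulEquiv.symm_apply_apply]
  show δ • (a : PGL(2, ℂ)) • x = (δ * (a : PGL(2, ℂ)) * δ⁻¹) • δ • x
  rw [← mul_smul, ← mul_smul, inv_mul_cancel_right]

/-- Integrals over translated sets. -/
lemma setIntegral_translate (δ : PGL(2, ℂ)) (s : Set H3) (f : H3 → ℂ) :
    ∫ p in δ • s, f p ∂H3.vol = ∫ p in s, f (δ • p) ∂H3.vol :=
  (measurePreserving_pgl δ).setIntegral_image_emb (measurableEmbedding_pgl δ) f s

/-- Integrability over translated sets. -/
lemma integrableOn_translate (δ : PGL(2, ℂ)) (s : Set H3) (f : H3 → ℂ) :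
    IntegrableOn f (δ • s) H3.vol ↔ IntegrableOn (fun p => f (δ • p)) s H3.vol :=
  (measurePreserving_pgl δ).integrableOn_image (measurableEmbedding_pgl δ)

/-! ## Congruence subgroups -/

/-- The congruence group has finite index. -/
lemma relIndex_PG_ne_zero (n : ℕ) [NeZero n] (hG : G ≤ PGall) : (PG n).relIndex G ≠ 0 := by
  have h : (PG n).relIndex PGall ≠ 0 := by
    rw [PG, PGall, MonoidHom.range_eq_map, Subgroup.relIndex_map_map]
    exact ne_zero_of_dvd_ne_zero (Subgroup.FiniteIndex.index_ne_zero (H := congE n))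
      (by rw [top_sup_eq, Subgroup.relIndex_top_right]; exact Subgroup.index_dvd_of_le le_sup_left)
  exact fun h0 => h (Subgroup.relIndex_eq_zero_of_le_right hG h0)

/-- Subgroups containing a congruence group have finite index. -/
lemma finiteIndex_of_PG_le {n : ℕ} [NeZero n] (hH : PG n ≤ H) (hG : G ≤ PGall) :
    (H.subgroupOf G).FiniteIndex :=
  ⟨fun h0 => relIndex_PG_ne_zero n hG (Subgroup.relIndex_eq_zero_of_le_left hH h0)⟩

lemma map_conj_PG (n : ℕ) (g : SLE) :
    (PG n).map (MulAut.conj (pglE g) : PGL(2, ℂ) →* PGL(2, ℂ)) = PG n := by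
  have hn : (congE n).Normal := inferInstance
  ext x
  simp only [Subgroup.mem_map, PG, MonoidHom.coe_coe, MulAut.conj_apply]
  constructor
  · rintro ⟨_, ⟨a, ha, rfl⟩, rfl⟩
    exact ⟨g * a * g⁻¹, hn.conj_mem a ha g, by simp only [map_mul, map_inv]⟩
  · rintro ⟨a, ha, rfl⟩
    refine ⟨pglE (g⁻¹ * a * g), ⟨_, ?_, rfl⟩, by rw [← map_inv, ← map_mul, ← map_mul]; group⟩
    simpa using hn.conj_mem a ha g⁻¹

/-- The integral over the domain is invariant under integral substitutions. -/
theorem setIntegral_fdE_smul {n : ℕ} (g : SLE) {f : H3 → ℂ}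
    (hf : ∀ h ∈ congE n, ∀ p, f (h • p) = f p) :
    ∫ p in fdE n, f (g • p) ∂H3.vol = ∫ p in fdE n, f p ∂H3.vol := by
  have := countable_subgroup (PG_le n)
  have h := isFD_translate (pglE g) (isFD_fdE n)
  rw [map_conj_PG] at h
  rw [← h.setIntegral_eq (isFD_fdE n) fun a p => PG_inv hf a p, setIntegral_translate]
  rfl

/-- Integrals over the domains of two levels. -/
theorem fold_fdE {m n : ℕ} [NeZero n] (hmn : m ∣ n) {f : H3 → ℂ}
    (hf : ∀ h ∈ congE m, ∀ p, f (h • p) = f p) (hi : IntegrableOn f (fdE m) H3.vol) :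
    IntegrableOn f (fdE n) H3.vol ∧
      ∫ p in fdE n, f p ∂H3.vol = ((PG n).relIndex (PG m) : ℂ) * ∫ p in fdE m, f p ∂H3.vol := by
  have := finiteIndex_of_PG_le (n := n) le_rfl (PG_le m)
  exact fold (PG_anti hmn) (PG_le m) (isFD_fdE m) (isFD_fdE n)
    (fun g hg p => PG_inv hf ⟨g, hg⟩ p) hi

end FermatAgent.LT.Lift
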