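import Fermat.Agent.LT.Lift.Weight
import Fermat.Agent.LT.Lift.Orbit
import Fermat.Agent.LT.Lift.Fold

/-!
# The dichotomy at one prime

The functional `v ↦ Λ(δ_v)` at a prime transforms by the character of the upper triangular
matrices.  Either it is seen by a function on an isotropic line transforming by a cubic character
of the scalars, or the prime is inert and it is seen by the family of the character.
-/

set_option autoImplicit false

noncomputable section

open Matrix MeasureTheory Finset Complex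
open scoped MatrixGroups UpperHalfPlane Real ModularForm

namespace FermatAgent.LT.Lift

attribute [local simp] QuadraticAlgebra.re_one QuadraticAlgebra.im_one QuadraticAlgebra.re_ofNat
  QuadraticAlgebra.im_ofNat

/-! ## Reduction of the action -/

variable {q : ℕ}

lemma natCast_self_eisMod : (q : EisMod q) = 0 := by ext <;> simp

lemma redE_thE : redE q thE = thQ := by ext <;> simp [redE, thE, thQ]

lemma intCast_cQ (a : ℤ) : (a : EisMod q) = cQ (a : ZMod q) := by ext <;> simp

/-- The reduction of the transform only depends on the reductions. -/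
lemma redL_cj (g : Matrix (Fin 2) (Fin 2) Eis) (x : Vec) :
    redL q (cj g x) =
      (nrm (redE q (g 0 0)) * (redL q x).1 + nrm (redE q (g 0 1)) * (redL q x).2.1 +
          (redE q (g 0 0) * (redL q x).2.2 * star (redE q (g 0 1))).im,
       nrm (redE q (g 1 0)) * (redL q x).1 + nrm (redE q (g 1 1)) * (redL q x).2.1 +
          (redE q (g 1 0) * (redL q x).2.2 * star (redE q (g 1 1))).im,
       thQ * (cQ (redL q x).1 * (redE q (g 0 0) * star (redE q (g 1 0))) +
          cQ (redL q x).2.1 * (redE q (g 0 1) * star (redE q (g 1 1)))) +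
          redE q (g 0 0) * (redL q x).2.2 * star (redE q (g 1 1)) -
          redE q (g 0 1) * star (redL q x).2.2 * star (redE q (g 1 0))) := by
  have him : ∀ z : Eis, ((z.im : ℤ) : ZMod q) = (redE q z).im := fun z => rfl
  simp only [cj, redL, AddMonoidHom.coe_mk, ZeroHom.coe_mk, Int.cast_add, Int.cast_mul, redE_nrm,
    him, map_mul, map_add, map_sub, redE_star, redE_thE, redE_intCast, intCast_cQ]

/-- The action respects congruences. -/
lemma redL_smul_congr (g : SLE) {x x' : Vec} (h : redL q x = redL q x') :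
    redL q (g • x) = redL q (g • x') := by
  rw [smul_vec, smul_vec, redL_cj, redL_cj, h]

/-- Reduction is onto. -/
lemma exists_redE_eq [NeZero q] (a : EisMod q) : ∃ x : Eis, redE q x = a :=
  ⟨⟨(a.re.val : ℤ), (a.im.val : ℤ)⟩, by ext <;> simp [redE]⟩

/-- Reduction of vectors is onto. -/
lemma exists_redL_eq [NeZero q] (v : VQ q) : ∃ x : Vec, redL q x = v := by
  obtain ⟨e, he⟩ := exists_redE_eq v.2.2
  exact ⟨((v.1.val : ℤ), (v.2.1.val : ℤ), e), by simp [redL, he]⟩

/-- A lower elementary matrix. -/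
def trL (b : Eis) : SLE := ⟨!![1, 0; b, 1], by simp [Matrix.det_fin_two]⟩

/-- Upper translations in congruence subgroups. -/
lemma trE_mem_congE {m : ℕ} {y : Eis} (h : redE m y = 0) : trE y ∈ congE m := by
  rw [mem_congE_iff]
  intro i j
  fin_cases i <;> fin_cases j <;> simp [trE, h]

/-- Lower translations in congruence subgroups. -/
lemma trL_mem_congE {m : ℕ} {y : Eis} (h : redE m y = 0) : trL y ∈ congE m := by
  rw [mem_congE_iff]
  intro i j
  fin_cases i <;> fin_cases j <;> simp [trL, h]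

variable [Fact q.Prime]

/-- Lifts of residues at `q` which vanish modulo `m`. -/
lemma exists_redE_lift {m : ℕ} (hcop : q.Coprime m) (a : EisMod q) :
    ∃ x : Eis, redE q x = a ∧ redE m x = 0 := by
  obtain ⟨u, v, huv⟩ : IsCoprime (q : ℤ) (m : ℤ) := Nat.Coprime.cast (R := ℤ) hcop
  obtain ⟨x, hx⟩ := exists_redE_eq a
  refine ⟨((v * m : ℤ) : Eis) * x, ?_, ?_⟩
  · have h := congrArg (fun z : ℤ => (z : EisMod q)) huv
    simp only [Int.cast_add, Int.cast_mul, Int.cast_natCast, natCast_self_eisMod, mul_zero,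
      zero_add, Int.cast_one] at h
    rw [map_mul, redE_intCast, hx]
    push_cast
    rw [h, one_mul]
  · rw [map_mul, redE_intCast]
    push_cast
    rw [natCast_self_eisMod, mul_zero, zero_mul]

/-- The upper triangular matrices lift. -/
theorem exists_borel_lift {m : ℕ} (hcop : q.Coprime m) (a : (EisMod q)ˣ) (b : EisMod q) :
    ∃ g ∈ congE m, redE q (g.1 0 0) = a ∧ redE q (g.1 0 1) = b ∧ redE q (g.1 1 0) = 0 ∧
      redE q (g.1 1 1) = ((a⁻¹ : (EisMod q)ˣ) : EisMod q) := by
  set ai := ((a⁻¹ : (EisMod q)ˣ) : EisMod q)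
  have hai : (a : EisMod q) * ai = 1 := Units.mul_inv a
  obtain ⟨c, hc, hc'⟩ := exists_redE_lift hcop (ai - 1)
  obtain ⟨o, ho, ho'⟩ := exists_redE_lift hcop (1 : EisMod q)
  obtain ⟨d, hd, hd'⟩ := exists_redE_lift hcop ((a : EisMod q) - 1)
  obtain ⟨e, he, he'⟩ := exists_redE_lift hcop (ai * (b - 1))
  refine ⟨trL c * trE o * trL d * trE e, Subgroup.mul_mem _ (Subgroup.mul_mem _ (Subgroup.mul_mem _
    (trL_mem_congE hc') (trE_mem_congE ho')) (trL_mem_congE hd')) (trE_mem_congE he'),
    ?_, ?_, ?_, ?_⟩ <;>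
    simp only [Matrix.SpecialLinearGroup.coe_mul] <;>
      simp [trL, trE, Matrix.mul_apply, Fin.sum_univ_two, hc, ho, hd, he]
  · linear_combination (b - 1) * hai
  · linear_combination hai
  · linear_combination hai * (ai * (b - 1))

/-! ## The functional -/

variable {n k : ℕ} [NeZero n] [NeZero k] {Φ : H3 → ℂ} {κ : MulChar (EisMod q) ℂ} {R : Vec → ℂ}

/-- The functional of the point masses. -/
def lnf (n k q : ℕ) [NeZero q] (Φ : H3 → ℂ) (R : Vec → ℂ) (τ : ℍ) (v : VQ q) : ℂ :=
  Lam n (q * k) Φ (tw q R (dlV v)) τ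

lemma Lam_tw (hΦ : IsWave n Φ) (hR : IsPer k R) (u : VQ q → ℂ) (τ : ℍ) :
    Lam n (q * k) Φ (tw q R u) τ = ∑ v, u v * lnf n k q Φ R τ v := by
  simp only [lnf, ← Lam_smul]
  rw [← Lam_sum hΦ univ fun v => (isPer_tw hR (dlV v)).smul' (u v)]
  refine congrFun (Lam_congr fun x => ?_) τ
  simp [tw, dlV, mul_comm]

variable (hn : 3 * (q * k) ∣ n) (hΦ : IsWave n Φ) (hR : IsPer k R) (hcop : q.Coprime (3 * k))
  (hcov : ∀ g ∈ congE (3 * k), redE q (g.1 1 0) = 0 → ∀ p, Φ (g • p) = κ (redE q (g.1 0 0)) * Φ p)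

include hn hΦ hR hcop hcov

omit [NeZero n] [NeZero k] in
/-- The functional of the point masses transforms by the character of the Borel group. -/
theorem isBorel_lnf (τ : ℍ) : IsBorel κ (lnf n k q Φ R τ) := by
  intro a b v
  obtain ⟨g, hg, h00, h01, h10, h11⟩ := exists_borel_lift hcop a b
  have hcj : ∀ x, redL q (g • x) = cjB a b (redL q x) := fun x => by
    rw [smul_vec, redL_cj, h00, h01, h10, h11]
    simp [cjB, nrm_zero']
  have hinj : ∀ v v' : VQ q, cjB a b v = cjB a b v' → v = v' := by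
    intro v v' h
    obtain ⟨x, rfl⟩ := exists_redL_eq v
    obtain ⟨x', rfl⟩ := exists_redL_eq v'
    rw [← hcj, ← hcj] at h
    have h' := redL_smul_congr g⁻¹ h
    rwa [inv_smul_smul, inv_smul_smul] at h'
  have hRg : ∀ x, R (g • x) = R x := inv_congE_of_isPer (k := k) dvd_rfl hR g hg
  have hw : ∀ x, tw q R (dlV (cjB a b v)) (g • x) = tw q R (dlV v) x := fun x => by
    simp only [tw, dlV, hRg, hcj]
    congr 1
    exact if_congr ⟨hinj _ _, fun e => by rw [e]⟩ rfl rfl
  set w := tw q R (dlV (cjB a b v))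
  have hΦg : ∀ p, Φ p = κ a * Φ (g⁻¹ • p) := fun p => by
    rw [← h00, ← hcov g hg h10, smul_inv_smul]
  set f : H3 → ℂ := fun p => Φ (g⁻¹ • p) * theta (q * k) w τ p with hf
  have hfi : ∀ h ∈ congE n, ∀ p, f (h • p) = f p := fun h hh p => by
    simp only [hf]
    rw [(hΦ.translate g⁻¹).inv h hh p, theta_smul_pt]
    congr 1
    exact theta_congr (inv_congE_of_isPer hn (isPer_tw hR _) h hh) τ p
  have h1 : ∫ p in fdE n, f p ∂H3.vol = lnf n k q Φ R τ v := by
    rw [← setIntegral_fdE_smul g hfi, lnf, Lam]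
    refine integral_congr_ae (ae_of_all _ fun p => ?_)
    simp only [hf, inv_smul_smul, theta_smul_pt]
    rw [theta_congr hw]
  have h2 : lnf n k q Φ R τ (cjB a b v) = κ a * ∫ p in fdE n, f p ∂H3.vol := by
    rw [lnf, Lam, ← integral_const_mul]
    refine integral_congr_ae (ae_of_all _ fun p => ?_)
    simp only [hf]
    rw [hΦg p, mul_assoc]
  rw [h2, h1]

omit hn in
omit hcov in
/-- If it has no mass on the isotropic vectors, its spheres are orthogonal to them. -/
theorem sphere_lnf (h0 : ∀ y : VQ q, PQ y = 0 → ∀ τ, lnf n k q Φ R τ y = 0) (τ : ℍ) (c : ZMod q)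
    {x : VQ q} (hx : PQ x = 0) :
    ∑ v : VQ q, (if PQ v = c then lnf n k q Φ R τ v * ZMod.stdAddChar (BQ x v) else 0) = 0 := by
  classical
  have hk : ((3 * k : ℕ) : ZMod q) ≠ 0 := by
    rw [Ne, ZMod.natCast_eq_zero_iff]
    exact ((Nat.Prime.coprime_iff_not_dvd Fact.out).1 hcop)
  obtain ⟨j, hj⟩ := ZMod.intCast_surjective (-((((3 * k : ℕ) : ZMod q)⁻¹) ^ 2))
  have hj0 : (j : ZMod q) ≠ 0 := by
    rw [hj]; exact neg_ne_zero.2 (pow_ne_zero _ (inv_ne_zero hk))
  have ht : -((((3 * k : ℕ) : ZMod q)⁻¹) ^ 2 * (j : ZMod q)⁻¹) = 1 := by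
    rw [hj]; field_simp
  let L : SL(2, ℤ) := ⟨!![1, 0; (3 * k : ℕ) * j, 1], by simp [Matrix.det_fin_two]⟩
  have hzero : Lam n (q * k) Φ (tw q R (dlV x)) = 0 := funext fun σ => h0 x hx σ
  have hL := Lam_lower (n := n) (Φ := Φ) hcop hj0 hR (dlV x) L rfl
  rw [hzero, SlashAction.zero_slash, ht] at hL
  have hconv : ∀ σ, Lam n (q * k) Φ (tw q R (conv 1 (dlV x))) σ = 0 := fun σ => by
    have h := congrFun hL σ
    simp only [Pi.zero_apply] at h
    exact (mul_eq_zero.1 h.symm).resolve_left (div_ne_zero (eps_ne_zero q)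
      (pow_ne_zero _ (Nat.cast_ne_zero.2 (NeZero.ne q))))
  have hs : ∀ s : ZMod q, ∑ v : VQ q, ZMod.stdAddChar (s * PQ v) *
      ZMod.stdAddChar (BQ x v) * lnf n k q Φ R τ v = 0 := fun s => by
    obtain ⟨i, hi⟩ := ZMod.intCast_surjective (s + 1)
    have h := Lam_mE (n := n) (k := q * k) (Φ := Φ) (((3 * k : ℕ) : ℤ) * i)
      (tw q R (conv 1 (dlV x))) τ
    rw [hconv, mE_tw, Lam_tw hΦ hR] at h
    rw [← h]
    refine sum_congr rfl fun v _ => ?_
    congr 1
    simp [conv, dlV]
    rw [← AddChar.map_add_eq_mul, ← AddChar.map_add_eq_mul, hi]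
    congr 1
    have hb : PQ (v - x) = PQ v + PQ x - BQ x v := by
      simp [BQ_formula, PQ, nrm, QuadraticAlgebra.norm_def]
      ring
    rw [hb, hx]
    ring
  refine (mul_eq_zero.1 ?_).resolve_left (Nat.cast_ne_zero.2 (NeZero.ne q) : (q : ℂ) ≠ 0)
  calc (q : ℂ) * ∑ v : VQ q,
        (if PQ v = c then lnf n k q Φ R τ v * ZMod.stdAddChar (BQ x v) else 0)
      = ∑ v : VQ q, ∑ r : ZMod q, ZMod.stdAddChar (r * (PQ v - c)) *
          (ZMod.stdAddChar (BQ x v) * lnf n k q Φ R τ v) := by
        rw [mul_sum]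
        refine sum_congr rfl fun v _ => ?_
        rw [← sum_mul, sum_std_mul]
        simp only [sub_eq_zero]
        split_ifs <;> ring
    _ = ∑ r : ZMod q, ZMod.stdAddChar (-(r * c)) * ∑ v : VQ q, ZMod.stdAddChar (r * PQ v) *
          ZMod.stdAddChar (BQ x v) * lnf n k q Φ R τ v := by
        rw [sum_comm]
        refine sum_congr rfl fun r _ => ?_
        rw [mul_sum]
        refine sum_congr rfl fun v _ => ?_
        rw [show r * (PQ v - c) = -(r * c) + r * PQ v by ring, AddChar.map_add_eq_mul]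
        ring
    _ = 0 := sum_eq_zero fun r _ => by rw [hs, mul_zero]

omit hn hΦ hR hcop hcov in
/-- Scalars act on isotropic vectors like upper triangular matrices. -/
lemma exists_iso_scale (h3 : q ≠ 3) {v : VQ q} (hv : PQ v = 0) {t : ZMod q} (ht : t ≠ 0) :
    ∃ (a : (EisMod q)ˣ) (b : EisMod q), cjB a b v = t • v := by
  obtain ⟨x, d, β⟩ := v
  have h3' := three_ne_zero' (q := q) h3
  by_cases hd : d = 0
  · subst hd
    have hβ : nrm β = 0 := by simpa [PQ] using hv
    rcases mod_three_cases h3 with h | h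
    · set e := splitE h
      have h12 : (e β).1 * (e β).2 = 0 := by rw [← nrm_splitE h, hβ]
      have key : ∀ A : ZMod q × ZMod q, A.1 * A.2 = t → (e β).1 * A.1 = (e β).1 * (t * A.2) →
          (e β).2 * A.2 = (e β).2 * (t * A.1) → ∃ (a : (EisMod q)ˣ) (b : EisMod q),
            cjB a b (x, 0, β) = t • ((x, 0, β) : VQ q) := by
        intro A hA h1 h2
        have hn : nrm (e.symm A) = t := by rw [nrm_splitE h, RingEquiv.apply_symm_apply, hA]
        have hu : IsUnit (e.symm A) := (isUnit_iff_nrm _).2 (hn ▸ ht)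
        refine ⟨hu.unit, 0, ?_⟩
        have hcq : e (cQ t) = (t, t) := by ext <;> simp [e, splitE]
        have hmul : (e.symm A : EisMod q) * β = cQ t * β * star (e.symm A) := e.injective (by
          rw [map_mul, map_mul, map_mul, splitE_star h, hcq, RingEquiv.apply_symm_apply]
          refine Prod.ext ?_ ?_
          · simp only [Prod.fst_mul]; linear_combination h1
          · simp only [Prod.snd_mul]; linear_combination h2)
        have hb : e.symm A * β * star ((hu.unit⁻¹ : (EisMod q)ˣ) : EisMod q) = cQ t * β := by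
          have hs := star_inv_unit hu.unit
          rw [IsUnit.unit_spec] at hs
          rw [hmul, mul_assoc (cQ t * β), hs, mul_one]
        simp only [cjB, mul_zero, add_zero, nrm_zero', zero_mul, star_zero,
          QuadraticAlgebra.im_zero,
          cQ_zero, zero_add, Prod.smul_def, smul_eq_mul, IsUnit.unit_spec, hn]
        refine Prod.ext rfl (Prod.ext rfl ?_)
        simp only
        rw [hb]
        ext <;> simp
      rcases mul_eq_zero.1 h12 with h1 | h2
      · exact key (1, t) (one_mul t) (by rw [h1]; ring) (by ring)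
      · exact key (t, 1) (mul_one t) (by ring) (by rw [h2]; ring)
    · have hβ0 : β = 0 := by_contra fun hne => nrm_ne_zero_of_inert h hne hβ
      subst hβ0
      obtain ⟨a, ha, hn⟩ := exists_nrm h3 ht
      exact ⟨ha.unit, 0, by simp [cjB, nrm_zero', cQ_zero, hn]⟩
  · obtain ⟨a, ha, hn⟩ := exists_nrm h3 (inv_ne_zero ht)
    have hth : IsUnit (thQ : EisMod q) := (isUnit_iff_nrm _).2 (by
      rw [show nrm (thQ : EisMod q) = 3 by simp [nrm, thQ, QuadraticAlgebra.norm_def]; ring]
      exact h3')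
    have hd' : IsUnit (cQ d) := (isUnit_iff_nrm _).2 (by rw [nrm_cQ]; exact mul_ne_zero hd hd)
    set A := ha.unit
    set ai := star ((A⁻¹ : (EisMod q)ˣ) : EisMod q)
    set b : EisMod q := ((hth.unit⁻¹ : (EisMod q)ˣ) : EisMod q) *
      ((hd'.unit⁻¹ : (EisMod q)ˣ) : EisMod q) * ((cQ t * β - a * β * ai) * star a)
    refine ⟨A, b, ?_⟩
    have h2 : nrm ((A⁻¹ : (EisMod q)ˣ) : EisMod q) = t := by
      have h := nrm_unit_mul_inv A
      rw [IsUnit.unit_spec, hn] at h
      field_simp at h
      linear_combination h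
    have hb : thQ * (cQ d * (b * ai)) = cQ t * β - a * β * ai := by
      have h4 : star a * ai = 1 := by
        have := star_inv_unit A
        rwa [IsUnit.unit_spec] at this
      calc thQ * (cQ d * (b * ai)) = (thQ * ((hth.unit⁻¹ : (EisMod q)ˣ) : EisMod q)) *
            (cQ d * ((hd'.unit⁻¹ : (EisMod q)ˣ) : EisMod q)) *
            (cQ t * β - a * β * ai) * (star a * ai) := by simp only [b]; ring
        _ = _ := by rw [IsUnit.mul_val_inv, IsUnit.mul_val_inv, h4]; ring
    have h22 : (cjB A b (x, d, β)).2.2 = (t • ((x, d, β) : VQ q)).2.2 := by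
      show thQ * (cQ d * (b * ai)) + a * β * ai = t • β
      rw [hb]
      ext <;> simp
    have h21 : (cjB A b (x, d, β)).2.1 = (t • ((x, d, β) : VQ q)).2.1 := by simp [cjB, h2]
    refine Prod.ext ?_ (Prod.ext h21 h22)
    have hP := PQ_cjB A b (x, d, β)
    have hP' : PQ (t • ((x, d, β) : VQ q)) = 0 := by rw [PQ_smul, hv, mul_zero]
    rw [hv, PQ, h21, h22] at hP
    rw [PQ] at hP'
    refine mul_left_cancel₀ (mul_ne_zero h3' (mul_ne_zero ht hd)) ?_
    simp only [Prod.smul_snd, Prod.smul_fst, smul_eq_mul] at hP hP' ⊢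
    linear_combination hP' - hP

/-- A function on an isotropic line transforming by a cubic character of the scalars. -/
def IsPS (χ : ZMod q → ℂ) (u : VQ q → ℂ) : Prop :=
  (∀ v, PQ v ≠ 0 → u v = 0) ∧ (∀ d, d ≠ 0 → χ d ^ 3 = 1) ∧
    ∀ d, d ≠ 0 → ∀ v, u (d • v) = χ d * u v

/-- **The dichotomy at `q`**: a nonzero lift with some component at `q` stays nonzero either with a
principal series component, or with a component of the family of the cubic character, and then
`q ≡ 2 (mod 3)` and the character is nontrivial and trivial on the scalars. -/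
theorem dichotomy (hκ : κ ^ 3 = 1) {ρ : ZMod q} (hρ : ρ ≠ 0) {u₀ : VQ q → ℂ} {τ : ℍ}
    (hne : Lam n (q * k) Φ (tw q R u₀) τ ≠ 0) :
    (∃ χ u, IsPS χ u ∧ Lam n (q * k) Φ (tw q R u) ≠ 0) ∨
      (q % 3 = 2 ∧ (∀ t : ZMod q, t ≠ 0 → κ (cQ t) = 1) ∧ κ ≠ 1 ∧
        ∃ l, Lam n (q * k) Φ (tw q R (famU κ ρ l)) ≠ 0) := by
  classical
  have h3 : q ≠ 3 := by
    rintro rfl
    have := Nat.Coprime.coprime_mul_right_right hcop
    simp at this
  by_cases h0 : ∀ y : VQ q, PQ y = 0 → ∀ σ, lnf n k q Φ R σ y = 0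
  · right
    have hB := isBorel_lnf hn hΦ hR hcop hcov τ
    have hl : lnf n k q Φ R τ ≠ 0 := fun h => hne (by simp [Lam_tw hΦ hR, h])
    obtain ⟨hq, hs, hk1, l, hlne⟩ := local_type hB h3 hκ (fun v hv => h0 v hv τ)
      (fun c _ x hx => sphere_lnf hΦ hR hcop h0 τ c hx) hl hρ
    exact ⟨hq, hs, hk1, l, fun h => hlne (by rw [← Lam_tw hΦ hR, h]; rfl)⟩
  · left
    push Not at h0
    obtain ⟨y, hy, σ, hσ⟩ := h0
    have hB := isBorel_lnf hn hΦ hR hcop hcov σ
    set ℓ := lnf n k q Φ R σ
    set h : ZMod q → ℂ := fun t => ℓ (t • y) / ℓ y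
    have hex : ∀ t : ZMod q, t ≠ 0 → ∃ c : ℂ, c ^ 3 = 1 ∧ ∀ s : ZMod q,
        ℓ (t • s • y) = c * ℓ (s • y) := by
      intro t ht
      obtain ⟨a, b, hab⟩ := exists_iso_scale h3 hy ht
      refine ⟨κ a, char_cube hκ a, fun s => ?_⟩
      have hsm : cjB a b (s • y) = t • s • y := by
        have e : cjB a b (s • y) = s • cjB a b y := by
          simp only [cjB, Prod.smul_def, smul_eq_mul]
          refine Prod.ext ?_ (Prod.ext ?_ ?_)
          · simp; ring
          · simp; ring
          · ext <;> simp [thQ] <;> ring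
        rw [e, hab, smul_comm]
      rw [← hsm, hB]
    have hcube : ∀ t, t ≠ 0 → h t ^ 3 = 1 := fun t ht => by
      obtain ⟨c, hc, hc'⟩ := hex t ht
      have := hc' 1
      rw [one_smul] at this
      simp only [h, this]
      field_simp
      exact hc
    have hmul : ∀ s t, s ≠ 0 → h (s * t) = h s * h t := fun s t hs => by
      obtain ⟨c, -, hc'⟩ := hex s hs
      have h1 := hc' 1
      rw [one_smul] at h1
      simp only [h, mul_smul, hc' t, h1]
      field_simp
    set u : VQ q → ℂ := fun v => ∑ t ∈ univ.filter fun t : ZMod q => t ≠ 0,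
      if v = t • y then h t ^ 2 else 0
    refine ⟨fun d => h d ^ 2, u, ⟨fun v hv => ?_, fun d hd => ?_, fun d hd v => ?_⟩, ?_⟩
    · refine sum_eq_zero fun t _ => if_neg ?_
      rintro rfl
      exact hv (by rw [PQ_smul, hy, mul_zero])
    · rw [← pow_mul, mul_comm, pow_mul, hcube d hd, one_pow]
    · simp only [u, mul_sum]
      refine (sum_bij (fun t _ => d * t) (fun t ht => ?_) (fun a _ b _ e => mul_left_cancel₀ hd e)
        (fun s hs => ⟨d⁻¹ * s, ?_, by field_simp⟩) fun t ht => ?_).symm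
      · simpa [hd] using ht
      · simpa [hd] using hs
      · rw [mul_smul, hmul d t hd, mul_ite, mul_zero, mul_pow]
        exact if_congr ⟨fun e => by rw [e], fun e => smul_right_injective _ hd e⟩ rfl rfl
    · intro hzero
      have hpair : Lam n (q * k) Φ (tw q R u) σ =
          ∑ t ∈ univ.filter fun t : ZMod q => t ≠ 0, ℓ y := by
        rw [Lam_tw hΦ hR]
        simp only [u, sum_mul, ite_mul, zero_mul]
        rw [sum_comm]
        refine sum_congr rfl fun t ht => ?_
        rw [sum_ite_eq' univ (t • y) (fun v => h t ^ 2 * ℓ v), if_pos (mem_univ _)]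
        have h1 : ℓ (t • y) = h t * ℓ y := by simp only [h]; field_simp
        rw [h1]
        linear_combination ℓ y * hcube t (mem_filter.1 ht).2
      rw [hzero, Pi.zero_apply, sum_const, nsmul_eq_mul] at hpair
      refine mul_ne_zero (Nat.cast_ne_zero.2 (card_ne_zero.2 ?_)) hσ hpair.symm
      exact ⟨1, by simp⟩

end FermatAgent.LT.Lift
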