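import Fermat.Agent.LT.Lift.Theta
import Fermat.Agent.LT.Base.Siegel
import Fermat.Agent.LT.Whit.Arch

/-!
# Congruence subgroups over the Eisenstein integers and their fundamental domains

Reduction into a Siegel set, integrability of products of a rapidly decreasing invariant function
and a function of moderate growth, and comparison of fundamental domains of nested groups.
-/

set_option autoImplicit false

noncomputable section

open Matrix MeasureTheory Filter Topology
open scoped MatrixGroups ENNReal Pointwise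

namespace FermatAgent.LT.Lift

/-- The Eisenstein integers modulo `n`. -/
abbrev EisMod (n : ℕ) := QuadraticAlgebra (ZMod n) (-1) (-1)

instance (n : ℕ) [NeZero n] : Finite (EisMod n) :=
  Finite.of_equiv _ (QuadraticAlgebra.equivProd (-1 : ZMod n) (-1)).symm

/-- Reduction. -/
def redE (n : ℕ) : Eis →+* EisMod n where
  toFun x := ⟨(x.re : ZMod n), (x.im : ZMod n)⟩
  map_one' := by ext <;> simp [QuadraticAlgebra.re_one, QuadraticAlgebra.im_one]
  map_zero' := by ext <;> simp
  map_mul' x y := by ext <;> simp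
  map_add' x y := by ext <;> simp

/-- The principal congruence subgroup. -/
def congE (n : ℕ) : Subgroup SLE := (SpecialLinearGroup.map (redE n)).ker

/-- Membership in a congruence subgroup. -/
lemma mem_congE {n : ℕ} {g : SLE} :
    g ∈ congE n ↔ ∀ i j, redE n (g.1 i j) = (1 : Matrix (Fin 2) (Fin 2) (EisMod n)) i j := by
  rw [congE, MonoidHom.mem_ker]
  refine ⟨fun h i j => ?_, fun h => ?_⟩
  · have := congrArg (fun x : SpecialLinearGroup (Fin 2) (EisMod n) => x.1 i j) h
    simpa using this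
  · apply Subtype.ext
    refine Matrix.ext fun i j => ?_
    simpa using h i j

instance (n : ℕ) : (congE n).Normal := MonoidHom.normal_ker _

instance (n : ℕ) [NeZero n] : (congE n).FiniteIndex := by
  have : Finite (SpecialLinearGroup (Fin 2) (EisMod n)) := Subtype.finite
  exact ⟨by
    rw [congE, Subgroup.index_ker]
    exact Nat.card_pos.ne'⟩

/-- Congruence subgroups are antitone in the level. -/
lemma congE_anti {m n : ℕ} (h : m ∣ n) : congE n ≤ congE m := by
  obtain ⟨c, rfl⟩ := h
  intro g hg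
  rw [mem_congE] at hg ⊢
  intro i j
  have h1 := hg i j
  have hr := congrArg QuadraticAlgebra.re h1
  have hi := congrArg QuadraticAlgebra.im h1
  ext
  · have := congrArg (ZMod.castHom (dvd_mul_right m c) (ZMod m)) hr
    fin_cases i <;> fin_cases j <;>
      simpa [redE, QuadraticAlgebra.re_one, QuadraticAlgebra.im_one] using this
  · have := congrArg (ZMod.castHom (dvd_mul_right m c) (ZMod m)) hi
    fin_cases i <;> fin_cases j <;>
      simpa [redE, QuadraticAlgebra.re_one, QuadraticAlgebra.im_one] using this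

/-- The projective image. -/
def pglE : SLE →* PGL(2, ℂ) := ProjGenLinGroup.mk.comp glE

/-- The projective action. -/
lemma pglE_smul (g : SLE) (p : H3) : pglE g • p = g • p := rfl

/-- The projective congruence subgroup. -/
def PG (n : ℕ) : Subgroup PGL(2, ℂ) := (congE n).map pglE

/-- The group of all integral matrices. -/
def PGall : Subgroup PGL(2, ℂ) := pglE.range

/-- Congruence groups lie in the full group. -/
lemma PG_le (n : ℕ) : PG n ≤ PGall := fun _ ⟨g, _, h⟩ => ⟨g, h⟩

/-- Congruence groups are antitone in the level. -/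
lemma PG_anti {m n : ℕ} (h : m ∣ n) : PG n ≤ PG m := Subgroup.map_mono (congE_anti h)

/-- Classes of the congruence subgroup lie in the congruence group. -/
lemma pglE_mem {n : ℕ} {g : SLE} (h : g ∈ congE n) : pglE g ∈ PG n := ⟨g, h, rfl⟩

instance : Countable Eis := (QuadraticAlgebra.equivProd (-1 : ℤ) (-1)).injective.countable

instance : Countable SLE := by
  have : Countable (Matrix (Fin 2) (Fin 2) Eis) := inferInstanceAs (Countable (Fin 2 → Fin 2 → Eis))
  exact Subtype.countable

/-- Subgroups of the full group are countable. -/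
lemma countable_subgroup {G : Subgroup PGL(2, ℂ)} (hG : G ≤ PGall) : Countable G := by
  have h : (G : Set PGL(2, ℂ)).Countable :=
    (Set.countable_range pglE).mono fun x hx => hG hx
  exact h.to_subtype

instance : ContinuousConstSMul PGL(2, ℂ) H3 where
  continuous_const_smul g := by
    induction g using Matrix.ProjGenLinGroup.induction_on with | mk g =>
    exact (H3.continuous_smul_const g).congr fun p => (H3.mk_smul g p).symm

instance : MeasurableConstSMul PGL(2, ℂ) H3 := ⟨fun g => (continuous_const_smul g).measurable⟩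

instance : SMulInvariantMeasure PGL(2, ℂ) H3 H3.vol where
  measure_preimage_smul g s hs := by
    induction g using Matrix.ProjGenLinGroup.induction_on with | mk g =>
    have h := (H3.measurePreserving_smul g).measure_preimage hs.nullMeasurableSet
    simpa only [← H3.mk_smul] using h

/-- The projective group preserves the volume. -/
lemma measurePreserving_pgl (g : PGL(2, ℂ)) :
    MeasurePreserving (fun p : H3 => g • p) H3.vol H3.vol :=
  measurePreserving_smul g H3.vol

/-- The projective action is a measurable embedding. -/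
lemma measurableEmbedding_pgl (g : PGL(2, ℂ)) : MeasurableEmbedding fun p : H3 => g • p :=
  (Homeomorph.smul g).measurableEmbedding

lemma eis_finite (C : ℝ) : {x : Eis | Complex.normSq (toC x) ≤ C}.Finite := by
  obtain ⟨N, hN⟩ := exists_nat_ge (2 * C)
  have hI : (Set.Icc (-(N : ℤ)) N).Finite := Set.finite_Icc _ _
  refine ((hI.prod hI).preimage (QuadraticAlgebra.equivProd (-1 : ℤ) (-1)).injective.injOn).subset
    fun x hx => ?_
  simp only [Set.mem_ofPred_eq, normSq_toC] at hx
  have h2 := norm_eis_ge x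
  have hb : ∀ m : ℤ, ((m : ℝ) ^ 2) ≤ 2 * C → m ∈ Set.Icc (-(N : ℤ)) N := fun m hm => by
    have h3 : ((m : ℤ) : ℝ) ^ 2 ≤ (N : ℝ) := hm.trans hN
    have h4 : m ^ 2 ≤ (N : ℤ) := by exact_mod_cast h3
    constructor <;> nlinarith [sq_nonneg m, sq_nonneg (m - 1), sq_nonneg (m + 1)]
  exact ⟨hb x.re (by nlinarith [sq_nonneg (x.im : ℝ)]),
    hb x.im (by nlinarith [sq_nonneg (x.re : ℝ)])⟩

lemma sle_finite (C : ℝ) : {g : SLE | ∀ i j, Complex.normSq (toC (g.1 i j)) ≤ C}.Finite := by
  have h : (Set.univ.pi fun _ : Fin 2 => Set.univ.pi fun _ : Fin 2 =>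
      {x : Eis | Complex.normSq (toC x) ≤ C}).Finite :=
    Set.Finite.pi fun _ => Set.Finite.pi fun _ => eis_finite C
  exact (h.preimage (f := fun g : SLE => (g.1 : Fin 2 → Fin 2 → Eis))
    Subtype.val_injective.injOn).subset fun g hg i _ j _ => hg i j

lemma exists_finite_moving' (G : Subgroup PGL(2, ℂ)) (hG : G ≤ PGall) (x : H3) :
    ∃ V ∈ 𝓝 x, {g : G | ∃ y ∈ V, g • y ∈ V}.Finite := by
  set B := H3.bnd x + 1
  refine ⟨{y | H3.bnd y < B}, (isOpen_lt H3.continuous_bnd continuous_const).mem_nhds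
    (by simp [B]), ?_⟩
  refine Set.Finite.of_finite_image (f := fun g : G => (g : PGL(2, ℂ))) ?_
    Subtype.val_injective.injOn
  refine ((sle_finite (B * (B * 1))).image pglE).subset ?_
  rintro _ ⟨g, ⟨y, hy, hgy⟩, rfl⟩
  obtain ⟨a, ha⟩ := hG g.2
  refine ⟨a, fun i j => ?_, ha⟩
  have h := H3.entry_sq_le (glE a) y i j
  rw [det_glE, norm_one] at h
  have hy' : H3.bnd y ≤ B := le_of_lt hy
  have hgy' : H3.bnd (glE a • y) ≤ B := by
    have : H3.bnd ((g : PGL(2, ℂ)) • y) < B := hgy
    rw [← ha, pglE_smul, smul_pt] at this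
    exact this.le
  have h0 : ∀ q : H3, 0 ≤ H3.bnd q := fun q => (gau_pos q).le
  exact h.trans (mul_le_mul hy' (mul_le_mul_of_nonneg_right hgy' zero_le_one)
    (mul_nonneg (h0 _) zero_le_one) (h0 x |>.trans (by simp [B])))

lemma null_fixed (G : Subgroup PGL(2, ℂ)) (hG : G ≤ PGall) (g : G) (hg : g ≠ 1) :
    H3.vol {x | g • x = x} = 0 := by
  obtain ⟨a, ha⟩ := hG g.2
  have e : {x : H3 | g • x = x} = {x | glE a • x = x} := by
    ext x
    show (g : PGL(2, ℂ)) • x = x ↔ _
    rw [← ha, pglE_smul, smul_pt]; rfl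
  rw [e]
  refine H3.vol_fixed_eq_zero _ ?_
  rintro ⟨h01, h10, h00⟩
  refine hg (Subtype.ext ?_)
  rw [← ha, OneMemClass.coe_one]
  have hne : (glE a).val 0 0 ≠ 0 := fun h0 => by
    have := det_glE a
    rw [Matrix.det_fin_two, h01, h0] at this
    simp at this
  have e' : glE a = GeneralLinearGroup.scalar (Fin 2) (Units.mk0 _ hne) := by
    apply Units.ext
    ext i j
    fin_cases i <;> fin_cases j <;> simp [GeneralLinearGroup.coe_scalar, h01, h10, h00]
  show ProjGenLinGroup.mk (glE a) = 1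
  rw [e', ProjGenLinGroup.mk_scalar]

/-- A fundamental domain exists for every subgroup of the integral group. -/
theorem exists_fd (G : Subgroup PGL(2, ℂ)) (hG : G ≤ PGall) :
    ∃ s : Set H3, MeasurableSet s ∧ IsFundamentalDomain G s H3.vol := by
  have := countable_subgroup hG
  have : ContinuousConstSMul G H3 := ⟨fun g => continuous_const_smul (g : PGL(2, ℂ))⟩
  have : MeasurableConstSMul G H3 := ⟨fun g => measurable_const_smul (g : PGL(2, ℂ))⟩
  have : SMulInvariantMeasure G H3 H3.vol :=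
    ⟨fun g _ hs => SMulInvariantMeasure.measure_preimage_smul (g : PGL(2, ℂ)) hs⟩
  exact exists_fundamentalDomain H3.vol (exists_finite_moving' G hG) (null_fixed G hG)

/-- A fundamental domain of the congruence subgroup. -/
def fdE (n : ℕ) : Set H3 := (exists_fd (PG n) (PG_le n)).choose

/-- The fundamental domain is measurable. -/
lemma measurableSet_fdE (n : ℕ) : MeasurableSet (fdE n) :=
  (exists_fd (PG n) (PG_le n)).choose_spec.1

/-- The fundamental domain is one. -/
lemma isFD_fdE (n : ℕ) : IsFundamentalDomain (PG n) (fdE n) H3.vol :=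
  (exists_fd (PG n) (PG_le n)).choose_spec.2

/-- The Siegel set. -/
def siegT : Set H3 := {p | ‖p.z‖ ≤ 1 ∧ 1 / 2 ≤ p.t}

lemma vol_siegT : H3.vol siegT < ⊤ := H3.vol_box_lt_top 1 (by norm_num)

/-- A translation. -/
def trE (b : Eis) : SLE := ⟨!![1, b; 0, 1], by simp [Matrix.det_fin_two]⟩

/-- The inversion. -/
def wE : SLE := ⟨!![0, -1; 1, 0], by simp [Matrix.det_fin_two]⟩

/-- The entries of the complex matrix. -/
lemma glE_apply (g : SLE) (i j : Fin 2) : (glE g).val i j = toC (g.1 i j) := rfl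

lemma glE_trE (b : Eis) : (glE (trE b)).val = !![1, toC b; 0, 1] := by
  ext i j
  rw [glE_apply]
  fin_cases i <;> fin_cases j <;> simp [trE]

lemma glE_wE : (glE wE).val = !![0, -1; 1, 0] := by
  ext i j
  rw [glE_apply]
  fin_cases i <;> fin_cases j <;> simp [wE]

lemma trE_smul (b : Eis) (p : H3) : (trE b • p).z = p.z + toC b ∧ (trE b • p).t = p.t := by
  rw [smul_pt, H3.smul_def]
  simp [H3.act, H3.den, glE_trE, Matrix.det_fin_two]

lemma den_wE (p : H3) : H3.den (glE wE).val p = Complex.normSq p.z + p.t ^ 2 := by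
  simp [H3.den, glE_wE]

/-- Every complex number is near an Eisenstein integer. -/
lemma exists_round (z : ℂ) : ∃ b : Eis, Complex.normSq (z + toC b) ≤ 3 / 4 := by
  set y := z.im / (√3 / 2) with hy
  set x := z.re + y / 2 with hx
  refine ⟨⟨-round x, -round y⟩, ?_⟩
  have h1 := abs_sub_round x
  have h2 := abs_sub_round y
  have e3 := sqrt3_sq
  have hs : (√3 : ℝ) ≠ 0 := by positivity
  have hre : (z + toC ⟨-round x, -round y⟩).re = (x - round x) - (y - round y) / 2 := by
    rw [toC_apply, hx]; simp [zC]; ring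
  have him : (z + toC ⟨-round x, -round y⟩).im = (y - round y) * (√3 / 2) := by
    rw [toC_apply, hy]; simp [zC]; field_simp; ring
  rw [Complex.normSq_apply, hre, him]
  set u := x - round x
  set v := y - round y
  rw [abs_le] at h1 h2
  nlinarith [mul_nonneg (sub_nonneg.2 h1.2) (sub_nonneg.2 h2.2),
    mul_nonneg (sub_nonneg.2 h1.1) (sub_nonneg.2 h2.1),
    mul_nonneg (sub_nonneg.2 h1.2) (sub_nonneg.2 h2.1),
    mul_nonneg (sub_nonneg.2 h1.1) (sub_nonneg.2 h2.2), sq_nonneg u, sq_nonneg v]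

/-- Reduction into the Siegel set. -/
theorem exists_reduce (p : H3) : ∃ g : SLE, g • p ∈ siegT := by
  classical
  let row : SLE → (Fin 2 → Eis) := fun g => g.1 1
  let val : (Fin 2 → Eis) → ℝ := fun r => archQ (fun i => toC (r i)) p
  set S := {r | ∃ g : SLE, row g = r ∧ val r ≤ val (row 1)}
  have hSfin : S.Finite := by
    refine ((Set.Finite.pi fun _ : Fin 2 => eis_finite (H3.bnd p * val (row 1))).subset
      fun r hr i _ => ?_)
    obtain ⟨g, -, hr⟩ := hr
    have h := (H3.normSq_le (fun i => toC (r i)) p).trans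
      (mul_le_mul_of_nonneg_left hr (gau_pos p).le)
    show Complex.normSq (toC (r i)) ≤ _
    have n0 := Complex.normSq_nonneg (toC (r 0))
    have n1 := Complex.normSq_nonneg (toC (r 1))
    obtain rfl | rfl : i = 0 ∨ i = 1 := by omega
    · linarith
    · linarith
  obtain ⟨r, ⟨g, hg, hr1⟩, hmin⟩ := hSfin.exists_minimalFor val S ⟨row 1, 1, rfl, le_rfl⟩
  have hvalt : ∀ g : SLE, (g • p).t = 1 / val (row g) := by
    intro g
    have h := archQ_smul ![0, 1] (glE g) p
    rw [det_glE, norm_one, div_one] at h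
    have e : ![0, 1] ᵥ* (glE g).val = fun i => toC (row g i) := by
      funext i
      fin_cases i <;> simp [Matrix.vecMul, dotProduct, Fin.sum_univ_two, glE_apply, row]
    have e1 : archQ ![0, 1] (glE g • p) = 1 / (g • p).t := by
      simp [archQ, smul_pt]
    rw [e1, e] at h
    simp only [val]
    rw [← h, one_div_one_div]
  have hmax : ∀ h : SLE, (h • p).t ≤ (g • p).t := by
    intro h
    rw [hvalt, hvalt, hg]
    have hpos : 0 < val r := by
      have := (g • p).t_pos
      rw [hvalt, hg] at this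
      exact one_div_pos.1 this
    have hpos' : 0 < val (row h) := by
      have := (h • p).t_pos
      rw [hvalt] at this
      exact one_div_pos.1 this
    refine one_div_le_one_div_of_le hpos ?_
    by_contra hc
    push Not at hc
    exact absurd (hmin ⟨h, rfl, hc.le.trans hr1⟩ hc.le) (not_le.2 hc)
  obtain ⟨b, hb⟩ := exists_round (g • p).z
  refine ⟨trE b * g, ?_⟩
  rw [mul_smul]
  obtain ⟨hz, ht⟩ := trE_smul b (g • p)
  refine ⟨?_, ?_⟩
  · rw [hz]
    refine (sq_le_sq₀ (norm_nonneg _) zero_le_one).1 ?_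
    rw [← Complex.normSq_eq_norm_sq]; linarith
  · set q := trE b • g • p
    have h1 : (wE • q).t ≤ q.t := by
      rw [ht, show wE • q = (wE * trE b * g) • p by simp only [q, mul_smul]]
      exact hmax _
    have h2 : (wE • q).t = q.t / (Complex.normSq q.z + q.t ^ 2) := by
      rw [smul_pt, H3.t_smul, den_wE, det_glE, norm_one, one_mul]
    have hq := q.t_pos
    rw [h2, div_le_iff₀ (by have := Complex.normSq_nonneg q.z; positivity)] at h1
    have h3 : Complex.normSq q.z ≤ 3 / 4 := by rw [hz]; exact hb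
    nlinarith

lemma gau_smul_le (g : SLE) : ∃ C : ℝ, 0 ≤ C ∧ ∀ p : H3, gau (g • p) ≤ C * gau p := by
  set b := glE g⁻¹ • H3.base
  have hb := b.t_pos
  refine ⟨4 * (1 + ((2 * Complex.normSq b.z + b.t ^ 2 + 1)) / (2 * b.t)), by
    have := Complex.normSq_nonneg b.z; positivity, fun p => ?_⟩
  have hp := p.t_pos
  have h1 : gau (g • p) ≤ 4 * H3.coshDist H3.base (g • p) := by
    have ht := (g • p).t_pos
    simp only [gau, H3.bnd, H3.coshDist, H3.base, zero_sub, Complex.normSq_neg]
    rw [show (4 : ℝ) * (1 + (Complex.normSq (g • p).z + (1 - (g • p).t) ^ 2) /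
      (2 * 1 * (g • p).t)) =
      2 * (g • p).t + (2 * Complex.normSq (g • p).z + 2) / (g • p).t by field_simp; ring]
    linarith
  have h2 : H3.coshDist H3.base (g • p) = H3.coshDist b p := by
    rw [smul_pt, ← H3.coshDist_smul (glE g⁻¹), ← mul_smul, ← map_mul, inv_mul_cancel, map_one,
      one_smul]
  refine h1.trans ?_
  rw [h2, mul_assoc]
  refine mul_le_mul_of_nonneg_left ?_ (by norm_num)
  set K := (2 * Complex.normSq b.z + b.t ^ 2 + 1) / (2 * b.t)
  have hK : 0 ≤ K := by have := Complex.normSq_nonneg b.z; positivity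
  have hn : Complex.normSq (b.z - p.z) ≤ 2 * Complex.normSq b.z + 2 * Complex.normSq p.z := by
    simp only [Complex.normSq_apply, Complex.sub_re, Complex.sub_im]
    nlinarith [sq_nonneg (b.z.re + p.z.re), sq_nonneg (b.z.im + p.z.im)]
  have hg1 : 1 ≤ gau p := by
    simp only [gau, H3.bnd]
    rw [add_comm, div_add' _ _ _ hp.ne', le_div_iff₀ hp]
    nlinarith [Complex.normSq_nonneg p.z, sq_nonneg (p.t - 1)]
  calc H3.coshDist b p ≤ 1 + K * gau p := by
        simp only [H3.coshDist, K, gau, H3.bnd]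
        refine add_le_add le_rfl ?_
        rw [div_mul_eq_mul_div, div_le_div_iff₀ (by positivity) (by positivity)]
        have e :
            (2 * Complex.normSq b.z + b.t ^ 2 + 1) * (p.t + (2 * Complex.normSq p.z + 2) / p.t) *
            (2 * b.t * p.t) = 2 * b.t * (2 * Complex.normSq b.z + b.t ^ 2 + 1) *
              (p.t ^ 2 + (2 * Complex.normSq p.z + 2)) := by field_simp
        rw [e]
        have h4 : Complex.normSq (b.z - p.z) + (b.t - p.t) ^ 2 ≤
            (2 * Complex.normSq b.z + b.t ^ 2 + 1) * (p.t ^ 2 + (2 * Complex.normSq p.z + 2)) := by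
          nlinarith [Complex.normSq_nonneg b.z, Complex.normSq_nonneg p.z, mul_pos hb hp,
            mul_nonneg (Complex.normSq_nonneg b.z) (Complex.normSq_nonneg p.z),
            mul_nonneg (Complex.normSq_nonneg b.z) (sq_nonneg p.t),
            mul_nonneg (sq_nonneg b.t) (Complex.normSq_nonneg p.z),
            mul_nonneg (sq_nonneg b.t) (sq_nonneg p.t)]
        nlinarith [mul_le_mul_of_nonneg_left h4 hb.le]
    _ ≤ (1 + K) * gau p := by nlinarith

/-- Functions of moderate growth. -/
def IsMod {E : Type*} [Norm E] (Ψ : H3 → E) : Prop := ∃ (C : ℝ) (A : ℕ), ∀ p, ‖Ψ p‖ ≤ C * gau p ^ A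

/-- A bounded rapidly decreasing invariant function. -/
structure IsWave (n : ℕ) (Φ : H3 → ℂ) : Prop where
  cont : Continuous Φ
  inv : ∀ g ∈ congE n, ∀ p, Φ (g • p) = Φ p
  decay : ∀ g : SLE, ∃ C κ : ℝ, 0 ≤ C ∧ 0 < κ ∧
    ∀ p : H3, 1 / 2 ≤ p.t → ‖Φ (g • p)‖ ≤ C * Real.exp (-(κ * p.t))

/-- An integral translate of a wave is a wave. -/
theorem IsWave.translate {n : ℕ} {Φ : H3 → ℂ} (hΦ : IsWave n Φ) (g : SLE) :
    IsWave n fun p => Φ (g • p) where
  cont := hΦ.cont.comp (H3.continuous_smul_const (glE g))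
  inv h hh p := by
    show Φ (g • h • p) = Φ (g • p)
    rw [← mul_smul, show g * h = g * h * g⁻¹ * g by group, mul_smul]
    exact hΦ.inv _ ((inferInstance : (congE n).Normal).conj_mem h hh g) _
  decay g' := by
    obtain ⟨C, κ, hC, hκ, h⟩ := hΦ.decay (g * g')
    exact ⟨C, κ, hC, hκ, fun p hp => by rw [← mul_smul]; exact h p hp⟩

variable {n : ℕ} [NeZero n]

/-- Invariance passes to the congruence group. -/
lemma PG_inv {n : ℕ} {E : Type*} {f : H3 → E} (hf : ∀ g ∈ congE n, ∀ p, f (g • p) = f p) (g : PG n)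
    (p : H3) : f (g • p) = f p := by
  obtain ⟨a, ha, hag⟩ := g.2
  show f ((g : PGL(2, ℂ)) • p) = _
  rw [← hag, pglE_smul, hf a ha]

/-- The integral over the domain is controlled by the translates of the Siegel set. -/
theorem setLIntegral_fdE_le {h : H3 → ℝ≥0∞}
    (hinv : ∀ g ∈ congE n, ∀ p, h (g • p) = h p) [Fintype (SLE ⧸ congE n)] :
    ∫⁻ p in fdE n, h p ∂H3.vol ≤ ∑ q : SLE ⧸ congE n, ∫⁻ p in siegT, h (q.out • p) ∂H3.vol := by
  have := countable_subgroup (PG_le n)
  have hs := isFD_fdE n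
  have hcov : fdE n ⊆ ⋃ qg : (SLE ⧸ congE n) × PG n,
      (qg.2 • ((fun p : H3 => qg.1.out • p) '' siegT)) ∩ fdE n := by
    intro x hx
    obtain ⟨γ, hγ⟩ := exists_reduce x
    set q : SLE ⧸ congE n := QuotientGroup.mk γ⁻¹
    obtain ⟨⟨u, hu⟩, he⟩ := QuotientGroup.mk_out_eq_mul (congE n) γ⁻¹
    refine Set.mem_iUnion.2 ⟨⟨q, ⟨pglE (γ⁻¹ * u⁻¹ * γ), pglE_mem ?_⟩⟩, ?_, hx⟩
    · simpa using (inferInstance : (congE n).Normal).conj_mem u⁻¹ (inv_mem hu) γ⁻¹
    · refine Set.mem_smul_set.2 ⟨q.out • γ • x, ⟨γ • x, hγ, rfl⟩, ?_⟩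
      show pglE (γ⁻¹ * u⁻¹ * γ) • q.out • γ • x = x
      rw [pglE_smul, ← mul_smul, ← mul_smul, show q.out = γ⁻¹ * u from he]
      rw [show γ⁻¹ * u⁻¹ * γ * (γ⁻¹ * u) * γ = 1 by group, one_smul]
  refine (lintegral_mono_set hcov).trans ((lintegral_iUnion_le _ _).trans ?_)
  rw [ENNReal.tsum_prod', tsum_fintype]
  refine Finset.sum_le_sum fun q _ => le_of_eq ?_
  have e : ∫⁻ p in siegT, h (q.out • p) ∂H3.vol =
      ∫⁻ p in (fun p : H3 => q.out • p) '' siegT, h p ∂H3.vol :=
    (MeasurePreserving.setLIntegral_comp_emb (measurePreserving_pgl (pglE q.out))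
      (measurableEmbedding_pgl (pglE q.out)) h siegT)
  rw [e, hs.setLIntegral_eq_tsum' h]
  refine tsum_congr fun g => ?_
  exact lintegral_congr fun p => (PG_inv hinv g⁻¹ p).symm

/-- An elementary bound on polynomials times exponentials. -/
lemma exp_pow_bound {κ : ℝ} (hκ : 0 < κ) (A : ℕ) (t : ℝ) (ht : 0 ≤ t) :
    t ^ A * Real.exp (-(κ * t)) ≤ A.factorial / κ ^ A := by
  have h := Real.pow_div_factorial_le_exp _ (mul_nonneg hκ.le ht) A
  rw [mul_pow, div_le_iff₀ (by positivity)] at h
  rw [Real.exp_neg, ← div_eq_mul_inv, div_le_div_iff₀ (Real.exp_pos _) (by positivity)]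
  linarith [mul_comm (t ^ A) (κ ^ A), mul_comm (Real.exp (κ * t)) (A.factorial : ℝ)]

/-- An invariant function dominated by a wave times a power of the height is integrable. -/
lemma setLIntegral_lt_top {Φ : H3 → ℂ} (hΦ : IsWave n Φ) {h : H3 → ℝ≥0∞}
    (hi : ∀ g ∈ congE n, ∀ p, h (g • p) = h p) {C : ℝ} {A : ℕ}
    (hle : ∀ p, h p ≤ ENNReal.ofReal (C * ‖Φ p‖ * gau p ^ A)) :
    ∫⁻ p in fdE n, h p ∂H3.vol < ⊤ := by
  have : Fintype (SLE ⧸ congE n) := Fintype.ofFinite _
  refine lt_of_le_of_lt (setLIntegral_fdE_le hi) (ENNReal.sum_lt_top.2 fun q _ => ?_)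
  obtain ⟨D, κ, hD, hκ, hd⟩ := hΦ.decay q.out
  obtain ⟨G, hG, hg⟩ := gau_smul_le q.out
  refine lt_of_le_of_lt (setLIntegral_mono measurable_const (g := fun _ => ENNReal.ofReal
    (|C| * D * (G * 17) ^ A * (A.factorial / κ ^ A))) fun p hp => ?_) ?_
  · refine (hle _).trans (ENNReal.ofReal_le_ofReal ?_)
    obtain ⟨hz, ht⟩ := hp
    have ht0 : 0 < p.t := p.t_pos
    have h1 : gau p ≤ 17 * p.t := by
      simp only [gau, H3.bnd]
      rw [add_comm, div_add' _ _ _ ht0.ne', div_le_iff₀ ht0]
      have : Complex.normSq p.z ≤ 1 := by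
        rw [Complex.normSq_eq_norm_sq]; nlinarith [norm_nonneg p.z]
      nlinarith
    have h2 : gau (q.out • p) ^ A ≤ (G * 17) ^ A * p.t ^ A := by
      rw [← mul_pow, mul_assoc]
      exact pow_le_pow_left₀ (gau_pos _).le ((hg p).trans (mul_le_mul_of_nonneg_left h1 hG)) A
    calc C * ‖Φ (q.out • p)‖ * gau (q.out • p) ^ A
        ≤ |C| * ‖Φ (q.out • p)‖ * gau (q.out • p) ^ A :=
          mul_le_mul_of_nonneg_right (mul_le_mul_of_nonneg_right (le_abs_self C) (norm_nonneg _))
            (pow_nonneg (gau_pos _).le _)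
      _ ≤ |C| * (D * Real.exp (-(κ * p.t))) * ((G * 17) ^ A * p.t ^ A) :=
          mul_le_mul (mul_le_mul_of_nonneg_left (hd p ht) (abs_nonneg C)) h2
            (pow_nonneg (gau_pos _).le _) (by positivity)
      _ = |C| * D * (G * 17) ^ A * (p.t ^ A * Real.exp (-(κ * p.t))) := by ring
      _ ≤ _ := mul_le_mul_of_nonneg_left (exp_pow_bound hκ A p.t ht0.le) (by positivity)
  · rw [setLIntegral_const]
    exact ENNReal.mul_lt_top ENNReal.ofReal_lt_top vol_siegT

/-- A wave times a function of moderate growth is integrable on the domain. -/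
theorem IsWave.integrableOn_mul {Φ : H3 → ℂ} (hΦ : IsWave n Φ) {Ψ : H3 → ℂ} (hΨc : Continuous Ψ)
    (hΨ : IsMod Ψ) (hΨi : ∀ g ∈ congE n, ∀ p, ‖Ψ (g • p)‖ = ‖Ψ p‖) :
    IntegrableOn (fun p => Φ p * Ψ p) (fdE n) H3.vol := by
  refine ⟨(hΦ.cont.mul hΨc).aestronglyMeasurable, ?_⟩
  obtain ⟨C, A, hb⟩ := hΨ
  refine setLIntegral_lt_top hΦ (h := fun p => ‖Φ p * Ψ p‖ₑ) (C := C) (A := A)
    (fun g hg p => ?_) fun p => ?_
  · rw [← ofReal_norm, ← ofReal_norm, norm_mul, norm_mul, hΦ.inv g hg p, hΨi g hg p]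
  · rw [← ofReal_norm, norm_mul]
    refine ENNReal.ofReal_le_ofReal ((mul_le_mul_of_nonneg_left (hb p) (norm_nonneg _)).trans ?_)
    exact le_of_eq (by ring)

/-- Waves are integrable on the domain. -/
lemma IsWave.integrableOn {Φ : H3 → ℂ} (hΦ : IsWave n Φ) : IntegrableOn Φ (fdE n) H3.vol := by
  simpa using hΦ.integrableOn_mul (Ψ := fun _ => 1) continuous_const ⟨1, 0, fun p => by simp⟩
    fun _ _ _ => rfl

/-- The domain has finite volume. -/
lemma vol_fdE_lt_top : H3.vol (fdE n) < ⊤ := by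
  have : Fintype (SLE ⧸ congE n) := Fintype.ofFinite _
  rw [← setLIntegral_one]
  refine lt_of_le_of_lt (setLIntegral_fdE_le (h := fun _ => 1) fun _ _ _ => rfl)
    (ENNReal.sum_lt_top.2 fun q _ => ?_)
  rw [setLIntegral_const, one_mul]; exact vol_siegT

omit [NeZero n] in
/-- The domain has positive volume. -/
lemma vol_fdE_pos : 0 < H3.vol (fdE n) := by
  have := countable_subgroup (PG_le n)
  refine pos_iff_ne_zero.2 ((isFD_fdE n).measure_ne_zero fun h => ?_)
  have h1 : H3.vol (Set.univ : Set H3) = 0 := by rw [h]; rfl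
  exact (Whit.vol_pos_of_isOpen isOpen_univ ⟨H3.base, trivial⟩).ne' h1

end FermatAgent.LT.Lift
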