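import Fermat.Agent.LT.Lift.Theta

/-!
# Finite character sums on the lattice

Orthogonality of the characters of the polar form on the residues modulo `k` times the sublattice.
-/

set_option autoImplicit false

noncomputable section

open Finset
open scoped Real

namespace FermatAgent.LT.Lift

/-- The character is trivial exactly at integers. -/
lemma ee_eq_one_iff {x : ℝ} : ee x = 1 ↔ ∃ m : ℤ, x = m := by
  rw [ee, Complex.exp_eq_one_iff]
  refine exists_congr fun m => ⟨fun h => ?_, fun h => by rw [h]; push_cast; ring⟩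
  have h2 : (2 * π * Complex.I : ℂ) ≠ 0 := by simp [Real.pi_ne_zero]
  have : (x : ℂ) = m := mul_left_cancel₀ h2 (by rw [h]; ring)
  exact_mod_cast this

/-- The character depends on residues only. -/
lemma ee_congr {n : ℕ} [NeZero n] {a b : ℤ} (h : (n : ℤ) ∣ a - b) :
    ee ((a : ℝ) / n) = ee ((b : ℝ) / n) := by
  obtain ⟨m, hm⟩ := h
  have hn : (n : ℝ) ≠ 0 := Nat.cast_ne_zero.2 (NeZero.ne n)
  rw [show (a : ℝ) / n = (m : ℝ) + (b : ℝ) / n by
    rw [show a = n * m + b by omega]; push_cast; field_simp, ee_add, ee_int, one_mul]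

/-- The geometric sum. -/
lemma sum_ee (n : ℕ) [NeZero n] (m : ℤ) :
    ∑ j : Fin n, ee ((((j : ℕ) : ℤ) * m : ℤ) / n : ℝ) = if (n : ℤ) ∣ m then (n : ℂ) else 0 := by
  have hn : (n : ℝ) ≠ 0 := Nat.cast_ne_zero.2 (NeZero.ne n)
  split_ifs with h
  · rw [Finset.sum_congr rfl (g := fun _ => (1 : ℂ)) fun j _ => (ee_congr (b := 0) (by
      rw [sub_zero]; exact h.mul_left _)).trans (by simp [ee])]
    simp
  · set z := ee ((m : ℝ) / n)
    have hz : z ≠ 1 := fun hz => h (by
      obtain ⟨l, hl⟩ := ee_eq_one_iff.1 hz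
      refine ⟨l, ?_⟩
      rw [div_eq_iff hn] at hl
      have : (m : ℝ) = ((n * l : ℤ) : ℝ) := by push_cast; rw [hl]; ring
      exact_mod_cast this)
    have hzn : z ^ n = 1 := by
      rw [show z ^ n = ee ((m : ℤ) : ℝ) by
        simp only [z, ee, ← Complex.exp_nat_mul]
        congr 1
        push_cast
        have : (n : ℂ) ≠ 0 := Nat.cast_ne_zero.2 (NeZero.ne n)
        field_simp, ee_int]
    have e : ∀ j : Fin n, ee ((((j : ℕ) : ℤ) * m : ℤ) / n : ℝ) = z ^ (j : ℕ) := fun j => by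
      simp only [z, ee, ← Complex.exp_nat_mul]
      congr 1
      push_cast
      ring
    simp only [e, Fin.sum_univ_eq_sum_range fun j => z ^ j]
    rw [geom_sum_eq hz, hzn, sub_self, zero_div]

variable {k : ℕ} [NeZero k]

/-- Residue representatives are unique. -/
lemma eq_resV_iff {r r' : Res k} : (∃ y, resV r = resV r' + subV k y) ↔ r = r' := by
  refine ⟨fun ⟨y, hy⟩ => ?_, fun h => ⟨0, by simp [h, subV]⟩⟩
  have h := (splitEquiv k).injective
    (show splitEquiv k (r, 0) = splitEquiv k (r', y) by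
      rw [splitEquiv_apply, splitEquiv_apply, ← hy]; simp [subV])
  exact congrArg Prod.fst h

omit [NeZero k] in
/-- The sublattice map is additive. -/
lemma subV_add (y y' : Vec) : subV k (y + y') = subV k y + subV k y' := by
  simp [subV, mul_add]

omit [NeZero k] in
/-- The sublattice map is odd. -/
lemma subV_neg (y : Vec) : subV k (-y) = -subV k y := by
  simp [subV]

open Classical in
/-- Orthogonality: over the residues modulo `k` times the sublattice the characters of the polar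
form sum to zero off that sublattice. -/
theorem sum_ee_B3 (z : Vec) :
    ∑ r : Res k, ee ((B3 (resV r) z : ℝ) / (3 * k)) =
      if ∃ y, z = subV k y then 3 * (k : ℂ) ^ 4 else 0 := by
  have : NeZero (3 * k) := ⟨by have := NeZero.ne k; omega⟩
  set u := z.2.2.re
  set v := z.2.2.im
  have key : ∀ r : Res k, ee ((B3 (resV r) z : ℝ) / (3 * k)) =
      ee ((((r.1 : ℕ) : ℤ) * (-z.2.1) : ℤ) / k : ℝ) *
      ee ((((r.2.1 : ℕ) : ℤ) * (-z.1) : ℤ) / k : ℝ) *
      (ee ((((r.2.2.1 : ℕ) : ℤ) * (2 * u - v) : ℤ) / (3 * k : ℕ) : ℝ) *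
        ee ((((r.2.2.2 : ℕ) : ℤ) * (2 * v - u) : ℤ) / (3 * k : ℕ) : ℝ)) := fun r => by
    rw [← ee_add, ← ee_add, ← ee_add, B3_eq]
    congr 1
    simp [resV, u, v]
    field_simp
    ring
  simp only [key, Fintype.sum_prod_type]
  simp only [← Finset.mul_sum, ← Finset.sum_mul]
  rw [sum_ee k (-z.2.1), sum_ee k (-z.1), sum_ee (3 * k) (2 * u - v)]
  have hk : (k : ℤ) ≠ 0 := by exact_mod_cast NeZero.ne k
  by_cases h1 : ((3 * k : ℕ) : ℤ) ∣ 2 * u - v
  · have e : ∀ j : Fin k, ee ((((j : ℕ) : ℤ) * (2 * v - u) : ℤ) / (3 * k : ℕ) : ℝ) =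
        ee ((((j : ℕ) : ℤ) * u : ℤ) / k : ℝ) := fun j => by
      rw [ee_congr (n := 3 * k) (b := ((j : ℕ) : ℤ) * (3 * u))]
      · congr 1; push_cast; field_simp
      · rw [← mul_sub]
        refine Dvd.dvd.mul_left ?_ _
        rw [show 2 * v - u - 3 * u = -2 * (2 * u - v) by ring]
        exact h1.mul_left _
    simp only [e, sum_ee k u]
    rw [if_pos h1]
    by_cases h2 : (k : ℤ) ∣ z.1 ∧ (k : ℤ) ∣ z.2.1 ∧ (k : ℤ) ∣ u
    · obtain ⟨⟨a, ha⟩, ⟨d, hd⟩, ⟨u', hu⟩⟩ := h2
      obtain ⟨m, hm⟩ := h1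
      rw [if_pos (dvd_neg.2 ⟨d, hd⟩), if_pos (dvd_neg.2 ⟨a, ha⟩), if_pos ⟨u', hu⟩, if_pos]
      · push_cast; ring
      · refine ⟨(a, d, ⟨u' - 2 * m, -m⟩ ), ?_⟩
        refine Prod.ext ha (Prod.ext hd (QuadraticAlgebra.ext ?_ ?_))
        · simp only [subV, subV_re]
          push_cast at hm
          show u = _
          rw [hu]; ring
        · simp only [subV, subV_im]
          push_cast at hm
          show v = _
          linear_combination 2 * hu - hm
    · have hne : ¬∃ y, z = subV k y := fun ⟨y, hy⟩ => h2 (by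
        rw [show u = z.2.2.re from rfl, hy]
        exact ⟨⟨y.1, rfl⟩, ⟨y.2.1, rfl⟩, ⟨_, by simp only [subV, subV_re]; rfl⟩⟩)
      rw [if_neg hne]
      simp only [not_and_or] at h2
      rcases h2 with h | h | h
      · rw [if_neg (c := (k : ℤ) ∣ -z.1) (by rwa [dvd_neg])]; ring
      · rw [if_neg (c := (k : ℤ) ∣ -z.2.1) (by rwa [dvd_neg])]; ring
      · rw [if_neg h]; ring
  · have hne : ¬∃ y, z = subV k y := fun ⟨y, hy⟩ => h1 (by
      refine ⟨-y.2.2.im, ?_⟩
      simp only [u, v, hy, subV, subV_re, subV_im]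
      push_cast; ring)
    rw [if_neg h1, if_neg hne]; ring

end FermatAgent.LT.Lift
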