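import Fermat.Agent.LT.Lift.Poisson
import Fermat.Agent.LT.Lift.Gauss

/-!
# The transformation formula

For `γ` with lower left entry divisible by `3 k` and lower right entry congruent to one modulo
three, the theta series transforms with weight one and a monomial action on the weight.
-/

set_option autoImplicit false

noncomputable section

open Finset Complex
open scoped MatrixGroups Real UpperHalfPlane

namespace FermatAgent.LT.Lift

variable {k : ℕ}

/-- Multiplication by a character of the quadratic form. -/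
def mE (k : ℕ) (j : ℤ) (w : Vec → ℂ) : Vec → ℂ :=
  fun x => w x * ee ((j * P3 x : ℤ) / (3 * k : ℕ) : ℝ)

/-- Pairings with the sublattice are divisible by `3k`. -/
lemma B3_subV (x y : Vec) : ((3 * k : ℕ) : ℤ) ∣ B3 x (subV k y) := by
  refine ⟨(x.2.2 * star y.2.2).im - (x.1 * y.2.1 + y.1 * x.2.1), ?_⟩
  simp [B3_eq, subV, natCast_eis, thE]
  ring

lemma P3_subV (x y : Vec) : ((3 * k : ℕ) : ℤ) ∣ P3 (x + subV k y) - P3 x := by
  obtain ⟨m, hm⟩ := B3_subV (k := k) x y
  refine ⟨k * (QuadraticAlgebra.norm y.2.2 - y.1 * y.2.1) + m, ?_⟩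
  rw [P3_add, hm]
  simp [P3, subV, natCast_eis, thE, QuadraticAlgebra.norm_def]
  ring

lemma IsPer.congr {w : Vec → ℂ} (hw : IsPer k w) {x x' : Vec} (h : ∃ y, x = x' + subV k y) :
    w x = w x' := by
  obtain ⟨y, rfl⟩ := h; exact hw x' y

/-- The first coordinate of a multiple. -/
lemma zsmul_fst (a : ℤ) (y : Vec) : (a • y).1 = a * y.1 := by
  rw [Prod.smul_fst, smul_eq_mul]

/-- The second coordinate of a multiple. -/
lemma zsmul_snd_fst (a : ℤ) (y : Vec) : (a • y).2.1 = a * y.2.1 := by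
  rw [Prod.smul_snd, Prod.smul_fst, smul_eq_mul]

/-- The third coordinate of a multiple. -/
lemma zsmul_snd_snd (a : ℤ) (y : Vec) : (a • y).2.2 = (a : Eis) * y.2.2 := by
  rw [Prod.smul_snd, Prod.smul_snd, zsmul_eq_mul]

/-- The sublattice map commutes with multiples. -/
lemma zsmul_subV (a : ℤ) (y : Vec) : a • subV k y = subV k (a • y) := by
  refine Prod.ext ?_ (Prod.ext ?_ ?_) <;>
    simp only [zsmul_fst, zsmul_snd_fst, zsmul_snd_snd, subV] <;> ring

lemma IsPer.smul_arg {w : Vec → ℂ} (hw : IsPer k w) (a : ℤ) : IsPer k fun x => w (a • x) :=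
  fun x y => by simp only [smul_add, zsmul_subV]; rw [hw (a • x) (a • y)]

/-- Deep multiples lie in the sublattice. -/
lemma exists_subV_smul (m : ℤ) (x : Vec) : ∃ y, (3 * (k : ℤ) * m) • x = subV k y := by
  refine ⟨(3 * m * x.1, 3 * m * x.2.1, -(m : Eis) * thE * x.2.2), ?_⟩
  refine Prod.ext ?_ (Prod.ext ?_ ?_) <;>
    simp only [zsmul_fst, zsmul_snd_fst, zsmul_snd_snd, subV]
  · ring
  · ring
  have h : thE * thE + (1 + 1 + 1) = 0 := by
    ext <;> simp [thE, QuadraticAlgebra.re_one, QuadraticAlgebra.im_one]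
  push_cast
  linear_combination ((k : Eis) * (m : Eis) * x.2.2) * h

/-- The pairing is linear in the second variable. -/
lemma B3_zsmul_right (x y : Vec) (a : ℤ) : B3 x (a • y) = a * B3 x y := by
  simp [B3_eq, Prod.smul_def]
  ring

/-- The pairing is additive in the second variable. -/
lemma B3_add_right (x y z : Vec) : B3 x (y + z) = B3 x y + B3 x z := by
  rw [B3_comm, B3_add_left, B3_comm y, B3_comm z]

variable [NeZero k]

/-- Modulation preserves periodicity. -/
lemma isPer_mE {w : Vec → ℂ} (hw : IsPer k w) (j : ℤ) : IsPer k (mE k j w) := fun x y => by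
  have : NeZero (3 * k) := ⟨by have := NeZero.ne k; omega⟩
  simp only [mE]
  rw [hw x y]
  congr 1
  refine ee_congr (n := 3 * k) ?_
  rw [← mul_sub]
  exact (P3_subV x y).mul_left j

/-- Inversion of the finite transform. -/
theorem four_four {u : Vec → ℂ} (hu : IsPer k u) {a d : ℤ}
    (had : ((3 * k : ℕ) : ℤ) ∣ a * d - 1) (x : Vec) :
    four k (fun y => four k u (a • y)) x = u ((-d) • x) := by
  classical
  have : NeZero (3 * k) := ⟨by have := NeZero.ne k; omega⟩
  have e : ∀ r s : Res k,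
      u (resV r) * ee ((B3 (resV r) (a • resV s) : ℝ) / (3 * k)) *
        ee ((B3 (resV s) x : ℝ) / (3 * k)) =
      u (resV r) * ee ((B3 (resV s) (a • resV r + x) : ℝ) / (3 * k)) := fun r s => by
    rw [mul_assoc, ← ee_add, B3_add_right, B3_zsmul_right, B3_zsmul_right,
      B3_comm (resV r) (resV s)]
    congr 2
    push_cast
    ring
  simp only [four, Finset.sum_mul, Finset.mul_sum, mul_assoc (1 / ((√3 : ℂ) * (k : ℂ) ^ 2))]
  rw [Finset.sum_comm]
  simp only [e, ← Finset.mul_sum, sum_ee_B3]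
  obtain ⟨r₀, y₀, hr₀⟩ : ∃ r₀ y₀, (-d) • x = resV r₀ + subV k y₀ := by
    obtain ⟨⟨r₀, y₀⟩, h⟩ := (splitEquiv k).surjective ((-d) • x)
    exact ⟨r₀, y₀, h.symm⟩
  obtain ⟨m, hm⟩ := had
  push_cast at hm
  have hiff : ∀ r : Res k, (∃ y, a • resV r + x = subV k y) ↔ r = r₀ := by
    intro r
    constructor
    · rintro ⟨y, hy⟩
      obtain ⟨y', hy'⟩ := exists_subV_smul (k := k) (-m) (resV r)
      refine eq_resV_iff.1 ⟨y₀ + (d • y + y'), ?_⟩
      rw [subV_add, subV_add, ← zsmul_subV, ← hy, ← hy', ← add_assoc, ← hr₀,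
        show 3 * (k : ℤ) * -m = 1 - a * d by linear_combination hm]
      module
    · rintro rfl
      obtain ⟨y', hy'⟩ := exists_subV_smul (k := k) (-m) x
      refine ⟨y' + -(a • y₀), ?_⟩
      rw [subV_add, subV_neg, ← zsmul_subV, ← hy', show resV r = (-d) • x - subV k y₀ by
        rw [hr₀]; abel, show 3 * (k : ℤ) * -m = 1 - a * d by linear_combination hm]
      module
  simp only [hiff, mul_ite, mul_zero, Finset.sum_ite_eq', Finset.mem_univ, if_true]
  rw [hr₀, hu]
  have h3 : ((√3 : ℝ) : ℂ) * ((√3 : ℝ) : ℂ) = 3 := by exact_mod_cast sqrt3_sq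
  have : (k : ℂ) ≠ 0 := Nat.cast_ne_zero.2 (NeZero.ne k)
  have : (√3 : ℂ) ≠ 0 := by exact_mod_cast sqrt3_pos.ne'
  field_simp
  linear_combination -u (resV r₀) * h3

/-- A translation. -/
theorem theta_vadd (w : Vec → ℂ) (j : ℤ) (τ : ℍ) (p : H3) :
    theta k w ((j : ℝ) +ᵥ τ) p = theta k (mE k j w) τ p := by
  rw [theta, theta, UpperHalfPlane.vadd_im]
  congr 1
  refine tsum_congr fun x => ?_
  rw [mE, mul_assoc, UpperHalfPlane.coe_vadd, gss, gss, ee, ← Complex.exp_add]
  congr 2
  have : (k : ℂ) ≠ 0 := Nat.cast_ne_zero.2 (NeZero.ne k)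
  simp [qf]
  field_simp
  ring

section Prime

variable {p : ℕ} [Fact p.Prime]

/-- Reduction of a vector. -/
def redV (p : ℕ) (x : Vec) : Fin 4 → ZMod p :=
  ![(x.1 : ZMod p), (x.2.1 : ZMod p), (x.2.2.re : ZMod p), (x.2.2.im : ZMod p)]

/-- The form modulo `p`. -/
def formP (u : Fin 4 → ZMod p) : ZMod p := u 2 * u 2 - u 2 * u 3 + u 3 * u 3 - 3 * u 0 * u 1

lemma formP_redV (x : Vec) : formP (redV p x) = (P3 x : ZMod p) := by
  simp [formP, redV, P3, QuadraticAlgebra.norm_def]
  ring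

/-- A sixth root of unity modulo `p ≡ 1 (mod 3)`. -/
lemma exists_root (h : p % 3 = 1) : ∃ r : ZMod p, r * r - r + 1 = 0 ∧ r ≠ 1 - r := by
  have hp : p.Prime := Fact.out
  have hcard : 3 ∣ Nat.card (ZMod p)ˣ := by
    rw [Nat.card_eq_fintype_card, ZMod.card_units]
    omega
  obtain ⟨g, hg⟩ := exists_prime_orderOf_dvd_card' (G := (ZMod p)ˣ) 3 hcard
  have h3 : (g : ZMod p) ^ 3 = 1 := by
    rw [← Units.val_pow_eq_pow_val, ← hg, pow_orderOf_eq_one, Units.val_one]
  have h1 : (g : ZMod p) ≠ 1 := fun e => by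
    have : g = 1 := Units.ext e
    simp [this] at hg
  have hrel : (g : ZMod p) * g + g + 1 = 0 :=
    (mul_eq_zero.1 (show ((g : ZMod p) - 1) * ((g : ZMod p) * g + g + 1) = 0 by
      linear_combination h3)).resolve_left (sub_ne_zero.2 h1)
  refine ⟨-(g : ZMod p), by linear_combination hrel, fun e => ?_⟩
  have h3' : (3 : ZMod p) = 0 := by linear_combination 4 * hrel + (2 * (g : ZMod p) + 1) * e
  have h4 : ((3 : ℕ) : ZMod p) = 0 := by exact_mod_cast h3'
  rw [ZMod.natCast_eq_zero_iff] at h4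
  obtain rfl := (Nat.prime_dvd_prime_iff_eq hp Nat.prime_three).1 h4
  simp at h

/-- The Gauss sum of the hyperbolic plane. -/
lemma sum_hyperbolic {m : ZMod p} (hm : m ≠ 0) :
    ∑ a : ZMod p, ∑ b : ZMod p, ZMod.stdAddChar (m * (a * b)) = (p : ℂ) := by
  have h := fun a : ZMod p => AddChar.sum_mulShift (m * a) (ZMod.isPrimitive_stdAddChar p)
  simp only [ZMod.card] at h
  have e : ∀ a b : ZMod p, m * (a * b) = b * (m * a) := fun a b => by ring
  simp only [e, h, mul_eq_zero, hm, false_or, Nat.cast_ite, Nat.cast_zero, Finset.sum_ite_eq',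
    Finset.mem_univ, if_true]

/-- The Gauss sum at a split prime. -/
theorem gauss_split (h : p % 3 = 1) {m : ZMod p} (hm : m ≠ 0) :
    ∑ u : Fin 4 → ZMod p, ZMod.stdAddChar (m * formP u) = (p : ℂ) ^ 2 := by
  have hp : p.Prime := Fact.out
  obtain ⟨r, hr, hr'⟩ := exists_root h
  have h3 : (3 : ZMod p) ≠ 0 := fun e => by
    have h4 : ((3 : ℕ) : ZMod p) = 0 := by exact_mod_cast e
    rw [ZMod.natCast_eq_zero_iff] at h4
    obtain rfl := (Nat.prime_dvd_prime_iff_eq hp Nat.prime_three).1 h4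
    simp at h
  have hd : r - (1 - r) ≠ 0 := sub_ne_zero.2 hr'
  let e : (ZMod p × ZMod p) × (ZMod p × ZMod p) ≃ (Fin 4 → ZMod p) :=
    { toFun := fun t => ![t.1.1, t.1.2, t.2.1 - (1 - r) * ((t.2.1 - t.2.2) / ((1 - r) - r)) +
          (1 - r) * ((t.2.1 - t.2.2) / ((1 - r) - r)) + r * ((t.2.2 - t.2.1) / (r - (1 - r))),
        (t.2.2 - t.2.1) / (r - (1 - r))]
      invFun := fun u => ((u 0, u 1), (u 2 - r * u 3, u 2 - (1 - r) * u 3))
      left_inv := fun t => by
        simp only [Matrix.cons_val]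
        refine Prod.ext rfl (Prod.ext ?_ ?_) <;> field_simp <;> ring
      right_inv := fun u => by
        funext i
        fin_cases i <;> simp <;> field_simp
        ring }
  rw [← e.sum_comp]
  have hform : ∀ t, formP (e t) = t.2.1 * t.2.2 - 3 * (t.1.1 * t.1.2) := fun t => by
    conv_rhs => rw [← e.symm_apply_apply t]
    simp only [formP]
    show _ = (e t 2 - r * e t 3) * (e t 2 - (1 - r) * e t 3) - 3 * (e t 0 * e t 1)
    linear_combination (e t 3 * e t 3) * hr
  simp only [hform, Fintype.sum_prod_type]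
  have e2 : ∀ a b x y : ZMod p, ZMod.stdAddChar (m * (x * y - 3 * (a * b))) =
      ZMod.stdAddChar (-(m * 3) * (a * b)) * ZMod.stdAddChar (m * (x * y)) := fun a b x y => by
    rw [← AddChar.map_add_eq_mul]; congr 1; ring
  simp only [e2, ← Finset.mul_sum, ← Finset.sum_mul, sum_hyperbolic hm,
    sum_hyperbolic (neg_ne_zero.2 (mul_ne_zero hm h3))]
  ring

end Prime

/-- The character at a fraction. -/
lemma ee_eq_std {p : ℕ} [NeZero p] (m : ℤ) :
    ee ((m : ℝ) / p) = ZMod.stdAddChar (m : ZMod p) := by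
  rw [ZMod.stdAddChar_coe, ee]
  congr 1
  push_cast
  ring

/-- A completed square sum over a full system modulo a prime. -/
lemma gauss_shift {p : ℕ} [Fact p.Prime] (h : p % 3 = 1) {b c : ZMod p} (hb : b ≠ 0) (hc : c ≠ 0)
    (y : Vec) :
    ∑ u : Fin 4 → ZMod p, ZMod.stdAddChar (-(b * c) * (b * formP u + (formP (u + redV p y) -
      formP u - formP (redV p y)))) =
      ZMod.stdAddChar (c * formP (redV p y)) * (p : ℂ) ^ 2 := by
  have hb0 := hb
  let e : (Fin 4 → ZMod p) ≃ (Fin 4 → ZMod p) :=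
    { toFun := fun u => fun i => b * u i + redV p y i
      invFun := fun u => fun i => (u i - redV p y i) / b
      left_inv := fun u => by funext i; simp; field_simp
      right_inv := fun u => by funext i; simp; field_simp; ring }
  rw [← gauss_split h (neg_ne_zero.2 hc), Finset.mul_sum, ← e.sum_comp fun u =>
    ZMod.stdAddChar (c * formP (redV p y)) * ZMod.stdAddChar (-c * formP u)]
  refine Finset.sum_congr rfl fun u _ => ?_
  rw [← AddChar.map_add_eq_mul]
  congr 1
  simp [e, formP]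
  ring

/-- A complete system modulo `d k` from one modulo `k` and one modulo `d`. -/
theorem sum_res_prime {d : ℕ} [Fact d.Prime] (hcop : d.Coprime (3 * k)) {G : Vec → ℂ}
    (Φ : Res k → (Fin 4 → ZMod d) → ℂ)
    (hΦ : ∀ r s, G (resV r + subV k s) = Φ r (redV d (resV r + subV k s))) :
    ∑ R : Res (d * k), G (resV R) = ∑ r : Res k, ∑ u : Fin 4 → ZMod d, Φ r u := by
  classical
  have hd0 : (d : ℤ) ≠ 0 := by exact_mod_cast NeZero.ne d
  let f : Res (d * k) → Res k × (Fin 4 → ZMod d) := fun R =>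
    (((splitEquiv k).symm (resV R)).1, redV d (resV R))
  have hsplit : ∀ x : Vec,
      x = resV ((splitEquiv k).symm x).1 + subV k ((splitEquiv k).symm x).2 := fun x => by
    conv_lhs => rw [← (splitEquiv k).apply_symm_apply x]
    rfl
  have hinj : Function.Injective f := by
    intro R R' h
    simp only [f, Prod.mk.injEq] at h
    obtain ⟨h1, h2⟩ := h
    refine eq_resV_iff.1 ?_
    set s := ((splitEquiv k).symm (resV R)).2
    set s' := ((splitEquiv k).symm (resV R')).2
    have e : resV R - resV R' = subV k (s + -s') := by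
      rw [subV_add, subV_neg]
      conv_lhs => rw [hsplit (resV R), hsplit (resV R'), h1]
      abel
    have hco : IsCoprime ((3 : ℤ) * k) d := by
      rw [Int.isCoprime_iff_gcd_eq_one]
      exact_mod_cast Nat.Coprime.symm hcop
    have h0 := congrFun h2 0
    have h1' := congrFun h2 1
    have h2' := congrFun h2 2
    have h3' := congrFun h2 3
    simp only [redV, Matrix.cons_val, ZMod.intCast_eq_intCast_iff_dvd_sub] at h0 h1' h2' h3'
    set t := s + -s'
    have f0 := congrArg Prod.fst e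
    have f1 := congrArg (fun x : Vec => x.2.1) e
    have f2 := congrArg (fun x : Vec => x.2.2.re) e
    have f3 := congrArg (fun x : Vec => x.2.2.im) e
    simp only [subV, subV_re, subV_im, Prod.fst_sub, Prod.snd_sub, QuadraticAlgebra.re_sub,
      QuadraticAlgebra.im_sub] at f0 f1 f2 f3
    have g0 : (d : ℤ) ∣ t.1 := hco.symm.dvd_of_dvd_mul_left (by
      rw [show 3 * (k : ℤ) * t.1 = -3 * ((resV R').1 - (resV R).1) by linear_combination -3 * f0]
      exact h0.mul_left _)
    have g1 : (d : ℤ) ∣ t.2.1 := hco.symm.dvd_of_dvd_mul_left (by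
      rw [show 3 * (k : ℤ) * t.2.1 = -3 * ((resV R').2.1 - (resV R).2.1) by
        linear_combination -3 * f1]
      exact h1'.mul_left _)
    have g2 : (d : ℤ) ∣ t.2.2.re := hco.symm.dvd_of_dvd_mul_left (by
      rw [show 3 * (k : ℤ) * t.2.2.re = ((resV R').2.2.re - (resV R).2.2.re) -
        2 * ((resV R').2.2.im - (resV R).2.2.im) by linear_combination f2 - 2 * f3]
      exact h2'.sub (h3'.mul_left _))
    have g3 : (d : ℤ) ∣ t.2.2.im := hco.symm.dvd_of_dvd_mul_left (by
      rw [show 3 * (k : ℤ) * t.2.2.im = 2 * ((resV R').2.2.re - (resV R).2.2.re) -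
        ((resV R').2.2.im - (resV R).2.2.im) by linear_combination 2 * f2 - f3]
      exact (h2'.mul_left _).sub h3')
    obtain ⟨a0, ha0⟩ := g0
    obtain ⟨a1, ha1⟩ := g1
    obtain ⟨a2, ha2⟩ := g2
    obtain ⟨a3, ha3⟩ := g3
    refine ⟨(a0, a1, ⟨a2, a3⟩), ?_⟩
    have et : subV k t = subV (d * k) (a0, a1, ⟨a2, a3⟩) := by
      refine Prod.ext ?_ (Prod.ext ?_ (QuadraticAlgebra.ext ?_ ?_))
      · simp only [subV, ha0]; push_cast; ring
      · simp only [subV, ha1]; push_cast; ring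
      · simp only [subV, subV_re, ha2, ha3]; push_cast; ring
      · simp only [subV, subV_im, ha2, ha3]; push_cast; ring
    rw [← et, ← e]; abel
  have hbij : Function.Bijective f := by
    refine (Fintype.bijective_iff_injective_and_card f).2 ⟨hinj, ?_⟩
    simp only [Fintype.card_prod, Fintype.card_fin, Fintype.card_pi, Finset.prod_const,
      Finset.card_univ, ZMod.card]
    ring
  rw [← Fintype.sum_prod_type']
  refine Fintype.sum_bijective f hbij _ _ fun R => ?_
  conv_lhs => rw [hsplit (resV R)]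
  rw [hΦ, ← hsplit (resV R)]

section Formula

variable {a b c : ℤ} {d : ℕ} [Fact d.Prime]

/-- The key identity of finite transforms. -/
theorem four_key (hd : d % 3 = 1) (hdk : d.Coprime (3 * k)) (had : a * d - b * c = 1)
    (hc : ((3 * k : ℕ) : ℤ) ∣ c) {w : Vec → ℂ} (hw : IsPer k w) (y : Vec) :
    mE (d * k) (-c) (four (d * k) (mE (d * k) b w)) y = four k (mE k (a * b) w) (a • y) := by
  have : NeZero (3 * k) := ⟨by have := NeZero.ne k; omega⟩
  have : NeZero (d * k) := ⟨mul_ne_zero (NeZero.ne d) (NeZero.ne k)⟩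
  obtain ⟨c', hc'⟩ := hc
  push_cast at hc'
  have hbc : ((b : ZMod d) * (3 * (k : ZMod d) * (c' : ZMod d))) = -1 := by
    have := congrArg (fun z : ℤ => (z : ZMod d)) had
    rw [hc'] at this
    push_cast at this
    rw [ZMod.natCast_self] at this
    linear_combination -this
  have hb' : (b : ZMod d) ≠ 0 := fun e => by rw [e] at hbc; simp at hbc
  have hc0 : (c' : ZMod d) ≠ 0 := fun e => by rw [e] at hbc; simp at hbc
  have hd0 : (d : ℝ) ≠ 0 := Nat.cast_ne_zero.2 (NeZero.ne d)
  have hk0 : (k : ℝ) ≠ 0 := Nat.cast_ne_zero.2 (NeZero.ne k)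
  set E : Vec → ℤ := fun x => b * P3 x + B3 x y
  set G : Vec → ℂ := fun x => w x * ee ((E x : ℝ) / (3 * (d * k)))
  have hsum := sum_res_prime hdk (G := G)
    (fun r u => w (resV r) * ee ((a * E (resV r) : ℤ) / (3 * k : ℕ) : ℝ) *
      ZMod.stdAddChar (-((b : ZMod d) * (c' : ZMod d)) * ((b : ZMod d) * formP u +
        (formP (u + redV d y) - formP u - formP (redV d y))))) (fun r s => by
    set x := resV r + subV k s
    simp only [G, mul_assoc, show w x = w (resV r) from hw _ _]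
    congr 1
    have e1 : ((b : ZMod d) * formP (redV d x) + (formP (redV d x + redV d y) -
        formP (redV d x) - formP (redV d y))) = (E x : ZMod d) := by
      have : redV d x + redV d y = redV d (x + y) := by
        funext i; fin_cases i <;> simp [redV]
      rw [this, formP_redV, formP_redV, formP_redV]
      simp only [E, B3]; push_cast; ring
    rw [e1, show (-((b : ZMod d) * c') * (E x : ZMod d)) = ((-(b * c') * E x : ℤ) : ZMod d) by
      push_cast; ring, ← ee_eq_std]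
    rw [ee_congr (n := 3 * k) (a := a * E (resV r)) (b := a * E x), ← ee_add]
    · congr 1
      push_cast
      have h : ((a : ℝ) * d - b * c) = 1 := by exact_mod_cast had
      rw [show (c : ℝ) = 3 * k * c' by exact_mod_cast hc'] at h
      field_simp
      linear_combination -(E x : ℝ) * h
    · rw [← mul_sub]
      refine Dvd.dvd.mul_left ?_ a
      simp only [E, x]
      rw [show b * P3 (resV r) + B3 (resV r) y - (b * P3 (resV r + subV k s) +
        B3 (resV r + subV k s) y) =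
        -(b * (P3 (resV r + subV k s) - P3 (resV r)) + B3 y (subV k s)) by
          rw [B3_add_left, B3_comm (subV k s)]; ring]
      exact dvd_neg.2 (((P3_subV _ s).mul_left b).add (B3_subV y s)))
  simp only [← Finset.mul_sum] at hsum
  simp only [gauss_shift hd hb' hc0] at hsum
  have hfour : four (d * k) (mE (d * k) b w) y =
      1 / ((√3 : ℂ) * ((d * k : ℕ) : ℂ) ^ 2) * ∑ R : Res (d * k), G (resV R) := by
    rw [four]
    congr 1
    refine Finset.sum_congr rfl fun R _ => ?_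
    simp only [mE, G, E, mul_assoc, ← ee_add]
    congr 2
    push_cast
    field_simp
  rw [mE, hfour, hsum, formP_redV, four]
  have he : ZMod.stdAddChar ((c' : ZMod d) * (P3 y : ZMod d)) * ee ((-c * P3 y : ℤ) /
      (3 * (d * k) : ℕ) : ℝ) = 1 := by
    rw [show (c' : ZMod d) * (P3 y : ZMod d) = ((c' * P3 y : ℤ) : ZMod d) by push_cast; ring,
      ← ee_eq_std, ← ee_add]
    refine (ee_eq_one_iff).2 ⟨0, ?_⟩
    rw [hc']
    push_cast
    field_simp
    ring
  rw [Finset.mul_sum, Finset.sum_mul, Finset.mul_sum]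
  refine Finset.sum_congr rfl fun r _ => ?_
  have hdC : (d : ℂ) ≠ 0 := Nat.cast_ne_zero.2 (NeZero.ne d)
  have hkC : (k : ℂ) ≠ 0 := Nat.cast_ne_zero.2 (NeZero.ne k)
  have : (√3 : ℂ) ≠ 0 := by exact_mod_cast sqrt3_pos.ne'
  have e3 : ee ((a * E (resV r) : ℤ) / (3 * k : ℕ) : ℝ) =
      ee ((a * b * P3 (resV r) : ℤ) / (3 * k : ℕ) : ℝ) *
        ee ((B3 (resV r) (a • y) : ℝ) / (3 * k)) := by
    rw [← ee_add, B3_zsmul_right]
    congr 1
    simp only [E]
    push_cast
    ring
  simp only [mE, e3]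
  push_cast at he ⊢
  generalize ee (-(c : ℝ) * (P3 y : ℝ) / (3 * ((d : ℝ) * k))) = Z at he ⊢
  field_simp
  linear_combination (w (resV r) * ee ((a * b * P3 (resV r) : ℝ) / (3 * k)) *
    ee (((B3 (resV r) (a • y) : ℤ) : ℝ) / (3 * k))) * he

/-- The formula for a prime lower right entry. -/
theorem theta_prime (γ : SL(2, ℤ)) (hγd : γ.1 1 1 = d) (hd : d % 3 = 1) (hdk : d.Coprime (3 * k))
    (hc : ((3 * k : ℕ) : ℤ) ∣ γ.1 1 0) {w : Vec → ℂ} (hw : IsPer k w) (τ : ℍ) (p : H3) :
    theta k w (γ • τ) p = ((γ.1 1 0 : ℂ) * τ + d) *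
      theta k (mE k (γ.1 0 1 * d) fun x => w ((d : ℤ) • x)) τ p := by
  set a := γ.1 0 0
  set b := γ.1 0 1
  set c := γ.1 1 0
  have had : a * d - b * c = 1 := by
    have := γ.2
    rwa [Matrix.det_fin_two, hγd] at this
  have : NeZero (d * k) := ⟨mul_ne_zero (NeZero.ne d) (NeZero.ne k)⟩
  have : NeZero (3 * k) := ⟨by have := NeZero.ne k; omega⟩
  have hd0 : (d : ℝ) ≠ 0 := Nat.cast_ne_zero.2 (NeZero.ne d)
  have hdC : (d : ℂ) ≠ 0 := Nat.cast_ne_zero.2 (NeZero.ne d)
  have hkC : (k : ℂ) ≠ 0 := Nat.cast_ne_zero.2 (NeZero.ne k)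
  have hτ : (τ : ℂ) ≠ 0 := τ.ne_zero
  have hden : (c : ℂ) * τ + d ≠ 0 := by
    intro h
    have h1 := congrArg Complex.im h
    simp at h1
    rcases h1 with h1 | h1
    · rw [h1] at h; simp at h; exact hdC (by exact_mod_cast h)
    · exact τ.im_ne_zero h1
  -- the scaled inverse
  let σ : ℍ := ⟨(d : ℂ) * ((negInv τ : ℍ) : ℂ), by
    rw [show ((d : ℂ) * ((negInv τ : ℍ) : ℂ)).im = (d : ℝ) * (negInv τ).im by simp]
    have : (0 : ℝ) < d := lt_of_le_of_ne (Nat.cast_nonneg d) hd0.symm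
    exact mul_pos this (negInv τ).im_pos⟩
  let ρ : ℍ := negInv ((((-c : ℤ)) : ℝ) +ᵥ σ)
  have hρ : (ρ : ℂ) = τ / ((c : ℂ) * τ + d) := by
    show ((negInv _ : ℍ) : ℂ) = _
    rw [coe_negInv, UpperHalfPlane.coe_vadd]
    show -1 / ((((-c : ℤ) : ℝ) : ℂ) + (d : ℂ) * ((negInv τ : ℍ) : ℂ)) = _
    rw [coe_negInv]
    push_cast
    rw [show (-(c : ℂ) + (d : ℂ) * (-1 / (τ : ℂ))) = -(((c : ℂ) * τ + d) / τ) by field_simp; ring,
      div_neg, neg_div, neg_neg, one_div_div]
  have hgam : ((γ • τ : ℍ) : ℂ) = ((b : ℂ) + ρ) / d := by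
    rw [UpperHalfPlane.coe_specialLinearGroup_apply, hρ]
    simp only [eq_intCast, Complex.ofReal_intCast, hγd, Int.cast_natCast]
    show ((a : ℂ) * τ + b) / ((c : ℂ) * τ + d) = _
    have : ((a : ℂ) * d - b * c) = 1 := by exact_mod_cast had
    rw [add_div' _ _ _ hden, div_div, div_eq_div_iff hden (mul_ne_zero hden hdC)]
    linear_combination ((τ : ℂ) * ((c : ℂ) * τ + d)) * this
  have h1 : theta k w (γ • τ) p = ((√d)⁻¹ : ℝ) * theta (d * k) (mE (d * k) b w) ρ p := by
    rw [theta, theta]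
    have him : (γ • τ).im = ρ.im / d := by
      rw [← UpperHalfPlane.coe_im, hgam]
      simp [Complex.div_natCast_im]
    rw [him, Real.sqrt_div ρ.im_pos.le, div_eq_mul_inv, Complex.ofReal_mul, mul_assoc,
      mul_left_comm]
    congr 2
    refine tsum_congr fun x => ?_
    rw [mE, mul_assoc (w x)]
    congr 1
    rw [gss, gss, ee, ← Complex.exp_add, hgam, Complex.div_natCast_im, Complex.add_im,
      Complex.intCast_im, zero_add]
    congr 1
    simp only [qf]
    push_cast
    field_simp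
    ring
  have hwN : IsPer (d * k) w := fun x z => by
    have e : subV (d * k) z = subV k ((d : ℤ) • z) := by
      rw [← zsmul_subV]
      refine Prod.ext ?_ (Prod.ext ?_ ?_) <;>
        simp only [zsmul_fst, zsmul_snd_fst, zsmul_snd_snd, subV] <;> push_cast <;> ring
    rw [e, hw]
  have h2 : theta (d * k) (mE (d * k) b w) ρ p = -(I * ((((-c : ℤ) : ℝ) : ℂ) + σ)) *
      theta (d * k) (mE (d * k) (-c) (four (d * k) (mE (d * k) b w))) σ p := by
    rw [show ρ = negInv _ from rfl, theta_negInv (isPer_mE hwN b), theta_vadd,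
      UpperHalfPlane.coe_vadd]
  set u := mE k (a * b) w
  have h3 : theta (d * k) (mE (d * k) (-c) (four (d * k) (mE (d * k) b w))) σ p =
      (√d : ℝ) * theta k (fun y => four k u (a • y)) (negInv τ) p := by
    rw [theta_congr (four_key hd hdk had hc hw), theta, theta]
    have him : σ.im = (d : ℝ) * (negInv τ).im := by
      rw [← UpperHalfPlane.coe_im]; simp [σ]
    rw [him, Real.sqrt_mul (Nat.cast_nonneg d), Complex.ofReal_mul, mul_assoc]
    congr 2
    refine tsum_congr fun x => ?_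
    congr 1
    rw [gss, gss]
    show Complex.exp (2 * π * I * ((d : ℂ) * ((negInv τ : ℍ) : ℂ)) * _ / _ -
      π * (((d : ℂ) * ((negInv τ : ℍ) : ℂ)).im : ℂ) * _ / _) = _
    rw [show ((d : ℂ) * ((negInv τ : ℍ) : ℂ)).im = (d : ℝ) * (negInv τ).im by simp,
      UpperHalfPlane.coe_im]
    push_cast
    field_simp
  rw [h1, h2, h3, theta_negInv ((isPer_four u).smul_arg a)]
  have hinv : ((3 * k : ℕ) : ℤ) ∣ a * d - 1 := by
    rw [show a * d - 1 = b * c by linear_combination had]; exact hc.mul_left b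
  have h4 : theta k (four k fun y => four k u (a • y)) τ p =
      theta k (mE k (b * d) fun x => w ((d : ℤ) • x)) τ p := by
    rw [theta_congr (four_four (isPer_mE hw _) hinv),
      ← theta_neg (fun x => u ((-(d : ℤ)) • x))]
    refine theta_congr (fun x => ?_) τ p
    simp only [u, mE, smul_neg, neg_smul, neg_neg]
    congr 1
    refine ee_congr ?_
    rw [show P3 ((d : ℤ) • x) = d * d * P3 x by
      simp [P3, Prod.smul_def, QuadraticAlgebra.norm_def]; ring,
      show a * b * (↑d * ↑d * P3 x) - b * ↑d * P3 x = (a * d - 1) * (b * d * P3 x) by ring]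
    exact hinv.mul_right _
  rw [h4, show ((((-c : ℤ) : ℝ) : ℂ) + (σ : ℂ)) = -(((c : ℂ) * τ + d) / τ) by
    show _ + (d : ℂ) * ((negInv τ : ℍ) : ℂ) = _
    rw [coe_negInv]; push_cast; field_simp; ring]
  have hsd : ((√d : ℝ) : ℂ) ≠ 0 := by
    simp only [ne_eq, Complex.ofReal_eq_zero, Real.sqrt_eq_zero (Nat.cast_nonneg d)]; exact hd0
  push_cast
  field_simp
  simp [Complex.I_sq]

end Formula

/-- The transformation formula. -/
theorem theta_gamma (γ : SL(2, ℤ)) (hc : ((3 * k : ℕ) : ℤ) ∣ γ.1 1 0) (hd : (3 : ℤ) ∣ γ.1 1 1 - 1)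
    {w : Vec → ℂ} (hw : IsPer k w) (τ : ℍ) (p : H3) :
    theta k w (γ • τ) p = ((γ.1 1 0 : ℂ) * τ + γ.1 1 1) *
      theta k (mE k (γ.1 0 1 * γ.1 1 1) fun x => w (γ.1 1 1 • x)) τ p := by
  set a := γ.1 0 0
  set b := γ.1 0 1
  set c := γ.1 1 0
  set d := γ.1 1 1
  have had : a * d - b * c = 1 := by
    have := γ.2
    rwa [Matrix.det_fin_two] at this
  have : NeZero (3 * k) := ⟨by have := NeZero.ne k; omega⟩
  by_cases hc0 : c = 0
  · have hd1 : d = 1 := by
      rw [hc0, mul_zero, sub_zero] at had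
      rcases Int.eq_one_or_neg_one_of_mul_eq_one (by linear_combination had : d * a = 1) with h | h
      · exact h
      · rw [h] at hd; norm_num at hd
    have ha1 : a = 1 := by rw [hc0, hd1] at had; linarith
    have e : γ • τ = (b : ℝ) +ᵥ τ := by
      apply UpperHalfPlane.ext
      rw [UpperHalfPlane.coe_specialLinearGroup_apply, UpperHalfPlane.coe_vadd]
      simp only [eq_intCast, Complex.ofReal_intCast]
      show ((a : ℂ) * τ + b) / ((c : ℂ) * τ + d) = _
      rw [hc0, hd1, ha1]; push_cast; ring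
    rw [e, theta_vadd, hc0, hd1]
    simp
  have hcop : IsCoprime d c := ⟨a, -b, by linear_combination had⟩
  have : NeZero c.natAbs := ⟨by simpa using hc0⟩
  have hunit : IsUnit ((d : ℤ) : ZMod c.natAbs) := by
    obtain ⟨u, v, huv⟩ := hcop
    refine IsUnit.of_mul_eq_one (u : ZMod c.natAbs) ?_
    have h0 : ((c : ℤ) : ZMod c.natAbs) = 0 := by
      rw [ZMod.intCast_zmod_eq_zero_iff_dvd]; exact Int.natAbs_dvd.2 dvd_rfl
    have := congrArg (fun z : ℤ => (z : ZMod c.natAbs)) huv
    push_cast at this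
    rw [h0, mul_zero, add_zero] at this
    rw [mul_comm]; exact this
  obtain ⟨q, hqgt, hq, hqd⟩ := Nat.forall_exists_prime_gt_and_eq_mod hunit (3 * k)
  have : Fact q.Prime := ⟨hq⟩
  obtain ⟨j, hj⟩ : c ∣ (q : ℤ) - d := by
    have := (ZMod.intCast_eq_intCast_iff_dvd_sub d (q : ℤ) c.natAbs).1 (by exact_mod_cast hqd.symm)
    exact Int.natAbs_dvd.1 this
  have h3c : (3 : ℤ) ∣ c := Dvd.dvd.trans ⟨k, by push_cast; ring⟩ hc
  have hq3 : q % 3 = 1 := by
    have h1 : (3 : ℤ) ∣ (q : ℤ) - 1 := by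
      rw [show (q : ℤ) - 1 = c * j + (d - 1) by linear_combination hj]
      exact (h3c.mul_right j).add hd
    omega
  have hqk : q.Coprime (3 * k) :=
    (hq.coprime_iff_not_dvd).2 fun h =>
      absurd (Nat.le_of_dvd (Nat.pos_of_neZero _) h) (not_le.2 hqgt)
  set γ' : SL(2, ℤ) := γ * ModularGroup.T ^ j
  have e' : γ'.1 = !![a, a * j + b; c, c * j + d] := by
    simp only [γ', Matrix.SpecialLinearGroup.coe_mul, ModularGroup.coe_T_zpow]
    ext i l
    fin_cases i <;> fin_cases l <;> simp [Matrix.mul_apply, Fin.sum_univ_two, a, b, c, d]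
  have hγ'c : γ'.1 1 0 = c := by rw [e']; rfl
  have hγ'b : γ'.1 0 1 = a * j + b := by rw [e']; rfl
  have hγ'd : γ'.1 1 1 = (q : ℤ) := by rw [e']; show c * j + d = _; linear_combination -hj
  have hτ : γ • τ = γ' • (((-j : ℤ) : ℝ) +ᵥ τ) := by
    rw [mul_smul]
    congr 1
    apply UpperHalfPlane.ext
    rw [UpperHalfPlane.coe_specialLinearGroup_apply]
    simp only [ModularGroup.coe_T_zpow, UpperHalfPlane.coe_vadd]
    simp
  rw [hτ, theta_prime γ' hγ'd hq3 hqk (by rw [hγ'c]; exact hc) hw, theta_vadd, hγ'c,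
    UpperHalfPlane.coe_vadd]
  have hq' : (q : ℂ) = c * j + d := by
    have : ((q : ℤ) : ℂ) = ((c * j + d : ℤ) : ℂ) := by rw [← hγ'd, e']; rfl
    push_cast at this
    exact this
  congr 1
  · rw [hq']; push_cast; ring
  refine theta_congr (fun x => ?_) τ p
  simp only [mE]
  have hwq : w ((q : ℤ) • x) = w (d • x) := by
    obtain ⟨m, hm⟩ := hc
    push_cast at hm
    obtain ⟨y, hy⟩ := exists_subV_smul (k := k) (m * j) x
    refine hw.congr ⟨y, ?_⟩
    rw [← hy, ← add_smul]
    congr 1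
    linear_combination hj + j * hm
  rw [hwq, mul_assoc, ← ee_add, hγ'b]
  congr 1
  rw [show ((((a * j + b) * (q : ℤ) * P3 x : ℤ) : ℝ) / ((3 * k : ℕ) : ℝ) +
      ((-j * P3 x : ℤ) : ℝ) / ((3 * k : ℕ) : ℝ)) =
    (((a * j + b) * (q : ℤ) * P3 x + -j * P3 x : ℤ) : ℝ) / ((3 * k : ℕ) : ℝ) by push_cast; ring]
  refine ee_congr ?_
  rw [show (a * j + b) * (q : ℤ) * P3 x + -j * P3 x - b * d * P3 x =
    c * (j * P3 x * (a * j + b + b)) by
      rw [show (q : ℤ) = c * j + d by linear_combination hj]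
      linear_combination (j * P3 x) * had]
  exact hc.mul_right _

/-- The theta series has level `Γ(3 k)`. -/
theorem theta_Gamma (γ : SL(2, ℤ)) (hγ : γ ∈ CongruenceSubgroup.Gamma (3 * k))
    {w : Vec → ℂ} (hw : IsPer k w) (τ : ℍ) (p : H3) :
    theta k w (γ • τ) p = ((γ.1 1 0 : ℂ) * τ + γ.1 1 1) * theta k w τ p := by
  have : NeZero (3 * k) := ⟨by have := NeZero.ne k; omega⟩
  rw [CongruenceSubgroup.Gamma_mem] at hγ
  obtain ⟨-, hb, hc, hd⟩ := hγ
  rw [ZMod.intCast_zmod_eq_zero_iff_dvd] at hb hc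
  have hd' : ((3 * k : ℕ) : ℤ) ∣ γ.1 1 1 - 1 := by
    rw [← ZMod.intCast_zmod_eq_zero_iff_dvd]; push_cast; rw [hd]; ring
  rw [theta_gamma γ hc (Dvd.dvd.trans ⟨k, by push_cast; ring⟩ hd') hw]
  congr 1
  refine theta_congr (fun x => ?_) τ p
  simp only [mE]
  obtain ⟨m, hm⟩ := hd'
  push_cast at hm
  obtain ⟨y, hy⟩ := exists_subV_smul (k := k) m x
  rw [ee_congr (b := 0) (by
    rw [sub_zero]; exact (hb.mul_right _).mul_right _)]
  simp only [Int.cast_zero, zero_div]
  rw [show ee 0 = 1 by simp [ee], mul_one]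
  refine hw.congr ⟨y, ?_⟩
  rw [← hy, show 3 * (k : ℤ) * m = γ.1 1 1 - 1 by linear_combination -hm]
  module

end FermatAgent.LT.Lift
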