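import Fermat.Agent.LT.Lift.Casimir
import Fermat.Agent.LT.Lift.Transf

/-!
# The expansion of a lift

The lift is a series in the levels of the form; on each level the differential equation leaves a
constant for positive levels, nothing for level zero, and a controlled term for negative levels.
-/

set_option autoImplicit false

noncomputable section

open Matrix MeasureTheory Filter Topology ComplexConjugate Set
open scoped MatrixGroups ContDiff ENNReal UpperHalfPlane Real

namespace FermatAgent.LT.Lift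

variable {m : ℤ} {n k : ℕ} [NeZero n] {Φ : H3 → ℂ} {w : Vec → ℂ}

/-- The weight on one level. -/
def lev (m : ℤ) (w : Vec → ℂ) (x : Vec) : ℂ := if P3 x = m then w x else 0

/-- The part at a level is supported there. -/
lemma isLev_lev {B : ℝ} (hB0 : 0 ≤ B) (hB : ∀ x, ‖w x‖ ≤ B) (m : ℤ) : IsLev m (lev m w) where
  bdd := ⟨B, hB0, fun x => by unfold lev; split_ifs; exacts [hB x, by simpa using hB0]⟩
  supp x hx := if_neg hx

omit [NeZero n] in
/-- Level parts of invariant weights are invariant. -/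
lemma lev_inv (hwi : ∀ g ∈ congE n, ∀ x, w (g • x) = w x) (m : ℤ) :
    ∀ g ∈ congE n, ∀ x, lev m w (g • x) = lev m w x := fun g hg x => by
  simp only [lev, P3_smul, hwi g hg]

/-- Level parts keep the bound. -/
lemma norm_lev_le {B : ℝ} (hB0 : 0 ≤ B) (hB : ∀ x, ‖w x‖ ≤ B) (m : ℤ) (x : Vec) :
    ‖lev m w x‖ ≤ B := by unfold lev; split_ifs; exacts [hB x, by simpa using hB0]

/-- Four times the negative form is at most the square of the functional. -/
lemma fv_sq_ge (x : Vec) (p : H3) : -4 * qf x ≤ fv x p ^ 2 := by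
  have ht := p.t_pos
  have hq : qf x = Complex.normSq (bv x) - x.1 * x.2.1 := by
    rw [qf, P3, normSq_bv]; push_cast; ring
  rw [hq, fv_eq, div_pow, le_div_iff₀ (by positivity)]
  simp only [Complex.normSq_apply, Complex.mul_re, Complex.conj_re, Complex.conj_im]
  nlinarith [sq_nonneg ((x.1 : ℝ) + x.2.1 * (p.z.re * p.z.re + p.z.im * p.z.im - p.t ^ 2) -
      2 * (p.z.re * (bv x).re + p.z.im * (bv x).im)),
    mul_nonneg (sq_nonneg p.t) (sq_nonneg ((bv x).re - x.2.1 * p.z.re)),
    mul_nonneg (sq_nonneg p.t) (sq_nonneg ((bv x).im - x.2.1 * p.z.im))]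

/-! ## The majorant integral -/

/-- The integral of the majorant. -/
def MM (n : ℕ) (Φ : H3 → ℂ) (u : ℝ) : ℝ := ∫ p in fdE n, ‖Φ p‖ * majSum u p ∂H3.vol

omit [NeZero n] in
lemma MM_nonneg (u : ℝ) : 0 ≤ MM n Φ u :=
  integral_nonneg fun _ => mul_nonneg (norm_nonneg _) (majSum_nonneg _ _)

/-- The integral of the majorant grows at most polynomially in the inverse width. -/
theorem exists_MM_le (hΦ : IsWave n Φ) :
    ∃ K : ℝ, 0 ≤ K ∧ ∀ u : ℝ, 0 < u → MM n Φ u ≤ K * (2 + 400 / u) ^ 4 := by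
  set h : H3 → ℝ≥0∞ := fun p => ⨆ r : {r : ℚ // 0 < r},
    ENNReal.ofReal (‖Φ p‖ * majSum (r.1 : ℝ) p / (2 + 200 / (r.1 : ℝ)) ^ 4) with hh
  have hi : ∀ g ∈ congE n, ∀ p, h (g • p) = h p := fun g hg p => by
    simp only [hh, hΦ.inv g hg p, majSum_smul]
  have hle : ∀ p, h p ≤ ENNReal.ofReal (9 ^ 4 * ‖Φ p‖ * gau p ^ 8) := fun p => by
    refine iSup_le fun r => ENNReal.ofReal_le_ofReal ?_
    have hr : (0 : ℝ) < r.1 := by exact_mod_cast r.2
    rw [div_le_iff₀ (by positivity)]
    calc ‖Φ p‖ * majSum (r.1 : ℝ) p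
        ≤ ‖Φ p‖ * (9 ^ 4 * (2 + 200 / (r.1 : ℝ)) ^ 4 * gau p ^ 8) :=
          mul_le_mul_of_nonneg_left (majSum_le_pow hr p) (norm_nonneg _)
      _ = _ := by ring
  have hfin := setLIntegral_lt_top hΦ hi hle
  refine ⟨(∫⁻ p in fdE n, h p ∂H3.vol).toReal, ENNReal.toReal_nonneg, fun u hu => ?_⟩
  obtain ⟨r, hr1, hr2⟩ := exists_rat_btwn (half_lt_self hu)
  have hr0 : (0 : ℝ) < r := (half_pos hu).trans hr1
  set P := (2 + 400 / u) ^ 4
  rw [MM, integral_eq_lintegral_of_nonneg_ae
    (ae_of_all _ fun p => mul_nonneg (norm_nonneg _) (majSum_nonneg _ _))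
    (hΦ.cont.norm.mul (continuous_majSum hu)).aestronglyMeasurable,
    ← ENNReal.toReal_ofReal (show 0 ≤ P by positivity), ← ENNReal.toReal_mul]
  refine ENNReal.toReal_mono (ENNReal.mul_ne_top hfin.ne ENNReal.ofReal_ne_top) ?_
  rw [← lintegral_mul_const' _ _ ENNReal.ofReal_ne_top]
  refine lintegral_mono fun p => ?_
  refine le_trans ?_ (mul_le_mul_left (le_iSup (fun r : {r : ℚ // 0 < r} =>
    ENNReal.ofReal (‖Φ p‖ * majSum (r.1 : ℝ) p / (2 + 200 / (r.1 : ℝ)) ^ 4))
      ⟨r, by exact_mod_cast hr0⟩) _)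
  rw [← ENNReal.ofReal_mul' (by positivity)]
  refine ENNReal.ofReal_le_ofReal ?_
  rw [div_mul_eq_mul_div, le_div_iff₀ (by positivity)]
  refine mul_le_mul (mul_le_mul_of_nonneg_left (majSum_anti hr0 hr2.le p) (norm_nonneg _)) ?_
    (by positivity) (mul_nonneg (norm_nonneg _) (majSum_nonneg _ _))
  refine pow_le_pow_left₀ (by positivity) (add_le_add le_rfl ?_) 4
  rw [div_le_div_iff₀ hr0 hu]; linarith

lemma norm_FF_le (hΦ : IsWave n Φ) (hw : IsLev m w) {B : ℝ} (hB0 : 0 ≤ B) (hB : ∀ x, ‖w x‖ ≤ B)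
    {u : ℝ} (hu : 0 < u) (j : ℕ) : ‖FF n Φ j u w‖ ≤ sphC j u m B * MM n Φ u := by
  refine (norm_integral_le_of_norm_le ((hΦ.integrable_majSum hu).const_mul (sphC j u m B))
    (ae_of_all _ fun p => ?_)).trans (le_of_eq (integral_const_mul _ _))
  rw [norm_mul, mul_left_comm]
  exact mul_le_mul_of_nonneg_left (norm_sph_le hw hB hB0 hu j p) (norm_nonneg _)

lemma norm_FF_neg_le (hΦ : IsWave n Φ) (hw : IsLev m w) {B : ℝ} (hB0 : 0 ≤ B)
    (hB : ∀ x, ‖w x‖ ≤ B) {u : ℝ} (hu : 0 < u) :
    ‖FF n Φ 0 u w‖ ≤ B * Real.exp (7 / 2 * u * (m / 3)) * MM n Φ (u / 2) := by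
  refine (norm_integral_le_of_norm_le ((hΦ.integrable_majSum (half_pos hu)).const_mul
    (B * Real.exp (7 / 2 * u * (m / 3)))) (ae_of_all _ fun p => ?_)).trans
    (le_of_eq (integral_const_mul _ _))
  rw [norm_mul, mul_left_comm]
  refine mul_le_mul_of_nonneg_left ?_ (norm_nonneg _)
  rw [majSum, ← tsum_mul_left]
  refine tsum_of_norm_bounded ((summable_maj (half_pos hu) p).mul_left _).hasSum fun x => ?_
  by_cases h : P3 x = m
  · have hq : qf x = (m : ℝ) / 3 := by rw [qf, h]
    rw [norm_mul, Complex.norm_real, Real.norm_of_nonneg (by unfold gj; positivity),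
      ← hq, mul_assoc B,
      ← Real.exp_add]
    refine mul_le_mul (hB x) ?_ (by unfold gj; positivity) hB0
    rw [gj, pow_zero, one_mul]
    refine Real.exp_le_exp.2 ?_
    have := fv_sq_ge x p
    rw [maj]
    nlinarith
  · rw [hw.supp x h]; simp; positivity

/-! ## The slices -/

/-- The normalised slice. -/
def GG (n : ℕ) (Φ : H3 → ℂ) (u : ℝ) (w : Vec → ℂ) : ℂ := (√u : ℂ) * FF n Φ 0 u w

/-- Its derivative. -/
def GD (n : ℕ) (Φ : H3 → ℂ) (u : ℝ) (w : Vec → ℂ) : ℂ :=
  ((1 / (2 * √u) : ℝ) : ℂ) * FF n Φ 0 u w - (√u : ℂ) * FF n Φ 1 u w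

/-- The constant of a level. -/
def cCoef (n : ℕ) (Φ : H3 → ℂ) (m : ℤ) (w : Vec → ℂ) : ℂ :=
  GD n Φ 1 w * (Real.exp (-(4 * (m / 3))) : ℂ)

/-- The derivative of the level integral. -/
lemma hasDerivAt_GG (hΦ : IsWave n Φ) (hw : IsLev m w)
    (hwi : ∀ g ∈ congE n, ∀ x, w (g • x) = w x) {u : ℝ} (hu : 0 < u) :
    HasDerivAt (fun v => GG n Φ v w) (GD n Φ u w) u := by
  refine ((Real.hasDerivAt_sqrt hu.ne').ofReal_comp.mul
    (hasDerivAt_FF hΦ hw hwi hu 0)).congr_deriv ?_
  simp only [GD]; ring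

/-- The solution of the differential equation. -/
theorem GD_eq (hΦ : IsCusp n Φ) (hw : IsLev m w) (hwi : ∀ g ∈ congE n, ∀ x, w (g • x) = w x)
    {u : ℝ} (hu : 0 < u) :
    GD n Φ u w = cCoef n Φ m w * (Real.exp (4 * (m / 3) * u) : ℂ) / (u : ℂ) := by
  set Q : ℝ := (m : ℝ) / 3
  set H : ℝ → ℂ := fun v => (v : ℂ) * GD n Φ v w * (Real.exp (-(4 * Q * v)) : ℂ) with hH
  have hd : ∀ v : ℝ, 0 < v → HasDerivAt H 0 v := by
    intro v hv
    have hs := Real.hasDerivAt_sqrt hv.ne'
    have hs0 : √v ≠ 0 := (Real.sqrt_pos.2 hv).ne'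
    have h0 := hasDerivAt_FF hΦ.wave hw hwi hv 0
    have h1 := hasDerivAt_FF hΦ.wave hw hwi hv 1
    have e1 : HasDerivAt (fun v : ℝ => v * (1 / (2 * √v)))
        (1 / (4 * √v)) v := by
      refine ((hs.div_const 2).congr_of_eventuallyEq ?_).congr_deriv (by ring)
      filter_upwards [eventually_gt_nhds hv] with r hr
      have hr0 : √r ≠ 0 := (Real.sqrt_pos.2 hr).ne'
      field_simp
      rw [Real.sq_sqrt hr.le]
    have e2 : HasDerivAt (fun v : ℝ => v * √v) (3 / 2 * √v) v := by
      refine ((hasDerivAt_id' v).mul hs).congr_deriv ?_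
      field_simp
      rw [Real.sq_sqrt hv.le]; ring
    have hE : HasDerivAt (fun v : ℝ => Real.exp (-(4 * Q * v)))
        (-(4 * Q) * Real.exp (-(4 * Q * v))) v :=
      ((((hasDerivAt_id' v).const_mul (4 * Q)).neg).exp).congr_deriv (by
        simp only [Pi.neg_apply]; ring)
    have hmain := ((e1.ofReal_comp.mul h0).sub (e2.ofReal_comp.mul h1)).mul hE.ofReal_comp
    refine (hmain.congr_of_eventuallyEq (Eventually.of_forall fun r => ?_)).congr_deriv ?_
    · simp only [hH, GD, Pi.mul_apply, Pi.sub_apply]; push_cast; ring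
    · have hc := casimir hΦ hw hwi hv
      simp only [Pi.mul_apply, Pi.sub_apply]
      have hsq : ((√v : ℝ) : ℂ) * (√v : ℝ) = (v : ℂ) := by
        rw [← Complex.ofReal_mul, Real.mul_self_sqrt hv.le]
      have hs0' : ((√v : ℝ) : ℂ) ≠ 0 := by exact_mod_cast hs0
      rw [Complex.ofReal_mul (-(4 * Q))]
      generalize ((Real.exp (-(4 * Q * v)) : ℝ) : ℂ) = E at *
      simp only [Q]
      push_cast at hc ⊢
      rw [← hsq] at hc ⊢
      field_simp at hc ⊢
      linear_combination (2 * E) * hc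
  have key : H u = H 1 := IsOpen.is_const_of_deriv_eq_zero isOpen_Ioi isPreconnected_Ioi
    (fun v hv => (hd v hv).differentiableAt.differentiableWithinAt)
    (fun v hv => (hd v hv).deriv) hu (mem_Ioi.2 one_pos)
  have hu' : (u : ℂ) ≠ 0 := by exact_mod_cast hu.ne'
  rw [eq_div_iff hu', cCoef]
  simp only [hH, Complex.ofReal_one, one_mul, mul_one] at key
  rw [show -(4 * Q) = -(4 * Q * 1) by ring] at key ⊢
  rw [← key, mul_assoc, ← Complex.ofReal_mul, ← Real.exp_add,
    show -(4 * Q * u) + 4 * Q * u = 0 by ring, Real.exp_zero, Complex.ofReal_one, mul_one, mul_comm]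

lemma norm_GD_le (hΦ : IsWave n Φ) (hw : IsLev m w) {B : ℝ} (hB0 : 0 ≤ B) (hB : ∀ x, ‖w x‖ ≤ B)
    {u : ℝ} (hu : 0 < u) :
    ‖GD n Φ u w‖ * u ≤ 5 / 2 * B * √u * Real.exp (u * (m / 3)) * MM n Φ u := by
  have h0 := norm_FF_le hΦ hw hB0 hB hu 0
  have h1 := norm_FF_le hΦ hw hB0 hB hu 1
  have hs := Real.sqrt_pos.2 hu
  refine (mul_le_mul_of_nonneg_right (norm_sub_le _ _) hu.le).trans ?_
  rw [norm_mul, norm_mul, Complex.norm_real, Complex.norm_real,
    Real.norm_of_nonneg (by positivity), Real.norm_of_nonneg hs.le]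
  refine (mul_le_mul_of_nonneg_right (add_le_add (mul_le_mul_of_nonneg_left h0 (by positivity))
    (mul_le_mul_of_nonneg_left h1 hs.le)) hu.le).trans (le_of_eq ?_)
  simp only [sphC, Nat.factorial_zero, Nat.factorial_one, Nat.cast_one, pow_zero, pow_one]
  have : u = √u * √u := (Real.mul_self_sqrt hu.le).symm
  generalize √u = s at *
  subst this
  field_simp
  ring

/-- A bound for the constant of a level. -/
theorem norm_cCoef_le (hΦ : IsCusp n Φ) (hw : IsLev m w)
    (hwi : ∀ g ∈ congE n, ∀ x, w (g • x) = w x) {B : ℝ} (hB0 : 0 ≤ B) (hB : ∀ x, ‖w x‖ ≤ B)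
    {u : ℝ} (hu : 0 < u) :
    ‖cCoef n Φ m w‖ ≤ 5 / 2 * B * √u * Real.exp (-(3 * u * (m / 3))) * MM n Φ u := by
  have h := norm_GD_le hΦ.wave hw hB0 hB hu
  rw [GD_eq hΦ hw hwi hu, norm_div, norm_mul, Complex.norm_real, Complex.norm_real,
    Real.norm_of_nonneg (Real.exp_pos _).le, Real.norm_of_nonneg hu.le,
    div_mul_cancel₀ _ hu.ne'] at h
  calc ‖cCoef n Φ m w‖ = ‖cCoef n Φ m w‖ * Real.exp (4 * (m / 3) * u) *
        Real.exp (-(4 * (m / 3) * u)) := by
        rw [mul_assoc, ← Real.exp_add, add_neg_cancel, Real.exp_zero, mul_one]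
    _ ≤ 5 / 2 * B * √u * Real.exp (u * (m / 3)) * MM n Φ u * Real.exp (-(4 * (m / 3) * u)) :=
        mul_le_mul_of_nonneg_right h (Real.exp_pos _).le
    _ = _ := by
        rw [show -(3 * u * ((m : ℝ) / 3)) = u * (m / 3) + -(4 * (m / 3) * u) by ring, Real.exp_add]
        ring

/-- On a positive level the constant vanishes. -/
theorem cCoef_pos (hΦ : IsCusp n Φ) (hw : IsLev m w) (hwi : ∀ g ∈ congE n, ∀ x, w (g • x) = w x)
    (hm : 0 < m) : cCoef n Φ m w = 0 := by
  obtain ⟨B, hB0, hB⟩ := hw.bdd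
  obtain ⟨K, hK0, hK⟩ := exists_MM_le hΦ.wave
  have hm' : (1 : ℝ) ≤ (m : ℝ) := by exact_mod_cast hm
  refine norm_le_zero_iff.1 (ge_of_tendsto (f := fun u : ℝ => 5 / 2 * B * (K * 402 ^ 4) *
    (u ^ 1 * Real.exp (-u))) (x := atTop) ?_ ?_)
  · simpa using (Real.tendsto_pow_mul_exp_neg_atTop_nhds_zero 1).const_mul
      (5 / 2 * B * (K * 402 ^ 4))
  · filter_upwards [eventually_ge_atTop 1] with u hu
    have hu0 : 0 < u := by linarith
    refine (norm_cCoef_le hΦ hw hwi hB0 hB hu0).trans ?_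
    rw [pow_one]
    calc 5 / 2 * B * √u * Real.exp (-(3 * u * (m / 3))) * MM n Φ u
        ≤ 5 / 2 * B * u * Real.exp (-u) * (K * 402 ^ 4) := by
          refine mul_le_mul (mul_le_mul (mul_le_mul_of_nonneg_left
            (Real.sqrt_le_iff.2 ⟨hu0.le, by nlinarith⟩) (by positivity))
            (Real.exp_le_exp.2 (by nlinarith)) (Real.exp_pos _).le (by positivity))
            ((hK u hu0).trans (mul_le_mul_of_nonneg_left
              (pow_le_pow_left₀ (by positivity) ?_ 4) hK0))
            (MM_nonneg u) (by positivity)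
          have : 400 / u ≤ 400 := div_le_self (by norm_num) hu
          linarith
      _ = _ := by ring

/-- On a positive level the slice is constant. -/
theorem GG_pos (hΦ : IsCusp n Φ) (hw : IsLev m w) (hwi : ∀ g ∈ congE n, ∀ x, w (g • x) = w x)
    (hm : 0 < m) {u : ℝ} (hu : 0 < u) : GG n Φ u w = GG n Φ 1 w :=
  IsOpen.is_const_of_deriv_eq_zero isOpen_Ioi isPreconnected_Ioi
    (fun v hv => (hasDerivAt_GG hΦ.wave hw hwi hv).differentiableAt.differentiableWithinAt)
    (fun v hv => by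
      rw [(hasDerivAt_GG hΦ.wave hw hwi hv).deriv, GD_eq hΦ hw hwi hv, cCoef_pos hΦ hw hwi hm]
      simp) hu (mem_Ioi.2 one_pos)

/-- The gaussian sum over the nonzero isotropic vectors, divided by the functional. -/
def isoSum (p : H3) : ℝ :=
  ∑' x : Vec, if P3 x = 0 ∧ x ≠ 0 then Real.exp (-(fv x p ^ 2 / 2)) / |fv x p| else 0

lemma iso_fv_lower {x : Vec} (h0 : P3 x = 0) (hx : x ≠ 0) (p : H3) :
    1 / (8 * gau p) ≤ |fv x p| := by
  have hg := gau_pos p
  have hs : 1 ≤ size x := by
    have hN := norm_nonneg' x.2.2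
    have key : (1 : ℤ) ≤ x.1 ^ 2 + x.2.1 ^ 2 + QuadraticAlgebra.norm x.2.2 := by
      by_contra hc
      push Not at hc
      have e1 : x.1 = 0 := by nlinarith
      have e2 : x.2.1 = 0 := by nlinarith
      have e3 : x.2.2 = 0 := by
        have h1 : ((QuadraticAlgebra.norm x.2.2 : ℤ) : ℝ) = 0 := by
          have : QuadraticAlgebra.norm x.2.2 = 0 := by nlinarith
          exact_mod_cast this
        rw [← normSq_toC, Complex.normSq_eq_zero] at h1
        exact toC_injective (by rw [h1, map_zero])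
      exact hx (Prod.ext e1 (Prod.ext e2 e3))
    unfold size; exact_mod_cast key
  have h1 := size_le x p
  rw [maj, show qf x = 0 by rw [qf, h0]; simp, zero_add] at h1
  rw [div_le_iff₀ (by positivity)]
  by_contra hc
  push Not at hc
  have h2 : (|fv x p| * (8 * gau p)) ^ 2 < 1 := by
    rw [sq_lt_one_iff_abs_lt_one, abs_of_nonneg (by positivity)]; exact hc
  rw [mul_pow, sq_abs] at h2
  have : H3.bnd p = gau p := rfl
  rw [this] at h1
  nlinarith

lemma iso_term_le (x : Vec) (p : H3) :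
    ‖if P3 x = 0 ∧ x ≠ 0 then Real.exp (-(fv x p ^ 2 / 2)) / |fv x p| else 0‖ ≤
      8 * gau p * Real.exp (-(1 * maj x p)) := by
  have hg := gau_pos p
  split_ifs with h
  · have hl := iso_fv_lower h.1 h.2 p
    have hf : 0 < |fv x p| := lt_of_lt_of_le (by positivity) hl
    rw [Real.norm_of_nonneg (by positivity), one_mul, maj, show qf x = 0 by rw [qf, h.1]; simp,
      zero_add, div_le_iff₀ hf]
    rw [div_le_iff₀ (by positivity)] at hl
    nlinarith [Real.exp_pos (-(fv x p ^ 2 / 2))]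
  · simp; positivity

lemma summable_iso (p : H3) :
    Summable fun x : Vec =>
      if P3 x = 0 ∧ x ≠ 0 then Real.exp (-(fv x p ^ 2 / 2)) / |fv x p| else 0 :=
  Summable.of_norm_bounded ((summable_maj one_pos p).mul_left (8 * gau p)) fun x => iso_term_le x p

lemma isoSum_smul (g : SLE) (p : H3) : isoSum (g • p) = isoSum p := by
  rw [isoSum, isoSum, ← (MulAction.toPerm g).tsum_eq]
  refine tsum_congr fun x => ?_
  have h0 : g • x = 0 ↔ x = 0 := by
    have e : g • (0 : Vec) = 0 := (cjHom g.1).map_zero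
    exact ⟨fun h => by rw [← e] at h; exact smul_left_cancel g h, fun h => by rw [h, e]⟩
  simp [fv_smul, h0]

lemma continuous_isoSum : Continuous isoSum := by
  refine continuous_iff_continuousAt.2 fun p => ?_
  refine (continuousOn_tsum (fun x => ?_) ((summable_size (c := 1 / (100 * (gau p + 1) ^ 2))
    (by have := gau_pos p; positivity)).mul_left (8 * (gau p + 1)))
    fun x q (hq : q ∈ {q : H3 | gau q < gau p + 1}) => ?_).continuousAt (exists_gau_nhds p)
  · by_cases h : P3 x = 0 ∧ x ≠ 0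
    · simp only [if_pos h]
      have := continuous_fv x
      exact (Continuous.div₀ (by fun_prop) (by fun_prop) fun q => by
        have := iso_fv_lower h.1 h.2 q
        have := gau_pos q
        have : (0 : ℝ) < 1 / (8 * gau q) := by positivity
        linarith).continuousOn
    · simp only [if_neg h]; exact continuousOn_const
  · have hg := gau_pos q
    exact (iso_term_le x q).trans (mul_le_mul (by linarith [show gau q < gau p + 1 from hq])
      (maj_exp_le zero_le_one (show gau q < gau p + 1 from hq).le x)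
      (Real.exp_pos _).le (by linarith [show gau q < gau p + 1 from hq]))

lemma isMod_isoSum : IsMod fun p => (isoSum p : ℂ) := by
  refine ⟨8 * (9 ^ 4 * (2 + 200) ^ 4), 9, fun p => ?_⟩
  rw [Complex.norm_real]
  refine (tsum_of_norm_bounded ((summable_maj one_pos p).mul_left (8 * gau p)).hasSum
    fun x => iso_term_le x p).trans ?_
  rw [tsum_mul_left]
  refine (mul_le_mul_of_nonneg_left (majSum_le_pow one_pos p)
    (by have := gau_pos p; positivity)).trans
    (le_of_eq ?_)
  rw [div_one]; ring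

/-- The integral of a cuspidal eigenfunction over the domain vanishes. -/
theorem IsCusp.integral_eq_zero (hΦ : IsCusp n Φ) : ∫ p in fdE n, Φ p ∂H3.vol = 0 := by
  classical
  set δ : Vec → ℂ := fun x => if x = 0 then 1 else 0 with hδ
  have hd : IsLev 0 δ := ⟨⟨1, zero_le_one, fun x => by simp only [hδ]; split_ifs <;> simp⟩,
    fun x hx => if_neg fun h => hx (by subst h; simp [P3])⟩
  have h0 : ∀ g : SLE, ∀ x : Vec, δ (g • x) = δ x := fun g x => by
    have e : g • (0 : Vec) = 0 := (cjHom g.1).map_zero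
    have : g • x = 0 ↔ x = 0 :=
      ⟨fun h => by rw [← e] at h; exact smul_left_cancel g h, fun h => by rw [h, e]⟩
    simp [hδ, this]
  have hsph : ∀ j p, sph j 1 δ p = if j = 0 then 1 else 0 := fun j p => by
    rw [sph, tsum_eq_single 0 fun x hx => by simp [hδ, hx]]
    have : fv 0 p = 0 := by simp [fv_eq, bv]
    cases j <;> simp [hδ, gj, this]
  have h := casimir hΦ hd (fun g _ x => h0 g x) one_pos
  simp only [FF, hsph, Int.cast_zero, zero_div, mul_zero, if_pos, OfNat.ofNat_ne_zero,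
    one_ne_zero, if_false, integral_zero, Complex.ofReal_zero, zero_mul, sub_zero, add_zero,
    mul_one] at h
  exact neg_eq_zero.1 h.symm

lemma tendsto_GG_zero (hΦ : IsCusp n Φ) (hw : IsLev 0 w) :
    Tendsto (fun u => GG n Φ u w) atTop (𝓝 0) := by
  classical
  obtain ⟨B, hB0, hB⟩ := hw.bdd
  set w' : Vec → ℂ := fun x => if x = 0 then 0 else w x with hw'
  have hw'0 : IsLev 0 w' := ⟨⟨B, hB0, fun x => by simp only [hw']; split_ifs <;> simp [hB0, hB x]⟩,
    fun x hx => by simp only [hw']; split_ifs <;> simp [hw.supp x hx]⟩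
  have hsplit : ∀ {u : ℝ}, 0 < u → GG n Φ u w =
      ∫ p in fdE n, Φ p * ((√u : ℂ) * sph 0 u w' p) ∂H3.vol := by
    intro u hu
    have e : ∀ p, sph 0 u w p = w 0 + sph 0 u w' p := fun p => by
      rw [sph, (hw.summable hu 0 p).of_norm.tsum_eq_add_tsum_ite 0, sph]
      congr 1
      · have : fv 0 p = 0 := by simp [fv_eq, bv]
        simp [gj, this]
      · exact tsum_congr fun x => by simp only [hw']; split_ifs <;> simp
    have hi : IntegrableOn (fun p => Φ p * sph 0 u w' p) (fdE n) H3.vol := by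
      obtain ⟨C, A, hC⟩ := hw'0.isMod_sph hu 0
      refine Integrable.mono ((hΦ.wave.integrable_majSum hu).const_mul (sphC 0 u 0 B))
        (hΦ.wave.cont.mul (hw'0.continuous_sph hu 0)).aestronglyMeasurable (ae_of_all _ fun p => ?_)
      rw [norm_mul, Real.norm_of_nonneg (by
        have := majSum_nonneg u p; unfold sphC; positivity), mul_left_comm]
      exact mul_le_mul_of_nonneg_left (norm_sph_le hw'0
        (fun x => by simp only [hw']; split_ifs <;> simp [hB0, hB x]) hB0 hu 0 p) (norm_nonneg _)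
    rw [GG, FF, ← integral_const_mul]
    simp only [e, mul_add]
    rw [integral_add, show (fun p => (√u : ℂ) * (Φ p * w 0)) = fun p => ((√u : ℂ) * w 0) * Φ p from
      funext fun p => by ring, integral_const_mul, hΦ.integral_eq_zero, mul_zero, zero_add]
    · exact integral_congr_ae (ae_of_all _ fun p => by ring)
    · exact (hΦ.wave.integrableOn.mul_const _).const_mul _
    · exact hi.const_mul _
  refine Tendsto.congr' (EventuallyEq.symm (eventually_of_mem (Ioi_mem_atTop 0)
    fun u hu => hsplit hu)) ?_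
  rw [show (0 : ℂ) = ∫ p in fdE n, (0 : ℂ) ∂H3.vol by simp]
  have hterm : ∀ u : ℝ, 1 ≤ u → ∀ p x, ‖(√u : ℂ) * (w' x * (gj 0 u x p : ℂ))‖ ≤
      B * (if P3 x = 0 ∧ x ≠ 0 then Real.exp (-(fv x p ^ 2 / 2)) / |fv x p| else 0) := by
    intro u hu p x
    by_cases h : P3 x = 0 ∧ x ≠ 0
    · have hf : 0 < |fv x p| :=
        lt_of_lt_of_le (by have := gau_pos p; positivity) (iso_fv_lower h.1 h.2 p)
      rw [if_pos h, norm_mul, norm_mul, Complex.norm_real, Complex.norm_real,
        Real.norm_of_nonneg (Real.sqrt_nonneg _), Real.norm_of_nonneg (by unfold gj; positivity),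
        mul_left_comm]
      refine mul_le_mul (by simp only [hw', if_neg h.2]; exact hB x) ?_
        (by unfold gj; positivity) hB0
      rw [gj, pow_zero, one_mul, le_div_iff₀ hf, show -(u * fv x p ^ 2) =
        -((u - 1 / 2) * fv x p ^ 2) + -(fv x p ^ 2 / 2) by ring, Real.exp_add,
        show √u * (Real.exp (-((u - 1 / 2) * fv x p ^ 2)) *
            Real.exp (-(fv x p ^ 2 / 2))) * |fv x p| =
          (√u * |fv x p| * Real.exp (-((u - 1 / 2) * fv x p ^ 2))) *
            Real.exp (-(fv x p ^ 2 / 2)) by ring]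
      refine mul_le_of_le_one_left (Real.exp_pos _).le ?_
      rw [Real.exp_neg, ← div_eq_mul_inv, div_le_one (Real.exp_pos _)]
      refine le_trans ?_ (Real.add_one_le_exp _)
      nlinarith [sq_nonneg (√u * |fv x p| - 1), Real.sq_sqrt (show (0 : ℝ) ≤ u by linarith),
        sq_abs (fv x p)]
    · rw [if_neg h]
      have : w' x = 0 := by
        simp only [hw']
        split_ifs with hx
        · rfl
        · exact hw.supp x fun h0 => h ⟨h0, hx⟩
      simp [this]
  refine tendsto_integral_filter_of_dominated_convergence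
    (fun p => B * (‖Φ p‖ * isoSum p)) ?_ ?_ ?_ ?_
  · filter_upwards [Ioi_mem_atTop (0 : ℝ)] with u hu
    exact (hΦ.wave.cont.mul (continuous_const.mul (hw'0.continuous_sph hu 0))).aestronglyMeasurable
  · filter_upwards [eventually_ge_atTop 1] with u hu
    refine ae_of_all _ fun p => ?_
    rw [norm_mul, mul_left_comm]
    refine mul_le_mul_of_nonneg_left ?_ (norm_nonneg _)
    rw [sph, ← tsum_mul_left, isoSum, ← tsum_mul_left]
    exact tsum_of_norm_bounded ((summable_iso p).mul_left B).hasSum (hterm u hu p)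
  · have h := ((hΦ.wave.integrableOn_mul (Ψ := fun p => (isoSum p : ℂ))
      (Complex.continuous_ofReal.comp continuous_isoSum) isMod_isoSum
      fun g _ p => by rw [isoSum_smul]).norm).const_mul B
    refine h.congr (ae_of_all _ fun p => ?_)
    show B * ‖Φ p * (isoSum p : ℂ)‖ = _
    have h0 : 0 ≤ isoSum p := tsum_nonneg fun x => by split_ifs <;> positivity
    rw [norm_mul, Complex.norm_real, Real.norm_of_nonneg h0]
  · refine ae_of_all _ fun p => ?_
    rw [show (0 : ℂ) = Φ p * ∑' x : Vec, (0 : ℂ) by simp]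
    simp only [sph, ← tsum_mul_left]
    refine tendsto_tsum_of_dominated_convergence ((summable_iso p).mul_left (‖Φ p‖ * B))
      (fun x => ?_) ?_
    · rw [mul_zero]
      by_cases h : P3 x = 0 ∧ x ≠ 0
      · have hf : 0 < |fv x p| :=
          lt_of_lt_of_le (by have := gau_pos p; positivity) (iso_fv_lower h.1 h.2 p)
        have hf2 : 0 < fv x p ^ 2 := by rw [← sq_abs]; positivity
        have hlim : Tendsto (fun u => √u * Real.exp (-(u * fv x p ^ 2))) atTop (𝓝 0) := by
          have h1 := ((Real.tendsto_pow_mul_exp_neg_atTop_nhds_zero 1).comp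
            (tendsto_id.atTop_mul_const hf2)).const_mul (fv x p ^ 2)⁻¹
          rw [mul_zero] at h1
          refine squeeze_zero' (Eventually.of_forall fun u => by positivity) ?_ h1
          filter_upwards [eventually_ge_atTop 1] with u hu
          simp only [Function.comp_apply, id, pow_one]
          rw [← mul_assoc, ← mul_assoc, mul_comm _ u, mul_assoc u, inv_mul_cancel₀ hf2.ne', mul_one]
          exact mul_le_mul_of_nonneg_right (Real.sqrt_le_iff.2 ⟨by linarith, by nlinarith⟩)
            (Real.exp_pos _).le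
        have := ((Complex.continuous_ofReal.tendsto 0).comp hlim).const_mul (Φ p * w' x)
        simp only [Complex.ofReal_zero, mul_zero] at this
        refine this.congr fun u => ?_
        simp [gj]; ring
      · have : w' x = 0 := by
          simp only [hw']
          split_ifs with hx
          · rfl
          · exact hw.supp x fun h0 => h ⟨h0, hx⟩
        simp [this]
    · filter_upwards [eventually_ge_atTop 1] with u hu x
      rw [norm_mul, mul_assoc]
      exact mul_le_mul_of_nonneg_left (hterm u hu p x) (norm_nonneg _)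

/-- Nothing is left at level zero. -/
theorem GG_zero (hΦ : IsCusp n Φ) (hw : IsLev 0 w) (hwi : ∀ g ∈ congE n, ∀ x, w (g • x) = w x)
    {u : ℝ} (hu : 0 < u) : GG n Φ u w = 0 ∧ cCoef n Φ 0 w = 0 := by
  set c := cCoef n Φ 0 w
  have hconst : ∀ v : ℝ, 0 < v → GG n Φ v w - c * (Real.log v : ℂ) = GG n Φ 1 w := by
    intro v hv
    have hd : ∀ r : ℝ, 0 < r →
        HasDerivAt (fun r => GG n Φ r w - c * (Real.log r : ℂ)) 0 r := fun r hr =>
      ((hasDerivAt_GG hΦ.wave hw hwi hr).sub
        ((Real.hasDerivAt_log hr.ne').ofReal_comp.const_mul c)).congr_deriv (by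
          rw [GD_eq hΦ hw hwi hr]; simp [c, div_eq_mul_inv])
    have := IsOpen.is_const_of_deriv_eq_zero isOpen_Ioi isPreconnected_Ioi
      (fun r hr => (hd r hr).differentiableAt.differentiableWithinAt) (fun r hr => (hd r hr).deriv)
      hv (mem_Ioi.2 one_pos)
    simpa using this
  have hlim := tendsto_GG_zero hΦ hw
  have hc : c = 0 := by
    have h2 : Tendsto (fun v : ℝ => GG n Φ (Real.exp 1 * v) w - GG n Φ v w) atTop (𝓝 0) := by
      simpa using (hlim.comp (tendsto_id.const_mul_atTop (Real.exp_pos 1))).sub hlim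
    refine tendsto_nhds_unique (tendsto_const_nhds (x := c) (f := (atTop : Filter ℝ)))
      (h2.congr' ?_)
    filter_upwards [Ioi_mem_atTop (0 : ℝ)] with v hv
    have hv' : (0 : ℝ) < v := hv
    have a1 := hconst _ (mul_pos (Real.exp_pos 1) hv')
    have a2 := hconst v hv'
    rw [Real.log_mul (Real.exp_pos 1).ne' hv'.ne', Real.log_exp, Complex.ofReal_add,
      Complex.ofReal_one] at a1
    linear_combination a1 - a2
  refine ⟨?_, hc⟩
  have h1 : GG n Φ 1 w = 0 := tendsto_nhds_unique (tendsto_const_nhds (f := (atTop : Filter ℝ)))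
    (hlim.congr' (by
      filter_upwards [Ioi_mem_atTop (0 : ℝ)] with v hv
      simpa [hc] using hconst v hv))
  simpa [hc, h1] using hconst u hu

/-! ## The series -/

/-- The lift to the upper half plane: the integral of `Φ` against the theta series. -/
def Lam (n k : ℕ) (Φ : H3 → ℂ) (w : Vec → ℂ) (τ : ℍ) : ℂ :=
  ∫ p in fdE n, Φ p * theta k w τ p ∂H3.vol

/-- The exponentials. -/
def qq (k : ℕ) (m : ℤ) (τ : ℂ) : ℂ := Complex.exp (2 * π * Complex.I * m * τ / (3 * k))

/-- The absolute value of an exponential. -/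
lemma norm_qq (k : ℕ) (m : ℤ) (τ : ℂ) :
    ‖qq k m τ‖ = Real.exp (-(2 * (π * τ.im / k) * (m / 3))) := by
  rw [qq, Complex.norm_exp, show (2 * (π : ℂ) * Complex.I * m * τ / (3 * k)) =
    ((2 * π * m / (3 * k) : ℝ) : ℂ) * (Complex.I * τ) by push_cast; ring, Complex.re_ofReal_mul,
    Complex.I_mul_re]
  ring_nf

lemma gss_level {x : Vec} (hx : P3 x = m) (τ : ℂ) (p : H3) :
    gss k τ p x = qq k m τ * (Real.exp (-(π * τ.im / k * fv x p ^ 2)) : ℂ) := by
  rw [gss, qq, qf, hx, Complex.ofReal_exp, ← Complex.exp_add]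
  push_cast
  ring_nf

variable [NeZero k]

/-- The lift is the sum of the integrals against the gaussians. -/
theorem hasSum_integral_gss (hΦ : IsWave n Φ) {B : ℝ} (hB : ∀ x, ‖w x‖ ≤ B) (τ : ℍ) :
    HasSum (fun x : Vec => ∫ p in fdE n, Φ p * ((√τ.im : ℂ) * (w x * gss k τ p x)) ∂H3.vol)
      (Lam n k Φ w τ) := by
  have hv := rate_pos (k := k) τ
  refine hasSum_integral_of_dominated_convergence (μ := H3.vol.restrict (fdE n))
    (F := fun x p => Φ p * ((√τ.im : ℂ) * (w x * gss k τ p x)))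
    (bound := fun x p => ‖Φ p‖ * (√τ.im * (B * Real.exp (-(2 * π * τ.im / k * maj x p)))))
    (fun x => (hΦ.cont.mul (continuous_const.mul
      (continuous_const.mul (continuous_gss (τ : ℂ) x)))).aestronglyMeasurable)
    (fun x => ae_of_all _ fun p => ?_) (ae_of_all _ fun p => ?_) ?_ (ae_of_all _ fun p => ?_)
  · rw [norm_mul, norm_mul, Complex.norm_real, Real.norm_of_nonneg (Real.sqrt_nonneg _)]
    exact mul_le_mul_of_nonneg_left (mul_le_mul_of_nonneg_left (norm_term_le hB _ p x)
      (Real.sqrt_nonneg _)) (norm_nonneg _)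
  · exact (((summable_maj hv p).mul_left B).mul_left _).mul_left _
  · refine (((hΦ.integrable_majSum hv).const_mul B).const_mul (√τ.im)).congr
      (ae_of_all _ fun p => ?_)
    simp only [majSum, tsum_mul_left, UpperHalfPlane.coe_im]
    ring
  · have hs : Summable fun x => ‖w x * gss k τ p x‖ :=
      ((summable_maj hv p).mul_left B).of_nonneg_of_le (fun _ => norm_nonneg _)
        fun x => norm_term_le hB _ p x
    exact (hs.of_norm.hasSum.mul_left _).mul_left _

/-- The lift is the series of its levels. -/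
theorem hasSum_Lam (hΦ : IsWave n Φ) {B : ℝ} (hB0 : 0 ≤ B) (hB : ∀ x, ‖w x‖ ≤ B) (τ : ℍ) :
    HasSum (fun m : ℤ => (√(k / π) : ℂ) * GG n Φ (π * τ.im / k) (lev m w) * qq k m τ)
      (Lam n k Φ w τ) := by
  classical
  have hk : (0 : ℝ) < k := by exact_mod_cast Nat.pos_of_neZero k
  have hv : 0 < τ.im := τ.im_pos
  have hfib : ∀ m : ℤ, Lam n k Φ (lev m w) τ =
      (√(k / π) : ℂ) * GG n Φ (π * τ.im / k) (lev m w) * qq k m τ := by
    intro m
    have e : ∀ p, theta k (lev m w) τ p =
        (√τ.im : ℂ) * qq k m τ * sph 0 (π * τ.im / k) (lev m w) p := fun p => by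
      rw [theta, mul_assoc, sph, ← tsum_mul_left (a := qq k m (τ : ℂ))]
      congr 1
      refine tsum_congr fun x => ?_
      by_cases hx : P3 x = m
      · rw [gss_level hx, gj, pow_zero, one_mul, UpperHalfPlane.coe_im]; ring
      · simp [lev, hx]
    rw [Lam, GG, FF, mul_comm ((√(k / π) : ℝ) : ℂ), mul_assoc, mul_assoc]
    simp only [e, ← integral_const_mul, ← integral_mul_const]
    refine integral_congr_ae (ae_of_all _ fun p => ?_)
    dsimp only
    have hs : (√(π * τ.im / k) : ℂ) * (√(k / π) : ℂ) = (√τ.im : ℂ) := by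
      rw [← Complex.ofReal_mul, ← Real.sqrt_mul (by positivity)]
      congr 2
      field_simp
    rw [← hs]; ring
  set T : Vec → ℂ := fun x => ∫ p in fdE n, Φ p * ((√τ.im : ℂ) * (w x * gss k τ p x)) ∂H3.vol
  refine HasSum.sigma (γ := fun m : ℤ => {x : Vec // P3 x = m})
    (f := fun z => T z.2.1) ((Equiv.sigmaFiberEquiv P3).hasSum_iff.2 (hasSum_integral_gss hΦ hB τ))
    fun m => ?_
  rw [← hfib m]
  have h := hasSum_integral_gss (k := k) hΦ (norm_lev_le hB0 hB m) τ
  refine (hasSum_subtype_iff_indicator (s := {x | P3 x = m}) (f := T)).2 (h.congr_fun fun x => ?_)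
  by_cases hx : P3 x = m
  · rw [indicator_of_mem (show x ∈ {x | P3 x = m} from hx)]
    simp [T, lev, hx]
  · rw [indicator_of_notMem (show x ∉ {x | P3 x = m} from hx)]
    simp [lev, hx]

omit [NeZero k] in
/-- Bounds on the levels. -/
theorem exists_slice_bound (hΦ : IsCusp n Φ) {B : ℝ} (hB0 : 0 ≤ B) (hB : ∀ x, ‖w x‖ ≤ B)
    (hwi : ∀ g ∈ congE n, ∀ x, w (g • x) = w x) :
    ∃ K : ℝ, 0 ≤ K ∧ ∀ m : ℤ,
      ‖cCoef n Φ m (lev m w)‖ ≤ K * (1 + |(m : ℝ)|) ^ 4 ∧
      ∀ u : ℝ, 0 < u → ‖GG n Φ u (lev m w)‖ * Real.exp (-(2 * u * (m / 3))) ≤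
        K * (1 + |(m : ℝ)|) ^ 4 * ((1 + u) * (1 + 1 / u) ^ 4) *
          Real.exp (-(u * |(m : ℝ)| / 2)) := by
  obtain ⟨K0, hK0, hK⟩ := exists_MM_le hΦ.wave
  set K := (5 * Real.exp 3 + 1) * B * K0 * 800 ^ 4
  have hK' : 0 ≤ K := by positivity
  refine ⟨K, hK', fun m => ?_⟩
  have hw := isLev_lev hB0 hB m
  have hi := lev_inv hwi m
  have hBl := norm_lev_le hB0 hB m
  rcases lt_trichotomy m 0 with hm | hm | hm
  · have hm' : (m : ℝ) ≤ -1 := by exact_mod_cast (by omega : m ≤ -1)
    have habs : |(m : ℝ)| = -m := abs_of_neg (by linarith)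
    refine ⟨?_, fun u hu => ?_⟩
    · have hu0 : (0 : ℝ) < 3 / -m := div_pos (by norm_num) (by linarith)
      refine (norm_cCoef_le hΦ hw hi hB0 hBl hu0).trans ?_
      have hs : √(3 / -(m : ℝ)) ≤ 2 :=
        Real.sqrt_le_iff.2 ⟨by norm_num, by rw [div_le_iff₀ (by linarith)]; linarith⟩
      have he : Real.exp (-(3 * (3 / -(m : ℝ)) * (m / 3))) = Real.exp 3 := by
        congr 1
        have : (m : ℝ) ≠ 0 := by linarith
        field_simp
      have hM : MM n Φ (3 / -(m : ℝ)) ≤ K0 * (800 ^ 4 * (1 + |(m : ℝ)|) ^ 4) := by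
        refine (hK _ hu0).trans (mul_le_mul_of_nonneg_left ?_ hK0)
        rw [← mul_pow, habs]
        refine pow_le_pow_left₀ (by positivity) ?_ 4
        rw [div_div_eq_mul_div]; linarith
      rw [he]
      calc 5 / 2 * B * √(3 / -(m : ℝ)) * Real.exp 3 * MM n Φ (3 / -(m : ℝ))
          ≤ 5 / 2 * B * 2 * Real.exp 3 * (K0 * (800 ^ 4 * (1 + |(m : ℝ)|) ^ 4)) := by
            refine mul_le_mul (mul_le_mul_of_nonneg_right (mul_le_mul_of_nonneg_left hs
              (by positivity)) (Real.exp_pos _).le) hM (MM_nonneg _) (by positivity)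
        _ = 5 * Real.exp 3 * B * K0 * 800 ^ 4 * (1 + |(m : ℝ)|) ^ 4 := by ring
        _ ≤ _ := by
            refine mul_le_mul_of_nonneg_right ?_ (by positivity)
            have : 0 ≤ B * K0 := by positivity
            nlinarith
    · rw [GG, norm_mul, Complex.norm_real, Real.norm_of_nonneg (Real.sqrt_nonneg _)]
      have hM : MM n Φ (u / 2) ≤ K0 * (800 ^ 4 * (1 + 1 / u) ^ 4) := by
        refine (hK _ (half_pos hu)).trans (mul_le_mul_of_nonneg_left ?_ hK0)
        rw [← mul_pow, div_div_eq_mul_div, mul_one_add, mul_one_div]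
        refine pow_le_pow_left₀ (by positivity) ?_ 4
        norm_num
      calc √u * ‖FF n Φ 0 u (lev m w)‖ * Real.exp (-(2 * u * (m / 3)))
          ≤ (1 + u) * (B * Real.exp (7 / 2 * u * (m / 3)) * (K0 * (800 ^ 4 * (1 + 1 / u) ^ 4))) *
              Real.exp (-(2 * u * (m / 3))) := by
            refine mul_le_mul_of_nonneg_right (mul_le_mul (Real.sqrt_le_iff.2
              ⟨by positivity, by nlinarith⟩) ((norm_FF_neg_le hΦ.wave hw hB0 hBl hu).trans
                (mul_le_mul_of_nonneg_left hM (by positivity))) (norm_nonneg _) (by positivity))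
              (Real.exp_pos _).le
        _ = B * K0 * 800 ^ 4 * 1 * ((1 + u) * (1 + 1 / u) ^ 4) *
              Real.exp (-(u * |(m : ℝ)| / 2)) := by
            rw [habs, show -(u * -(m : ℝ) / 2) = 7 / 2 * u * (m / 3) + -(2 * u * (m / 3)) by ring,
              Real.exp_add]
            ring
        _ ≤ _ := by
            refine mul_le_mul_of_nonneg_right (mul_le_mul_of_nonneg_right ?_ (by positivity))
              (Real.exp_pos _).le
            refine mul_le_mul ?_ (one_le_pow₀ (by linarith [abs_nonneg (m : ℝ)])) zero_le_one hK'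
            have := Real.exp_pos 3
            have : 0 ≤ B * K0 := by positivity
            nlinarith
  · subst hm
    refine ⟨?_, fun u hu => ?_⟩
    · rw [(GG_zero hΦ hw hi one_pos).2, norm_zero]; positivity
    · rw [(GG_zero hΦ hw hi hu).1, norm_zero, zero_mul]; positivity
  · have hm' : (1 : ℝ) ≤ (m : ℝ) := by exact_mod_cast hm
    have habs : |(m : ℝ)| = m := abs_of_pos (by linarith)
    refine ⟨by rw [cCoef_pos hΦ hw hi hm, norm_zero]; positivity, fun u hu => ?_⟩
    have hu0 : (0 : ℝ) < 3 / m := div_pos (by norm_num) (by linarith)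
    have hG : ‖GG n Φ u (lev m w)‖ ≤ K * (1 + |(m : ℝ)|) ^ 4 := by
      rw [GG_pos hΦ hw hi hm hu, ← GG_pos hΦ hw hi hm hu0, GG, norm_mul, Complex.norm_real,
        Real.norm_of_nonneg (Real.sqrt_nonneg _)]
      have hs : √(3 / (m : ℝ)) ≤ 2 :=
        Real.sqrt_le_iff.2 ⟨by norm_num, by rw [div_le_iff₀ (by linarith)]; linarith⟩
      have hF := norm_FF_le hΦ.wave hw hB0 hBl hu0 0
      have hM : MM n Φ (3 / (m : ℝ)) ≤ K0 * (800 ^ 4 * (1 + |(m : ℝ)|) ^ 4) := by
        refine (hK _ hu0).trans (mul_le_mul_of_nonneg_left ?_ hK0)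
        rw [← mul_pow, habs]
        refine pow_le_pow_left₀ (by positivity) ?_ 4
        rw [div_div_eq_mul_div]; linarith
      have hsph : sphC 0 (3 / (m : ℝ)) m B = B * Real.exp 1 := by
        have : (m : ℝ) ≠ 0 := by linarith
        rw [sphC, show 3 / (m : ℝ) * ((m : ℝ) / 3) = 1 by field_simp]
        simp
      rw [hsph] at hF
      calc √(3 / (m : ℝ)) * ‖FF n Φ 0 (3 / (m : ℝ)) (lev m w)‖
          ≤ 2 * (B * Real.exp 1 * (K0 * (800 ^ 4 * (1 + |(m : ℝ)|) ^ 4))) :=
            mul_le_mul hs (hF.trans (mul_le_mul_of_nonneg_left hM (by positivity))) (norm_nonneg _)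
              (by norm_num)
        _ = 2 * Real.exp 1 * B * K0 * 800 ^ 4 * (1 + |(m : ℝ)|) ^ 4 := by ring
        _ ≤ _ := by
            refine mul_le_mul_of_nonneg_right ?_ (by positivity)
            have h13 : Real.exp 1 ≤ Real.exp 3 := Real.exp_le_exp.2 (by norm_num)
            have := Real.exp_pos 3
            have : 0 ≤ B * K0 := by positivity
            nlinarith
    refine mul_le_mul (hG.trans (le_mul_of_one_le_right (by positivity) ?_))
      (Real.exp_le_exp.2 (by rw [habs]; nlinarith)) (Real.exp_pos _).le (by positivity)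
    have : (0 : ℝ) ≤ 1 / u := by positivity
    exact one_le_mul_of_one_le_of_one_le (by linarith) (one_le_pow₀ (by linarith))

end FermatAgent.LT.Lift
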