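import Fermat.Agent.LT.Lift.Dichotomy
import Fermat.Agent.LT.Lift.Coef
import Fermat.Agent.LT.Mod3.Defs

/-!
# The weights of the family

The weights are products of components at the primes of the level.  A lift which does not vanish
can be moved, one prime after the other, to standard components.
-/

set_option autoImplicit false

noncomputable section

open Matrix MeasureTheory Finset Complex
open scoped MatrixGroups UpperHalfPlane Real ModularForm

namespace FermatAgent.LT.Lift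

open FermatAgent.LT.Mod3

open Classical in
/-- The class of `v0` at three. -/
def dl9 (x : Vec) : ℂ := if ∃ y, x = v0 + subV 9 y then 1 else 0

/-- The product of the primes. -/
def lvl (Q : Finset Nat.Primes) : ℕ := ∏ q ∈ Q, (q : ℕ)

instance neZeroLvl (Q : Finset Nat.Primes) : NeZero (lvl Q) :=
  ⟨Finset.prod_ne_zero_iff.2 fun q _ => q.2.ne_zero⟩

/-- The weights. -/
def wt (Q : Finset Nat.Primes) (F : ∀ q : Nat.Primes, VQ (q : ℕ) → ℂ) (x : Vec) : ℂ :=
  dl9 x * ∏ q ∈ Q, F q (redL (q : ℕ) x)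

variable {Q : Finset Nat.Primes} {F F' : ∀ q : Nat.Primes, VQ (q : ℕ) → ℂ}

/-- The primes divide the level. -/
lemma dvd_lvl {q : Nat.Primes} (hq : q ∈ Q) : (q : ℕ) ∣ lvl Q := dvd_prod_of_mem _ hq

/-- Removing a prime from the level. -/
lemma lvl_erase {q : Nat.Primes} (hq : q ∈ Q) : (q : ℕ) * lvl (Q.erase q) = lvl Q :=
  mul_prod_erase Q (fun q : Nat.Primes => (q : ℕ)) hq

/-- Distinct primes are coprime. -/
lemma coprime_primes {p q : Nat.Primes} (h : p ≠ q) : (p : ℕ).Coprime (q : ℕ) :=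
  (Nat.coprime_primes p.2 q.2).2 fun e => h (Subtype.ext e)

/-- A prime outside is prime to the level. -/
lemma coprime_lvl {q : Nat.Primes} (hq : q ∉ Q) : (q : ℕ).Coprime (lvl Q) :=
  Nat.Coprime.prod_right fun _ hp => coprime_primes fun e => hq (e ▸ hp)

/-- The family weight is periodic. -/
lemma isPer_wt : IsPer (9 * lvl Q) (wt Q F) := by
  classical
  intro x y
  have h9 : subV (9 * lvl Q) y = subV 9 ((lvl Q : ℤ) • y) := by
    rw [mul_comm, subV_mul]
  simp only [wt]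
  congr 1
  · simp only [dl9, h9]
    refine if_congr ⟨fun ⟨z, hz⟩ => ⟨z + -((lvl Q : ℤ) • y), ?_⟩,
      fun ⟨z, hz⟩ => ⟨z + (lvl Q : ℤ) • y, ?_⟩⟩ rfl rfl
    · rw [subV_add, subV_neg, ← add_assoc, ← hz, add_neg_cancel_right]
    · rw [subV_add, hz]; abel
  · refine prod_congr rfl fun q hq => ?_
    obtain ⟨c, hc⟩ := dvd_lvl hq
    rw [map_add, show 9 * lvl Q = (q : ℕ) * (9 * c) by rw [hc]; ring, redL_subV_mul, add_zero]

/-- The family weight depends only on the components at `Q`. -/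
lemma wt_congr (h : ∀ q ∈ Q, F q = F' q) : wt Q F = wt Q F' := by
  funext x
  simp only [wt]
  rw [prod_congr rfl fun q hq => by rw [h q hq]]

/-- The family weight as a twist. -/
lemma wt_eq_tw {q : Nat.Primes} (hq : q ∈ Q) :
    wt Q F = tw (q : ℕ) (wt (Q.erase q) F) (F q) := by
  funext x
  simp only [wt, tw]
  rw [← mul_prod_erase Q _ hq]
  ring

lemma wt_update {q : Nat.Primes} (hq : q ∈ Q) (u : VQ (q : ℕ) → ℂ) :
    wt Q (Function.update F q u) = tw (q : ℕ) (wt (Q.erase q) F) u := by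
  rw [wt_eq_tw hq, Function.update_self,
    wt_congr fun p hp => Function.update_of_ne (mem_erase.1 hp).1 u F]

/-- The orbit weight is a weight of the family. -/
lemma wOrb_eq (hQ : ∀ q ∈ Q, (q : ℕ) ≠ 3) :
    wOrb (lvl Q) = wt Q fun q => dlV (redL (q : ℕ) v0) := by
  classical
  funext x
  simp only [wOrb, wt, dl9, dlV]
  by_cases h : ∃ y, x = v0 + subV (9 * lvl Q) y
  · obtain ⟨y, hy⟩ := h
    rw [if_pos ⟨y, hy⟩, if_pos ⟨(lvl Q : ℤ) • y, by rw [hy, mul_comm, subV_mul]⟩, one_mul,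
      prod_eq_one fun q hq => if_pos ?_]
    obtain ⟨c, hc⟩ := dvd_lvl hq
    rw [hy, map_add, show 9 * lvl Q = (q : ℕ) * (9 * c) by rw [hc]; ring, redL_subV_mul, add_zero]
  · rw [if_neg h]
    symm
    by_cases h9 : ∃ y, x = v0 + subV 9 y
    · obtain ⟨y, rfl⟩ := h9
      rw [if_pos ⟨y, rfl⟩, one_mul]
      by_contra hne
      have hall : ∀ q ∈ Q, redL (q : ℕ) (v0 + subV 9 y) = redL (q : ℕ) v0 := fun q hq =>
        by_contra fun hc => prod_ne_zero_iff.1 hne q hq (if_neg hc)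
      have hdvd : ∀ q ∈ Q, ((q : ℕ) : ℤ) ∣ y.1 ∧ ((q : ℕ) : ℤ) ∣ y.2.1 ∧
          ((q : ℕ) : ℤ) ∣ y.2.2.re ∧ ((q : ℕ) : ℤ) ∣ y.2.2.im := by
        intro q hq
        have h3 : ((3 : ℕ) : ZMod (q : ℕ)) ≠ 0 := fun h => hQ q hq (by
          rw [ZMod.natCast_eq_zero_iff] at h
          exact (Nat.prime_dvd_prime_iff_eq q.2 Nat.prime_three).1 h)
        push_cast at h3
        have h9 : (9 : ZMod (q : ℕ)) ≠ 0 := by
          rw [show (9 : ZMod (q : ℕ)) = 3 * 3 by norm_num]; exact mul_ne_zero h3 h3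
        have e := hall q hq
        rw [map_add, add_eq_left] at e
        have e1 : (9 : ZMod (q : ℕ)) * (y.1 : ZMod (q : ℕ)) = 0 := by
          simpa [redL, subV] using congrArg Prod.fst e
        have e2 : (9 : ZMod (q : ℕ)) * (y.2.1 : ZMod (q : ℕ)) = 0 := by
          simpa [redL, subV] using congrArg (fun v : VQ (q : ℕ) => v.2.1) e
        have e3 : ((((9 : ℕ) : Eis) * (thE * y.2.2)).re : ZMod (q : ℕ)) = 0 :=
          congrArg (fun v : VQ (q : ℕ) => v.2.2.re) e
        have e4 : ((((9 : ℕ) : Eis) * (thE * y.2.2)).im : ZMod (q : ℕ)) = 0 :=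
          congrArg (fun v : VQ (q : ℕ) => v.2.2.im) e
        rw [subV_re] at e3
        rw [subV_im] at e4
        push_cast at e3 e4
        simp only [← ZMod.intCast_zmod_eq_zero_iff_dvd]
        refine ⟨(mul_eq_zero.1 e1).resolve_left h9, (mul_eq_zero.1 e2).resolve_left h9,
          (mul_eq_zero.1 ?_).resolve_left (mul_ne_zero h9 h3),
          (mul_eq_zero.1 ?_).resolve_left (mul_ne_zero h9 h3)⟩
        · linear_combination 2 * e4 - e3
        · linear_combination e4 - 2 * e3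
      have hM : ∀ z : ℤ, (∀ q ∈ Q, ((q : ℕ) : ℤ) ∣ z) → (lvl Q : ℤ) ∣ z := fun z hz => by
        rw [lvl, Nat.cast_prod]
        exact Finset.prod_dvd_of_coprime (fun a _ b _ hab =>
          Nat.Coprime.cast (R := ℤ) (coprime_primes hab)) hz
      obtain ⟨a, ha⟩ := hM _ fun q hq => (hdvd q hq).1
      obtain ⟨b, hb⟩ := hM _ fun q hq => (hdvd q hq).2.1
      obtain ⟨c, hc⟩ := hM _ fun q hq => (hdvd q hq).2.2.1
      obtain ⟨d, hd⟩ := hM _ fun q hq => (hdvd q hq).2.2.2
      refine h ⟨(a, b, ⟨c, d⟩), ?_⟩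
      rw [mul_comm 9 (lvl Q), subV_mul]
      congr 2
      refine Prod.ext ?_ (Prod.ext ?_ ?_)
      · rw [zsmul_fst, ha]
      · rw [zsmul_snd_fst, hb]
      · rw [zsmul_snd_snd]
        ext
        · simp [hc]
        · simp [hd]
    · rw [if_neg h9, zero_mul]

/-! ## Standard components -/

/-- The inverse of the complementary level. -/
def rhoQ (Q : Finset Nat.Primes) (q : Nat.Primes) : ZMod (q : ℕ) :=
  ((27 * lvl (Q.erase q) : ℕ) : ZMod (q : ℕ))⁻¹

/-- A prime is prime to the remaining period. -/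
lemma coprime_rest (hQ : ∀ q ∈ Q, (q : ℕ) ≠ 3) {q : Nat.Primes} (hq : q ∈ Q) :
    (q : ℕ).Coprime (3 * (9 * lvl (Q.erase q))) := by
  have h3 : (q : ℕ).Coprime 3 := (Nat.coprime_primes q.2 Nat.prime_three).2 (hQ q hq)
  rw [show 3 * (9 * lvl (Q.erase q)) = 3 ^ 3 * lvl (Q.erase q) by ring]
  exact (Nat.Coprime.pow_right 3 h3).mul_right (coprime_lvl (notMem_erase q Q))

/-- The scaling constant is nonzero. -/
lemma rhoQ_ne_zero (hQ : ∀ q ∈ Q, (q : ℕ) ≠ 3) {q : Nat.Primes} (hq : q ∈ Q) : rhoQ Q q ≠ 0 := by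
  refine inv_ne_zero fun h => ?_
  rw [ZMod.natCast_eq_zero_iff] at h
  have h' := coprime_rest hQ hq
  rw [show 3 * (9 * lvl (Q.erase q)) = 27 * lvl (Q.erase q) by ring] at h'
  exact (Nat.Prime.coprime_iff_not_dvd q.2).1 h' h

/-- The transformation by the cubic characters. -/
def IsTyped (Q : Finset Nat.Primes) (κ : ∀ q : Nat.Primes, MulChar (EisMod (q : ℕ)) ℂ)
    (Φ : H3 → ℂ) : Prop :=
  ∀ g ∈ congE 27, (∀ q ∈ Q, redE (q : ℕ) (g.1 1 0) = 0) →
    ∀ p, Φ (g • p) = (∏ q ∈ Q, κ q (redE (q : ℕ) (g.1 0 0))) * Φ p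

open Classical in
/-- The members of the family. -/
def famW (Q S : Finset Nat.Primes) (κ : ∀ q : Nat.Primes, MulChar (EisMod (q : ℕ)) ℂ)
    (F : ∀ q : Nat.Primes, VQ (q : ℕ) → ℂ) (l : ∀ q : Nat.Primes, ZMod (q : ℕ)) (q : Nat.Primes) :
    VQ (q : ℕ) → ℂ :=
  if q ∈ S then famU (κ q) (rhoQ Q q) (l q) else F q

variable {κ : ∀ q : Nat.Primes, MulChar (EisMod (q : ℕ)) ℂ} {Φ : H3 → ℂ}

lemma IsTyped.at_prime (h : IsTyped Q κ Φ) {q : Nat.Primes} (hq : q ∈ Q) :
    ∀ g ∈ congE (3 * (9 * lvl (Q.erase q))), redE (q : ℕ) (g.1 1 0) = 0 →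
      ∀ p, Φ (g • p) = κ q (redE (q : ℕ) (g.1 0 0)) * Φ p := by
  intro g hg h10 p
  have h27 : g ∈ congE 27 := congE_anti ⟨lvl (Q.erase q), by ring⟩ hg
  have hother : ∀ p ∈ Q.erase q, ∀ i j,
      redE (p : ℕ) (g.1 i j - (1 : Matrix (Fin 2) (Fin 2) Eis) i j) = 0 := fun p hp =>
    mem_congE_iff.1 (congE_anti ((dvd_lvl hp).trans ⟨27, by ring⟩) hg)
  rw [h g h27 (fun p hp => ?_) p, ← mul_prod_erase Q _ hq, prod_eq_one fun p hp => ?_, mul_one]
  · have h' := hother p hp 0 0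
    rw [map_sub, Matrix.one_apply_eq, map_one, sub_eq_zero] at h'
    rw [h', map_one]
  · rcases eq_or_ne p q with rfl | hpq
    · exact h10
    · have h' := hother p (mem_erase.2 ⟨hpq, hp⟩) 1 0
      rwa [map_sub, Matrix.one_apply_ne (by decide), map_zero, sub_zero] at h'

/-- Standard components at the primes of `P`: cuspidal on `S`, where `q ≡ 2 (mod 3)` and the cubic
character is nontrivial and trivial on the scalars, principal series elsewhere. -/
structure IsStandard (P S : Finset Nat.Primes)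
    (κ : ∀ q : Nat.Primes, MulChar (EisMod (q : ℕ)) ℂ) (χ : ∀ q : Nat.Primes, ZMod (q : ℕ) → ℂ)
    (F : ∀ q : Nat.Primes, VQ (q : ℕ) → ℂ) : Prop where
  subset : S ⊆ P
  ps : ∀ q ∈ P, q ∉ S → IsPS (χ q) (F q)
  cusp : ∀ q ∈ S, (q : ℕ) % 3 = 2 ∧ (∀ t, t ≠ 0 → κ q (cQ t) = 1) ∧ κ q ≠ 1

/-- A nonzero lift of a typed function can be moved, one prime at a time, to a nonzero lift with
standard components at all the primes of the level. -/
theorem exists_family (hΦ : IsWave (27 * lvl Q) Φ) (hQ : ∀ q ∈ Q, (q : ℕ) ≠ 3)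
    (hκ : ∀ q ∈ Q, κ q ^ 3 = 1) (hty : IsTyped Q κ Φ) {F₀ : ∀ q : Nat.Primes, VQ (q : ℕ) → ℂ}
    (hne : Lam (27 * lvl Q) (9 * lvl Q) Φ (wt Q F₀) ≠ 0) :
    ∃ (S : Finset Nat.Primes) (χ : ∀ q : Nat.Primes, ZMod (q : ℕ) → ℂ)
      (F : ∀ q : Nat.Primes, VQ (q : ℕ) → ℂ) (l : ∀ q : Nat.Primes, ZMod (q : ℕ)),
      IsStandard Q S κ χ F ∧
      Lam (27 * lvl Q) (9 * lvl Q) Φ (wt Q (famW Q S κ F l)) ≠ 0 := by
  classical
  suffices h : ∀ P ⊆ Q, ∃ (S : Finset Nat.Primes) (χ : ∀ q : Nat.Primes, ZMod (q : ℕ) → ℂ)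
      (F : ∀ q : Nat.Primes, VQ (q : ℕ) → ℂ) (l : ∀ q : Nat.Primes, ZMod (q : ℕ)),
      IsStandard P S κ χ F ∧
      Lam (27 * lvl Q) (9 * lvl Q) Φ (wt Q (famW Q S κ F l)) ≠ 0 from h Q subset_rfl
  intro P hP
  induction P using Finset.induction with
  | empty =>
    refine ⟨∅, fun _ _ => 1, F₀, fun _ => 0, ⟨subset_rfl, fun q hq => absurd hq (notMem_empty q),
      fun q hq => absurd hq (notMem_empty q)⟩, ?_⟩
    rwa [wt_congr (F' := F₀) fun q _ => by rw [famW, if_neg (notMem_empty q)]]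
  | insert a P ha ih =>
    obtain ⟨S, χ, F, l, ⟨hS, hPS, hcu⟩, hLam⟩ := ih ((subset_insert a P).trans hP)
    have haQ : a ∈ Q := hP (mem_insert_self a P)
    have haS : a ∉ S := fun h => ha (hS h)
    obtain ⟨τ, hτ⟩ := Function.ne_iff.1 hLam
    have hk : (a : ℕ) * (9 * lvl (Q.erase a)) = 9 * lvl Q := by rw [← lvl_erase haQ]; ring
    rw [wt_eq_tw haQ, ← hk] at hτ
    have hd := dichotomy (n := 27 * lvl Q) (Φ := Φ) (κ := κ a)
      (R := wt (Q.erase a) (famW Q S κ F l)) (k := 9 * lvl (Q.erase a)) ⟨1, by rw [hk]; ring⟩ hΦ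
      isPer_wt (coprime_rest hQ haQ) (hty.at_prime haQ) (hκ a haQ) (rhoQ_ne_zero hQ haQ) hτ
    rw [hk] at hd
    rcases hd with ⟨χa, u, hu, hne'⟩ | ⟨h2, hs, hk1, la, hne'⟩
    · refine ⟨S, Function.update χ a χa, Function.update F a u, l, ⟨hS.trans (subset_insert a P),
        fun q hq hqS => ?_, hcu⟩, ?_⟩
      · rcases mem_insert.1 hq with rfl | hq'
        · rwa [Function.update_self, Function.update_self]
        · have hqa : q ≠ a := fun e => ha (e ▸ hq')
          rw [Function.update_of_ne hqa, Function.update_of_ne hqa]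
          exact hPS q hq' hqS
      · rwa [wt_congr (F' := Function.update (famW Q S κ F l) a u) fun q _ => ?_, wt_update haQ]
        rcases eq_or_ne q a with rfl | hqa
        · rw [Function.update_self, famW, if_neg haS, Function.update_self]
        · rw [Function.update_of_ne hqa, famW, famW, Function.update_of_ne hqa]
    · refine ⟨insert a S, χ, F, Function.update l a la, ⟨insert_subset_insert a hS,
        fun q hq hqS => ?_, fun q hq => ?_⟩, ?_⟩
      · simp only [mem_insert, not_or] at hqS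
        exact hPS q ((mem_insert.1 hq).resolve_left hqS.1) hqS.2
      · rcases mem_insert.1 hq with rfl | hq'
        · exact ⟨h2, hs, hk1⟩
        · exact hcu q hq'
      · rwa [wt_congr (F' := Function.update (famW Q S κ F l) a (famU (κ a) (rhoQ Q a) la))
          fun q _ => ?_, wt_update haQ]
        rcases eq_or_ne q a with rfl | hqa
        · rw [Function.update_self, famW, if_pos (mem_insert_self _ _), Function.update_self]
        · simp [famW, hqa]

end FermatAgent.LT.Lift
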