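import Fermat.Agent.LT.Lift.Fold

/-!
# Radial kernels and the Casimir operator

A radial kernel applied to a function of the hermitian form `fval X` commutes with the Laplacian:
boosts and rotations at the base point give the identity without changing coordinates.
-/

set_option autoImplicit false

noncomputable section

open Matrix MeasureTheory Filter Topology ComplexConjugate
open scoped MatrixGroups ContDiff

namespace FermatAgent.LT.Lift

open Whit (kint IsLocBdd lapK box)

/-- The matrices of the three directions. -/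
def pauli : Fin 3 → Matrix (Fin 2) (Fin 2) ℂ :=
  ![!![0, 1; 1, 0], !![0, -Complex.I; Complex.I, 0], !![1, 0; 0, -1]]

lemma pauli_herm (j : Fin 3) : (pauli j)ᴴ = pauli j := by
  fin_cases j <;> ext i l <;> fin_cases i <;> fin_cases l <;> simp [pauli]

lemma pauli_sq (j : Fin 3) : pauli j * pauli j = 1 := by
  fin_cases j <;> ext i l <;> fin_cases i <;> fin_cases l <;>
    simp [pauli, Matrix.mul_apply, Fin.sum_univ_two]

lemma det_hyp (j : Fin 3) (c d : ℂ) : (c • (1 : Matrix (Fin 2) (Fin 2) ℂ) + d • pauli j).det =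
    c ^ 2 - d ^ 2 := by
  fin_cases j <;> simp [pauli, Matrix.det_fin_two] <;> ring_nf
  simp [Complex.I_sq]
  ring

/-- The derivative of the boost on hermitian matrices. -/
def dB (j : Fin 3) (Y : Matrix (Fin 2) (Fin 2) ℂ) : Matrix (Fin 2) (Fin 2) ℂ :=
  (1 / 2 : ℂ) • (Y * pauli j + pauli j * Y)

/-- The derivative of the rotation on hermitian matrices. -/
def dR (j : Fin 3) (Y : Matrix (Fin 2) (Fin 2) ℂ) : Matrix (Fin 2) (Fin 2) ℂ :=
  (Complex.I / 2) • (pauli j * Y - Y * pauli j)

lemma hyp_conj_boost (j : Fin 3) (s : ℝ) (Y : Matrix (Fin 2) (Fin 2) ℂ) :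
    ((Real.cosh (s / 2) : ℂ) • 1 + (Real.sinh (s / 2) : ℂ) • pauli j) * Y *
      ((Real.cosh (s / 2) : ℂ) • 1 + (Real.sinh (s / 2) : ℂ) • pauli j)ᴴ =
    (1 / 2 : ℂ) • (Y - pauli j * Y * pauli j) +
      (Real.cosh s : ℂ) • ((1 / 2 : ℂ) • (Y + pauli j * Y * pauli j)) +
      (Real.sinh s : ℂ) • dB j Y := by
  have hc : (Real.cosh s : ℂ) =
      (Real.cosh (s / 2) : ℂ) ^ 2 + (Real.sinh (s / 2) : ℂ) ^ 2 := by
    rw [← Complex.ofReal_pow, ← Complex.ofReal_pow, ← Complex.ofReal_add, ← Real.cosh_two_mul]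
    ring_nf
  have hsn : (Real.sinh s : ℂ) = 2 * (Real.sinh (s / 2) : ℂ) * (Real.cosh (s / 2) : ℂ) := by
    rw [show (2 : ℂ) = ((2 : ℝ) : ℂ) by norm_num, ← Complex.ofReal_mul, ← Complex.ofReal_mul,
      ← Real.sinh_two_mul]
    ring_nf
  have h1 : (Real.cosh (s / 2) : ℂ) ^ 2 = (Real.sinh (s / 2) : ℂ) ^ 2 + 1 := by
    rw [← Complex.ofReal_pow, ← Complex.ofReal_pow, Real.cosh_sq]; push_cast; ring
  rw [hc, hsn, dB, Matrix.conjTranspose_add, Matrix.conjTranspose_smul, Matrix.conjTranspose_smul,
    pauli_herm, Matrix.conjTranspose_one]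
  simp only [RCLike.star_def, Complex.conj_ofReal, Matrix.add_mul, Matrix.mul_add, Matrix.smul_mul,
    Matrix.mul_smul, Matrix.one_mul, Matrix.mul_one, smul_smul]
  generalize (Real.cosh (s / 2) : ℂ) = x at *
  generalize (Real.sinh (s / 2) : ℂ) = y at *
  match_scalars <;> first | ring1 | linear_combination (1 / 2 : ℂ) * h1 |
    linear_combination -(1 / 2 : ℂ) * h1

lemma hyp_conj_rot (j : Fin 3) (s : ℝ) (Y : Matrix (Fin 2) (Fin 2) ℂ) :
    ((Real.cos (s / 2) : ℂ) • 1 + ((Real.sin (s / 2) : ℂ) * Complex.I) • pauli j) * Y *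
      ((Real.cos (s / 2) : ℂ) • 1 + ((Real.sin (s / 2) : ℂ) * Complex.I) • pauli j)ᴴ =
    (1 / 2 : ℂ) • (Y + pauli j * Y * pauli j) +
      (Real.cos s : ℂ) • ((1 / 2 : ℂ) • (Y - pauli j * Y * pauli j)) +
      (Real.sin s : ℂ) • dR j Y := by
  have hc : (Real.cos s : ℂ) =
      2 * (Real.cos (s / 2) : ℂ) ^ 2 - 1 := by
    rw [← Complex.ofReal_pow, show (2 : ℂ) = ((2 : ℝ) : ℂ) by norm_num, ← Complex.ofReal_mul,
      show (1 : ℂ) = ((1 : ℝ) : ℂ) by norm_num, ← Complex.ofReal_sub, ← Real.cos_two_mul]
    ring_nf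
  have hsn : (Real.sin s : ℂ) = 2 * (Real.sin (s / 2) : ℂ) * (Real.cos (s / 2) : ℂ) := by
    rw [show (2 : ℂ) = ((2 : ℝ) : ℂ) by norm_num, ← Complex.ofReal_mul, ← Complex.ofReal_mul,
      ← Real.sin_two_mul]
    ring_nf
  have h1 : (Real.sin (s / 2) : ℂ) ^ 2 + (Real.cos (s / 2) : ℂ) ^ 2 = 1 := by
    rw [← Complex.ofReal_pow, ← Complex.ofReal_pow, ← Complex.ofReal_add, Real.sin_sq_add_cos_sq,
      Complex.ofReal_one]
  rw [hc, hsn, dR, Matrix.conjTranspose_add, Matrix.conjTranspose_smul, Matrix.conjTranspose_smul,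
    pauli_herm, Matrix.conjTranspose_one]
  simp only [RCLike.star_def, map_mul, Complex.conj_ofReal, Complex.conj_I, Matrix.add_mul,
    Matrix.mul_add, Matrix.smul_mul, Matrix.mul_smul, Matrix.one_mul, Matrix.mul_one, smul_smul,
    smul_sub]
  generalize (Real.cos (s / 2) : ℂ) = x at *
  generalize (Real.sin (s / 2) : ℂ) = y at *
  have hI := Complex.I_sq
  generalize Complex.I = i at *
  match_scalars <;> first | ring1 | linear_combination y ^ 2 * hI |
    linear_combination h1 - y ^ 2 * hI

lemma fval_lin (Y Z : Matrix (Fin 2) (Fin 2) ℂ) (p : H3) (r : ℝ) :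
    fval (Y + (r : ℂ) • Z) p = fval Y p + r * fval Z p := by
  simp [fval, Matrix.mul_add, Matrix.trace_add, Matrix.trace_smul]

lemma fval_add (Y Z : Matrix (Fin 2) (Fin 2) ℂ) (p : H3) :
    fval (Y + Z) p = fval Y p + fval Z p := by
  simpa using fval_lin Y Z p 1

/-- The form is linear under real scaling. -/
lemma fval_smul (Z : Matrix (Fin 2) (Fin 2) ℂ) (p : H3) (r : ℝ) :
    fval ((r : ℂ) • Z) p = r * fval Z p := by
  simp [fval, Matrix.trace_smul]

lemma herm2_eq {Y : Matrix (Fin 2) (Fin 2) ℂ} (hY : Y.IsHermitian) :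
    Y = !![((Y 0 0).re : ℂ), Y 0 1; conj (Y 0 1), ((Y 1 1).re : ℂ)] := by
  ext i j
  fin_cases i <;> fin_cases j
  · exact (Complex.conj_eq_iff_re.1 (hY.apply 0 0)).symm
  · rfl
  · exact (hY.apply 1 0).symm
  · exact (Complex.conj_eq_iff_re.1 (hY.apply 1 1)).symm

/-- The quadratic form in the first derivatives. -/
theorem sum_sq_deriv {Y : Matrix (Fin 2) (Fin 2) ℂ} (hY : Y.IsHermitian) (p : H3) :
    ∑ j, fval (dB j Y) p ^ 2 - ∑ j, fval (dR j Y) p ^ 2 = fval Y p ^ 2 - 4 * Y.det.re := by
  have ht := p.t_pos.ne'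
  rw [herm2_eq hY]
  simp only [fval, dB, dR, pauli, H3.herm, Fin.sum_univ_three, Matrix.adjugate_fin_two,
    Matrix.trace_fin_two, Matrix.det_fin_two, Matrix.mul_apply, Fin.sum_univ_two, Matrix.smul_apply,
    Matrix.add_apply, Matrix.sub_apply, of_apply, cons_val', cons_val_zero, cons_val_one,
    cons_val_two, cons_val_fin_one, empty_val', Matrix.head_cons, Matrix.tail_cons, smul_eq_mul,
    Complex.add_re, Complex.sub_re, Complex.mul_re, Complex.mul_im, Complex.add_im, Complex.sub_im,
    Complex.ofReal_re, Complex.ofReal_im, Complex.I_re, Complex.I_im,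
    Complex.neg_re, Complex.neg_im,
    Complex.conj_re, Complex.conj_im, Complex.div_ofReal_re, Complex.div_ofReal_im,
    Complex.div_ofNat_re, Complex.div_ofNat_im, Complex.one_re, Complex.one_im, Complex.zero_re,
    Complex.zero_im, Complex.normSq_apply]
  ring_nf
  field_simp
  ring

lemma herm_isHermitian (p : H3) : (H3.herm p).IsHermitian := by
  ext i j
  fin_cases i <;> fin_cases j <;> simp [H3.herm]

lemma det_herm (p : H3) : (H3.herm p).det = 1 := by
  have ht : (p.t : ℂ) ≠ 0 := by exact_mod_cast p.t_pos.ne'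
  simp [H3.herm, Matrix.det_fin_two, Complex.normSq_eq_conj_mul_self]
  field_simp
  ring

lemma herm_base : H3.herm H3.base = 1 := by
  ext i j
  fin_cases i <;> fin_cases j <;> simp [H3.herm, H3.base]

/-- The distance from the base point as a trace. -/
lemma coshDist_base (q : H3) : H3.coshDist H3.base q = fval (H3.herm q) H3.base / 2 := by
  rw [fval, H3.trace_herm_adjugate, Complex.ofReal_re]; ring

lemma fval_base (Y : Matrix (Fin 2) (Fin 2) ℂ) : fval Y H3.base = Y.trace.re := by
  simp [fval, herm_base]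

/-- Substitution by a matrix of determinant one. -/
theorem kint_subst (g : GL (Fin 2) ℂ) (hg : ‖g.val.det‖ = 1) (X : Matrix (Fin 2) (Fin 2) ℂ)
    (k : ℝ → ℝ) (φ : ℝ → ℂ) :
    kint (fun q => k (fval (g.val * H3.herm q * g.valᴴ) H3.base / 2)) (fun q => φ (fval X q)) =
      kint (fun q => k (H3.coshDist H3.base q)) (fun q => φ (fval (g.val * X * g.valᴴ) q)) := by
  rw [kint, kint,
    ← (H3.measurePreserving_smul g).integral_comp (Homeomorph.smul g).measurableEmbedding
    fun q => (k (H3.coshDist H3.base q) : ℂ) * φ (fval (g.val * X * g.valᴴ) q)]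
  refine integral_congr_ae (ae_of_all _ fun q => ?_)
  show _ = (k (H3.coshDist H3.base (g • q)) : ℂ) * φ (fval (g.val * X * g.valᴴ) (g • q))
  rw [fval_conj_act, hg, one_mul, coshDist_base, H3.smul_def, H3.herm_act, hg]
  simp

lemma continuous_herm : Continuous fun q : H3 => H3.herm q := by
  have := H3.continuous_z
  have := H3.continuous_t
  have h0 : ∀ q : H3, q.t ≠ 0 := fun q => q.t_pos.ne'
  have hc : ∀ q : H3, (q.t : ℂ) ≠ 0 := fun q => by exact_mod_cast q.t_pos.ne'
  refine continuous_pi fun i => continuous_pi fun j => ?_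
  fin_cases i <;> fin_cases j <;>
    simp only [H3.herm, Fin.zero_eta, Fin.mk_one, Fin.isValue, of_apply, cons_val', cons_val_zero,
      cons_val_one, cons_val_fin_one, empty_val'] <;> fun_prop (disch := assumption)

lemma continuous_fval (X : Matrix (Fin 2) (Fin 2) ℂ) : Continuous fun q => fval X q :=
  Complex.continuous_re.comp
    ((continuous_herm.matrix_adjugate.matrix_mul continuous_const).matrix_trace)

/-- Continuous functions are locally bounded. -/
lemma isLocBdd_of_continuous {g : H3 → ℂ} (hg : Continuous g) : IsLocBdd g :=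
  ⟨hg.measurable, fun B _ C hc =>
    (Whit.isCompact_box B hc C).exists_bound_of_continuousOn hg.continuousOn⟩

/-- The second derivative at zero of a radial integral along a flow. -/
theorem deriv2_kint {g : H3 → ℂ} (hg : IsLocBdd g) {w a b e : H3 → ℝ} (hw : Continuous w)
    (ha : Continuous a) (hb : Continuous b) (he : Continuous e) {ψ : ℝ → ℝ}
    (hψ : ContDiff ℝ ∞ ψ) {ε : ℝ} {Cs Sn : ℝ → ℝ} (hC : ∀ s, HasDerivAt Cs (ε * Sn s) s)
    (hS : ∀ s, HasDerivAt Sn (Cs s) s) (hC0 : Cs 0 = 1) (hS0 : Sn 0 = 0) {B c C : ℝ} (hc : 0 < c)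
    (hsupp : ∀ s, |s| ≤ 1 → ∀ q ∉ box B c C,
      w q = 0 ∨ a q + b q * Cs s + e q * Sn s ∉ tsupport ψ) :
    deriv (deriv fun s => kint (fun q => w q * ψ (a q + b q * Cs s + e q * Sn s)) g) 0 =
      kint (fun q => w q * (deriv (deriv ψ) (a q + b q) * e q ^ 2 +
        deriv ψ (a q + b q) * (ε * b q))) g := by
  have hψ1 := Whit.contDiff_deriv_top hψ
  have hψ2 := Whit.contDiff_deriv_top hψ1
  have hCc : Continuous Cs := continuous_iff_continuousAt.2 fun s => (hC s).continuousAt
  have hSc : Continuous Sn := continuous_iff_continuousAt.2 fun s => (hS s).continuousAt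
  have hfin := hψ.continuous
  have := hψ1.continuous
  have := hψ2.continuous
  set L : ℝ → H3 → ℝ := fun s q => a q + b q * Cs s + e q * Sn s with hL
  set L1 : ℝ → H3 → ℝ := fun s q => b q * (ε * Sn s) + e q * Cs s with hL1
  set L2 : ℝ → H3 → ℝ := fun s q => b q * (ε * Cs s) + e q * (ε * Sn s) with hL2
  have dL : ∀ q s, HasDerivAt (fun s => L s q) (L1 s q) s := fun q s =>
    (((hC s).const_mul (b q)).const_add (a q)).add ((hS s).const_mul (e q))
  have dL1 : ∀ q s, HasDerivAt (fun s => L1 s q) (L2 s q) s := fun q s =>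
    (((hS s).const_mul ε).const_mul (b q)).add ((hC s).const_mul (e q))
  have dψ : ∀ x, HasDerivAt ψ (deriv ψ x) x := fun x =>
    (hψ.differentiable (by simp) x).hasDerivAt
  have dψ1 : ∀ x, HasDerivAt (deriv ψ) (deriv (deriv ψ) x) x := fun x =>
    (hψ1.differentiable (by simp) x).hasDerivAt
  set G0 : ℝ → H3 → ℝ := fun s q => w q * ψ (L s q) with hG0
  set G1 : ℝ → H3 → ℝ := fun s q => w q * (deriv ψ (L s q) * L1 s q) with hG1
  set G2 : ℝ → H3 → ℝ := fun s q =>
    w q * (deriv (deriv ψ) (L s q) * L1 s q * L1 s q + deriv ψ (L s q) * L2 s q) with hG2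
  have z1 : ∀ x, x ∉ tsupport ψ → deriv ψ x = 0 := fun x hx => by
    by_contra h; exact hx (support_deriv_subset h)
  have z2 : ∀ x, x ∉ tsupport ψ → deriv (deriv ψ) x = 0 := fun x hx => by
    by_contra h
    exact hx (closure_minimal support_deriv_subset (isClosed_tsupport _) (support_deriv_subset h))
  have hs0 : ∀ s, |s| ≤ 1 → ∀ q ∉ box B c C, G0 s q = 0 ∧ G1 s q = 0 ∧ G2 s q = 0 := by
    intro s hs q hq
    rcases hsupp s hs q hq with h | h
    · simp [hG0, hG1, hG2, h]
    · have h' : L s q ∉ tsupport ψ := h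
      have e0 : ψ (L s q) = 0 := image_eq_zero_of_notMem_tsupport h'
      simp only [hG0, hG1, hG2, e0, z1 _ h', z2 _ h', zero_mul, add_zero, mul_zero, and_self]
  have d0 : ∀ q s, HasDerivAt (fun s => G0 s q) (G1 s q) s := fun q s =>
    ((dψ _).comp s (dL q s)).const_mul (w q)
  have d1 : ∀ q s, HasDerivAt (fun s => G1 s q) (G2 s q) s := fun q s =>
    ((((dψ1 _).comp s (dL q s))).mul (dL1 q s)).const_mul (w q)
  have hJ : ∀ s₀ : ℝ, |s₀| < 1 / 2 → HasDerivAt (fun s => kint (G0 s) g) (kint (G1 s₀) g) s₀ ∧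
      HasDerivAt (fun s => kint (G1 s) g) (kint (G2 s₀) g) s₀ := by
    intro s₀ hs₀
    have hsub : ∀ s ∈ Set.Icc (s₀ - 1 / 2) (s₀ + 1 / 2), |s| ≤ 1 := fun s hs => by
      rw [abs_lt] at hs₀; rw [abs_le]; constructor <;> linarith [hs.1, hs.2]
    refine ⟨Whit.hasDerivAt_kint hg (δ := 1 / 2) (B := B) (c := c) (C := C) (by norm_num) hc
        (fun p s _ => d0 p s) (fun s _ => ?_) (Continuous.continuousOn ?_) fun s hs q hq =>
          ⟨(hs0 s (hsub s hs) q hq).1,
          (hs0 s (hsub s hs) q hq).2.1⟩,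
      Whit.hasDerivAt_kint hg (δ := 1 / 2) (B := B) (c := c) (C := C) (by norm_num) hc
        (fun p s _ => d1 p s) (fun s _ => ?_) (Continuous.continuousOn ?_) fun s hs q hq =>
          ⟨(hs0 s (hsub s hs) q hq).2.1,
          (hs0 s (hsub s hs) q hq).2.2⟩⟩
    all_goals
      simp only [hG0, hG1, hG2, hL, hL1, hL2]
      fun_prop
  have e1 : deriv (fun s => kint (G0 s) g) =ᶠ[𝓝 0] fun s => kint (G1 s) g := by
    filter_upwards [Metric.ball_mem_nhds (0 : ℝ) (by norm_num : (0 : ℝ) < 1 / 2)] with s hs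
    exact (hJ s (by simpa [Real.dist_eq] using hs)).1.deriv
  refine (e1.deriv_eq.trans (hJ 0 (by norm_num)).2.deriv).trans ?_
  congr 1
  funext q
  simp only [hG2, hL, hL1, hL2, hC0, hS0]
  ring_nf

/-- The Casimir operator on functions of one hermitian form with `-det = Q`. -/
def casOp (φ : ℝ → ℝ) (Q f : ℝ) : ℝ := deriv (deriv φ) f * (f ^ 2 + 4 * Q) + 3 * f * deriv φ f

/-- The matrix of a hyperbolic or elliptic flow. -/
def hypGL (j : Fin 3) (c d : ℂ) (h : c ^ 2 - d ^ 2 = 1) : GL (Fin 2) ℂ :=
  Matrix.GeneralLinearGroup.mkOfDetNeZero (c • 1 + d • pauli j)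
    (by rw [det_hyp, h]; exact one_ne_zero)

lemma hypGL_det (j : Fin 3) (c d : ℂ) (h : c ^ 2 - d ^ 2 = 1) :
    ‖(hypGL j c d h).val.det‖ = 1 := by
  show ‖(c • (1 : Matrix (Fin 2) (Fin 2) ℂ) + d • pauli j).det‖ = 1
  rw [det_hyp, h, norm_one]

lemma boost_ident (s : ℝ) :
    (Real.cosh (s / 2) : ℂ) ^ 2 - (Real.sinh (s / 2) : ℂ) ^ 2 = 1 := by
  rw [← Complex.ofReal_pow, ← Complex.ofReal_pow, ← Complex.ofReal_sub, Real.cosh_sq_sub_sinh_sq,
    Complex.ofReal_one]

lemma rot_ident (s : ℝ) :
    (Real.cos (s / 2) : ℂ) ^ 2 - ((Real.sin (s / 2) : ℂ) * Complex.I) ^ 2 = 1 := by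
  rw [mul_pow, Complex.I_sq, mul_neg_one, sub_neg_eq_add, ← Complex.ofReal_pow,
    ← Complex.ofReal_pow,
    ← Complex.ofReal_add, Real.cos_sq_add_sin_sq, Complex.ofReal_one]

lemma fval_half (Y Z : Matrix (Fin 2) (Fin 2) ℂ) (p : H3) :
    fval ((1 / 2 : ℂ) • (Y + Z)) p = (fval Y p + fval Z p) / 2 := by
  rw [show (1 / 2 : ℂ) = ((1 / 2 : ℝ) : ℂ) by norm_num, fval_smul, fval_add]; ring

lemma fval_half_sub (Y Z : Matrix (Fin 2) (Fin 2) ℂ) (p : H3) :
    fval ((1 / 2 : ℂ) • (Y - Z)) p = (fval Y p - fval Z p) / 2 := by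
  rw [sub_eq_add_neg, fval_half, show -Z = ((-1 : ℝ) : ℂ) • Z by simp, fval_smul]; ring

lemma fval_sandwich_base (j : Fin 3) (Y : Matrix (Fin 2) (Fin 2) ℂ) :
    fval (pauli j * Y * pauli j) H3.base = fval Y H3.base := by
  rw [fval_base, fval_base, Matrix.trace_mul_cycle, pauli_sq, Matrix.one_mul]

lemma fval_dR_base (j : Fin 3) (Y : Matrix (Fin 2) (Fin 2) ℂ) : fval (dR j Y) H3.base = 0 := by
  simp [fval_base, dR, Matrix.trace_smul, Matrix.trace_sub, Matrix.trace_mul_comm Y]

lemma dB_bound (j : Fin 3) (q : H3) :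
    |fval (dB j (H3.herm q)) H3.base / 2| ≤ H3.coshDist H3.base q := by
  have h := sum_sq_deriv (herm_isHermitian q) H3.base
  simp only [fval_dR_base, det_herm, ne_eq, OfNat.ofNat_ne_zero, not_false_eq_true, zero_pow,
    Finset.sum_const_zero, sub_zero, Complex.one_re, mul_one] at h
  have hj := Finset.single_le_sum (fun i _ => sq_nonneg (fval (dB i (H3.herm q)) H3.base))
    (Finset.mem_univ j)
  have hC : 0 ≤ H3.coshDist H3.base q := by
    have := H3.base.t_pos; have := q.t_pos
    have := Complex.normSq_nonneg (H3.base.z - q.z)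
    unfold H3.coshDist; positivity
  refine abs_le_of_sq_le_sq ?_ hC
  rw [coshDist_base, div_pow, div_pow]
  exact div_le_div_of_nonneg_right (by linarith) (by norm_num)

/-- Outside a box a kernel of compact support vanishes at every value above a third of the
distance from the base point. -/
private lemma exists_far_box {k : ℝ → ℝ} (hks : HasCompactSupport k) :
    ∃ B c C : ℝ, 0 < c ∧ ∀ q ∉ box B c C, ∀ x, H3.coshDist H3.base q / 3 ≤ x → x ∉ tsupport k := by
  obtain ⟨R₀, hR₀⟩ := hks.bddAbove
  set R := max 1 R₀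
  set R' := 3 * R with hR'
  have hR1 : 1 ≤ R := le_max_left _ _
  refine ⟨2 * 0 + 4 * R' * 1, 1 / (2 * R'), 2 * R' * 1, by positivity, fun q hq x hx h => ?_⟩
  have hC : R' < H3.coshDist H3.base q := by
    rw [Whit.coshDist_eq_Cf]
    exact Whit.Cf_support one_pos (by linarith) (A := 0) (C := 1) (by simp [H3.base])
      (by simp [H3.base]) ⟨le_rfl, le_rfl⟩ hq
  exact absurd (hR₀ h) (not_le.2 ((le_max_right 1 R₀).trans_lt (by linarith)))

/-- The distance from the base point is not negative. -/
private lemma coshDist_nonneg (q : H3) : 0 ≤ H3.coshDist H3.base q := by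
  have := H3.base.t_pos; have := q.t_pos
  have := Complex.normSq_nonneg (H3.base.z - q.z)
  unfold H3.coshDist; positivity

/-- A continuous linear image of the hermitian form at the base point is continuous. -/
private lemma continuous_dB_base (j : Fin 3) :
    Continuous fun q => fval (dB j (H3.herm q)) H3.base / 2 := by
  have hT : Continuous (dB j) := by unfold dB; fun_prop
  refine Continuous.div_const ?_ 2
  simp only [fval_base]
  exact Complex.continuous_re.comp (hT.comp continuous_herm).matrix_trace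

section Directions

variable {k φ : ℝ → ℝ} (hk : ContDiff ℝ ∞ k) (hφ : ContDiff ℝ ∞ φ)
  (X : Matrix (Fin 2) (Fin 2) ℂ) {B c C : ℝ} (hc : 0 < c)
  (hfar : ∀ q ∉ box B c C, ∀ x, H3.coshDist H3.base q / 3 ≤ x → x ∉ tsupport k)

include hk hφ hc hfar

/-- Second derivatives along a boost: on the kernel and on the function. -/
private lemma kint_boost (j : Fin 3) :
    kint (fun q => deriv (deriv k) (H3.coshDist H3.base q) *
          (fval (dB j (H3.herm q)) H3.base / 2) ^ 2 +
        deriv k (H3.coshDist H3.base q) * H3.coshDist H3.base q)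
      (fun q => (φ (fval X q) : ℂ)) =
    kint (fun q => k (H3.coshDist H3.base q) *
        (deriv (deriv φ) (fval X q) * fval (dB j X) q ^ 2 +
          deriv φ (fval X q) * fval ((1 / 2 : ℂ) • (X + pauli j * X * pauli j)) q))
      fun _ => 1 := by
  set D : H3 → ℝ := fun q => H3.coshDist H3.base q with hDdef
  have hDc : Continuous D := H3.continuous_coshDist _
  have hL := deriv2_kint
    (isLocBdd_of_continuous (g := fun q => (φ (fval X q) : ℂ))
      (Complex.continuous_ofReal.comp (hφ.continuous.comp (continuous_fval X))))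
    (w := fun _ => 1) (a := fun _ => 0) (b := D)
    (e := fun q => fval (dB j (H3.herm q)) H3.base / 2) continuous_const continuous_const hDc
    (continuous_dB_base j) hk (ε := 1) (Cs := Real.cosh) (Sn := Real.sinh)
    (fun s => by simpa using Real.hasDerivAt_cosh s) Real.hasDerivAt_sinh Real.cosh_zero
    Real.sinh_zero hc (B := B) (C := C) fun s hs q hq => by
      right
      apply hfar q hq
      have e1 : Real.cosh s - |Real.sinh s| = Real.exp (-|s|) := by
        rw [Real.abs_sinh, ← Real.cosh_abs, Real.cosh_sub_sinh]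
      have e2 : 1 / 3 ≤ Real.exp (-|s|) := by
        rw [Real.exp_neg, one_div]
        exact inv_anti₀ (Real.exp_pos _) ((Real.exp_le_exp.2 hs).trans
          (Real.exp_one_lt_d9.le.trans (by norm_num)))
      have e3 : -(D q * |Real.sinh s|) ≤
          fval (dB j (H3.herm q)) H3.base / 2 * Real.sinh s := by
        have := abs_mul (fval (dB j (H3.herm q)) H3.base / 2) (Real.sinh s)
        have h2 := mul_le_mul_of_nonneg_right (dB_bound j q) (abs_nonneg (Real.sinh s))
        have h3 := neg_abs_le (fval (dB j (H3.herm q)) H3.base / 2 * Real.sinh s)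
        simp only [hDdef] at h2 ⊢
        linarith
      have e4 : D q / 3 ≤ D q * Real.exp (-|s|) := by
        rw [div_eq_mul_one_div]; exact mul_le_mul_of_nonneg_left e2 (coshDist_nonneg q)
      rw [← e1, mul_sub] at e4
      simp only [hDdef] at e3 e4 ⊢
      linarith
  have hR := deriv2_kint (isLocBdd_of_continuous (g := fun _ : H3 => (1 : ℂ)) continuous_const)
    (w := fun q => k (D q))
    (a := fun q => fval ((1 / 2 : ℂ) • (X - pauli j * X * pauli j)) q)
    (b := fun q => fval ((1 / 2 : ℂ) • (X + pauli j * X * pauli j)) q)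
    (e := fun q => fval (dB j X) q) (hk.continuous.comp hDc) (continuous_fval _)
    (continuous_fval _) (continuous_fval _) hφ (ε := 1) (Cs := Real.cosh) (Sn := Real.sinh)
    (fun s => by simpa using Real.hasDerivAt_cosh s) Real.hasDerivAt_sinh Real.cosh_zero
    Real.sinh_zero hc (B := B) (C := C) fun s _ q hq => Or.inl
      (image_eq_zero_of_notMem_tsupport
        (hfar q hq _ (div_le_self (coshDist_nonneg q) (by norm_num))))
  have hsame : (fun s => kint (fun q => (1 : ℝ) * k (0 + D q * Real.cosh s +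
        fval (dB j (H3.herm q)) H3.base / 2 * Real.sinh s)) (fun q => (φ (fval X q) : ℂ))) =
      fun s => kint (fun q => k (D q) * φ (fval ((1 / 2 : ℂ) • (X - pauli j * X * pauli j)) q +
        fval ((1 / 2 : ℂ) • (X + pauli j * X * pauli j)) q * Real.cosh s +
        fval (dB j X) q * Real.sinh s)) fun _ => 1 := by
    funext s
    have h := kint_subst (hypGL j _ _ (boost_ident s)) (hypGL_det j _ _ _) X k fun x => (φ x : ℂ)
    have hv : (hypGL j _ _ (boost_ident s)).val =
        (Real.cosh (s / 2) : ℂ) • 1 + (Real.sinh (s / 2) : ℂ) • pauli j := rfl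
    simp only [hv, hyp_conj_boost, fval_lin] at h
    refine Eq.trans ?_ (h.trans ?_)
    · congr 1
      funext q
      rw [one_mul]
      congr 1
      rw [fval_half_sub, fval_half, fval_sandwich_base, hDdef]
      simp only [coshDist_base]
      ring
    · simp only [kint]
      exact integral_congr_ae (ae_of_all _ fun q => by
        simp only [hDdef]; push_cast; simp [mul_comm (Real.cosh s), mul_comm (Real.sinh s)])
  rw [hsame] at hL
  refine Eq.trans ?_ ((hL.symm.trans hR).trans ?_)
  · congr 1; funext q; simp [hDdef, one_mul]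
  · congr 1; funext q
    simp only [hDdef, fval_half_sub, fval_half]
    ring_nf

/-- A rotation fixes the kernel, so the second derivative along it vanishes. -/
private lemma kint_rot (j : Fin 3) :
    (0 : ℂ) = kint (fun q => k (H3.coshDist H3.base q) *
        (deriv (deriv φ) (fval X q) * fval (dR j X) q ^ 2 -
          deriv φ (fval X q) * fval ((1 / 2 : ℂ) • (X - pauli j * X * pauli j)) q))
      fun _ => 1 := by
  set D : H3 → ℝ := fun q => H3.coshDist H3.base q with hDdef
  have hDc : Continuous D := H3.continuous_coshDist _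
  have hR := deriv2_kint (isLocBdd_of_continuous (g := fun _ : H3 => (1 : ℂ)) continuous_const)
    (w := fun q => k (D q))
    (a := fun q => fval ((1 / 2 : ℂ) • (X + pauli j * X * pauli j)) q)
    (b := fun q => fval ((1 / 2 : ℂ) • (X - pauli j * X * pauli j)) q)
    (e := fun q => fval (dR j X) q) (hk.continuous.comp hDc) (continuous_fval _)
    (continuous_fval _) (continuous_fval _) hφ (ε := -1) (Cs := Real.cos) (Sn := Real.sin)
    (fun s => by simpa using Real.hasDerivAt_cos s) Real.hasDerivAt_sin Real.cos_zero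
    Real.sin_zero hc (B := B) (C := C) fun s _ q hq => Or.inl
      (image_eq_zero_of_notMem_tsupport
        (hfar q hq _ (div_le_self (coshDist_nonneg q) (by norm_num))))
  have hsame : (fun s => kint (fun q => k (D q) *
        φ (fval ((1 / 2 : ℂ) • (X + pauli j * X * pauli j)) q +
        fval ((1 / 2 : ℂ) • (X - pauli j * X * pauli j)) q * Real.cos s +
        fval (dR j X) q * Real.sin s)) fun _ => 1) =
      fun _ => kint (fun q => k (D q)) fun q => (φ (fval X q) : ℂ) := by
    funext s
    have h := kint_subst (hypGL j _ _ (rot_ident s)) (hypGL_det j _ _ _) X k fun x => (φ x : ℂ)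
    have hv : (hypGL j _ _ (rot_ident s)).val =
        (Real.cos (s / 2) : ℂ) • 1 + ((Real.sin (s / 2) : ℂ) * Complex.I) • pauli j := rfl
    simp only [hv, hyp_conj_rot, fval_lin] at h
    refine Eq.trans ?_ (h.symm.trans ?_)
    · simp only [kint]
      exact integral_congr_ae (ae_of_all _ fun q => by
        simp only [hDdef]; push_cast; simp [mul_comm (Real.cos s), mul_comm (Real.sin s)])
    · congr 1
      funext q
      congr 1
      rw [fval_half, fval_half_sub, fval_sandwich_base, fval_dR_base, hDdef]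
      simp only [coshDist_base]
      ring
  rw [hsame] at hR
  simp only [deriv_const'] at hR
  rw [hR]
  congr 1; funext q
  simp only [hDdef, fval_half_sub, fval_half]
  ring_nf

end Directions

/-- A continuous kernel vanishing outside a box is integrable against a continuous function. -/
private lemma integrable_box_mul {B c C : ℝ} (hc : 0 < c) {G : H3 → ℝ} {g : H3 → ℂ}
    (hG : Continuous G) (hG0 : ∀ q ∉ box B c C, G q = 0) (hg : Continuous g) :
    Integrable (fun q => (G q : ℂ) * g q) H3.vol := by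
  have hcont := (Complex.continuous_ofReal.comp hG).mul hg
  obtain ⟨N, hN⟩ := (Whit.isCompact_box B hc C).exists_bound_of_continuousOn hcont.continuousOn
  refine (integrableOn_iff_integrable_of_support_subset (s := box B c C) fun q hq => ?_).1
    (IntegrableOn.of_bound (Whit.vol_box_ne_top _ hc _).lt_top hcont.aestronglyMeasurable N
      ((ae_restrict_iff' (Whit.measurableSet_box _ _ _)).2 (ae_of_all _ hN)))
  by_contra hn
  exact hq (by simp [hG0 q hn])

/-- The boosts add up to the Laplacian on radial functions. -/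
private lemma sum_boost_eq_lapK (k : ℝ → ℝ) (q : H3) :
    ∑ j, (deriv (deriv k) (H3.coshDist H3.base q) * (fval (dB j (H3.herm q)) H3.base / 2) ^ 2 +
      deriv k (H3.coshDist H3.base q) * H3.coshDist H3.base q) =
      lapK k (H3.coshDist H3.base q) := by
  have h := sum_sq_deriv (herm_isHermitian q) H3.base
  simp only [fval_dR_base, det_herm, ne_eq, OfNat.ofNat_ne_zero, not_false_eq_true, zero_pow,
    Finset.sum_const_zero, sub_zero, Complex.one_re, mul_one, Fin.sum_univ_three] at h
  simp only [Fin.sum_univ_three, lapK, coshDist_base]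
  linear_combination (deriv (deriv k) (fval (H3.herm q) H3.base / 2) / 4) * h

/-- Boosts minus rotations add up to the Casimir operator on functions of the form. -/
private lemma sum_form_eq_casOp (φ : ℝ → ℝ) {X : Matrix (Fin 2) (Fin 2) ℂ} (hX : X.IsHermitian)
    (q : H3) :
    ∑ j, ((deriv (deriv φ) (fval X q) * fval (dB j X) q ^ 2 +
        deriv φ (fval X q) * fval ((1 / 2 : ℂ) • (X + pauli j * X * pauli j)) q) -
      (deriv (deriv φ) (fval X q) * fval (dR j X) q ^ 2 -
        deriv φ (fval X q) * fval ((1 / 2 : ℂ) • (X - pauli j * X * pauli j)) q)) =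
      casOp φ (-X.det.re) (fval X q) := by
  have h := sum_sq_deriv hX q
  simp only [Fin.sum_univ_three] at h
  simp only [Fin.sum_univ_three, casOp, fval_half, fval_half_sub]
  linear_combination deriv (deriv φ) (fval X q) * h

/-- A radial kernel against a function of one form: the Laplacian moves to the function. -/
theorem kint_lapK {k : ℝ → ℝ} (hk : ContDiff ℝ ∞ k) (hks : HasCompactSupport k) {φ : ℝ → ℝ}
    (hφ : ContDiff ℝ ∞ φ) {X : Matrix (Fin 2) (Fin 2) ℂ} (hX : X.IsHermitian) :
    kint (fun q => lapK k (H3.coshDist H3.base q)) (fun q => (φ (fval X q) : ℂ)) =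
      kint (fun q => k (H3.coshDist H3.base q))
        (fun q => (casOp φ (-X.det.re) (fval X q) : ℂ)) := by
  obtain ⟨B, c, C, hc, hfar⟩ := exists_far_box hks
  have hz : ∀ q ∉ box B c C, k (H3.coshDist H3.base q) = 0 ∧
      deriv k (H3.coshDist H3.base q) = 0 ∧ deriv (deriv k) (H3.coshDist H3.base q) = 0 := by
    intro q hq
    have h := hfar q hq _ (div_le_self (coshDist_nonneg q) (by norm_num))
    refine ⟨image_eq_zero_of_notMem_tsupport h, ?_, ?_⟩ <;> by_contra h'
    · exact h (support_deriv_subset h')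
    · exact h
        (closure_minimal support_deriv_subset (isClosed_tsupport _) (support_deriv_subset h'))
  have := H3.continuous_coshDist H3.base
  have := hk.continuous
  have := (Whit.contDiff_deriv_top hk).continuous
  have := (Whit.contDiff_deriv_top (Whit.contDiff_deriv_top hk)).continuous
  have := (Whit.contDiff_deriv_top hφ).continuous
  have := (Whit.contDiff_deriv_top (Whit.contDiff_deriv_top hφ)).continuous
  have := continuous_fval
  have hE : Continuous fun q => (φ (fval X q) : ℂ) :=
    Complex.continuous_ofReal.comp (hφ.continuous.comp (continuous_fval X))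
  have hdB := continuous_dB_base
  have hsum := fun j => (kint_boost hk hφ X hc hfar j).trans
    ((sub_zero _).symm.trans (congrArg _ (kint_rot hk hφ X hc hfar j)))
  replace hsum := Finset.sum_congr (s₁ := Finset.univ) rfl fun j _ => hsum j
  simp only [kint] at hsum ⊢
  have hint : ∀ {G : H3 → ℝ} {g : H3 → ℂ}, Continuous G → (∀ q ∉ box B c C, G q = 0) →
      Continuous g → Integrable (fun q => (G q : ℂ) * g q) H3.vol := fun hG hG0 hg =>
    integrable_box_mul hc hG hG0 hg
  rw [← integral_finsetSum _ fun j _ => hint (by fun_prop)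
      (fun q hq => by simp [hz q hq]) hE,
    Finset.sum_congr rfl fun j _ => (integral_sub
      (hint (by fun_prop) (fun q hq => by simp [hz q hq]) continuous_const)
      (hint (by fun_prop) (fun q hq => by simp [hz q hq]) continuous_const)).symm,
    ← integral_finsetSum] at hsum
  swap
  · intro j _
    exact Integrable.sub (hint (by fun_prop) (fun q hq => by simp [hz q hq]) continuous_const)
      (hint (by fun_prop) (fun q hq => by simp [hz q hq]) continuous_const)
  refine Eq.trans ?_ (hsum.trans ?_) <;> refine integral_congr_ae (ae_of_all _ fun q => ?_)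
  · simp only [← sum_boost_eq_lapK k q, Complex.ofReal_sum, Finset.sum_mul]
  · simp only [← sum_form_eq_casOp φ hX q, Complex.ofReal_sum, Finset.mul_sum]
    refine Finset.sum_congr rfl fun j _ => ?_
    push_cast
    ring

end FermatAgent.LT.Lift
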