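import Fermat.Agent.LT.Lift.Transf
import Fermat.Agent.LT.Lift.Domain

/-!
# The quadratic space at a prime

Arithmetic of the Eisenstein integers modulo a prime different from three, and the Gauss sum of
their norm form.
-/

set_option autoImplicit false

noncomputable section

open Finset
open scoped MatrixGroups

namespace FermatAgent.LT.Lift

attribute [local simp] QuadraticAlgebra.re_one QuadraticAlgebra.im_one QuadraticAlgebra.re_ofNat
  QuadraticAlgebra.im_ofNat

instance (n : ℕ) [NeZero n] : Fintype (EisMod n) := Fintype.ofFinite _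

/-- The quadratic space modulo `q`. -/
abbrev VQ (q : ℕ) := ZMod q × ZMod q × EisMod q

/-- The norm. -/
def nrm {q : ℕ} (b : EisMod q) : ZMod q := QuadraticAlgebra.norm b

/-- The form. -/
def PQ {q : ℕ} (v : VQ q) : ZMod q := nrm v.2.2 - 3 * (v.1 * v.2.1)

/-- Its polar form. -/
def BQ {q : ℕ} (v w : VQ q) : ZMod q := PQ (v + w) - PQ v - PQ w

/-- Reduction of vectors. -/
def redL (q : ℕ) : Vec →+ VQ q where
  toFun x := ((x.1 : ZMod q), (x.2.1 : ZMod q), redE q x.2.2)
  map_zero' := by simp
  map_add' x y := by simp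

variable {q : ℕ}

/-- The norm is multiplicative. -/
lemma nrm_mul (a b : EisMod q) : nrm (a * b) = nrm a * nrm b := map_mul QuadraticAlgebra.norm a b

/-- The norm is invariant under conjugation. -/
lemma nrm_star (a : EisMod q) : nrm (star a) = nrm a := by
  simp [nrm, QuadraticAlgebra.norm_def]; ring

/-- A scalar. -/
def cQ (t : ZMod q) : EisMod q := ⟨t, 0⟩

@[simp] lemma re_cQ (t : ZMod q) : (cQ t).re = t := rfl

@[simp] lemma im_cQ (t : ZMod q) : (cQ t).im = 0 := rfl

/-- The scalar one. -/
lemma cQ_one : cQ (1 : ZMod q) = 1 := by ext <;> simp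

/-- The scalar zero. -/
lemma cQ_zero : cQ (0 : ZMod q) = 0 := by ext <;> simp

/-- The norm of a scalar. -/
lemma nrm_cQ (t : ZMod q) : nrm (cQ t) = t * t := by
  simp [nrm, QuadraticAlgebra.norm_def]

/-- An element times its conjugate. -/
lemma mul_star_eq (a : EisMod q) : a * star a = cQ (nrm a) := by
  ext <;> simp [nrm, QuadraticAlgebra.norm_def] <;> ring

/-- Reduction commutes with norms. -/
lemma redE_nrm (x : Eis) : ((QuadraticAlgebra.norm x : ℤ) : ZMod q) = nrm (redE q x) := by
  simp [nrm, QuadraticAlgebra.norm_def, redE]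

/-- Reduction commutes with the quadratic form. -/
lemma PQ_redL (x : Vec) : PQ (redL q x) = (P3 x : ZMod q) := by
  show nrm (redE q x.2.2) - _ = _
  rw [← redE_nrm, P3]
  simp [redL]
  ring

/-- Reduction commutes with the bilinear form. -/
lemma BQ_redL (x y : Vec) : BQ (redL q x) (redL q y) = (B3 x y : ZMod q) := by
  rw [BQ, ← map_add, PQ_redL, PQ_redL, PQ_redL, B3]
  push_cast; ring

/-- The bilinear form in coordinates. -/
lemma BQ_formula (v w : VQ q) :
    BQ v w = (v.2.2 * star w.2.2 + w.2.2 * star v.2.2).re - 3 * (v.1 * w.2.1 + w.1 * v.2.1) := by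
  simp [BQ, PQ, nrm, QuadraticAlgebra.norm_def]
  ring

/-- The quadratic form is quadratic. -/
lemma PQ_smul (t : ZMod q) (v : VQ q) : PQ (t • v) = t * t * PQ v := by
  simp [PQ, nrm, QuadraticAlgebra.norm_def, Prod.smul_def]
  ring

/-- Coordinates. -/
def vqEquiv : (Fin 4 → ZMod q) ≃ VQ q where
  toFun u := (u 0, u 1, ⟨u 2, u 3⟩)
  invFun v := ![v.1, v.2.1, v.2.2.re, v.2.2.im]
  left_inv u := by funext i; fin_cases i <;> rfl
  right_inv v := rfl

/-- The coordinates of a reduction. -/
lemma vqEquiv_redV (x : Vec) : vqEquiv (redV q x) = redL q x := rfl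

section Prime

variable [Fact q.Prime]

/-- Three is nonzero away from three. -/
lemma three_ne_zero' (h3 : q ≠ 3) : (3 : ZMod q) ≠ 0 := fun h => h3 (by
  have h' : ((3 : ℕ) : ZMod q) = 0 := by exact_mod_cast h
  rw [ZMod.natCast_eq_zero_iff] at h'
  exact (Nat.prime_dvd_prime_iff_eq Fact.out Nat.prime_three).1 h')

/-- A prime other than three is `1` or `2` modulo three. -/
lemma mod_three_cases (h3 : q ≠ 3) : q % 3 = 1 ∨ q % 3 = 2 := by
  have : ¬ 3 ∣ q := fun h => h3 ((Nat.prime_dvd_prime_iff_eq Nat.prime_three Fact.out).1 h).symm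
  omega

/-- Units have nonzero norm. -/
lemma isUnit_iff_nrm (a : EisMod q) : IsUnit a ↔ nrm a ≠ 0 := by
  rw [QuadraticAlgebra.isUnit_iff_norm_isUnit, isUnit_iff_ne_zero]
  rfl

/-- Inert nonzero elements have nonzero norm. -/
lemma nrm_ne_zero_of_inert (h : q % 3 = 2) {a : EisMod q} (ha : a ≠ 0) : nrm a ≠ 0 := by
  intro h0
  obtain ⟨x, y⟩ := a
  simp [nrm, QuadraticAlgebra.norm_def] at h0
  by_cases hy : y = 0
  · subst hy
    exact ha (by
      simp at h0
      ext <;> simp [h0])
  set r := x / y with hr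
  have hx : x = r * y := by rw [hr]; field_simp
  have hrel : r * r - r + 1 = 0 :=
    (mul_eq_zero.1 (show (r * r - r + 1) * (y * y) = 0 by
      rw [hx] at h0; linear_combination h0)).resolve_right
      (mul_ne_zero hy hy)
  have hcube : (-r) ^ 3 = 1 := by linear_combination (-r - 1) * hrel
  have h3ne : (3 : ZMod q) ≠ 0 := three_ne_zero' (by omega)
  have hr1 : -r ≠ 1 := fun e => h3ne (by
    have hm : r = -1 := by linear_combination -e
    rw [hm] at hrel
    linear_combination hrel)
  have hu : IsUnit (-r) := isUnit_iff_ne_zero.2 fun e => by rw [e] at hcube; simp at hcube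
  have ho : orderOf hu.unit = 3 := orderOf_eq_prime (Units.ext (by simpa using hcube))
    fun e => hr1 (by simpa using congrArg Units.val e)
  have hd := orderOf_dvd_natCard hu.unit
  rw [ho, Nat.card_eq_fintype_card, ZMod.card_units] at hd
  have := (Fact.out : q.Prime).two_le
  omega

/-- A root of `r² - r + 1` at a split prime. -/
def sroot (h : q % 3 = 1) : ZMod q := (exists_root h).choose

lemma sroot_spec (h : q % 3 = 1) : sroot h * sroot h - sroot h + 1 = 0 :=
  (exists_root h).choose_spec.1

lemma sroot_ne (h : q % 3 = 1) : 2 * sroot h - 1 ≠ 0 := fun e =>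
  (exists_root h).choose_spec.2 (by unfold sroot at e; rw [← sub_eq_zero]; linear_combination e)

/-- The two coordinates at a split prime. -/
def splitE (h : q % 3 = 1) : EisMod q ≃+* ZMod q × ZMod q where
  toFun a := (a.re - sroot h * a.im, a.re - (1 - sroot h) * a.im)
  invFun t := ⟨t.1 + sroot h * ((t.2 - t.1) / (2 * sroot h - 1)), (t.2 - t.1) / (2 * sroot h - 1)⟩
  left_inv a := by
    have e : ((a.re - (1 - sroot h) * a.im) - (a.re - sroot h * a.im)) / (2 * sroot h - 1) =
        a.im := by
      rw [div_eq_iff (sroot_ne h)]; ring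
    ext
    · simp only [e]; ring
    · simp only [e]
  right_inv t := by
    ext
    · simp
    · simp only
      generalize hw : (t.2 - t.1) / (2 * sroot h - 1) = w
      rw [div_eq_iff (sroot_ne h)] at hw
      linear_combination -hw
  map_mul' a b := by
    have hr := sroot_spec h
    ext <;> simp <;> linear_combination -(a.im * b.im) * hr
  map_add' a b := by ext <;> simp <;> ring

/-- Conjugation swaps the split components. -/
lemma splitE_star (h : q % 3 = 1) (a : EisMod q) :
    splitE h (star a) = ((splitE h a).2, (splitE h a).1) := by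
  ext <;> simp [splitE] <;> ring

/-- The norm in split components. -/
lemma nrm_splitE (h : q % 3 = 1) (a : EisMod q) : nrm a = (splitE h a).1 * (splitE h a).2 := by
  simp [splitE, nrm, QuadraticAlgebra.norm_def]
  linear_combination (a.im * a.im) * sroot_spec h

/-- Every nonzero residue is a norm. -/
theorem exists_nrm (h3 : q ≠ 3) {c : ZMod q} (hc : c ≠ 0) : ∃ a : EisMod q,
    IsUnit a ∧ nrm a = c := by
  obtain ⟨a, ha⟩ : ∃ a : EisMod q, nrm a = c := by
    rcases (Fact.out : q.Prime).eq_two_or_odd with h2 | h2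
    · refine ⟨1, ?_⟩
      subst h2
      have h01 : ∀ x : ZMod 2, x ≠ 0 → x = 1 := by
        intro x hx
        fin_cases x
        exacts [absurd rfl hx, rfl]
      rw [h01 c hc]
      simp [nrm]
    · obtain ⟨u, v, huv⟩ := FiniteField.exists_root_sum_quadratic
        (f := (Polynomial.X : Polynomial (ZMod q)) ^ 2)
        (g := Polynomial.C 3 * Polynomial.X ^ 2 + Polynomial.C (-4 * c))
        (Polynomial.degree_X_pow 2) (by
          have h2X : (Polynomial.C (3 : ZMod q) * Polynomial.X ^ 2).degree = 2 := by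
            rw [Polynomial.degree_C_mul (three_ne_zero' h3), Polynomial.degree_X_pow]; rfl
          rw [Polynomial.degree_add_eq_left_of_degree_lt (h2X.symm ▸
            Polynomial.degree_C_le.trans_lt (WithBot.coe_lt_coe.2 two_pos)), h2X])
        (by rw [ZMod.card]; exact h2)
      simp at huv
      have h2' : (2 : ZMod q) ≠ 0 := fun e => by
        have h' : ((2 : ℕ) : ZMod q) = 0 := by exact_mod_cast e
        rw [ZMod.natCast_eq_zero_iff] at h'
        have := (Nat.prime_dvd_prime_iff_eq Fact.out Nat.prime_two).1 h'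
        omega
      refine ⟨⟨(u + v) / 2, v⟩, ?_⟩
      simp [nrm, QuadraticAlgebra.norm_def]
      field_simp
      linear_combination huv
  exact ⟨a, (isUnit_iff_nrm a).2 (ha ▸ hc), ha⟩

/-- The norm one elements are the quotients of conjugates. -/
theorem exists_hilbert (h3 : q ≠ 3) {u : EisMod q} (hu : nrm u = 1) :
    ∃ a : EisMod q, IsUnit a ∧ a = u * star a := by
  have hu1 : u * star u = 1 := by rw [mul_star_eq, hu, cQ_one]
  by_cases h : IsUnit (1 + u)
  · exact ⟨1 + u, h, by rw [star_add, star_one, mul_add, hu1]; ring⟩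
  rw [isUnit_iff_nrm, not_not] at h
  set z := 1 + u with hz
  have hzz : z * star z = 0 := by rw [mul_star_eq, h, cQ_zero]
  have hs : z + star z = 0 := by
    rw [hz, star_add, star_one] at hzz ⊢
    linear_combination hzz - hu1
  have hre : 2 * z.re - z.im = 0 := by
    have := congrArg QuadraticAlgebra.re hs
    simp at this
    linear_combination this
  simp [nrm, QuadraticAlgebra.norm_def] at h
  have h0 : (3 : ZMod q) * (z.re * z.re) = 0 := by
    linear_combination h + (z.im + z.re) * hre
  have hr0 : z.re = 0 := by simpa [three_ne_zero' h3] using h0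
  have hz0 : z = 0 := by
    ext
    · simpa using hr0
    · rw [hr0, mul_zero, zero_sub, neg_eq_zero] at hre
      simpa using hre
  have hu' : u = -1 := by linear_combination hz0
  refine ⟨⟨1, 2⟩, (isUnit_iff_nrm _).2 ?_, ?_⟩
  · rw [show nrm (⟨1, 2⟩ : EisMod q) = 3 by simp [nrm, QuadraticAlgebra.norm_def]; ring]
    exact three_ne_zero' h3
  · subst hu'; ext <;> simp; ring

/-- The sign of the norm form. -/
def eps (q : ℕ) : ℂ := if q % 3 = 1 then 1 else -1

/-- The sign is nonzero. -/
lemma eps_ne_zero (q : ℕ) : eps q ≠ 0 := by unfold eps; split_ifs <;> simp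

/-- Orthogonality of additive characters. -/
lemma sum_std_mul (c : ZMod q) :
    ∑ x : ZMod q, ZMod.stdAddChar (x * c) = if c = 0 then (q : ℂ) else 0 := by
  rw [AddChar.sum_mulShift c (ZMod.isPrimitive_stdAddChar q), ZMod.card]
  split_ifs <;> simp

/-- The Gauss sum of the norm. -/
theorem sum_nrm (h3 : q ≠ 3) {t : ZMod q} (ht : t ≠ 0) :
    ∑ b : EisMod q, ZMod.stdAddChar (t * nrm b) = eps q * (q : ℂ) := by
  classical
  rcases mod_three_cases h3 with h | h
  · rw [eps, if_pos h, one_mul, ← (splitE h).toEquiv.symm.sum_comp]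
    simp only [nrm_splitE h, RingEquiv.toEquiv_eq_coe, EquivLike.coe_coe,
      RingEquiv.apply_symm_apply, ← RingEquiv.coe_toEquiv_symm]
    rw [Fintype.sum_prod_type]
    exact sum_hyperbolic ht
  set φ : (EisMod q)ˣ →* (ZMod q)ˣ := Units.map (QuadraticAlgebra.norm : EisMod q →* ZMod q)
  have hφ : Function.Surjective φ := fun c => by
    obtain ⟨a, ha, hac⟩ := exists_nrm h3 c.ne_zero
    exact ⟨ha.unit, Units.ext hac⟩
  have hU : Fintype.card (EisMod q)ˣ = q * q - 1 := by
    have e : (EisMod q)ˣ ≃ {a : EisMod q // a ≠ 0} :=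
      { toFun := fun a => ⟨a.1, a.ne_zero⟩
        invFun := fun a => ((isUnit_iff_nrm a.1).2 (nrm_ne_zero_of_inert h a.2)).unit
        left_inv := fun a => Units.ext rfl
        right_inv := fun a => rfl }
    rw [Fintype.card_congr e, Fintype.card_subtype_compl, Fintype.card_subtype_eq,
      Fintype.card_congr (QuadraticAlgebra.equivProd (-1 : ZMod q) (-1)),
      Fintype.card_prod, ZMod.card]
  set N := (univ.filter fun a => φ a = 1).card
  have hfib : ∀ c : (ZMod q)ˣ, (univ.filter fun a => φ a = c).card = N := fun c =>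
    MonoidHom.card_fiber_eq_of_mem_range φ (hφ c) (hφ 1)
  have hN : N = q + 1 := by
    have h1 := card_eq_sum_card_fiberwise (s := (univ : Finset (EisMod q)ˣ))
        (t := (univ : Finset (ZMod q)ˣ))
      (f := φ) fun a _ => mem_univ _
    simp only [hfib, sum_const, card_univ, smul_eq_mul, hU, ZMod.card_units] at h1
    have h2 := (Fact.out : q.Prime).two_le
    have h4 : (q - 1) * (q + 1) = (q - 1) * N := by
      rw [← h1, mul_comm (q - 1), ← Nat.sq_sub_sq, sq, one_pow]
    exact (mul_left_cancel₀ (by omega) h4).symm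
  have hunit : ∑ a : (EisMod q)ˣ, ZMod.stdAddChar (t * nrm (a : EisMod q)) = -((q : ℂ) + 1) := by
    rw [← sum_fiberwise (s := univ) φ]
    have e : ∀ c : (ZMod q)ˣ, ∑ a ∈ univ.filter (fun a => φ a = c),
        ZMod.stdAddChar (t * nrm (a : EisMod q)) = (N : ℂ) * ZMod.stdAddChar (t * (c : ZMod q)) :=
      fun c => by
      rw [sum_congr rfl (g := fun _ => ZMod.stdAddChar (t * (c : ZMod q))) fun a ha => by
        rw [(mem_filter.1 ha).2.symm]; rfl, sum_const, hfib, nsmul_eq_mul]
    simp only [e, ← mul_sum]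
    have hF : ∑ c : (ZMod q)ˣ, ZMod.stdAddChar (t * (c : ZMod q)) = -1 := by
      have h0 := sum_std_mul (q := q) t
      rw [if_neg ht, ← sum_erase_add _ _ (mem_univ 0)] at h0
      simp only [zero_mul, AddChar.map_zero_eq_one] at h0
      have hre : ∑ c : (ZMod q)ˣ, ZMod.stdAddChar (t * (c : ZMod q)) =
          ∑ x ∈ univ.erase (0 : ZMod q), ZMod.stdAddChar (x * t) := by
        refine sum_bij (fun c _ => (c : ZMod q)) (fun c _ => by simp [c.ne_zero])
          (fun a _ b _ e => Units.ext e)
          (fun x hx => ⟨Units.mk0 x (mem_erase.1 hx).1, mem_univ _, rfl⟩) fun c _ => by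
            rw [mul_comm]
      rw [hre]
      linear_combination h0
    rw [hF, hN]
    push_cast
    ring
  rw [eps, if_neg (by omega), ← sum_erase_add _ _ (mem_univ 0)]
  have hre : ∑ b ∈ univ.erase (0 : EisMod q), ZMod.stdAddChar (t * nrm b) =
      ∑ a : (EisMod q)ˣ, ZMod.stdAddChar (t * nrm (a : EisMod q)) := by
    symm
    exact sum_bij (fun c _ => (c : EisMod q)) (fun c _ => by simp [c.ne_zero])
      (fun a _ b _ e => Units.ext e)
      (fun x hx => ⟨((isUnit_iff_nrm x).2 (nrm_ne_zero_of_inert h (mem_erase.1 hx).1)).unit,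
        mem_univ _, rfl⟩) fun c _ => rfl
  rw [hre, hunit]
  simp [nrm, QuadraticAlgebra.norm_def]

/-- The Gauss sum of the quadratic space. -/
theorem sum_PQ (h3 : q ≠ 3) {t : ZMod q} (ht : t ≠ 0) (z : VQ q) :
    ∑ v : VQ q, ZMod.stdAddChar (t * PQ v + BQ v z) =
      ZMod.stdAddChar (-(t⁻¹ * PQ z)) * (eps q * (q : ℂ) ^ 2) := by
  let sh : VQ q ≃ VQ q := Equiv.addRight (t⁻¹ • z)
  have e : ∀ v, t * PQ v + BQ v z = t * PQ (sh v) + -(t⁻¹ * PQ z) := fun v => by
    show _ = t * PQ (v + t⁻¹ • z) + _
    have hb : BQ v (t⁻¹ • z) = t⁻¹ * BQ v z := by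
      simp [BQ_formula, Prod.smul_def]; ring
    have hp : PQ (v + t⁻¹ • z) = PQ v + PQ (t⁻¹ • z) + BQ v (t⁻¹ • z) := by rw [BQ]; ring
    rw [hp, hb, PQ_smul]
    field_simp
    ring
  simp only [e, AddChar.map_add_eq_mul, ← sum_mul]
  rw [sh.sum_comp (fun v => ZMod.stdAddChar (t * PQ v)), mul_comm]
  congr 1
  have e2 : ∀ v : VQ q, ZMod.stdAddChar (t * PQ v) =
      ZMod.stdAddChar (v.2.1 * (-(3 * t) * v.1)) * ZMod.stdAddChar (t * nrm v.2.2) := fun v => by
    rw [← AddChar.map_add_eq_mul, PQ]; congr 1; ring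
  simp only [e2, Fintype.sum_prod_type, ← mul_sum, sum_nrm h3 ht, ← sum_mul, sum_std_mul]
  rw [Finset.sum_eq_single (0 : ZMod q) (fun x _ hx => if_neg (mul_ne_zero
    (neg_ne_zero.2 (mul_ne_zero (three_ne_zero' h3) ht)) hx)) (fun h => absurd (mem_univ _) h),
    if_pos (mul_zero _)]
  ring

end Prime

end FermatAgent.LT.Lift
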