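import Fermat.Agent.LT.Lift.Local

/-!
# The local types

A function on the quadratic space which transforms by a cubic character of the Borel group, has no
mass on the isotropic vectors and whose spheres are orthogonal to them lives at an inert prime and
pairs with the family attached to the character; this family is stable under the convolution.
-/

set_option autoImplicit false

noncomputable section

open Finset
open scoped MatrixGroups

namespace FermatAgent.LT.Lift

attribute [local simp] QuadraticAlgebra.re_one QuadraticAlgebra.im_one QuadraticAlgebra.re_ofNat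
  QuadraticAlgebra.im_ofNat

variable {q : ℕ}

/-- The square root of minus three modulo `q`. -/
def thQ : EisMod q := ⟨1, 2⟩

/-- The action of an upper triangular matrix. -/
def cjB (a : (EisMod q)ˣ) (b : EisMod q) (v : VQ q) : VQ q :=
  (nrm (a : EisMod q) * v.1 + nrm b * v.2.1 + ((a : EisMod q) * v.2.2 * star b).im,
   nrm ((a⁻¹ : (EisMod q)ˣ) : EisMod q) * v.2.1,
   thQ * (cQ v.2.1 * (b * star ((a⁻¹ : (EisMod q)ˣ) : EisMod q))) +
     (a : EisMod q) * v.2.2 * star ((a⁻¹ : (EisMod q)ˣ) : EisMod q))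

/-- The norm of zero. -/
lemma nrm_zero' : nrm (0 : EisMod q) = 0 := by simp [nrm, QuadraticAlgebra.norm_def]

lemma nrm_one' : nrm (1 : EisMod q) = 1 := map_one QuadraticAlgebra.norm

/-- The norms of a unit and its inverse. -/
lemma nrm_unit_mul_inv (a : (EisMod q)ˣ) :
    nrm (a : EisMod q) * nrm ((a⁻¹ : (EisMod q)ˣ) : EisMod q) = 1 := by
  rw [← nrm_mul, Units.mul_inv, nrm_one']

/-- The Borel action preserves the form. -/
lemma PQ_cjB (a : (EisMod q)ˣ) (b : EisMod q) (v : VQ q) : PQ (cjB a b v) = PQ v := by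
  have h := nrm_unit_mul_inv a
  set c := ((a⁻¹ : (EisMod q)ˣ) : EisMod q)
  have key : PQ (cjB a b v) = (nrm (a : EisMod q) * nrm c) * PQ v := by
    simp [PQ, cjB, nrm, QuadraticAlgebra.norm_def, thQ, c]
    ring
  rw [key, h, one_mul]

/-- Transformation by a character under the upper triangular matrices. -/
def IsBorel (κ : MulChar (EisMod q) ℂ) (ℓ : VQ q → ℂ) : Prop :=
  ∀ (a : (EisMod q)ˣ) (b : EisMod q) (v : VQ q), ℓ (cjB a b v) = κ a * ℓ v

/-- The weights of the inert type. -/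
def famU (κ : MulChar (EisMod q) ℂ) (ρ l : ZMod q) [NeZero q] (v : VQ q) : ℂ :=
  if v.2.1 = 0 then ZMod.stdAddChar (l * ρ * PQ v) * κ v.2.2 else 0

lemma famU_eq [NeZero q] (κ : MulChar (EisMod q) ℂ) (ρ l a : ZMod q) (b : EisMod q) :
    famU κ ρ l (a, 0, b) = ZMod.stdAddChar (l * ρ * nrm b) * κ b := by
  simp [famU, PQ]

variable [Fact q.Prime]

/-- A multiplicative Gauss sum does not vanish. -/
lemma gauss_ne (χ : MulChar (ZMod q) ℂ) {c : ZMod q} (hc : c ≠ 0) :
    ∑ t : ZMod q, χ t * ZMod.stdAddChar (c * t) ≠ 0 := by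
  by_cases hχ : χ = 1
  · subst hχ
    have h : ∑ t : ZMod q, (1 : MulChar (ZMod q) ℂ) t * ZMod.stdAddChar (c * t) = -1 := by
      rw [← sum_erase_add _ _ (mem_univ 0), MulChar.map_zero, zero_mul, add_zero]
      have h0 := sum_std_mul (q := q) c
      rw [if_neg hc, ← sum_erase_add _ _ (mem_univ 0), zero_mul, AddChar.map_zero_eq_one] at h0
      rw [sum_congr rfl (g := fun t => ZMod.stdAddChar (t * c)) fun t ht => by
        rw [MulChar.one_apply (isUnit_iff_ne_zero.2 (mem_erase.1 ht).1), one_mul, mul_comm]]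
      linear_combination h0
    rw [h]; norm_num
  · intro h0
    have hp : (AddChar.mulShift (ZMod.stdAddChar (N := q)) c).IsPrimitive := by
      intro a ha
      rw [AddChar.mulShift_mulShift]
      exact ZMod.isPrimitive_stdAddChar q (mul_ne_zero hc ha)
    have h := gaussSum_mul_gaussSum_eq_card hχ hp
    rw [show gaussSum χ (AddChar.mulShift (ZMod.stdAddChar (N := q)) c) = 0 from h0, zero_mul,
      ZMod.card] at h
    exact Nat.cast_ne_zero.2 (NeZero.ne q) h.symm

section Borel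

variable {κ : MulChar (EisMod q) ℂ} {ℓ : VQ q → ℂ}

/-- Values of a cubic character cube to one. -/
lemma char_cube (hκ : κ ^ 3 = 1) (a : (EisMod q)ˣ) : κ a ^ 3 = 1 := by
  rw [← MulChar.pow_apply' _ (by norm_num), hκ, MulChar.one_apply_coe]

/-- Conjugates of inverse units. -/
lemma star_inv_unit (a : (EisMod q)ˣ) :
    star (a : EisMod q) * star ((a⁻¹ : (EisMod q)ˣ) : EisMod q) = 1 := by
  rw [← star_mul', Units.mul_inv, star_one]

/-- The value off the hyperplane. -/
lemma value_d (hℓ : IsBorel κ ℓ) (h3 : q ≠ 3) {v : VQ q} (hd : v.2.1 ≠ 0) (a : (EisMod q)ˣ)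
    (ha : nrm (a : EisMod q) = v.2.1⁻¹) : ℓ v = κ a * ℓ (-(PQ v / 3), 1, 0) := by
  obtain ⟨x, d, β⟩ := v
  simp only at hd ha ⊢
  have h3' := three_ne_zero' (q := q) h3
  have hth : IsUnit (thQ : EisMod q) := (isUnit_iff_nrm _).2 (by
    rw [show nrm (thQ : EisMod q) = 3 by simp [nrm, thQ, QuadraticAlgebra.norm_def]; ring]
    exact h3')
  set b : EisMod q := (hth.unit⁻¹ : (EisMod q)ˣ) * β * star (a : EisMod q) with hb
  have hinv : nrm ((a⁻¹ : (EisMod q)ˣ) : EisMod q) = d := by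
    have h := nrm_unit_mul_inv a
    rw [ha] at h
    field_simp at h
    linear_combination h
  have hβ : (thQ : EisMod q) * (b * star ((a⁻¹ : (EisMod q)ˣ) : EisMod q)) = β := by
    rw [hb]
    calc (thQ : EisMod q) * (((hth.unit⁻¹ : (EisMod q)ˣ) : EisMod q) * β * star (a : EisMod q) *
          star ((a⁻¹ : (EisMod q)ˣ) : EisMod q))
        = ((hth.unit : (EisMod q)ˣ) : EisMod q) * ((hth.unit⁻¹ : (EisMod q)ˣ) : EisMod q) * β *
            (star (a : EisMod q) * star ((a⁻¹ : (EisMod q)ˣ) : EisMod q)) := by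
          rw [IsUnit.unit_spec]; ring
      _ = β := by rw [Units.mul_inv, star_inv_unit, one_mul, mul_one]
  obtain ⟨P0, hP0⟩ : ∃ P, PQ ((x, d, β) : VQ q) = P := ⟨_, rfl⟩
  rw [hP0]
  have e : cjB a b (-(P0 / 3), 1, 0) = (x, d, β) := by
    have hP := PQ_cjB a b (-(P0 / 3), 1, 0)
    have h2 : (cjB a b (-(P0 / 3), 1, 0)).2.1 = d := by simp [cjB, hinv]
    have h22 : (cjB a b (-(P0 / 3), 1, 0)).2.2 = β := by simp [cjB, cQ_one, hβ]
    refine Prod.ext ?_ (Prod.ext h2 h22)
    have hb : PQ ((-(P0 / 3), 1, 0) : VQ q) = P0 := by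
      simp [PQ, nrm_zero']
      field_simp
    rw [hb, PQ, h2, h22] at hP
    simp only [PQ] at hP0
    refine mul_left_cancel₀ (mul_ne_zero h3' hd) ?_
    linear_combination hP0 - hP
  conv_lhs => rw [← e]
  exact hℓ a b _

lemma indep_fst (hℓ : IsBorel κ ℓ) {β : EisMod q} (hβ : IsUnit β) (x : ZMod q) :
    ℓ (x, 0, β) = ℓ (0, 0, β) := by
  set b : EisMod q := star (((hβ.unit⁻¹ : (EisMod q)ˣ) : EisMod q) * ⟨0, x⟩) with hb'
  have h1 : (β * star b).im = x := by
    rw [hb', star_star, ← mul_assoc, IsUnit.mul_val_inv, one_mul]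
  have hb : cjB 1 b (0, 0, β) = (x, 0, β) := by
    simp only [cjB, inv_one, Units.val_one, star_one, mul_one, one_mul, mul_zero, add_zero,
      zero_add, cQ_zero, zero_mul]
    rw [h1]
  rw [← hb, hℓ, Units.val_one, map_one, one_mul]

/-- Spheres orthogonal to the isotropic vectors are flat off the hyperplane. -/
theorem vanish_d (hℓ : IsBorel κ ℓ) (h3 : q ≠ 3) {c : ZMod q} (hc : c ≠ 0)
    (hF : ∀ x : VQ q, PQ x = 0 →
      ∑ v : VQ q, (if PQ v = c then ℓ v * ZMod.stdAddChar (BQ x v) else 0) = 0)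
    {v : VQ q} (hd : v.2.1 ≠ 0) (hv : PQ v = c) : ℓ v = 0 := by
  classical
  have h3' := three_ne_zero' (q := q) h3
  set lam := ℓ (-(c / 3), 1, 0) with hlam
  by_cases hl : lam = 0
  · obtain ⟨a, ha, hna⟩ := exists_nrm h3 (inv_ne_zero hd)
    rw [value_d hℓ h3 hd ha.unit hna, hv, ← hlam, hl, mul_zero]
  exfalso
  -- the character of the norms
  have hwd : ∀ a a' : (EisMod q)ˣ, nrm (a : EisMod q) = nrm (a' : EisMod q) → κ a = κ a' := by
    intro a a' e
    have hne : nrm (a : EisMod q) ≠ 0 := (isUnit_iff_nrm _).1 a.isUnit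
    set w : VQ q := (-(c / 3) * nrm (a : EisMod q), (nrm (a : EisMod q))⁻¹, 0)
    have hw : PQ w = c := by simp [w, PQ, nrm_zero']; field_simp
    have h1 := value_d (v := w) hℓ h3 (inv_ne_zero hne) a (by simp [w])
    have h2 := value_d (v := w) hℓ h3 (inv_ne_zero hne) a' (by simp [w, e])
    rw [hw] at h1 h2
    exact mul_right_cancel₀ hl (h1.symm.trans h2)
  choose A hA hAn using fun t : (ZMod q)ˣ => exists_nrm (q := q) h3 t.ne_zero
  let φ : (ZMod q)ˣ →* ℂˣ :=
    { toFun := fun t => (Units.map (κ : EisMod q →* ℂ)) (hA t).unit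
      map_one' := Units.ext (by
        show κ _ = 1
        rw [hwd _ 1 (by rw [IsUnit.unit_spec, hAn, Units.val_one, Units.val_one, nrm_one'])]
        exact map_one κ)
      map_mul' := fun s t => Units.ext (by
        show κ _ = κ _ * κ _
        rw [← map_mul κ, ← Units.val_mul]
        exact hwd _ _ (by
          rw [IsUnit.unit_spec, hAn, Units.val_mul, Units.val_mul, nrm_mul, IsUnit.unit_spec,
            IsUnit.unit_spec, hAn, hAn])) }
  set χ := MulChar.ofUnitHom φ with hχ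
  have hval : ∀ (d : ZMod q) (hd : d ≠ 0) (β : EisMod q),
      ℓ ((nrm β - c) / (3 * d), d, β) = χ d⁻¹ * lam := by
    intro d hd β
    have hP : PQ ((nrm β - c) / (3 * d), d, β) = c := by simp [PQ]; field_simp; ring
    set t : (ZMod q)ˣ := Units.mk0 d⁻¹ (inv_ne_zero hd)
    rw [value_d (v := ((nrm β - c) / (3 * d), d, β)) hℓ h3 hd (hA t).unit (hAn t), hP,
      show χ d⁻¹ = χ (t : ZMod q) from rfl, hχ, MulChar.ofUnitHom_coe]
    rfl
  have key := hF (0, 1, 0) (by simp [PQ, nrm])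
  have hB : ∀ w : VQ q, BQ (0, 1, 0) w = -3 * w.1 := fun w => by simp [BQ_formula]
  simp only [hB, Fintype.sum_prod_type] at key
  rw [sum_comm, ← sum_erase_add _ _ (mem_univ (0 : ZMod q))] at key
  have hzero : ∑ x : ZMod q, ∑ β : EisMod q,
      (if PQ (x, (0 : ZMod q), β) = c then ℓ (x, 0, β) * ZMod.stdAddChar (-3 * x) else 0) = 0 := by
    rw [sum_comm]
    refine sum_eq_zero fun β _ => ?_
    by_cases hβ : nrm β = c
    · have hu : IsUnit β := (isUnit_iff_nrm β).2 (hβ ▸ hc)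
      have hindep : ∀ x : ZMod q, ℓ (x, 0, β) = ℓ (0, 0, β) := indep_fst hℓ hu
      simp only [PQ, mul_zero, sub_zero, hβ, if_true, hindep, ← mul_sum]
      rw [sum_congr rfl (g := fun x => ZMod.stdAddChar (x * (-3))) fun x _ => by rw [mul_comm],
        sum_std_mul, if_neg (neg_ne_zero.2 h3'), mul_zero]
    · simp [PQ, hβ]
  rw [hzero, add_zero] at key
  have hinner : ∀ d ∈ univ.erase (0 : ZMod q), ∑ x : ZMod q, ∑ β : EisMod q,
      (if PQ (x, d, β) = c then ℓ (x, d, β) * ZMod.stdAddChar (-3 * x) else 0) =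
      eps q * (q : ℂ) * lam * (χ d⁻¹ * ZMod.stdAddChar (c * d⁻¹)) := by
    intro d hd
    have hd0 : d ≠ 0 := (mem_erase.1 hd).1
    rw [sum_comm]
    have e : ∀ β : EisMod q, ∑ x : ZMod q,
        (if PQ (x, d, β) = c then ℓ (x, d, β) * ZMod.stdAddChar (-3 * x) else 0) =
        χ d⁻¹ * lam * ZMod.stdAddChar (c * d⁻¹) * ZMod.stdAddChar (-d⁻¹ * nrm β) := fun β => by
      rw [sum_eq_single ((nrm β - c) / (3 * d)) (fun x _ hx => if_neg fun hP => hx (by
          rw [eq_div_iff (mul_ne_zero h3' hd0)]; simp [PQ] at hP; linear_combination -hP))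
        (fun h => absurd (mem_univ _) h), if_pos (by simp [PQ]; field_simp; ring), hval d hd0 β,
        mul_assoc (χ d⁻¹ * lam), ← AddChar.map_add_eq_mul]
      congr 2
      field_simp
      ring
    simp only [e, ← mul_sum, sum_nrm h3 (neg_ne_zero.2 (inv_ne_zero hd0))]
    ring
  rw [sum_congr rfl hinner, ← mul_sum, mul_eq_zero] at key
  rcases key with h | h
  · simp [eps_ne_zero, NeZero.ne q, hl] at h
  refine gauss_ne χ hc ?_
  rw [← h, ← sum_erase_add _ _ (mem_univ (0 : ZMod q)), MulChar.map_zero, zero_mul, add_zero]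
  exact sum_bij (fun t _ => t⁻¹) (fun t ht => by simp [(mem_erase.1 ht).1])
    (fun s _ t _ e => inv_injective e) (fun t ht => ⟨t⁻¹, by simp [(mem_erase.1 ht).1], inv_inv t⟩)
    fun t _ => by rw [inv_inv]

lemma char_scalar (hℓ : IsBorel κ ℓ) {β : EisMod q} (hne : ℓ (0, 0, β) ≠ 0)
    {t : ZMod q} (ht : t ≠ 0) : κ (cQ t) = 1 := by
  have hu : IsUnit (cQ t) := (isUnit_iff_nrm _).2 (by rw [nrm_cQ]; exact mul_ne_zero ht ht)
  have hs : star (cQ t) = cQ t := by ext <;> simp
  have e : cjB hu.unit 0 (0, 0, β) = (0, 0, β) := by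
    have h2 : (hu.unit : EisMod q) * β * star ((hu.unit⁻¹ : (EisMod q)ˣ) : EisMod q) = β := by
      have h := star_inv_unit hu.unit
      rw [IsUnit.unit_spec, hs] at h
      rw [IsUnit.unit_spec]
      linear_combination β * h
    simp [cjB, nrm, QuadraticAlgebra.norm_def, cQ_zero]
    simpa using h2
  have h := hℓ hu.unit 0 (0, 0, β)
  rw [e, IsUnit.unit_spec] at h
  exact mul_right_cancel₀ hne (by rw [one_mul]; exact h.symm)

/-- The twisted values are constant on norm fibres. -/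
lemma twist_const (hℓ : IsBorel κ ℓ) (h3 : q ≠ 3) (hκ : κ ^ 3 = 1)
    (hs : ∀ t : ZMod q, t ≠ 0 → κ (cQ t) = 1) {β β' : EisMod q} (hβ : IsUnit β)
    (e : nrm β' = nrm β) : κ β' * ℓ (0, 0, β') = κ β * ℓ (0, 0, β) := by
  set u := ((hβ.unit⁻¹ : (EisMod q)ˣ) : EisMod q) * β' with hu
  have hb' : β' = β * u := by rw [hu, ← mul_assoc, IsUnit.mul_val_inv, one_mul]
  have hn : nrm u = 1 := by
    have hne : nrm β ≠ 0 := (isUnit_iff_nrm β).1 hβ
    refine mul_left_cancel₀ hne ?_
    rw [← nrm_mul, ← hb', e, mul_one]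
  obtain ⟨a, ha, hau⟩ := exists_hilbert h3 hn
  set A := ha.unit
  have hA : (A : EisMod q) = a := rfl
  set ai := star ((A⁻¹ : (EisMod q)ˣ) : EisMod q)
  have h1 : star a * ai = 1 := star_inv_unit A
  have eu : u = a * ai := by linear_combination -ai * hau - u * h1
  have ec : cjB A 0 (0, 0, β) = (0, 0, β') := by
    have h2 : (A : EisMod q) * β * ai = β' := by rw [hA, hb', eu]; ring
    simp [cjB, nrm, QuadraticAlgebra.norm_def, cQ_zero]
    exact h2
  have hk : κ u = κ a * κ a := by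
    have h2 : κ a * κ (star a) = 1 := by
      rw [← map_mul κ, mul_star_eq]; exact hs _ ((isUnit_iff_nrm a).1 ha)
    have h4 : κ a = κ u * κ (star a) := by rw [← map_mul κ, ← hau]
    linear_combination -κ a * h4 - κ u * h2
  have h5 : ℓ (0, 0, β') = κ a * ℓ (0, 0, β) := by rw [← ec, hℓ, hA]
  have h6 : κ a ^ 3 = 1 := by rw [← hA]; exact char_cube hκ A
  rw [h5, hb', map_mul, hk]
  linear_combination (κ β * ℓ (0, 0, β)) * h6

/-- For `ℓ` supported on the hyperplane, sphere sums reduce to sums over a norm fibre. -/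
private lemma sum_sphere_eq (hℓ : IsBorel κ ℓ) (hd0 : ∀ v : VQ q, v.2.1 ≠ 0 → ℓ v = 0)
    {c : ZMod q} (hc0 : c ≠ 0) (F : VQ q → ℂ)
    (hFi : ∀ (x : ZMod q) (β : EisMod q), F (x, 0, β) = F (0, 0, β)) :
    ∑ v : VQ q, (if PQ v = c then ℓ v * F v else 0) =
      (q : ℂ) * ∑ β : EisMod q, (if nrm β = c then ℓ (0, 0, β) * F (0, 0, β) else 0) := by
  classical
  simp only [Fintype.sum_prod_type]
  rw [sum_congr rfl (g := fun _ => ∑ β : EisMod q,
    (if nrm β = c then ℓ (0, 0, β) * F (0, 0, β) else 0)) fun x _ => ?_]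
  · rw [sum_const, card_univ, ZMod.card, nsmul_eq_mul]
  · rw [sum_eq_single (0 : ZMod q) (fun d _ hd => sum_eq_zero fun β _ => by
      rw [hd0 (x, d, β) hd, zero_mul, ite_self]) (fun h => absurd (mem_univ _) h)]
    refine sum_congr rfl fun β _ => ?_
    have hP : PQ (x, (0 : ZMod q), β) = nrm β := by simp [PQ]
    rw [hP]
    split_ifs with h
    · rw [indep_fst hℓ ((isUnit_iff_nrm β).2 (h ▸ hc0)), hFi]
    · rfl

/-- At a split prime a norm fibre is parametrised by the second coordinate. -/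
private lemma sum_nrm_fibre_split (h : q % 3 = 1) {c : ZMod q} (hc0 : c ≠ 0) (f : ZMod q → ℂ) :
    ∑ β : EisMod q, (if nrm β = c then f (splitE h β).2 else 0) =
      ∑ s ∈ univ.erase (0 : ZMod q), f s := by
  classical
  rw [← sum_filter]
  symm
  refine sum_bij (fun s _ => (splitE h).symm (c / s, s))
    (fun s hs => ?_) (fun s _ t _ he => (Prod.ext_iff.1 ((splitE h).symm.injective he)).2)
    (fun β hβ => ?_) fun s _ => by rw [RingEquiv.apply_symm_apply]
  · rw [mem_filter, nrm_splitE h, RingEquiv.apply_symm_apply]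
    exact ⟨mem_univ _, div_mul_cancel₀ c (mem_erase.1 hs).1⟩
  · have hβ' := (mem_filter.1 hβ).2
    rw [nrm_splitE h] at hβ'
    have hs2 : (splitE h β).2 ≠ 0 := fun h2 => hc0 (by rw [← hβ', h2, mul_zero])
    refine ⟨(splitE h β).2, by simp [hs2], (splitE h).injective ?_⟩
    rw [RingEquiv.apply_symm_apply]
    refine Prod.ext ?_ rfl
    show c / (splitE h β).2 = (splitE h β).1
    rw [div_eq_iff hs2, hβ']

/-- At a split prime a cubic character trivial on scalars is determined on a norm fibre by the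
second coordinate. -/
private lemma char_split_mul (hκ : κ ^ 3 = 1) (hs : ∀ t : ZMod q, t ≠ 0 → κ (cQ t) = 1)
    (h : q % 3 = 1) {c : ZMod q} (hc0 : c ≠ 0) {β : EisMod q} (hβ : nrm β = c) :
    κ β * κ ((splitE h).symm (1, c)) * κ ((splitE h).symm (1, (splitE h β).2)) = 1 := by
  set e := splitE h
  have hs2 : (e β).2 ≠ 0 := fun h2 => hc0 (by rw [← hβ, nrm_splitE h, h2, mul_zero])
  set s := (e β).2
  have hsplit : β * e.symm (1, c) = cQ (c / s) * e.symm (1, s) * e.symm (1, s) := e.injective (by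
    rw [map_mul, map_mul, map_mul, RingEquiv.apply_symm_apply, RingEquiv.apply_symm_apply]
    have he1 : (e β).1 * s = c := by rw [← nrm_splitE h, hβ]
    ext
    · simp [e, splitE] at he1 ⊢
      field_simp
      linear_combination he1
    · simp [e, splitE, s]
      field_simp)
  have hu : IsUnit (e.symm (1, s)) := (isUnit_iff_nrm _).2 (by
    rw [nrm_splitE h, RingEquiv.apply_symm_apply]; simpa using hs2)
  rw [← map_mul κ, hsplit, map_mul, map_mul, hs _ (div_ne_zero hc0 hs2), one_mul]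
  have h8 : κ (e.symm (1, s)) ^ 3 = 1 := char_cube hκ hu.unit
  linear_combination h8

/-- A nonzero type on the hyperplane, orthogonal to the isotropic vectors, forces an inert prime:
at a split prime it would make a Gauss sum vanish. -/
private lemma mod_three_eq_two (hℓ : IsBorel κ ℓ) (h3 : q ≠ 3) (hκ : κ ^ 3 = 1)
    (hs : ∀ t : ZMod q, t ≠ 0 → κ (cQ t) = 1) (hd0 : ∀ v : VQ q, v.2.1 ≠ 0 → ℓ v = 0)
    {c : ZMod q} (hc0 : c ≠ 0) {μ : ℂ} (hμ0 : μ ≠ 0)
    (hconst : ∀ β : EisMod q, nrm β = c → κ β * ℓ (0, 0, β) = μ)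
    (hF : ∀ x : VQ q, PQ x = 0 →
      ∑ v : VQ q, (if PQ v = c then ℓ v * ZMod.stdAddChar (BQ x v) else 0) = 0) :
    q % 3 = 2 := by
  classical
  refine (mod_three_cases h3).resolve_left fun h => ?_
  set e := splitE h
  have key := hF (0, 0, e.symm (1, 0)) (by simp only [PQ, nrm_splitE h]; simp [e])
  have hB : ∀ (x : ZMod q) (β : EisMod q), BQ (0, 0, e.symm (1, 0)) (x, 0, β) = (e β).2 := by
    intro x β
    have h1 : e.symm (1, 0) * star β + β * star (e.symm (1, 0)) = cQ (e β).2 := e.injective (by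
      rw [map_add, map_mul, map_mul, splitE_star h, splitE_star h, RingEquiv.apply_symm_apply]
      ext <;> simp [e, splitE])
    simp [BQ_formula, h1]
  rw [sum_sphere_eq hℓ hd0 hc0 _ fun x β => by rw [hB, hB], mul_eq_zero] at key
  simp only [hB] at key
  replace key := key.resolve_left (Nat.cast_ne_zero.2 (NeZero.ne q))
  set χ : MulChar (ZMod q) ℂ := MulChar.ofUnitHom ((Units.map (κ : EisMod q →* ℂ)).comp
    ((Units.map (e.symm : ZMod q × ZMod q →* EisMod q)).comp
      (MulEquiv.prodUnits.symm.toMonoidHom.comp (MonoidHom.prod 1 (MonoidHom.id _)))))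
  have hχ : ∀ s : ZMod q, s ≠ 0 → χ s = κ (e.symm (1, s)) := fun s hs => by
    rw [show s = ((Units.mk0 s hs : (ZMod q)ˣ) : ZMod q) from rfl, MulChar.ofUnitHom_coe]
    rfl
  refine gauss_ne χ one_ne_zero ?_
  have hsum : ∀ β : EisMod q, (if nrm β = c then ℓ (0, 0, β) * ZMod.stdAddChar (e β).2 else 0) =
      μ * κ (e.symm (1, c)) *
        (if nrm β = c then χ (e β).2 * ZMod.stdAddChar (1 * (e β).2) else 0) := by
    intro β
    split_ifs with hβ
    swap
    · simp
    have hs2 : (e β).2 ≠ 0 := fun h2 => hc0 (by rw [← hβ, nrm_splitE h, h2, mul_zero])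
    rw [one_mul, hχ _ hs2, ← hconst β hβ]
    linear_combination (-(ℓ (0, 0, β) * ZMod.stdAddChar (e β).2)) * char_split_mul hκ hs h hc0 hβ
  simp only [hsum, ← mul_sum, mul_eq_zero] at key
  have hku : κ (e.symm (1, c)) ≠ 0 := fun h0' => by
    have hu2 : IsUnit (e.symm (1, c)) := (isUnit_iff_nrm _).2 (by
      rw [nrm_splitE h, RingEquiv.apply_symm_apply]; simpa using hc0)
    have := char_cube hκ hu2.unit
    rw [IsUnit.unit_spec, h0'] at this
    norm_num at this
  replace key := key.resolve_left (by simp [hμ0, hku])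
  rw [sum_nrm_fibre_split h hc0 (fun s => χ s * ZMod.stdAddChar (1 * s))] at key
  rw [← sum_erase_add _ _ (mem_univ (0 : ZMod q)), key, MulChar.map_zero, zero_mul, add_zero]

/-- The pairing with the family is a Fourier transform along the norm. -/
private lemma sum_famU_mul (hℓ : IsBorel κ ℓ) (ρ l : ZMod q) :
    ∑ v : VQ q, famU κ ρ l v * ℓ v = (q : ℂ) *
      ∑ β : EisMod q, ZMod.stdAddChar (l * ρ * nrm β) * (κ β * ℓ (0, 0, β)) := by
  classical
  simp only [Fintype.sum_prod_type]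
  rw [sum_congr rfl (g := fun _ => ∑ β : EisMod q,
    ZMod.stdAddChar (l * ρ * nrm β) * (κ β * ℓ (0, 0, β))) fun x _ => ?_]
  · rw [sum_const, card_univ, ZMod.card, nsmul_eq_mul]
  · rw [sum_eq_single (0 : ZMod q) (fun d _ hd => sum_eq_zero fun β _ => by
      rw [famU, if_neg (show (x, d, β).2.1 ≠ 0 from hd), zero_mul])
      (fun h => absurd (mem_univ _) h)]
    refine sum_congr rfl fun β _ => ?_
    rw [famU_eq, mul_assoc]
    by_cases hβ : IsUnit β
    · rw [indep_fst hℓ hβ]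
    · rw [MulChar.map_nonunit κ hβ]; simp

/-- By Fourier inversion some member of the family pairs nontrivially. -/
private lemma exists_famU_pair (hℓ : IsBorel κ ℓ) {ρ c : ZMod q} (hρ : ρ ≠ 0)
    (hne : ∑ β : EisMod q, (if nrm β = c then κ β * ℓ (0, 0, β) else 0) ≠ 0) :
    ∃ l : ZMod q, ∑ v : VQ q, famU κ ρ l v * ℓ v ≠ 0 := by
  classical
  by_contra hall
  push Not at hall
  have hl' : ∀ l : ZMod q,
      ∑ β : EisMod q, ZMod.stdAddChar (l * ρ * nrm β) * (κ β * ℓ (0, 0, β)) = 0 := fun l => by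
    have h := hall l
    rw [sum_famU_mul hℓ, mul_eq_zero] at h
    exact h.resolve_left (Nat.cast_ne_zero.2 (NeZero.ne q))
  refine hne ((mul_eq_zero.1 ?_).resolve_left (Nat.cast_ne_zero.2 (NeZero.ne q)))
  calc (q : ℂ) * ∑ β : EisMod q, (if nrm β = c then κ β * ℓ (0, 0, β) else 0)
      = ∑ β : EisMod q, ∑ l : ZMod q,
          ZMod.stdAddChar (l * (ρ * (nrm β - c))) * (κ β * ℓ (0, 0, β)) := by
        rw [mul_sum]
        refine sum_congr rfl fun β _ => ?_
        rw [← sum_mul, sum_std_mul]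
        by_cases hβ : nrm β = c
        · rw [if_pos hβ, if_pos (by rw [hβ, sub_self, mul_zero])]
        · rw [if_neg hβ, if_neg (mul_ne_zero hρ (sub_ne_zero.2 hβ)), mul_zero, zero_mul]
    _ = ∑ l : ZMod q, ZMod.stdAddChar (-(l * ρ * c)) *
          ∑ β : EisMod q, ZMod.stdAddChar (l * ρ * nrm β) * (κ β * ℓ (0, 0, β)) := by
        rw [sum_comm]
        refine sum_congr rfl fun l _ => ?_
        rw [mul_sum]
        refine sum_congr rfl fun β _ => ?_
        rw [← mul_assoc (ZMod.stdAddChar (-(l * ρ * c))), ← AddChar.map_add_eq_mul]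
        congr 2
        ring
    _ = 0 := sum_eq_zero fun l _ => by rw [hl', mul_zero]

/-- **The local type**: a nonzero Borel function of a cubic character with no mass on the isotropic
vectors and spheres orthogonal to them lives at an inert prime, its character is nontrivial and
trivial on the scalars, and it pairs with the family of that character. -/
theorem local_type (hℓ : IsBorel κ ℓ) (h3 : q ≠ 3) (hκ : κ ^ 3 = 1)
    (h0 : ∀ v : VQ q, PQ v = 0 → ℓ v = 0)
    (hF : ∀ c : ZMod q, c ≠ 0 → ∀ x : VQ q, PQ x = 0 →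
      ∑ v : VQ q, (if PQ v = c then ℓ v * ZMod.stdAddChar (BQ x v) else 0) = 0)
    (hne : ℓ ≠ 0) {ρ : ZMod q} (hρ : ρ ≠ 0) :
    q % 3 = 2 ∧ (∀ t : ZMod q, t ≠ 0 → κ (cQ t) = 1) ∧ κ ≠ 1 ∧
      ∃ l : ZMod q, ∑ v : VQ q, famU κ ρ l v * ℓ v ≠ 0 := by
  classical
  have hd0 : ∀ v : VQ q, v.2.1 ≠ 0 → ℓ v = 0 := fun v hd => by
    by_cases hP : PQ v = 0
    · exact h0 v hP
    · exact vanish_d hℓ h3 hP (hF _ hP) hd rfl
  obtain ⟨⟨x₀, d₀, β₀⟩, hv⟩ := Function.ne_iff.1 hne
  have hd : d₀ = 0 := by_contra fun h => hv (hd0 _ h)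
  subst hd
  have hu : IsUnit β₀ := (isUnit_iff_nrm β₀).2 fun h => hv (h0 _ (by simp [PQ, h]))
  set c := nrm β₀ with hc
  have hc0 : c ≠ 0 := (isUnit_iff_nrm β₀).1 hu
  have hl : ℓ (0, 0, β₀) ≠ 0 := by rw [← indep_fst hℓ hu x₀]; exact hv
  have hs : ∀ t : ZMod q, t ≠ 0 → κ (cQ t) = 1 := fun t ht => char_scalar hℓ hl ht
  have hk0 : κ β₀ ≠ 0 := fun h => by
    have := char_cube hκ hu.unit
    rw [IsUnit.unit_spec, h] at this
    norm_num at this
  set μ := κ β₀ * ℓ (0, 0, β₀) with hμ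
  have hμ0 : μ ≠ 0 := mul_ne_zero hk0 hl
  have hconst : ∀ β : EisMod q, nrm β = c → κ β * ℓ (0, 0, β) = μ := fun β hβ =>
    twist_const hℓ h3 hκ hs hu hβ
  have hsum : ∑ β : EisMod q, (if nrm β = c then κ β * ℓ (0, 0, β) else 0) ≠ 0 := by
    rw [← sum_filter, sum_congr rfl fun β hβ => hconst β (mem_filter.1 hβ).2, sum_const,
      nsmul_eq_mul]
    exact mul_ne_zero
      (Nat.cast_ne_zero.2 (card_ne_zero.2 ⟨β₀, mem_filter.2 ⟨mem_univ _, rfl⟩⟩)) hμ0
  refine ⟨mod_three_eq_two hℓ h3 hκ hs hd0 hc0 hμ0 hconst (hF c hc0), hs, fun h1 => hsum ?_,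
    exists_famU_pair hℓ hρ hsum⟩
  have key := hF c hc0 0 (by simp [PQ, nrm])
  have hB : ∀ v : VQ q, BQ 0 v = 0 := fun v => by simp [BQ_formula]
  rw [sum_sphere_eq hℓ hd0 hc0 _ fun x β => by rw [hB, hB], mul_eq_zero] at key
  replace key := key.resolve_left (Nat.cast_ne_zero.2 (NeZero.ne q))
  refine (sum_congr rfl fun β _ => ?_).trans key
  split_ifs with hβ
  · rw [hB, AddChar.map_zero_eq_one, mul_one, h1,
      MulChar.one_apply ((isUnit_iff_nrm β).2 (hβ ▸ hc0)), one_mul]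
  · rfl

end Borel

/-! ## Convolution of the family -/

/-- The kernel of the convolution. -/
def conv (t : ZMod q) (u : VQ q → ℂ) (y : VQ q) : ℂ :=
  ∑ v : VQ q, u v * ZMod.stdAddChar (-t * PQ (y - v))

/-- The radial factor. -/
def radS (κ : MulChar (EisMod q) ℂ) (A t : ZMod q) (β : EisMod q) : ℂ :=
  ∑ x : EisMod q, κ x * ZMod.stdAddChar (A * nrm x + -t * nrm (β - x))

variable {κ : MulChar (EisMod q) ℂ}

/-- The convolution of a member of the family is the radial factor on the hyperplane. -/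
theorem conv_famU (h3 : q ≠ 3) {t : ZMod q} (ht : t ≠ 0) (ρ i : ZMod q) (y : VQ q) :
    conv t (famU κ ρ i) y = if y.2.1 = 0 then (q : ℂ) * radS κ (i * ρ) t y.2.2 else 0 := by
  classical
  obtain ⟨a, d, β⟩ := y
  simp only [conv, Fintype.sum_prod_type]
  rw [sum_congr rfl fun x _ => sum_eq_single (0 : ZMod q) (fun d' _ hd => sum_eq_zero fun β' _ =>
    by rw [famU, if_neg (show (x, d', β').2.1 ≠ 0 from hd), zero_mul])
    (fun h => absurd (mem_univ _) h), sum_comm]
  have e : ∀ (x : ZMod q) (b : EisMod q), famU κ ρ i (x, 0, b) *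
      ZMod.stdAddChar (-t * PQ ((a, d, β) - (x, 0, b))) =
      κ b * ZMod.stdAddChar (i * ρ * nrm b + -t * nrm (β - b)) *
        ZMod.stdAddChar (3 * (t * a * d)) * ZMod.stdAddChar (x * (-(3 * t * d))) := by
    intro x b
    rw [famU_eq, mul_assoc (κ b), ← AddChar.map_add_eq_mul, mul_assoc (κ b),
      ← AddChar.map_add_eq_mul,
      mul_comm (ZMod.stdAddChar _) (κ b), mul_assoc (κ b), ← AddChar.map_add_eq_mul]
    congr 2
    simp [PQ]
    ring
  simp only [e, ← mul_sum, sum_std_mul]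
  by_cases hd : d = 0
  · subst hd
    rw [if_pos rfl, radS, mul_sum]
    refine sum_congr rfl fun b _ => ?_
    simp
    ring
  · rw [if_neg hd]
    refine sum_eq_zero fun b _ => ?_
    rw [if_neg (neg_ne_zero.2 (mul_ne_zero (mul_ne_zero (three_ne_zero' h3) ht) hd)), mul_zero]

lemma radS_mul {u : EisMod q} (hu : nrm u = 1) (A t : ZMod q) (β : EisMod q) :
    radS κ A t (u * β) = κ u * radS κ A t β := by
  have hu' : IsUnit u := (isUnit_iff_nrm u).2 (by rw [hu]; exact one_ne_zero)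
  rw [radS, radS, mul_sum, ← Equiv.sum_comp (Units.mulLeft hu'.unit)]
  refine sum_congr rfl fun x _ => ?_
  simp only [Units.mulLeft_apply, IsUnit.unit_spec]
  rw [map_mul, ← mul_sub, nrm_mul, nrm_mul, hu, one_mul, one_mul, mul_assoc]

lemma exists_unit_one_ne (hκ : κ ^ 3 = 1) (hs : ∀ t : ZMod q, t ≠ 0 → κ (cQ t) = 1)
    (hne : κ ≠ 1) : ∃ u : EisMod q, nrm u = 1 ∧ κ u ≠ 1 := by
  obtain ⟨a, ha⟩ := MulChar.ne_one_iff.1 hne
  set ai := star ((a⁻¹ : (EisMod q)ˣ) : EisMod q) with hai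
  refine ⟨(a : EisMod q) * ai, ?_, fun h => ha ?_⟩
  · rw [nrm_mul, hai, nrm_star, nrm_unit_mul_inv]
  · have h1 : κ (a : EisMod q) * κ (star (a : EisMod q)) = 1 := by
      rw [← map_mul κ, mul_star_eq]; exact hs _ ((isUnit_iff_nrm _).1 a.isUnit)
    have h2 : κ (star (a : EisMod q)) * κ ai = 1 := by rw [← map_mul κ, star_inv_unit, map_one]
    rw [map_mul] at h
    have h6 := char_cube hκ a
    linear_combination h6 - κ (a : EisMod q) * (-κ (a : EisMod q) ^ 2 * h2 +
      κ (a : EisMod q) * κ ai * h1 + h)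

/-- The radial sum vanishes at zero. -/
lemma radS_zero (hκ : κ ^ 3 = 1) (hs : ∀ t : ZMod q, t ≠ 0 → κ (cQ t) = 1) (hne : κ ≠ 1)
    (A t : ZMod q) : radS κ A t 0 = 0 := by
  obtain ⟨u, hu, hk⟩ := exists_unit_one_ne hκ hs hne
  have h := radS_mul (κ := κ) hu A t 0
  rw [mul_zero] at h
  exact (mul_eq_zero.1 (show (κ u - 1) * radS κ A t 0 = 0 by linear_combination -h)).resolve_left
    (sub_ne_zero.2 hk)

/-- The twisted radial sum is constant on norm fibres. -/
lemma radS_fibre (hκ : κ ^ 3 = 1) (A t : ZMod q) {β β' : EisMod q} (hβ : IsUnit β)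
    (e : nrm β' = nrm β) : κ β' ^ 2 * radS κ A t β' = κ β ^ 2 * radS κ A t β := by
  set u := ((hβ.unit⁻¹ : (EisMod q)ˣ) : EisMod q) * β'
  have hb' : β' = u * β := by
    rw [mul_comm, ← mul_assoc, IsUnit.mul_val_inv, one_mul]
  have hn : nrm u = 1 := by
    have hne : nrm β ≠ 0 := (isUnit_iff_nrm β).1 hβ
    refine mul_right_cancel₀ hne ?_
    rw [← nrm_mul, ← hb', e, one_mul]
  have h6 : κ u ^ 3 = 1 := char_cube hκ ((isUnit_iff_nrm u).2 (by rw [hn]; exact one_ne_zero)).unit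
  rw [hb', radS_mul hn, map_mul]
  linear_combination (κ β ^ 2 * radS κ A t β) * h6

end FermatAgent.LT.Lift
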