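import Fermat.Agent.LT.Base.RealPlane
import Fermat.Agent.LT.Lift.Fold
import Fermat.Agent.LT.Lift.Orbit
import Fermat.Agent.LT.Period.Average

/-!
# Coordinates around the real plane

Hyperbolic space is fibred over the real plane by the signed distance `r`; tiles of the plane for a
group of real integral matrices give fundamental domains upstairs.
-/

set_option autoImplicit false

noncomputable section

open Matrix MeasureTheory Filter Topology Set
open scoped MatrixGroups ENNReal UpperHalfPlane Modular Pointwise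

namespace FermatAgent.LT.Lift

open Period (hPt hPt_coords hPt_re_im)

/-- The point at signed distance `r` above a point of the real plane. -/
def emb (x : ℍ × ℝ) : H3 :=
  ⟨⟨x.1.re, x.1.im * (Real.sinh x.2 / Real.cosh x.2)⟩, x.1.im / Real.cosh x.2,
    div_pos x.1.im_pos (Real.cosh_pos _)⟩

/-- The foot and the distance. -/
def unemb (p : H3) : ℍ × ℝ :=
  (⟨⟨p.z.re, √(p.z.im ^ 2 + p.t ^ 2)⟩, Real.sqrt_pos.2 (by have := p.t_pos; positivity)⟩,
    Real.arsinh (p.z.im / p.t))

lemma emb_unemb (p : H3) : emb (unemb p) = p := by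
  have ht := p.t_pos
  have hc : Real.cosh (Real.arsinh (p.z.im / p.t)) = √(p.z.im ^ 2 + p.t ^ 2) / p.t := by
    rw [Real.cosh_arsinh, show 1 + (p.z.im / p.t) ^ 2 = (p.z.im ^ 2 + p.t ^ 2) / p.t ^ 2 by
      field_simp; ring, Real.sqrt_div' _ (sq_nonneg _), Real.sqrt_sq ht.le]
  have hs : √(p.z.im ^ 2 + p.t ^ 2) ≠ 0 := (Real.sqrt_pos.2 (by positivity)).ne'
  refine H3.ext (Complex.ext rfl ?_) ?_
  · show √(p.z.im ^ 2 + p.t ^ 2) * (Real.sinh (Real.arsinh (p.z.im / p.t)) /
      Real.cosh (Real.arsinh (p.z.im / p.t))) = _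
    rw [Real.sinh_arsinh, hc]; field_simp
  · show √(p.z.im ^ 2 + p.t ^ 2) / Real.cosh (Real.arsinh (p.z.im / p.t)) = _
    rw [hc]; field_simp

lemma unemb_emb (x : ℍ × ℝ) : unemb (emb x) = x := by
  obtain ⟨z, r⟩ := x
  have hy := z.im_pos
  have hc := Real.cosh_pos r
  have e : (z.im * (Real.sinh r / Real.cosh r)) ^ 2 + (z.im / Real.cosh r) ^ 2 = z.im ^ 2 := by
    field_simp
    linear_combination -Real.cosh_sq r
  refine Prod.ext (UpperHalfPlane.ext (Complex.ext rfl ?_)) ?_
  · show √((z.im * (Real.sinh r / Real.cosh r)) ^ 2 + (z.im / Real.cosh r) ^ 2) = z.im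
    rw [e, Real.sqrt_sq hy.le]
  · show Real.arsinh (z.im * (Real.sinh r / Real.cosh r) / (z.im / Real.cosh r)) = r
    rw [show z.im * (Real.sinh r / Real.cosh r) / (z.im / Real.cosh r) = Real.sinh r by field_simp,
      Real.arsinh_sinh]

/-- The chart is continuous. -/
lemma continuous_emb : Continuous emb := by
  have hc : Continuous fun x : ℍ × ℝ => Real.cosh x.2 := by fun_prop
  have hy : Continuous fun x : ℍ × ℝ => x.1.im := UpperHalfPlane.continuous_im.comp continuous_fst
  refine H3.continuous_mk ?_ (hy.div hc fun x => (Real.cosh_pos _).ne')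
  refine Complex.equivRealProdCLM.symm.continuous.comp
    ((UpperHalfPlane.continuous_re.comp continuous_fst).prodMk
      (hy.mul ((Real.continuous_sinh.comp continuous_snd).div hc fun x => (Real.cosh_pos _).ne')))

lemma continuous_unemb : Continuous unemb := by
  have hy : Continuous fun p : H3 => p.z.im := Complex.continuous_im.comp H3.continuous_z
  refine Continuous.prodMk (UpperHalfPlane.isEmbedding_coe.isInducing.continuous_iff.2 ?_)
    (Real.continuous_arsinh.comp (hy.div H3.continuous_t fun p => p.t_pos.ne'))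
  exact Complex.equivRealProdCLM.symm.continuous.comp
    ((Complex.continuous_re.comp H3.continuous_z).prodMk
    (((hy.pow 2).add (H3.continuous_t.pow 2)).sqrt))

/-- The coordinates as an equivalence. -/
def embEquiv : ℍ × ℝ ≃ᵐ H3 where
  toFun := emb
  invFun := unemb
  left_inv := unemb_emb
  right_inv := emb_unemb
  measurable_toFun := continuous_emb.measurable
  measurable_invFun := continuous_unemb.measurable

/-- The density of the distance. -/
def coshM : Measure ℝ := volume.withDensity fun r => ENNReal.ofReal (Real.cosh r ^ 2)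

instance : SFinite coshM := by unfold coshM; infer_instance

lemma measurable_hPt : Measurable fun p : ℝ × ℝ => hPt p.1 p.2 := by
  refine (UpperHalfPlane.measurableEmbedding_coe.measurable_comp_iff.1 ?_)
  classical
  have e : (fun c : ℂ => ((UpperHalfPlane.ofComplex c : ℍ) : ℂ)) = fun c =>
      if 0 < c.im then c else ((Classical.choice inferInstance : ℍ) : ℂ) := by
    funext c
    split_ifs with hc
    · rw [UpperHalfPlane.ofComplex_apply_of_im_pos hc]
    · rw [UpperHalfPlane.ofComplex_apply_of_im_nonpos (not_lt.1 hc)]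
  have h0 : Measurable fun c : ℂ => ((UpperHalfPlane.ofComplex c : ℍ) : ℂ) := by
    rw [e]
    exact Measurable.ite (measurableSet_lt measurable_const Complex.measurable_im) measurable_id
      measurable_const
  exact h0.comp (by fun_prop : Measurable fun p : ℝ × ℝ => (p.1 : ℂ) + (p.2 : ℂ) * Complex.I)

lemma measurable_ofCoord' : Measurable fun q : ℝ × ℝ × ℝ =>
    H3.ofCoord (WithLp.toLp 2 ((⟨q.1, q.2.1⟩ : ℂ), q.2.2)) :=
  H3.measurable_ofCoord.comp ((WithLp.prod_continuous_toLp 2 ℂ ℝ).measurable.comp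
    ((Complex.equivRealProdCLM.symm.continuous.comp
      (continuous_fst.prodMk continuous_snd.fst)).prodMk continuous_snd.snd).measurable)

/-- Integrals over the upper half plane in coordinates. -/
lemma lintegral_plane {K : ℍ → ℝ≥0∞} (hK : Measurable K) :
    ∫⁻ z : ℍ, K z = ∫⁻ x, ∫⁻ y in Ioi (0 : ℝ), ENNReal.ofReal (1 / y ^ 2) * K (hPt x y) := by
  have h := Period.lintegral_box (X := univ) (Y := univ) MeasurableSet.univ MeasurableSet.univ hK
  simp only [mem_univ, and_self, ofPred_true, Measure.restrict_univ, univ_inter] at h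
  rw [h, lintegral_lintegral_swap]
  exact ((by fun_prop : Measurable fun q : ℝ × ℝ => ENNReal.ofReal (1 / q.1 ^ 2)).mul
    (hK.comp (measurable_hPt.comp (measurable_snd.prodMk measurable_fst)))).aemeasurable

/-- A point from three real coordinates. -/
def mk3 (x y t : ℝ) : H3 := H3.ofCoord (WithLp.toLp 2 ((⟨x, y⟩ : ℂ), t))

lemma mk3_eq {x y t : ℝ} (ht : 0 < t) : mk3 x y t = ⟨⟨x, y⟩, t, ht⟩ := by
  rw [mk3, H3.ofCoord, dif_pos (by exact ht)]
  rfl

/-- Integrals over hyperbolic space in coordinates. -/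
lemma lintegral_space {F : H3 → ℝ≥0∞} (hF : Measurable F) :
    ∫⁻ p, F p ∂H3.vol =
      ∫⁻ x, ∫⁻ y, ∫⁻ t in Ioi (0 : ℝ), ENNReal.ofReal (t⁻¹ ^ 3) * F (mk3 x y t) := by
  have hI : Measurable (H3.half.indicator fun x => H3.dens x * F (H3.ofCoord x)) :=
    (H3.measurable_dens.mul (hF.comp H3.measurable_ofCoord)).indicator H3.measurableSet_half
  have hT := (WithLp.prod_continuous_toLp 2 ℂ ℝ).measurable
  rw [H3.lintegral_vol hF, ← lintegral_indicator H3.measurableSet_half, H3.vol3,
    lintegral_map hI hT, Measure.volume_eq_prod,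
    lintegral_prod (fun a => H3.half.indicator (fun x => H3.dens x * F (H3.ofCoord x))
      (WithLp.toLp 2 a)) (hI.comp hT).aemeasurable,
    ← Complex.volume_preserving_equiv_real_prod.symm.lintegral_comp_emb
      Complex.measurableEquivRealProd.symm.measurableEmbedding, Measure.volume_eq_prod,
    lintegral_prod]
  rotate_left
  · exact (((hI.comp hT).lintegral_prod_right').comp
      Complex.measurableEquivRealProd.symm.measurable).aemeasurable
  refine lintegral_congr fun x => lintegral_congr fun y => ?_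
  rw [← lintegral_indicator measurableSet_Ioi]
  refine lintegral_congr fun t => ?_
  simp only [indicator, H3.half, mem_ofPred_eq, mem_Ioi, H3.dens, WithLp.toLp_snd, mk3]
  rfl

/-- Scaling of the height. -/
lemma lintegral_scale {c : ℝ} (hc : 0 < c) (g : ℝ → ℝ≥0∞) :
    ∫⁻ y in Ioi (0 : ℝ), g y = ∫⁻ t in Ioi (0 : ℝ), ENNReal.ofReal c * g (t * c) := by
  have himg : (fun t : ℝ => t * c) '' Ioi 0 = Ioi 0 := by
    ext y
    simp only [mem_image, mem_Ioi]
    exact ⟨fun ⟨t, ht, e⟩ => e ▸ mul_pos ht hc, fun hy => ⟨y / c, div_pos hy hc,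
      div_mul_cancel₀ _ hc.ne'⟩⟩
  conv_lhs => rw [← himg]
  rw [lintegral_image_eq_lintegral_abs_deriv_mul measurableSet_Ioi
    (fun t _ => ((hasDerivAt_id' t).mul_const c).hasDerivWithinAt)
    (fun a _ b _ h => mul_right_cancel₀ hc.ne' h)]
  simp [abs_of_pos hc]

/-- Substitution of a hyperbolic sine. -/
lemma lintegral_sinh {t : ℝ} (ht : 0 < t) (g : ℝ → ℝ≥0∞) :
    ∫⁻ y, g y = ∫⁻ r, ENNReal.ofReal (t * Real.cosh r) * g (t * Real.sinh r) := by
  have himg : (fun r : ℝ => t * Real.sinh r) '' univ = univ := by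
    refine eq_univ_of_forall fun y => ⟨Real.arsinh (y / t), trivial, ?_⟩
    show t * Real.sinh (Real.arsinh (y / t)) = y
    rw [Real.sinh_arsinh]; field_simp
  have h := lintegral_image_eq_lintegral_abs_deriv_mul (f := fun r : ℝ => t * Real.sinh r)
    MeasurableSet.univ (fun r _ => ((Real.hasDerivAt_sinh r).const_mul t).hasDerivWithinAt)
    (fun a _ b _ h => Real.sinh_injective (mul_left_cancel₀ ht.ne' h)) g
  rw [himg] at h
  simp only [Measure.restrict_univ] at h
  simp only [h, abs_of_pos (mul_pos ht (Real.cosh_pos _))]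

/-- The two-dimensional substitution. -/
lemma lintegral_fibre {F : H3 → ℝ≥0∞} (hF : Measurable F) (x : ℝ) :
    ∫⁻ y in Ioi (0 : ℝ), ENNReal.ofReal (1 / y ^ 2) * ∫⁻ r, F (emb (hPt x y, r)) ∂coshM =
      ∫⁻ y, ∫⁻ t in Ioi (0 : ℝ), ENNReal.ofReal (t⁻¹ ^ 3) * F (mk3 x y t) := by
  have hC : Measurable fun r : ℝ => ENNReal.ofReal (Real.cosh r ^ 2) :=
    (Real.continuous_cosh.pow 2).measurable.ennreal_ofReal
  have hFe : Measurable fun q : ℝ × ℝ => F (emb (hPt x q.1, q.2)) :=
    hF.comp (continuous_emb.measurable.comp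
      ((measurable_hPt.comp (measurable_const.prodMk measurable_fst)).prodMk measurable_snd))
  have hmk : Measurable fun q : ℝ × ℝ => F (mk3 x q.1 q.2) :=
    hF.comp (measurable_ofCoord'.comp (measurable_const.prodMk measurable_id))
  calc ∫⁻ y in Ioi (0 : ℝ), ENNReal.ofReal (1 / y ^ 2) * ∫⁻ r, F (emb (hPt x y, r)) ∂coshM
      = ∫⁻ y in Ioi (0 : ℝ), ∫⁻ r,
          ENNReal.ofReal (1 / y ^ 2) *
          (ENNReal.ofReal (Real.cosh r ^ 2) * F (emb (hPt x y, r))) := by
        refine lintegral_congr fun y => ?_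
        rw [coshM, lintegral_withDensity_eq_lintegral_mul _ hC
          (g := fun r => F (emb (hPt x y, r))) (hFe.comp (measurable_const.prodMk measurable_id)),
          ← lintegral_const_mul' _ _ ENNReal.ofReal_ne_top]
        rfl
    _ = ∫⁻ r, ∫⁻ y in Ioi (0 : ℝ),
          ENNReal.ofReal (1 / y ^ 2) * (ENNReal.ofReal (Real.cosh r ^ 2) * F (emb (hPt x y, r))) :=
        lintegral_lintegral_swap ((by fun_prop : Measurable fun q : ℝ × ℝ =>
          ENNReal.ofReal (1 / q.1 ^ 2)).mul ((hC.comp measurable_snd).mul hFe)).aemeasurable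
    _ = ∫⁻ r, ∫⁻ t in Ioi (0 : ℝ),
          ENNReal.ofReal (Real.cosh r / t ^ 2) * F (mk3 x (t * Real.sinh r) t) := by
        refine lintegral_congr fun r => ?_
        have hc := Real.cosh_pos r
        rw [lintegral_scale hc]
        refine setLIntegral_congr_fun measurableSet_Ioi fun t ht => ?_
        have ht : (0 : ℝ) < t := ht
        rw [← mul_assoc, ← mul_assoc, ← ENNReal.ofReal_mul hc.le,
          ← ENNReal.ofReal_mul (by positivity), mk3_eq ht]
        congr 1
        · congr 1; field_simp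
        · congr 1
          obtain ⟨h1, h2⟩ := hPt_re_im (x := x) (mul_pos ht hc)
          refine H3.ext (Complex.ext h1 ?_) ?_
          · show (hPt x (t * Real.cosh r)).im * (Real.sinh r / Real.cosh r) = t * Real.sinh r
            rw [h2]; field_simp
          · show (hPt x (t * Real.cosh r)).im / Real.cosh r = t
            rw [h2]; field_simp
    _ = ∫⁻ t in Ioi (0 : ℝ), ∫⁻ r,
          ENNReal.ofReal (Real.cosh r / t ^ 2) * F (mk3 x (t * Real.sinh r) t) :=
        lintegral_lintegral_swap ((by fun_prop : Measurable fun q : ℝ × ℝ =>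
          ENNReal.ofReal (Real.cosh q.1 / q.2 ^ 2)).mul (hmk.comp
          ((by fun_prop : Measurable fun q : ℝ × ℝ => q.2 * Real.sinh q.1).prodMk
            measurable_snd))).aemeasurable
    _ = ∫⁻ t in Ioi (0 : ℝ), ∫⁻ y, ENNReal.ofReal (t⁻¹ ^ 3) * F (mk3 x y t) := by
        refine setLIntegral_congr_fun measurableSet_Ioi fun t ht => ?_
        have ht : (0 : ℝ) < t := ht
        rw [lintegral_sinh ht fun y => ENNReal.ofReal (t⁻¹ ^ 3) * F (mk3 x y t)]
        refine lintegral_congr fun r => ?_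
        rw [← mul_assoc, ← ENNReal.ofReal_mul (mul_pos ht (Real.cosh_pos r)).le]
        congr 2
        field_simp
    _ = _ := lintegral_lintegral_swap ((by fun_prop : Measurable fun q : ℝ × ℝ =>
          ENNReal.ofReal (q.1⁻¹ ^ 3)).mul
            (hmk.comp (measurable_snd.prodMk measurable_fst))).aemeasurable

/-- The measure in the coordinates. -/
theorem measurePreserving_emb :
    MeasurePreserving emb ((volume : Measure ℍ).prod coshM) H3.vol := by
  refine ⟨continuous_emb.measurable, Measure.ext_of_lintegral _ fun F hF => ?_⟩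
  have hm : Measurable fun a : ℍ × ℝ => F (emb a) := hF.comp continuous_emb.measurable
  rw [lintegral_map hF continuous_emb.measurable,
    lintegral_prod (fun a => F (emb a)) hm.aemeasurable,
    lintegral_plane hm.lintegral_prod_right', lintegral_space hF]
  exact lintegral_congr fun x => lintegral_fibre hF x

/-- The chart is a measurable embedding. -/
lemma measurableEmbedding_emb : MeasurableEmbedding emb := embEquiv.measurableEmbedding

/-! ## Equivariance -/

lemma toC_intCast (z : ℤ) : toC (z : Eis) = (z : ℂ) := map_intCast toC z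

lemma slE_smul_emb (g : SL(2, ℤ)) (x : ℍ × ℝ) : slE g • emb x = emb (g • x.1, x.2) :=
  H3.smul_plane (glE (slE g)) g
    (fun i j => by rw [glE_apply, slE_apply, toC_intCast, Complex.ofReal_intCast]) x.1
    (Real.cosh_pos _) (Real.cosh_sq _)

/-- The form in the chart. -/
lemma fv_v0_emb (x : ℍ × ℝ) : fv v0 (emb x) = 2 * √3 * Real.sinh x.2 := by
  have hy := x.1.im_pos
  have hc := Real.cosh_pos x.2
  rw [fv_eq]
  simp only [v0, bv, emb, Int.cast_zero, zero_mul, zero_add, map_ofNat, thC]
  simp [Complex.div_re, Complex.div_im, Complex.normSq_apply]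
  field_simp

/-! ## Tiles -/

/-- Almost every point has exactly one translate in the set. -/
structure IsTile (H : Subgroup SL(2, ℤ)) (A : Set ℍ) : Prop where
  meas : MeasurableSet A
  ae_unique : ∀ᵐ z : ℍ, ∃! h : H, (h : SL(2, ℤ)) • z ∈ A

/-- The real group inside the projective group. -/
def planeGrp (H : Subgroup SL(2, ℤ)) : Subgroup PGL(2, ℂ) := H.map (pglE.comp slE)

/-- Plane groups lie in the full group. -/
lemma planeGrp_le (H : Subgroup SL(2, ℤ)) : planeGrp H ≤ PGall := by
  rintro _ ⟨g, -, rfl⟩; exact ⟨slE g, rfl⟩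

/-- A tile of the plane gives a fundamental domain. -/
theorem isFD_tile {H : Subgroup SL(2, ℤ)} {A : Set ℍ} (hA : IsTile H A) :
    IsFundamentalDomain (planeGrp H) (emb '' (A ×ˢ univ)) H3.vol := by
  have hmem : ∀ (h : SL(2, ℤ)) (p : H3),
      pglE (slE h) • p ∈ emb '' (A ×ˢ univ) ↔ h • (unemb p).1 ∈ A := by
    intro h p
    rw [pglE_smul, show slE h • p = emb (h • (unemb p).1, (unemb p).2) by
      rw [← slE_smul_emb, emb_unemb],
      Function.Injective.mem_set_image (Function.LeftInverse.injective unemb_emb)]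
    simp
  have hae : ∀ᵐ p ∂H3.vol, ∃! h : H, (h : SL(2, ℤ)) • (unemb p).1 ∈ A := by
    rw [← measurePreserving_emb.map_eq, measurableEmbedding_emb.ae_map_iff]
    simp only [unemb_emb]
    exact Measure.quasiMeasurePreserving_fst.ae hA.ae_unique
  refine ⟨(measurableEmbedding_emb.measurableSet_image.2
    (hA.meas.prod MeasurableSet.univ)).nullMeasurableSet, ?_, ?_⟩
  · filter_upwards [hae] with p hp
    obtain ⟨h, hh, -⟩ := hp
    exact ⟨⟨pglE (slE h), h, h.2, rfl⟩, (hmem h p).2 hh⟩
  · intro g₁ g₂ hne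
    refine measure_mono_null (fun p hp => ?_) (ae_iff.1 hae)
    intro hu
    obtain ⟨h, -, huniq⟩ := hu
    obtain ⟨a₁, ha₁, e₁⟩ := g₁.2
    obtain ⟨a₂, ha₂, e₂⟩ := g₂.2
    have key : ∀ (g : planeGrp H) (a : SL(2, ℤ)) (ha : a ∈ H), (pglE.comp slE) a = g →
        p ∈ g • (emb '' (A ×ˢ univ)) → (⟨a⁻¹, H.inv_mem ha⟩ : H) = h := by
      intro g a ha e hpg
      refine huniq _ ((hmem a⁻¹ p).1 ?_)
      rw [mem_smul_set_iff_inv_smul_mem] at hpg
      rw [map_inv, map_inv]
      show ((pglE.comp slE) a)⁻¹ • p ∈ _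
      rw [e]; exact hpg
    have h1 := key g₁ a₁ ha₁ e₁ hp.1
    have h2 := key g₂ a₂ ha₂ e₂ hp.2
    have : a₁ = a₂ := inv_injective (congrArg Subtype.val (h1.trans h2.symm))
    exact hne (Subtype.ext (by rw [← e₁, ← e₂, this]))

end FermatAgent.LT.Lift
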