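import Fermat.Agent.LT.Lift.Theta
import Fermat.Agent.LT.Theta.PoissonDecay

/-!
# The behaviour of the theta series under the inversion

Poisson summation on each coset turns the series into the series of the finite Fourier transform of
the weight.
-/

set_option autoImplicit false

noncomputable section

open Complex MeasureTheory Filter Topology UnitAddTorus
open FermatAgent.LT.Poisson (intVec)
open scoped MatrixGroups Real UpperHalfPlane ComplexConjugate

namespace FermatAgent.LT.Lift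

/-- The off-diagonal entry in real coordinates. -/
def cG (ξ : Fin 4 → ℝ) : ℂ := (ξ 2 : ℂ) + (ξ 3 : ℂ) * zC

/-- The quadratic form in real coordinates. -/
def qR (ξ : Fin 4 → ℝ) : ℝ := Complex.normSq (cG ξ) - ξ 0 * ξ 1

/-- The functional in real coordinates. -/
def fR (p : H3) (ξ : Fin 4 → ℝ) : ℝ := freal (ξ 0) (ξ 1) (cG ξ) p

/-- The gaussian in real coordinates. -/
def gR (k : ℕ) (τ : ℂ) (p : H3) (ξ : Fin 4 → ℝ) : ℂ :=
  Complex.exp (2 * π * I * τ * (qR ξ : ℂ) / k - π * (τ.im : ℂ) * (fR p ξ : ℂ) ^ 2 / k)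

/-- Real coordinates of a vector. -/
def crd (x : Vec) : Fin 4 → ℝ :=
  ![(x.1 : ℝ), (x.2.1 : ℝ), (2 * (x.2.2.im : ℝ) - x.2.2.re) / 3,
    ((x.2.2.im : ℝ) - 2 * x.2.2.re) / 3]

lemma cG_crd (x : Vec) : cG (crd x) = bv x := by
  rw [cG, bv, eq_div_iff thC_ne_zero, toC_apply, thC_eq]
  simp only [crd, Matrix.cons_val]
  push_cast
  have hz : zC * zC = -1 - zC := by rw [zC_rel]; simp; ring
  linear_combination (((x.2.2.im : ℂ) - 2 * x.2.2.re) / 3 * 2) * hz

lemma qR_crd (x : Vec) : qR (crd x) = qf x := by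
  rw [qR, cG_crd, normSq_bv, qf, P3]
  simp only [crd, Matrix.cons_val]
  push_cast
  ring

lemma fR_crd (x : Vec) (p : H3) : fR p (crd x) = fv x p := by
  rw [fR, freal, cG_crd, fv_eq]
  simp only [crd, Matrix.cons_val]

lemma gR_crd (k : ℕ) (τ : ℂ) (p : H3) (x : Vec) : gR k τ p (crd x) = gss k τ p x := by
  rw [gR, gss, qR_crd, fR_crd]

/-- Integral coordinates of an element of the sublattice. -/
def subI (y : Vec) : Fin 4 → ℤ := ![y.1, y.2.1, y.2.2.re, y.2.2.im]

/-- Integral coordinates as an equivalence. -/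
def subIEquiv : Vec ≃ (Fin 4 → ℤ) where
  toFun := subI
  invFun n := (n 0, n 1, ⟨n 2, n 3⟩)
  left_inv y := by simp [subI]
  right_inv n := by funext i; fin_cases i <;> simp [subI]

lemma crd_subV (k : ℕ) (x y : Vec) :
    crd (x + subV k y) = crd x + fun i => (k : ℝ) * (subI y i : ℝ) := by
  funext i
  fin_cases i <;>
    simp [crd, subV, subI, natCast_eis, thE, QuadraticAlgebra.re_mul, QuadraticAlgebra.im_mul] <;>
    ring

/-- The linear form attached to a vector. -/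
def pairI (y : Vec) : Fin 4 → ℤ := ![-y.2.1, -y.1, y.2.2.im, -y.2.2.re]

/-- The dual index of a vector. -/
def pairEquiv : Vec ≃ (Fin 4 → ℤ) where
  toFun := pairI
  invFun n := (-n 1, -n 0, ⟨-n 3, n 2⟩)
  left_inv y := by simp [pairI]
  right_inv n := by funext i; fin_cases i <;> simp [pairI]

lemma B3_crd (x y : Vec) : (B3 x y : ℝ) / 3 = ∑ i, (pairI y i : ℝ) * crd x i := by
  rw [B3_eq, Fin.sum_univ_four]
  simp [pairI, crd]
  ring

lemma cG_re (ξ : Fin 4 → ℝ) : (cG ξ).re = ξ 2 - ξ 3 / 2 := by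
  simp [cG, zC]; ring

lemma cG_im (ξ : Fin 4 → ℝ) : (cG ξ).im = ξ 3 * (√3 / 2) := by
  simp [cG, zC]

/-- The coordinates adapted to a point: the functional, then three orthogonal ones. -/
def adapt (p : H3) : Matrix (Fin 4) (Fin 4) ℝ :=
  let x := p.z.re
  let y := p.z.im
  let t := p.t
  !![t / 2 + (x ^ 2 + y ^ 2) / (2 * t), t / 2 - (x ^ 2 + y ^ 2) / (2 * t), 2 * x, 2 * y;
     1 / (2 * t), -(1 / (2 * t)), 0, 0;
     x / (2 * t) + y / (2 * t * √3), -(x / (2 * t) + y / (2 * t * √3)), 1, 1 / √3;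
     y / (t * √3), -(y / (t * √3)), 0, 2 / √3]

/-- The square root of three is positive. -/
lemma sqrt3_pos : (0 : ℝ) < √3 := by positivity

lemma det_adapt (p : H3) : (adapt p).det = -(1 / √3) := by
  have := p.t_pos
  have := sqrt3_pos
  rw [adapt, Matrix.det_succ_row_zero, Fin.sum_univ_four]
  simp [Matrix.det_fin_three, Fin.succAbove]
  field_simp
  ring

/-- The coordinates of a vector adapted to a point. -/
def adI (p : H3) (ξ : Fin 4 → ℝ) : Fin 4 → ℝ := Matrix.toLin' (adapt p) ξ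

lemma adI_apply (p : H3) (s : Fin 4 → ℝ) (i : Fin 4) :
    adI p s i = adapt p i 0 * s 0 + adapt p i 1 * s 1 + adapt p i 2 * s 2 + adapt p i 3 * s 3 := by
  simp [adI, Matrix.mulVec, dotProduct, Fin.sum_univ_four]

lemma fR_adI (p : H3) (s : Fin 4 → ℝ) : fR p (adI p s) = s 0 := by
  have := p.t_pos
  have h3 := sqrt3_pos
  simp only [fR, freal, Complex.normSq_apply, Complex.mul_re, Complex.conj_re, Complex.conj_im,
    cG_re, cG_im, adI_apply]
  simp [adapt]
  field_simp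
  ring

lemma qR_adI (p : H3) (s : Fin 4 → ℝ) :
    qR (adI p s) = s 2 ^ 2 + s 3 ^ 2 + s 1 ^ 2 / 4 - s 0 ^ 2 / 4 := by
  have := p.t_pos
  have h3 := sqrt3_pos
  have e := sqrt3_sq
  simp only [qR, Complex.normSq_apply, cG_re, cG_im, adI_apply]
  simp [adapt]
  field_simp
  grind

lemma pair_adI (p : H3) (y : Vec) (s : Fin 4 → ℝ) :
    ∑ i, (pairI y i : ℝ) * adI p s i =
      2 * ((bv y - p.z * (y.2.1 : ℂ)).re) * s 2 + 2 * ((bv y - p.z * (y.2.1 : ℂ)).im) * s 3 +
        (fv y p - 2 * p.t * y.2.1) * s 1 / 2 - fv y p * s 0 / 2 := by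
  have := p.t_pos
  have h3 := sqrt3_pos
  have e := sqrt3_sq
  rw [Fin.sum_univ_four, ← cG_crd, ← fR_crd]
  simp only [fR, freal, Complex.normSq_apply, Complex.mul_re, Complex.mul_im, Complex.sub_re,
    Complex.sub_im, Complex.conj_re, Complex.conj_im, Complex.intCast_re, Complex.intCast_im,
    cG_re, cG_im, crd, pairI, adI_apply, Matrix.cons_val, Int.cast_neg]
  simp [adapt]
  field_simp
  grind

/-- One variable of the transform. -/
lemma gauss_one {b : ℂ} (hb : 0 < b.re) (c : ℂ) :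
    ∫ x : ℝ, Complex.exp (-b * (x : ℂ) ^ 2 + c * x) =
      (π / b) ^ (1 / 2 : ℂ) * Complex.exp (c ^ 2 / (4 * b)) := by
  have h := integral_cexp_quadratic (b := -b) (by simpa using hb) c 0
  simp only [add_zero, neg_neg, zero_sub] at h
  rw [h]
  congr 2
  rw [mul_neg, div_neg, neg_neg]

lemma cpow_half_conj {z : ℂ} (hz : 0 < z.re) :
    z ^ (1 / 2 : ℂ) * conj z ^ (1 / 2 : ℂ) = (‖z‖ : ℂ) := by
  have h0 : z ≠ 0 := fun h => by simp [h] at hz
  have harg : z.arg ≠ π := fun h => by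
    have := Complex.arg_eq_pi_iff.1 h
    linarith [this.1]
  have e : conj (1 / 2 : ℂ) = 1 / 2 := by
    rw [map_div₀, map_one, map_ofNat]
  rw [Complex.conj_cpow z _ harg, e, Complex.mul_conj, Complex.normSq_eq_norm_sq]
  norm_cast
  rw [Complex.norm_cpow_of_ne_zero h0]
  simp [← Real.rpow_natCast, ← Real.rpow_mul (norm_nonneg z)]

lemma cpow_half_mul_self (z : ℂ) : z ^ (1 / 2 : ℂ) * z ^ (1 / 2 : ℂ) = z := by
  rcases eq_or_ne z 0 with rfl | h
  · simp
  · rw [← Complex.cpow_add _ _ h, add_halves, Complex.cpow_one]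

variable {k : ℕ} [NeZero k]

lemma kR_pos : (0 : ℝ) < k := by exact_mod_cast Nat.pos_of_neZero k

omit [NeZero k] in
lemma norm_gR (τ : ℂ) (p : H3) (ξ : Fin 4 → ℝ) :
    ‖gR k τ p ξ‖ = Real.exp (-(2 * π * τ.im / k * (qR ξ + fR p ξ ^ 2 / 2))) := by
  rw [gR, Complex.norm_exp]
  congr 1
  rw [show (2 * π * I * τ * (qR ξ : ℂ) / k - π * (τ.im : ℂ) * (fR p ξ : ℂ) ^ 2 / k : ℂ) =
    ((qR ξ * (2 * π) / k : ℝ) : ℂ) * (I * τ) - ((π * τ.im * fR p ξ ^ 2 / k : ℝ) : ℂ) by
      push_cast; ring]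
  simp only [Complex.sub_re, Complex.re_ofReal_mul, Complex.ofReal_re, Complex.I_mul_re]
  ring

lemma sq_norm_le (ξ : EuclideanSpace ℝ (Fin 4)) :
    ‖ξ‖ ^ 2 ≤ 4 * ((ξ 0) ^ 2 + (ξ 1) ^ 2 + 3 * ‖cG fun i => ξ i‖ ^ 2) := by
  rw [EuclideanSpace.norm_eq, Real.sq_sqrt (Finset.sum_nonneg fun i _ => sq_nonneg _),
    Fin.sum_univ_four, ← Complex.normSq_eq_norm_sq]
  simp only [Real.norm_eq_abs, sq_abs, cG, zC, Complex.normSq_apply]
  simp
  nlinarith [sqrt3_sq, sq_nonneg (ξ 2 - ξ 3), sq_nonneg (ξ 2 + ξ 3), sq_nonneg (ξ 3),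
    sq_nonneg (ξ 0), sq_nonneg (ξ 1)]

/-- The rescaled gaussian as a function of rapid decay. -/
def decG (k : ℕ) [NeZero k] (τ : ℍ) (p : H3) : Theta.PoissonD.Decay (Fin 4) where
  toFun ξ := gR k τ p fun i => (k : ℝ) * ξ i
  cont := by
    have := p.t_pos
    unfold gR qR fR freal cG
    fun_prop (disch := positivity)
  decay m := by
    set c := 2 * π * (τ : ℂ).im / k * ((k : ℝ) ^ 2) / (400 * H3.bnd p ^ 2) with hc
    have hb : 0 < H3.bnd p := gau_pos p
    have hc0 : 0 < c := by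
      have := rate_pos (k := k) τ
      have := kR_pos (k := k)
      positivity
    refine ⟨Real.exp (2 * c) * ((m.factorial : ℝ) / c ^ m), by positivity, fun ξ => ?_⟩
    show ‖gR k τ p fun i => (k : ℝ) * ξ i‖ ≤ _
    rw [norm_gR]
    have h1 := size_le_real ((k : ℝ) * ξ 0) ((k : ℝ) * ξ 1) (cG fun i => (k : ℝ) * ξ i) p
    have e : cG (fun i => (k : ℝ) * ξ i) = (k : ℂ) * cG fun i => ξ i := by
      simp [cG]; ring
    rw [e, norm_mul, Complex.norm_natCast] at h1
    have h2 := sq_norm_le ξ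
    set M := qR (fun i => (k : ℝ) * ξ i) + fR p (fun i => (k : ℝ) * ξ i) ^ 2 / 2
    have h3 : (k : ℝ) ^ 2 * ‖ξ‖ ^ 2 ≤ 400 * H3.bnd p ^ 2 * M := by
      have h4 := mul_le_mul_of_nonneg_left h2 (sq_nonneg (k : ℝ))
      simp only [M, qR, fR] at h1 ⊢
      rw [e]
      nlinarith
    have h5 : c * ‖ξ‖ ^ 2 ≤ 2 * π * (τ : ℂ).im / k * M := by
      rw [hc, div_mul_eq_mul_div, div_le_iff₀ (by positivity)]
      calc 2 * π * (τ : ℂ).im / k * (k : ℝ) ^ 2 * ‖ξ‖ ^ 2
          = 2 * π * (τ : ℂ).im / k * ((k : ℝ) ^ 2 * ‖ξ‖ ^ 2) := by ring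
        _ ≤ 2 * π * (τ : ℂ).im / k * (400 * H3.bnd p ^ 2 * M) :=
          mul_le_mul_of_nonneg_left h3 (rate_pos τ).le
        _ = _ := by ring
    refine (Real.exp_le_exp.2 (neg_le_neg h5)).trans ?_
    rw [Real.rpow_neg (by positivity), Real.rpow_natCast]
    have h6 : c * (1 + ‖ξ‖) ≤ 2 * c + c * ‖ξ‖ ^ 2 := by nlinarith [sq_nonneg (‖ξ‖ - 1)]
    have hy : 0 < c * (1 + ‖ξ‖) := by positivity
    have h8 : Real.exp (-(c * (1 + ‖ξ‖))) ≤ (m.factorial : ℝ) / (c * (1 + ‖ξ‖)) ^ m := by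
      rw [Real.exp_neg, inv_le_comm₀ (Real.exp_pos _) (by positivity), inv_div]
      exact Real.pow_div_factorial_le_exp _ hy.le m
    calc Real.exp (-(c * ‖ξ‖ ^ 2)) ≤ Real.exp (2 * c) * Real.exp (-(c * (1 + ‖ξ‖))) := by
          rw [← Real.exp_add, Real.exp_le_exp]; linarith
      _ ≤ Real.exp (2 * c) * ((m.factorial : ℝ) / (c * (1 + ‖ξ‖)) ^ m) :=
          mul_le_mul_of_nonneg_left h8 (Real.exp_pos _).le
      _ = _ := by rw [mul_pow, div_mul_eq_div_div]; ring

/-- The inverted argument. -/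
def negInv (τ : ℍ) : ℍ := ⟨-1 / (τ : ℂ), by
  rw [neg_div, one_div, Complex.neg_im, Complex.inv_im, neg_div, neg_neg]
  exact div_pos τ.im_pos (Complex.normSq_pos.2 τ.ne_zero)⟩

/-- The inversion on the upper half plane. -/
lemma coe_negInv (τ : ℍ) : ((negInv τ : ℍ) : ℂ) = -1 / (τ : ℂ) := rfl

lemma im_negInv (τ : ℍ) : (negInv τ).im = τ.im / Complex.normSq (τ : ℂ) := by
  show (-1 / (τ : ℂ)).im = _
  rw [neg_div, one_div, Complex.neg_im, Complex.inv_im, neg_div, neg_neg]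
  rfl

/-- The constant of the transformation. -/
def kconst (k : ℕ) (τ : ℂ) : ℂ := (k : ℂ) ^ 2 / ((√3 : ℂ) * (-(I * τ)) * (‖τ‖ : ℂ))

/-- The product of the four square roots in the gaussian integral. -/
private lemma gauss_prefactor (τ : ℍ) :
    conj ((2 * k : ℂ) / (-(I * τ))) ^ (1 / 2 : ℂ) * ((2 * k : ℂ) / (-(I * τ))) ^ (1 / 2 : ℂ) *
        (((k : ℂ) / (2 * -(I * τ))) ^ (1 / 2 : ℂ) * ((k : ℂ) / (2 * -(I * τ))) ^ (1 / 2 : ℂ)) =
      (k : ℂ) ^ 2 / ((-(I * τ)) * (‖(τ : ℂ)‖ : ℂ)) := by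
  have hk := kR_pos (k := k)
  rw [cpow_half_mul_self, mul_comm (conj _ ^ _), cpow_half_conj ?_]
  · rw [norm_div, norm_neg, norm_mul, norm_mul, Complex.norm_I, one_mul, Complex.norm_natCast,
      RCLike.norm_ofNat]
    have hτ : (τ : ℂ) ≠ 0 := τ.ne_zero
    have : (‖(τ : ℂ)‖ : ℂ) ≠ 0 := by simpa using hτ
    push_cast
    field_simp
  · rw [Complex.div_re]
    simp [Complex.normSq_apply]
    exact div_pos (by positivity) (by
      nlinarith [mul_self_nonneg τ.re, mul_pos τ.im_pos τ.im_pos])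

/-- The form in the coordinates adapted to a point. -/
private lemma qf_eq_sq (y : Vec) (p : H3) :
    qf y = (bv y - p.z * (y.2.1 : ℂ)).re ^ 2 + (bv y - p.z * (y.2.1 : ℂ)).im ^ 2 +
      (fv y p - 2 * p.t * y.2.1) ^ 2 / 4 - fv y p ^ 2 / 4 := by
  have := p.t_pos
  simp only [qf, P3, fv_eq]
  push_cast
  rw [show ((QuadraticAlgebra.norm y.2.2 : ℤ) : ℝ) = 3 * Complex.normSq (bv y) by
    rw [normSq_bv]; ring]
  simp only [Complex.normSq_apply, Complex.sub_re, Complex.sub_im, Complex.mul_re,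
    Complex.mul_im, Complex.intCast_re, Complex.intCast_im, Complex.conj_re, Complex.conj_im]
  field_simp
  ring

/-- The Fourier transform of the gaussian at a vector. -/
theorem intCoeff_decG (τ : ℍ) (p : H3) (y : Vec) :
    Theta.PoissonD.intCoeff (decG k τ p).toFun (pairI y) =
      (k : ℂ)⁻¹ ^ 4 * kconst k τ * gss k (negInv τ) p y := by
  have hk := kR_pos (k := k)
  have hkC : (k : ℂ) ≠ 0 := Nat.cast_ne_zero.2 (NeZero.ne k)
  set M : Matrix (Fin 4) (Fin 4) ℝ := (k : ℝ)⁻¹ • adapt p with hM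
  have hdet : M.det = -((k : ℝ)⁻¹ ^ 4 * (1 / √3)) := by
    rw [hM, Matrix.det_smul, det_adapt, Fintype.card_fin]; ring
  have hdet0 : M.det ≠ 0 := by
    rw [hdet]; have := sqrt3_pos; exact neg_ne_zero.2 (by positivity)
  set h : (Fin 4 → ℝ) → ℂ := fun ξ => mFourier (-pairI y) (fun i => (ξ i : UnitAddCircle)) *
    (decG k τ p).toFun (WithLp.toLp 2 ξ)
  have hm : Measurable fun ξ : Fin 4 → ℝ => Matrix.toLin' M ξ :=
    (LinearMap.continuous_of_finiteDimensional _).measurable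
  have hh : Continuous h := by
    refine ((mFourier _).continuous.comp (continuous_pi fun i =>
      continuous_quotient_mk'.comp (continuous_apply i))).mul ((decG k τ p).cont.comp ?_)
    exact PiLp.continuous_toLp _ _
  have key : ∫ ξ, h ξ = (|M.det| : ℝ) * ∫ s, h (Matrix.toLin' M s) := by
    rw [← integral_map hm.aemeasurable hh.aestronglyMeasurable,
      Real.map_matrix_volume_pi_eq_smul_volume_pi hdet0, integral_smul_measure,
      ENNReal.toReal_ofReal (abs_nonneg _), Complex.real_smul, ← mul_assoc]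
    have : ((|M.det| : ℝ) : ℂ) * ((|M.det⁻¹| : ℝ) : ℂ) = 1 := by
      rw [← Complex.ofReal_mul, abs_inv, mul_inv_cancel₀ (abs_ne_zero.2 hdet0), Complex.ofReal_one]
    rw [this, one_mul]
  show ∫ ξ, h ξ = _
  rw [key]
  -- the exponent separates
  set B := bv y - p.z * (y.2.1 : ℂ) with hB
  set F := fv y p with hF
  set G := F - 2 * p.t * y.2.1 with hG
  let b : Fin 4 → ℂ := ![π * I * conj (τ : ℂ) / (2 * k), -(π * I * τ) / (2 * k),
    -(2 * π * I * τ) / k, -(2 * π * I * τ) / k]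
  let c : Fin 4 → ℂ := ![π * I * (F : ℂ) / k, -(π * I * (G : ℂ)) / k,
    -(4 * π * I * (B.re : ℂ)) / k, -(4 * π * I * (B.im : ℂ)) / k]
  have hsep : ∀ s : Fin 4 → ℝ,
      h (Matrix.toLin' M s) = ∏ i, Complex.exp (-b i * (s i : ℂ) ^ 2 + c i * s i) := by
    intro s
    have e1 : Matrix.toLin' M s = (k : ℝ)⁻¹ • adI p s := by
      rw [hM, adI, map_smul, LinearMap.smul_apply]
    simp only [h, decG, e1]
    rw [Poisson.mFourier_neg_coe, show (fun i => (k : ℝ) * ((k : ℝ)⁻¹ • adI p s) i) = adI p s by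
      funext i; rw [Pi.smul_apply, smul_eq_mul]; field_simp, gR, ← Complex.exp_add,
        ← Complex.exp_sum,
      fR_adI, qR_adI]
    congr 1
    have e2 : ∑ i, (pairI y i : ℝ) * ((k : ℝ)⁻¹ • adI p s) i =
        (∑ i, (pairI y i : ℝ) * adI p s i) / k := by
      rw [Finset.sum_div]
      refine Finset.sum_congr rfl fun i _ => ?_
      rw [Pi.smul_apply, smul_eq_mul]; ring
    rw [e2, pair_adI, Fin.sum_univ_four]
    simp only [b, c, Matrix.cons_val, ← hB, hG, hF]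
    have hc : conj (τ : ℂ) = (τ : ℂ) - 2 * I * ((τ : ℂ).im : ℂ) := by
      apply Complex.ext <;> simp; ring
    rw [hc]
    push_cast
    field_simp
    ring_nf
    simp only [Complex.I_sq]
    ring
  simp only [hsep]
  have hv : 0 < (τ : ℂ).im := τ.im_pos
  have hre : ∀ i, 0 < (b i).re := by
    intro i
    fin_cases i <;> simp [b, Complex.div_re, Complex.normSq_apply] <;> positivity
  rw [integral_fintype_prod_volume_eq_prod (f := fun i (x : ℝ) =>
    Complex.exp (-b i * (x : ℂ) ^ 2 + c i * x))]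
  simp only [gauss_one (hre _), Fin.prod_univ_four]
  have hτ : (τ : ℂ) ≠ 0 := τ.ne_zero
  have hcτ : conj (τ : ℂ) ≠ 0 := by simpa using hτ
  have hπ : (π : ℂ) ≠ 0 := by exact_mod_cast Real.pi_ne_zero
  have p2 : (π / b 2 : ℂ) = (k : ℂ) / (2 * -(I * τ)) := by
    simp only [b, Matrix.cons_val]; field_simp
  have p1 : (π / b 1 : ℂ) = (2 * k : ℂ) / (-(I * τ)) := by
    simp only [b, Matrix.cons_val]; field_simp
  have p0 : (π / b 0 : ℂ) = conj ((2 * k : ℂ) / (-(I * τ))) := by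
    simp only [b, Matrix.cons_val, map_div₀, map_mul, map_neg, Complex.conj_I, map_natCast,
      map_ofNat]
    field_simp
  have hpre : (π / b 0) ^ (1 / 2 : ℂ) * (π / b 1) ^ (1 / 2 : ℂ) * ((π / b 2) ^ (1 / 2 : ℂ) *
      (π / b 3) ^ (1 / 2 : ℂ)) = (k : ℂ) ^ 2 / ((-(I * τ)) * (‖(τ : ℂ)‖ : ℂ)) := by
    rw [show b 3 = b 2 from rfl, p0, p1, p2]
    exact gauss_prefactor τ
  have hexp : c 0 ^ 2 / (4 * b 0) + c 1 ^ 2 / (4 * b 1) + c 2 ^ 2 / (4 * b 2) +
      c 3 ^ 2 / (4 * b 3) =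
      2 * π * I * ((negInv τ : ℍ) : ℂ) * (qf y : ℂ) / k -
        π * ((((negInv τ : ℍ) : ℂ)).im : ℂ) * (F : ℂ) ^ 2 / k := by
    have hq : qf y = B.re ^ 2 + B.im ^ 2 + G ^ 2 / 4 - F ^ 2 / 4 := qf_eq_sq y p
    have hvi : (((((negInv τ : ℍ) : ℂ)).im : ℝ) : ℂ) =
        (1 / conj (τ : ℂ) - 1 / (τ : ℂ)) / (2 * I) := by
      rw [coe_negInv, Complex.im_eq_sub_conj, map_div₀, map_neg, map_one]
      ring
    rw [hvi]
    simp only [b, c, Matrix.cons_val, hq, coe_negInv]
    push_cast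
    field_simp
    ring_nf
    simp only [Complex.I_sq]
    ring
  rw [show ∀ a b c d A B C D : ℂ, (a * A) * (b * B) * (c * C) * (d * D) =
    (a * b * (c * d)) * (A * B * C * D) by intros; ring, hpre, ← Complex.exp_add, ← Complex.exp_add,
    ← Complex.exp_add, hexp, hdet, abs_neg, gss, kconst, hF]
  have h3 : (√3 : ℂ) ≠ 0 := by exact_mod_cast sqrt3_pos.ne'
  rw [abs_of_pos (by have := sqrt3_pos; positivity)]
  push_cast
  field_simp

/-- The finite Fourier transform. -/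
def four (k : ℕ) [NeZero k] (w : Vec → ℂ) (y : Vec) : ℂ :=
  1 / ((√3 : ℂ) * (k : ℂ) ^ 2) * ∑ r : Res k, w (resV r) * ee ((B3 (resV r) y : ℝ) / (3 * k))

/-- The finite Fourier transform is periodic. -/
theorem isPer_four (w : Vec → ℂ) : IsPer k (four k w) := by
  intro x y
  unfold four
  congr 1
  refine Finset.sum_congr rfl fun r _ => ?_
  obtain ⟨m, hm⟩ : ∃ m : ℤ, B3 (resV r) (subV k y) = 3 * k * m := by
    refine ⟨((resV r).2.2 * star y.2.2).im * 1 - ((resV r).1 * y.2.1 + y.1 * (resV r).2.1), ?_⟩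
    simp [B3_eq, subV, natCast_eis, thE, QuadraticAlgebra.re_mul, QuadraticAlgebra.im_mul]
    ring
  have hk := kR_pos (k := k)
  have e : B3 (resV r) (x + subV k y) = B3 (resV r) x + 3 * k * m := by
    rw [B3_comm, B3_add_left, B3_comm x, B3_comm (subV k y), hm]
  rw [e]
  congr 1
  push_cast
  rw [add_div, mul_div_cancel_left₀ _ (by positivity : (3 : ℝ) * k ≠ 0), ee_add, ee_int, mul_one]

lemma negInv_negInv (τ : ℍ) : negInv (negInv τ) = τ := by
  apply UpperHalfPlane.ext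
  rw [coe_negInv, coe_negInv]
  have := τ.ne_zero
  field_simp

/-- The series in terms of the inverted argument. -/
theorem theta_eq_four {w : Vec → ℂ} (hw : IsPer k w) (τ : ℍ) (p : H3) :
    theta k w τ p = 1 / (-(I * τ)) * theta k (four k w) (negInv τ) p := by
  have hkC : (k : ℂ) ≠ 0 := Nat.cast_ne_zero.2 (NeZero.ne k)
  have hs := (summable_term hw τ p).of_norm
  have h1 : ∑' x, w x * gss k τ p x =
      ∑ r : Res k, w (resV r) * ∑' y : Vec, gss k τ p (resV r + subV k y) := by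
    rw [← (splitEquiv k).tsum_eq]
    refine (Summable.tsum_prod ((splitEquiv k).summable_iff.2 hs)).trans ?_
    rw [tsum_fintype]
    simp only [Function.comp]
    refine Finset.sum_congr rfl fun r _ => ?_
    rw [← tsum_mul_left]
    exact tsum_congr fun y => by rw [splitEquiv_apply, hw]
  set f := decG k τ p
  have hco : ∀ y : Vec, Theta.PoissonD.intCoeff f.toFun (pairI y) =
      (k : ℂ)⁻¹ ^ 4 * kconst k τ * gss k (negInv τ) p y := intCoeff_decG τ p
  have hone : IsPer k (fun _ : Vec => (1 : ℂ)) := fun _ _ => rfl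
  have hsum : Summable (Theta.PoissonD.intCoeff f.toFun) := by
    rw [← (pairEquiv).summable_iff]
    refine (((summable_term hone (negInv τ) p).of_norm).mul_left ((k : ℂ)⁻¹ ^ 4 * kconst k τ)).congr
      fun y => ?_
    show _ = Theta.PoissonD.intCoeff f.toFun (pairI y)
    rw [hco, one_mul]
  have h2 : ∀ r : Res k, ∑' y : Vec, gss k τ p (resV r + subV k y) =
      ∑' y : Vec, (k : ℂ)⁻¹ ^ 4 * kconst k τ * gss k (negInv τ) p y *
        ee ((B3 (resV r) y : ℝ) / (3 * k)) := by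
    intro r
    set x₀ : EuclideanSpace ℝ (Fin 4) := WithLp.toLp 2 fun i => crd (resV r) i / k with hx₀
    have e1 : ∀ y : Vec, gss k τ p (resV r + subV k y) = f.toFun (x₀ + intVec (subI y)) := by
      intro y
      rw [← gR_crd, crd_subV]
      show _ = gR k τ p _
      congr 1
      funext i
      have : (k : ℝ) ≠ 0 := (kR_pos (k := k)).ne'
      simp [hx₀]
      field_simp
    rw [tsum_congr e1]
    refine (subIEquiv.tsum_eq fun n => f.toFun (x₀ + intVec n)).trans ?_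
    rw [Theta.PoissonD.tsum_eq_tsum_intCoeff f hsum x₀, ← pairEquiv.tsum_eq]
    refine tsum_congr fun y => ?_
    show Theta.PoissonD.intCoeff f.toFun (pairI y) * _ = _
    rw [hco, ← neg_neg (pairEquiv y), Poisson.mFourier_neg_coe, ee]
    congr 2
    have e := B3_crd (resV r) y
    rw [show ((B3 (resV r) y : ℝ) / (3 * k)) = (B3 (resV r) y : ℝ) / 3 / k by ring,
      e, Finset.sum_div]
    push_cast
    rw [Finset.mul_sum, Finset.mul_sum]
    refine Finset.sum_congr rfl fun i _ => ?_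
    simp [hx₀, pairEquiv]
    ring
  have hsr : ∀ r : Res k, Summable fun y : Vec => (k : ℂ)⁻¹ ^ 4 * kconst k τ *
      gss k (negInv τ) p y * ee ((B3 (resV r) y : ℝ) / (3 * k)) := fun r =>
    Summable.of_norm ((((summable_term hone (negInv τ) p).mul_left
      ‖(k : ℂ)⁻¹ ^ 4 * kconst k τ‖)).congr fun y => by
        rw [norm_mul (_ * _ * _), norm_ee, mul_one, norm_mul _ (gss k _ p y),
          norm_mul _ (gss k _ p y),
          norm_one, one_mul])
  rw [theta, theta, h1, im_negInv, Real.sqrt_div τ.im_pos.le]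
  simp only [h2, ← tsum_mul_left]
  rw [← Summable.tsum_finsetSum fun r _ => (hsr r).mul_left _, ← tsum_mul_left]
  refine tsum_congr fun y => ?_
  rw [four, Finset.mul_sum, Finset.mul_sum, Finset.sum_mul, Finset.mul_sum, Finset.mul_sum]
  refine Finset.sum_congr rfl fun r _ => ?_
  have hn : √(Complex.normSq (τ : ℂ)) = ‖(τ : ℂ)‖ := (Complex.norm_def _).symm
  rw [hn, kconst]
  have := τ.ne_zero
  have : (‖(τ : ℂ)‖ : ℂ) ≠ 0 := by simpa using τ.ne_zero
  have : (√3 : ℂ) ≠ 0 := by exact_mod_cast sqrt3_pos.ne'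
  push_cast
  field_simp

/-- Inversion. -/
theorem theta_negInv {w : Vec → ℂ} (hw : IsPer k w) (τ : ℍ) (p : H3) :
    theta k w (negInv τ) p = -(I * τ) * theta k (four k w) τ p := by
  rw [theta_eq_four hw (negInv τ) p, negInv_negInv, coe_negInv]
  have := τ.ne_zero
  congr 1
  field_simp
  simp [Complex.I_sq]

end FermatAgent.LT.Lift
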