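import Fermat.Agent.LT.Lift.Vec

/-!
# Theta series of the lattice of hermitian forms

For a weight periodic modulo `k` times the sublattice with integral off-diagonal entry, the series
`√v ∑ w x e (τ q x / k) exp (-π v f x ^ 2 / k)`: convergence and bounds.
-/

set_option autoImplicit false

noncomputable section

open Complex Filter Topology
open scoped MatrixGroups Real UpperHalfPlane

namespace FermatAgent.LT.Lift

/-- `k` times an element of the sublattice. -/
def subV (k : ℕ) (y : Vec) : Vec := ((k : ℤ) * y.1, (k : ℤ) * y.2.1, (k : Eis) * (thE * y.2.2))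

/-- Periodicity modulo `k` times the sublattice. -/
def IsPer (k : ℕ) (w : Vec → ℂ) : Prop := ∀ x y, w (x + subV k y) = w x

/-- Residues modulo `k` times the sublattice. -/
abbrev Res (k : ℕ) := Fin k × Fin k × Fin (3 * k) × Fin k

/-- The representative of a residue. -/
def resV {k : ℕ} (r : Res k) : Vec :=
  (((r.1 : ℕ) : ℤ), ((r.2.1 : ℕ) : ℤ), ⟨((r.2.2.1 : ℕ) : ℤ), ((r.2.2.2 : ℕ) : ℤ)⟩)

/-- Natural numbers as Eisenstein integers. -/
lemma natCast_eis (k : ℕ) : (k : Eis) = ⟨k, 0⟩ := by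
  ext <;> simp

/-- The imaginary part of a sublattice element. -/
lemma subV_im (k : ℕ) (g : Eis) : ((k : Eis) * (thE * g)).im = k * (2 * g.re - g.im) := by
  simp only [natCast_eis, thE, QuadraticAlgebra.re_mul, QuadraticAlgebra.im_mul]; ring

/-- The real part of a sublattice element. -/
lemma subV_re (k : ℕ) (g : Eis) : ((k : Eis) * (thE * g)).re = k * (g.re - 2 * g.im) := by
  simp only [natCast_eis, thE, QuadraticAlgebra.re_mul, QuadraticAlgebra.im_mul]; ring

variable {k : ℕ}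

lemma int_div_fin (m : ℕ) (r : Fin m) (q : ℤ) :
    (((r : ℕ) : ℤ) + m * q) / m = q ∧ (((r : ℕ) : ℤ) + m * q) % m = r := by
  have hm : (m : ℤ) ≠ 0 := by have := r.pos; omega
  have h0 : (0 : ℤ) ≤ ((r : ℕ) : ℤ) := by positivity
  have h1 : ((r : ℕ) : ℤ) < m := by exact_mod_cast r.isLt
  refine ⟨?_, ?_⟩
  · rw [Int.add_mul_ediv_left _ _ hm, Int.ediv_eq_zero_of_lt h0 h1, zero_add]
  · rw [Int.add_mul_emod_self_left, Int.emod_eq_of_lt h0 h1]

/-- Residue and quotient of an integer. -/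
def divFin (m : ℕ) [NeZero m] (a : ℤ) : Fin m :=
  ⟨(a % m).toNat, by
    have h := Int.emod_lt_of_pos a (show (0 : ℤ) < m by exact_mod_cast Nat.pos_of_neZero m)
    have h' := Int.emod_nonneg a (show (m : ℤ) ≠ 0 by exact_mod_cast NeZero.ne m)
    omega⟩

lemma divFin_add (m : ℕ) [NeZero m] (a : ℤ) : ((divFin m a : ℕ) : ℤ) + m * (a / m) = a := by
  have h' := Int.emod_nonneg a (show (m : ℤ) ≠ 0 by exact_mod_cast NeZero.ne m)
  simp only [divFin, Int.toNat_of_nonneg h']
  exact Int.emod_add_mul_ediv a m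

lemma divFin_eq (m : ℕ) [NeZero m] (r : Fin m) (q : ℤ) :
    divFin m (((r : ℕ) : ℤ) + m * q) = r := by
  apply Fin.ext
  simp only [divFin, (int_div_fin m r q).2, Int.toNat_natCast]

/-- Every vector is uniquely a residue plus an element of the sublattice. -/
def splitEquiv (k : ℕ) [NeZero k] : Res k × Vec ≃ Vec where
  toFun p := resV p.1 + subV k p.2
  invFun x :=
    have : NeZero (3 * k) := ⟨by have := NeZero.ne k; omega⟩
    let v' := x.2.2.im / k
    let s := (x.2.2.re + k * v') / (3 * k : ℕ)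
    ((divFin k x.1, divFin k x.2.1, divFin (3 * k) (x.2.2.re + k * v'), divFin k x.2.2.im),
      (x.1 / k, x.2.1 / k, ⟨v' - s, v' - 2 * s⟩))
  left_inv := by
    rintro ⟨⟨r1, r2, r3, r4⟩, y1, y2, g⟩
    have : NeZero (3 * k) := ⟨by have := NeZero.ne k; omega⟩
    simp only [resV, subV, Prod.mk_add_mk, QuadraticAlgebra.re_add, QuadraticAlgebra.im_add,
      subV_im, subV_re, (int_div_fin k r1 y1).1, (int_div_fin k r2 y2).1,
      (int_div_fin k r4 (2 * g.re - g.im)).1, divFin_eq]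
    have e : ((r3 : ℕ) : ℤ) + (k : ℤ) * (g.re - 2 * g.im) + (k : ℤ) * (2 * g.re - g.im) =
        ((r3 : ℕ) : ℤ) + ((3 * k : ℕ) : ℤ) * (g.re - g.im) := by push_cast; ring
    rw [e, divFin_eq, (int_div_fin (3 * k) r3 (g.re - g.im)).1]
    refine Prod.ext rfl (Prod.ext rfl (Prod.ext rfl ?_))
    ext <;> simp <;> ring
  right_inv := by
    rintro ⟨a, d, β⟩
    have : NeZero (3 * k) := ⟨by have := NeZero.ne k; omega⟩
    have e1 := divFin_add k a
    have e2 := divFin_add k d
    have e3 := divFin_add (3 * k) (β.re + k * (β.im / k))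
    have e4 := divFin_add k β.im
    simp only [resV, subV, Prod.mk_add_mk]
    refine Prod.ext e1 (Prod.ext e2 ?_)
    ext
    · simp only [QuadraticAlgebra.re_add, subV_re]
      push_cast at e3 ⊢
      linear_combination e3
    · simp only [QuadraticAlgebra.im_add, subV_im]
      linear_combination e4

/-- The splitting into residue and sublattice. -/
lemma splitEquiv_apply [NeZero k] (r : Res k) (y : Vec) :
    splitEquiv k (r, y) = resV r + subV k y := rfl

/-- A periodic weight is bounded. -/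
theorem IsPer.bounded [NeZero k] {w : Vec → ℂ} (hw : IsPer k w) : ∃ B, 0 ≤ B ∧ ∀ x, ‖w x‖ ≤ B := by
  refine ⟨∑ r : Res k, ‖w (resV r)‖, Finset.sum_nonneg fun r _ => norm_nonneg _, fun x => ?_⟩
  obtain ⟨⟨r, y⟩, rfl⟩ := (splitEquiv k).surjective x
  rw [splitEquiv_apply, hw]
  exact Finset.single_le_sum (f := fun r : Res k => ‖w (resV r)‖) (fun _ _ => norm_nonneg _)
    (Finset.mem_univ r)

/-- The one variable gaussian sum. -/
lemma gsum_le {c : ℝ} (hc : 0 < c) : Summable (fun n : ℤ => Real.exp (-(c * (n : ℝ) ^ 2))) ∧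
    ∑' n : ℤ, Real.exp (-(c * (n : ℝ) ^ 2)) ≤ 9 * (2 + 1 / c) := by
  set c' := min c 1 with hc'
  have h0 : 0 < c' := lt_min hc one_pos
  have h1 : c' ≤ 1 := min_le_right _ _
  set r := Real.exp (-(2 * c'))
  have hr : r < 1 := Real.exp_lt_one_iff.2 (by linarith)
  have hle : ∀ n : ℤ, Real.exp (-(c * (n : ℝ) ^ 2)) ≤ 3 * r ^ n.natAbs := fun n => by
    refine le_trans (Real.exp_le_exp.2 (neg_le_neg (mul_le_mul_of_nonneg_right (min_le_left c 1)
      (sq_nonneg _)))) ?_
    rw [← Real.exp_nat_mul, Nat.cast_natAbs, Int.cast_abs]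
    have h3 : Real.exp c' ≤ 3 := (Real.exp_le_exp.2 h1).trans Real.exp_one_lt_three.le
    refine le_trans ?_ (mul_le_mul_of_nonneg_right h3 (Real.exp_pos _).le)
    rw [← Real.exp_add, Real.exp_le_exp, ← sq_abs (n : ℝ), ← hc']
    nlinarith [mul_nonneg h0.le (sq_nonneg (|(n : ℝ)| - 1))]
  have hr0 : 0 ≤ r := (Real.exp_pos _).le
  have hg : HasSum (fun n : ℕ => r ^ n) (1 - r)⁻¹ := hasSum_geometric_of_lt_one hr0 hr
  have hg1 : HasSum (fun n : ℕ => r ^ (n + 1)) ((1 - r)⁻¹ - 1) := by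
    rw [hasSum_nat_add_iff (f := fun n : ℕ => r ^ n) 1]
    simpa using hg
  have hsum : HasSum (fun n : ℤ => 3 * r ^ n.natAbs) (3 * ((1 - r)⁻¹ + ((1 - r)⁻¹ - 1))) := by
    refine HasSum.mul_left 3 ?_
    refine HasSum.of_nat_of_neg_add_one (f := fun n : ℤ => r ^ n.natAbs) (hg.congr_fun fun n => ?_)
      (hg1.congr_fun fun n => ?_)
    · simp
    · congr 1
  have hs : Summable fun n : ℤ => Real.exp (-(c * (n : ℝ) ^ 2)) :=
    Summable.of_nonneg_of_le (fun n => (Real.exp_pos _).le) hle hsum.summable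
  refine ⟨hs, (hs.tsum_le_tsum hle hsum.summable).trans ?_⟩
  rw [hsum.tsum_eq]
  have h2 : (1 - r)⁻¹ ≤ 1 + 1 / (2 * c') := by
    have h4 : r * (1 + 2 * c') ≤ 1 := by
      have h5 := Real.add_one_le_exp (2 * c')
      have h6 : r * Real.exp (2 * c') = 1 := by rw [← Real.exp_add]; simp
      nlinarith [mul_le_mul_of_nonneg_left h5 hr0]
    rw [inv_le_iff_one_le_mul₀' (by linarith)]
    have : (1 - r) * (1 + 1 / (2 * c')) = (2 * c' + 1 - r * (2 * c' + 1)) / (2 * c') := by
      field_simp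
    rw [this, le_div_iff₀ (by positivity)]
    nlinarith
  have h7 : 1 / c' ≤ 1 + 1 / c := by
    rcases le_total c 1 with h | h
    · rw [hc', min_eq_left h]; linarith [show (0 : ℝ) ≤ 1 from zero_le_one]
    · rw [hc', min_eq_right h]; simp; positivity
  have h8 : 1 / (2 * c') = 1 / c' / 2 := by field_simp
  have h9 : 0 ≤ 1 / c := by positivity
  nlinarith

/-- The majorant series. -/
def majSum (u : ℝ) (p : H3) : ℝ := ∑' x : Vec, Real.exp (-(u * maj x p))

/-- The gauge of a point. -/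
def gau (p : H3) : ℝ := H3.bnd p

/-- The gauge is positive. -/
lemma gau_pos (p : H3) : 0 < gau p := by
  have := p.t_pos
  have := Complex.normSq_nonneg p.z
  unfold gau H3.bnd
  positivity

/-- A lower bound for the norm. -/
lemma norm_eis_ge (g : Eis) :
    ((g.re : ℝ) ^ 2 + (g.im : ℝ) ^ 2) / 2 ≤ (QuadraticAlgebra.norm g : ℤ) := by
  rw [QuadraticAlgebra.norm_def]
  push_cast
  nlinarith [sq_nonneg ((g.re : ℝ) - g.im)]

lemma majSum_aux {u : ℝ} (hu : 0 < u) (p : H3) :
    Summable (fun x : Vec => Real.exp (-(u * maj x p))) ∧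
      majSum u p ≤ 9 ^ 4 * (2 + 200 * gau p ^ 2 / u) ^ 4 := by
  set c := u / (200 * gau p ^ 2) with hc
  have hg := gau_pos p
  have hc0 : 0 < c := by positivity
  obtain ⟨hs, hb⟩ := gsum_le hc0
  set F := fun n : ℤ => Real.exp (-(c * (n : ℝ) ^ 2))
  have hF : ∀ n, 0 ≤ F n := fun n => (Real.exp_pos _).le
  let e : ℤ × ℤ × ℤ × ℤ ≃ Vec := (Equiv.refl ℤ).prodCongr ((Equiv.refl ℤ).prodCongr
    (QuadraticAlgebra.equivProd (-1) (-1)).symm)
  have hle : ∀ n : ℤ × ℤ × ℤ × ℤ,
      Real.exp (-(u * maj (e n) p)) ≤ F n.1 * (F n.2.1 * (F n.2.2.1 * F n.2.2.2)) := by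
    rintro ⟨a, d, m, n⟩
    simp only [F, ← Real.exp_add]
    refine Real.exp_le_exp.2 ?_
    have h := size_le (e (a, d, m, n)) p
    have h2 := norm_eis_ge ⟨m, n⟩
    have h3 : c * ((a : ℝ) ^ 2 + (d : ℝ) ^ 2 + (m : ℝ) ^ 2 + (n : ℝ) ^ 2) ≤
        u * maj (e (a, d, m, n)) p := by
      rw [hc, div_mul_eq_mul_div, div_le_iff₀ (by positivity), mul_assoc]
      refine mul_le_mul_of_nonneg_left ?_ hu.le
      simp only [size, e, Equiv.prodCongr_apply, Prod.map_apply, Equiv.refl_apply,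
        QuadraticAlgebra.equivProd_symm_apply] at h ⊢
      have hgau : gau p = H3.bnd p := rfl
      rw [hgau]
      nlinarith [sq_nonneg (a : ℝ), sq_nonneg (d : ℝ)]
    linarith
  have hs3 : Summable fun n : ℤ × ℤ => F n.1 * F n.2 := hs.mul_of_nonneg hs hF hF
  have hs2 : Summable fun n : ℤ × ℤ × ℤ => F n.1 * (F n.2.1 * F n.2.2) :=
    hs.mul_of_nonneg hs3 hF fun n => mul_nonneg (hF _) (hF _)
  have hs1 : Summable fun n : ℤ × ℤ × ℤ × ℤ => F n.1 * (F n.2.1 * (F n.2.2.1 * F n.2.2.2)) :=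
    hs.mul_of_nonneg hs2 hF fun n => mul_nonneg (hF _) (mul_nonneg (hF _) (hF _))
  have hse : Summable fun n => Real.exp (-(u * maj (e n) p)) :=
    Summable.of_nonneg_of_le (fun n => (Real.exp_pos _).le) hle hs1
  refine ⟨(e.summable_iff (f := fun x => Real.exp (-(u * maj x p)))).1 hse, ?_⟩
  rw [majSum, ← e.tsum_eq]
  refine (hse.tsum_le_tsum hle hs1).trans (le_of_eq_of_le (b := (∑' n, F n) ^ 4) ?_ ?_)
  · rw [← hs.tsum_mul_tsum hs2 hs1, ← hs.tsum_mul_tsum hs3 hs2, ← hs.tsum_mul_tsum hs hs3]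
    ring
  · refine (pow_le_pow_left₀ (tsum_nonneg hF) hb 4).trans (le_of_eq ?_)
    rw [mul_pow, hc]
    congr 2
    field_simp

/-- The majorant converges. -/
lemma summable_maj {u : ℝ} (hu : 0 < u) (p : H3) :
    Summable fun x : Vec => Real.exp (-(u * maj x p)) := (majSum_aux hu p).1

/-- A bound for the majorant. -/
lemma majSum_le {u : ℝ} (hu : 0 < u) (p : H3) :
    majSum u p ≤ 9 ^ 4 * (2 + 200 * gau p ^ 2 / u) ^ 4 := (majSum_aux hu p).2

/-- The majorant decreases in the rate. -/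
lemma majSum_anti {u u' : ℝ} (hu : 0 < u) (h : u ≤ u') (p : H3) : majSum u' p ≤ majSum u p :=
  (summable_maj (hu.trans_le h) p).tsum_le_tsum (fun x => Real.exp_le_exp.2 (neg_le_neg
    (mul_le_mul_of_nonneg_right h (maj_nonneg x p)))) (summable_maj hu p)

/-- The character `exp (2 π i x)`. -/
def ee (x : ℝ) : ℂ := Complex.exp (2 * π * I * (x : ℂ))

/-- The character is additive. -/
lemma ee_add (x y : ℝ) : ee (x + y) = ee x * ee y := by
  rw [ee, ee, ee, ← Complex.exp_add]; push_cast; ring_nf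

/-- The character has absolute value one. -/
lemma norm_ee (x : ℝ) : ‖ee x‖ = 1 := by simp [ee, Complex.norm_exp]

/-- The character at an integer. -/
lemma ee_int (m : ℤ) : ee (m : ℝ) = 1 := by
  rw [ee, ← Complex.exp_int_mul_two_pi_mul_I m]
  congr 1
  push_cast
  ring

/-- The summand of the theta series. -/
def gss (k : ℕ) (τ : ℂ) (p : H3) (x : Vec) : ℂ :=
  Complex.exp (2 * π * I * τ * (qf x : ℂ) / k - π * (τ.im : ℂ) * (fv x p : ℂ) ^ 2 / k)

lemma norm_gss (k : ℕ) (τ : ℂ) (p : H3) (x : Vec) :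
    ‖gss k τ p x‖ = Real.exp (-(2 * π * τ.im / k * maj x p)) := by
  rw [gss, Complex.norm_exp]
  congr 1
  rw [show (2 * π * I * τ * (qf x : ℂ) / k - π * (τ.im : ℂ) * (fv x p : ℂ) ^ 2 / k : ℂ) =
    ((qf x * (2 * π) / k : ℝ) : ℂ) * (I * τ) - ((π * τ.im * fv x p ^ 2 / k : ℝ) : ℂ) by
      push_cast; ring]
  simp only [Complex.sub_re, Complex.re_ofReal_mul, Complex.ofReal_re, Complex.I_mul_re, maj]
  ring

/-- The theta series. -/
def theta (k : ℕ) (w : Vec → ℂ) (τ : ℍ) (p : H3) : ℂ :=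
  (√τ.im : ℂ) * ∑' x : Vec, w x * gss k τ p x

/-- A bound for theta terms. -/
lemma norm_term_le {w : Vec → ℂ} {B : ℝ} (hB : ∀ x, ‖w x‖ ≤ B) (τ : ℂ) (p : H3) (x : Vec) :
    ‖w x * gss k τ p x‖ ≤ B * Real.exp (-(2 * π * τ.im / k * maj x p)) := by
  rw [norm_mul, norm_gss]
  exact mul_le_mul_of_nonneg_right (hB x) (Real.exp_pos _).le

/-- The decay rate is positive. -/
lemma rate_pos [NeZero k] (τ : ℍ) : 0 < 2 * π * (τ : ℂ).im / k := by
  have : (0 : ℝ) < k := by exact_mod_cast Nat.pos_of_neZero k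
  have : 0 < (τ : ℂ).im := τ.im_pos
  positivity

/-- The theta series converges. -/
lemma summable_term [NeZero k] {w : Vec → ℂ} (hw : IsPer k w) (τ : ℍ) (p : H3) :
    Summable fun x : Vec => ‖w x * gss k τ p x‖ := by
  obtain ⟨B, -, hB⟩ := hw.bounded
  exact Summable.of_nonneg_of_le (fun x => norm_nonneg _) (fun x => norm_term_le hB _ p x)
    ((summable_maj (rate_pos τ) p).mul_left B)

/-- The theta series depends only on the values. -/
lemma theta_congr {w w' : Vec → ℂ} (h : ∀ x, w x = w' x) (τ : ℍ) (p : H3) :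
    theta k w τ p = theta k w' τ p := by simp only [theta, h]

/-- The theta series is linear in the weight. -/
lemma theta_smul (r : ℂ) (w : Vec → ℂ) (τ : ℍ) (p : H3) :
    theta k (r • w) τ p = r * theta k w τ p := by
  simp only [theta, Pi.smul_apply, smul_eq_mul, mul_assoc]
  rw [tsum_mul_left]; ring

/-- The theta series at a transformed point. -/
lemma theta_smul_pt (g : SLE) (w : Vec → ℂ) (τ : ℍ) (p : H3) :
    theta k w τ (g • p) = theta k (fun x => w (g • x)) τ p := by
  rw [theta, theta]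
  congr 1
  refine ((MulAction.toPerm g).tsum_eq fun x => w x * gss k τ (g • p) x).symm.trans ?_
  exact tsum_congr fun x => by simp [gss, fv_smul, qf]

/-- The theta series is even in the weight. -/
lemma theta_neg (w : Vec → ℂ) (τ : ℍ) (p : H3) :
    theta k (fun x => w (-x)) τ p = theta k w τ p := by
  rw [theta, theta]
  congr 1
  refine Eq.trans ?_ ((Equiv.neg Vec).tsum_eq fun x => w x * gss k τ p x)
  refine tsum_congr fun x => ?_
  have hP : P3 (-x) = P3 x := by simp [P3]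
  simp [gss, fv_neg, qf, hP]

/-- The form is continuous in the point. -/
lemma continuous_fv (x : Vec) : Continuous fun p : H3 => fv x p := by
  simp only [fv_eq]
  have := H3.continuous_t
  have := H3.continuous_z
  exact Continuous.div₀ (by fun_prop) H3.continuous_t fun p => p.t_pos.ne'

/-- The Gaussian is continuous in the point. -/
lemma continuous_gss (τ : ℂ) (x : Vec) : Continuous fun p : H3 => gss k τ p x := by
  have := continuous_fv x
  unfold gss
  fun_prop

/-- The gauge is locally bounded. -/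
lemma exists_gau_nhds (p : H3) : ∀ᶠ q in 𝓝 p, gau q < gau p + 1 :=
  (H3.continuous_bnd.tendsto p).eventually_lt_const (by unfold gau; linarith)

end FermatAgent.LT.Lift
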