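import Fermat.Agent.ES.PlusMinus
import Fermat.Agent.LT.Lift.Plane

/-!
# Tiles of congruence subgroups and the period

The translates of the modular domain along cosets tile the plane; the scaled tile of the group of
the cycle is a tile of the principal congruence subgroup, and the integral over it is a multiple of
the period.
-/

set_option autoImplicit false

noncomputable section

open Matrix MeasureTheory Filter Topology Set
open scoped MatrixGroups ENNReal UpperHalfPlane Modular Pointwise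

namespace FermatAgent.LT.Lift

instance (G : Subgroup SL(2, ℤ)) : Countable (SL(2, ℤ) ⧸ G) :=
  QuotientGroup.mk_surjective.countable

/-- The union of the translates of the modular domain along cosets. -/
def tileOf (H : Subgroup SL(2, ℤ)) : Set ℍ :=
  ⋃ q : SL(2, ℤ) ⧸ ES.pmSub H, (fun z : ℍ => q.out • z) ⁻¹' (𝒟 : Set ℍ)

variable {H : Subgroup SL(2, ℤ)}

/-- The translates of the modular domain along the cosets form a tile if `-1` is not in the
group. -/
theorem isTile_tileOf (h1 : (-1 : SL(2, ℤ)) ∉ H) : IsTile H (tileOf H) where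
  meas := MeasurableSet.iUnion fun _ =>
    (Period.measurePreserving_sl _).measurable Period.measurableSet_fd
  ae_unique := by
    filter_upwards [Period.ae_two_translates] with z hz
    obtain ⟨g₀, hg⟩ := hz
    have hmem : ∀ h : H, ((h : SL(2, ℤ)) • z ∈ tileOf H ↔
        ∃ q : SL(2, ℤ) ⧸ ES.pmSub H, q.out * h = g₀ ∨ q.out * h = -g₀) := fun h => by
      simp only [tileOf, mem_iUnion, mem_preimage, ← mul_smul, hg]
    set q₀ : SL(2, ℤ) ⧸ ES.pmSub H := QuotientGroup.mk g₀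
    obtain ⟨⟨u, hu⟩, he⟩ := QuotientGroup.mk_out_eq_mul (ES.pmSub H) g₀
    change q₀.out = g₀ * u at he
    have hneg : ∀ x : SL(2, ℤ), x ∈ H → -x ∈ H → False := fun x hx hnx => h1 (by
      simpa using mul_mem (inv_mem hx) hnx)
    -- the translate
    obtain ⟨h, hh⟩ : ∃ h : H, q₀.out * h = g₀ ∨ q₀.out * h = -g₀ := by
      rcases hu with hu | hu
      · exact ⟨⟨u⁻¹, inv_mem hu⟩, Or.inl (by rw [he]; simp)⟩
      · refine ⟨⟨(-u)⁻¹, inv_mem hu⟩, Or.inr ?_⟩
        show q₀.out * (-u)⁻¹ = -g₀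
        rw [he, show (-u)⁻¹ = -u⁻¹ from inv_eq_of_mul_eq_one_right (by simp)]
        simp
    refine ⟨h, (hmem h).2 ⟨q₀, hh⟩, fun h' hh' => ?_⟩
    obtain ⟨q, hq⟩ := (hmem h').1 hh'
    have hqq : q = q₀ := by
      rw [← QuotientGroup.out_eq' q]
      refine (QuotientGroup.eq).2 ?_
      rcases hq with hq | hq
      · exact Or.inl (by rw [← hq]; simp)
      · refine Or.inr ?_
        rw [show g₀ = -(q.out * h') by rw [hq, neg_neg]]
        simp
    subst hqq
    apply Subtype.ext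
    rcases hh with a | a <;> rcases hq with b | b
    · exact mul_left_cancel (b.trans a.symm)
    · exact (hneg _ h.2 (by
        have : (h' : SL(2, ℤ)) = -h := mul_left_cancel (a := q₀.out) (by rw [b, mul_neg, a])
        rw [← this]; exact h'.2)).elim
    · exact (hneg _ h.2 (by
        have : (h' : SL(2, ℤ)) = -h :=
          mul_left_cancel (a := q₀.out) (by rw [b, mul_neg, a, neg_neg])
        rw [← this]; exact h'.2)).elim
    · exact mul_left_cancel (b.trans a.symm)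

lemma piece_aedisjoint (q r : SL(2, ℤ) ⧸ ES.pmSub H) (hqr : q ≠ r) :
    AEDisjoint volume ((fun z : ℍ => q.out • z) ⁻¹' (𝒟 : Set ℍ))
      ((fun z : ℍ => r.out • z) ⁻¹' (𝒟 : Set ℍ)) := by
  refine measure_mono_null (fun z hz => ?_) (ae_iff.1 Period.ae_two_translates)
  rintro ⟨g₀, hg⟩
  refine hqr ?_
  rw [← QuotientGroup.out_eq' q, ← QuotientGroup.out_eq' r, QuotientGroup.eq]
  rcases (hg _).1 hz.1 with a | a <;> rcases (hg _).1 hz.2 with b | b <;> rw [a, b]
  · exact Or.inl (by simp)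
  · exact Or.inr (by simp)
  · refine Or.inr ?_
    rw [show (-g₀)⁻¹ = -g₀⁻¹ from inv_eq_of_mul_eq_one_right (by simp)]
    simp
  · exact Or.inl (by simp)

/-- The integral over the tile. -/
theorem setIntegral_tileOf [(ES.pmSub H).FiniteIndex] {F : ℍ → ℂ} (hF : Measurable F) {B : ℝ}
    (hB : ∀ z, ‖F z‖ ≤ B) :
    ∫ z in tileOf H, F z = ∑ᶠ q : SL(2, ℤ) ⧸ ES.pmSub H, ∫ z in (𝒟 : Set ℍ), F (q.out⁻¹ • z) := by
  have := Fintype.ofFinite (SL(2, ℤ) ⧸ ES.pmSub H)
  have hm : ∀ q : SL(2, ℤ) ⧸ ES.pmSub H,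
      NullMeasurableSet ((fun z : ℍ => q.out • z) ⁻¹' (𝒟 : Set ℍ)) :=
    fun q => ((Period.measurePreserving_sl _).measurable Period.measurableSet_fd).nullMeasurableSet
  rw [finsum_eq_sum_of_fintype, tileOf, Measure.restrict_iUnion_ae piece_aedisjoint hm,
    Measure.sum_fintype, integral_finsetSum_measure fun q _ => ?_]
  · refine Finset.sum_congr rfl fun q _ => ?_
    rw [← (Period.measurePreserving_sl q.out).setIntegral_preimage_emb
      (Period.measurableEmbedding_sl _)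
      (fun z => F (q.out⁻¹ • z))]
    exact integral_congr_ae (ae_of_all _ fun z => by simp)
  · refine IntegrableOn.of_bound ?_ hF.aestronglyMeasurable B (ae_of_all _ hB)
    rw [(Period.measurePreserving_sl q.out).measure_preimage
      Period.measurableSet_fd.nullMeasurableSet]
    exact Period.volume_fd_lt_top

lemma volume_tileOf_lt_top [(ES.pmSub H).FiniteIndex] : volume (tileOf H) < ⊤ := by
  have := Fintype.ofFinite (SL(2, ℤ) ⧸ ES.pmSub H)
  refine lt_of_le_of_lt (measure_iUnion_le _) ?_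
  rw [tsum_fintype]
  refine ENNReal.sum_lt_top.2 fun q _ => ?_
  rw [(Period.measurePreserving_sl q.out).measure_preimage
    Period.measurableSet_fd.nullMeasurableSet]
  exact Period.volume_fd_lt_top

/-! ## The group of the cycle -/

variable (N : ℕ)

/-- The conjugate of the principal congruence subgroup. -/
def gamD : Subgroup SL(2, ℤ) := CongruenceSubgroup.Gamma0 (N ^ 2) ⊓ CongruenceSubgroup.Gamma1 N

lemma mem_gamD {N : ℕ} {g : SL(2, ℤ)} :
    g ∈ gamD N ↔ ((N : ℤ) ^ 2 ∣ g.1 1 0) ∧ (N : ℤ) ∣ g.1 0 0 - 1 ∧ (N : ℤ) ∣ g.1 1 1 - 1 := by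
  simp only [gamD, Subgroup.mem_inf, CongruenceSubgroup.Gamma0_mem, CongruenceSubgroup.Gamma1_mem,
    ← ZMod.intCast_zmod_eq_zero_iff_dvd, Int.cast_sub, Int.cast_one, sub_eq_zero]
  rw [show ((N : ℤ) ^ 2) = ((N ^ 2 : ℕ) : ℤ) by push_cast; rfl,
    ← ZMod.intCast_zmod_eq_zero_iff_dvd (a := g.1 1 0)]
  constructor
  · rintro ⟨h1, h2, h3, -⟩; exact ⟨h1, h2, h3⟩
  · rintro ⟨h1, h2, h3⟩
    refine ⟨h1, h2, h3, ?_⟩
    rw [ZMod.intCast_zmod_eq_zero_iff_dvd] at h1 ⊢
    exact Dvd.dvd.trans (by exact_mod_cast dvd_pow_self N two_ne_zero) h1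

variable {N} [NeZero N]

instance : (gamD N).FiniteIndex := by
  have : NeZero (N ^ 2) := ⟨pow_ne_zero _ (NeZero.ne N)⟩
  exact Subgroup.finiteIndex_of_le (H := CongruenceSubgroup.Gamma (N ^ 2)) fun g hg => by
    rw [CongruenceSubgroup.Gamma_mem] at hg
    obtain ⟨ha, -, hc, hd⟩ := hg
    have key : ∀ x : ℤ, (x : ZMod (N ^ 2)) = 1 → (N : ℤ) ∣ x - 1 := fun x hx => by
      refine Dvd.dvd.trans (?_ : (N : ℤ) ∣ ((N ^ 2 : ℕ) : ℤ))
        ((ZMod.intCast_zmod_eq_zero_iff_dvd _ _).1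
        (by push_cast; rw [hx, sub_self]))
      exact_mod_cast dvd_pow_self N two_ne_zero
    exact mem_gamD.2 ⟨by exact_mod_cast (ZMod.intCast_zmod_eq_zero_iff_dvd _ _).1 hc,
      key _ ha, key _ hd⟩

instance : (ES.pmSub (gamD N)).FiniteIndex := Subgroup.finiteIndex_of_le (ES.le_pmSub _)

omit [NeZero N] in
lemma neg_one_notMem_gamD (hN : 3 ≤ N) : (-1 : SL(2, ℤ)) ∉ gamD N := fun h => by
  have h2 := (mem_gamD.1 h).2.1
  simp at h2
  have := Int.le_of_dvd (by norm_num) h2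
  omega

/-- Scaling by the level. -/
def scaleN (N : ℕ) [NeZero N] : GL (Fin 2) ℝ :=
  Matrix.GeneralLinearGroup.mkOfDetNeZero !![(N : ℝ), 0; 0, 1]
    (by rw [Matrix.det_fin_two_of]; simp [NeZero.ne N])

/-- Scaling by `N`. -/
lemma coe_scaleN_smul (z : ℍ) : ((scaleN N • z : ℍ) : ℂ) = (N : ℂ) * z := by
  have h : (0 : ℝ) < (scaleN N).val.det := by
    simp [scaleN, Matrix.det_fin_two, Nat.pos_of_neZero N]
  rw [UpperHalfPlane.coe_smul_of_det_pos h]
  simp [scaleN, UpperHalfPlane.num, UpperHalfPlane.denom]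

lemma scaleN_conj {g : SL(2, ℤ)} (hg : g ∈ gamD N) :
    ∃ h ∈ CongruenceSubgroup.Gamma N, (∀ z : ℍ, h • (scaleN N • z) = scaleN N • (g • z)) ∧
      h.1 0 0 = g.1 0 0 ∧ h.1 0 1 = N * g.1 0 1 ∧ (N : ℤ) * h.1 1 0 = g.1 1 0 ∧
      h.1 1 1 = g.1 1 1 := by
  obtain ⟨⟨m, hm⟩, ha, hd⟩ := mem_gamD.1 hg
  have hdet := g.det_coe
  simp only [Matrix.det_fin_two] at hdet
  let h : SL(2, ℤ) := ⟨!![g.1 0 0, N * g.1 0 1; N * m, g.1 1 1], by
    rw [Matrix.det_fin_two_of]
    linear_combination hdet + g.1 0 1 * hm⟩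
  refine ⟨h, ?_, fun z => UpperHalfPlane.ext ?_, rfl, rfl, by rw [hm]; simp [h]; ring, rfl⟩
  · rw [CongruenceSubgroup.Gamma_mem]
    refine ⟨?_, ?_, ?_, ?_⟩
    · have := (ZMod.intCast_zmod_eq_zero_iff_dvd _ N).2 ha
      simpa [h, sub_eq_zero] using this
    · simp [h]
    · simp [h]
    · have := (ZMod.intCast_zmod_eq_zero_iff_dvd _ N).2 hd
      simpa [h, sub_eq_zero] using this
  · rw [coe_scaleN_smul, UpperHalfPlane.coe_specialLinearGroup_apply,
      UpperHalfPlane.coe_specialLinearGroup_apply, coe_scaleN_smul]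
    simp [h, hm]
    have : (N : ℂ) ≠ 0 := Nat.cast_ne_zero.2 (NeZero.ne N)
    field_simp

lemma exists_scaleN_conj {h : SL(2, ℤ)} (hh : h ∈ CongruenceSubgroup.Gamma N) :
    ∃ g ∈ gamD N, (∀ z : ℍ, h • (scaleN N • z) = scaleN N • (g • z)) ∧
      h.1 0 0 = g.1 0 0 ∧ h.1 0 1 = N * g.1 0 1 ∧ (N : ℤ) * h.1 1 0 = g.1 1 0 ∧
      h.1 1 1 = g.1 1 1 := by
  rw [CongruenceSubgroup.Gamma_mem] at hh
  obtain ⟨ha, hb, hc, hd⟩ := hh
  obtain ⟨m, hm⟩ := (ZMod.intCast_zmod_eq_zero_iff_dvd _ N).1 hb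
  obtain ⟨l, hl⟩ := (ZMod.intCast_zmod_eq_zero_iff_dvd _ N).1 hc
  have hdet := h.det_coe
  simp only [Matrix.det_fin_two] at hdet
  let g : SL(2, ℤ) := ⟨!![h.1 0 0, m; (N : ℤ) ^ 2 * l, h.1 1 1], by
    rw [Matrix.det_fin_two_of]
    linear_combination hdet + h.1 1 0 * hm + (N : ℤ) * m * hl⟩
  have hg : g ∈ gamD N := mem_gamD.2
    ⟨⟨l, rfl⟩, (ZMod.intCast_zmod_eq_zero_iff_dvd _ N).1 (by simp [g, ha]),
      (ZMod.intCast_zmod_eq_zero_iff_dvd _ N).1 (by simp [g, hd])⟩
  obtain ⟨h', -, heq, e00, e01, e10, e11⟩ := scaleN_conj hg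
  have : h' = h := by
    refine Subtype.ext (Matrix.ext fun i j => ?_)
    fin_cases i <;> fin_cases j
    · exact e00
    · exact e01.trans hm.symm
    · refine mul_left_cancel₀ (a := (N : ℤ)) (by exact_mod_cast NeZero.ne N) (e10.trans ?_)
      show (N : ℤ) ^ 2 * l = _
      show _ = (N : ℤ) * h.1 1 0
      rw [show h.1 1 0 = (N : ℤ) * l from hl]; ring
    · exact e11
  subst this
  exact ⟨g, hg, heq, e00, e01, e10, e11⟩

/-- The tile of the principal congruence subgroup. -/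
def cycTile (N : ℕ) [NeZero N] : Set ℍ := (fun z => scaleN N • z) '' tileOf (gamD N)

lemma measurableEmbedding_scaleN : MeasurableEmbedding fun z : ℍ => scaleN N • z :=
  (MeasurableEquiv.mk ⟨fun z => scaleN N • z, fun z => (scaleN N)⁻¹ • z, fun z => inv_smul_smul _ z,
    fun z => smul_inv_smul _ z⟩ (measurable_const_smul (scaleN N))
    (measurable_const_smul (scaleN N)⁻¹)).measurableEmbedding

/-- The scaled tile is a tile of the principal congruence subgroup. -/
theorem isTile_cycTile (hN : 3 ≤ N) : IsTile (CongruenceSubgroup.Gamma N) (cycTile N) where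
  meas :=
    measurableEmbedding_scaleN.measurableSet_image.2 (isTile_tileOf (neg_one_notMem_gamD hN)).meas
  ae_unique := by
    have h0 := (isTile_tileOf (neg_one_notMem_gamD hN)).ae_unique
    have h1 :=
      (measurePreserving_smul (scaleN N)⁻¹ (volume : Measure ℍ)).quasiMeasurePreserving.ae h0
    filter_upwards [h1] with w hw
    obtain ⟨g, hg, huniq⟩ := hw
    obtain ⟨h, hh, heq, a1, a2, a3, a4⟩ := scaleN_conj g.2
    have hval : ∀ {k : SL(2, ℤ)} {g' : SL(2, ℤ)},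
        (∀ z : ℍ, k • (scaleN N • z) = scaleN N • (g' • z)) →
        (k • w ∈ cycTile N ↔ g' • ((scaleN N)⁻¹ • w) ∈ tileOf (gamD N)) := fun {k g'} e => by
      conv_lhs => rw [← smul_inv_smul (scaleN N) w, e, cycTile,
        Function.Injective.mem_set_image (MulAction.injective (scaleN N))]
    refine ⟨⟨h, hh⟩, (hval heq).2 hg, fun k hk => Subtype.ext ?_⟩
    obtain ⟨g', hg', hk', b1, b2, b3, b4⟩ := exists_scaleN_conj k.2
    have hgg : g' = (g : SL(2, ℤ)) := congrArg Subtype.val (huniq ⟨g', hg'⟩ ((hval hk').1 hk))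
    subst hgg
    refine Subtype.ext (Matrix.ext fun i j => ?_)
    fin_cases i <;> fin_cases j
    exacts [b1.trans a1.symm, b2.trans a2.symm,
      mul_left_cancel₀ (by exact_mod_cast NeZero.ne N) (b3.trans a3.symm), b4.trans a4.symm]

/-- The tile of the cycle has finite volume. -/
lemma volume_cycTile_lt_top : volume (cycTile N) < ⊤ := by
  rw [cycTile, show (fun z : ℍ => scaleN N • z) '' tileOf (gamD N) = scaleN N • tileOf (gamD N) from
    rfl, measure_smul]
  exact volume_tileOf_lt_top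

/-- The integral over the scaled tile is a multiple of the period. -/
theorem setIntegral_cycTile {F : ℍ → ℂ} (hF : Measurable F) {B : ℝ} (hB : ∀ z, ‖F z‖ ≤ B)
    (hinv : ∀ g ∈ CongruenceSubgroup.Gamma0 (N ^ 2), ∀ z : ℍ,
      F (scaleN N • (g • z)) = F (scaleN N • z)) [NeZero (N ^ 2)] :
    ∫ z in cycTile N, F z = ((ES.pmSub (gamD N)).relIndex (CongruenceSubgroup.Gamma0 (N ^ 2)) : ℂ) *
      Period.periodSum (N ^ 2) (fun z => F (scaleN N • z)) := by
  classical
  set Ψ : ℍ → ℂ := fun z => F (scaleN N • z) with hΨ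
  set G0 := CongruenceSubgroup.Gamma0 (N ^ 2) with hG0
  have hle : ES.pmSub (gamD N) ≤ G0 := by
    intro g hg
    rcases hg with hg | hg
    · exact hg.1
    · have h := hg.1
      simp only [hG0, CongruenceSubgroup.Gamma0_mem] at h ⊢
      simpa using h
  rw [cycTile, (measurePreserving_smul (scaleN N) (volume : Measure ℍ)).setIntegral_image_emb
    measurableEmbedding_scaleN, setIntegral_tileOf (H := gamD N) (F := Ψ)
    (hF.comp (measurable_const_smul _)) (fun z => hB _)]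
  have := Fintype.ofFinite (SL(2, ℤ) ⧸ ES.pmSub (gamD N))
  set I : SL(2, ℤ) → ℂ := fun g => ∫ z in (𝒟 : Set ℍ), Ψ (g⁻¹ • z) with hI
  have hIu : ∀ g, ∀ u ∈ G0, I (g * u) = I g := fun g u hu => by
    refine integral_congr_ae (ae_of_all _ fun z => ?_)
    show Ψ ((g * u)⁻¹ • z) = Ψ (g⁻¹ • z)
    rw [_root_.mul_inv_rev, mul_smul]
    exact hinv _ (inv_mem hu) _
  have hout : ∀ g : SL(2, ℤ), I g = I (QuotientGroup.mk g : Period.Cos (N ^ 2)).out := fun g => by
    obtain ⟨⟨u, hu⟩, he⟩ := QuotientGroup.mk_out_eq_mul G0 g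
    rw [he]; exact (hIu g u hu).symm
  rw [finsum_eq_sum_of_fintype, Period.periodSum]
  let e := Subgroup.quotientEquivProdOfLE hle
  show ∑ q : SL(2, ℤ) ⧸ ES.pmSub (gamD N), I q.out = _ * ∑ q : Period.Cos (N ^ 2), I q.out
  have : Fintype (G0 ⧸ (ES.pmSub (gamD N)).subgroupOf G0) := Fintype.ofFinite _
  rw [← e.symm.sum_comp, Fintype.sum_prod_type, Finset.mul_sum]
  refine Finset.sum_congr rfl fun q _ => ?_
  rw [Subgroup.relIndex, Subgroup.index_eq_card, Nat.card_eq_fintype_card, ← nsmul_eq_mul,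
    ← Finset.card_univ, ← Finset.sum_const]
  refine Finset.sum_congr rfl fun b _ => ?_
  rw [hout, hout q.out]
  congr 2
  rw [QuotientGroup.out_eq']
  have h1 : (e (e.symm (q, b))).1 = q := by rw [Equiv.apply_symm_apply]
  conv_rhs => rw [← h1]
  induction e.symm (q, b) using QuotientGroup.induction_on with | H g =>
  obtain ⟨⟨u, hu⟩, he⟩ := QuotientGroup.mk_out_eq_mul (ES.pmSub (gamD N)) g
  rw [he]
  refine Eq.trans ?_ (rfl : (QuotientGroup.mk g : Period.Cos (N ^ 2)) = (e (QuotientGroup.mk g)).1)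
  rw [QuotientGroup.eq]
  rw [_root_.mul_inv_rev, inv_mul_cancel_right]
  exact inv_mem (hle hu)

end FermatAgent.LT.Lift
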