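import Fermat.Agent.LT2.Lift.Bridge
import Fermat.Agent.LT.Lift.Family
import Fermat.Agent.LT.Period.Typed

/-!
# From typed forms to typed functions on hyperbolic space

A typed form is, on hyperbolic space, a combination of translates of eigenfunctions transforming
by cubic characters under the upper triangular classes at the primes of the level.  A nonzero
coefficient of the cycle vector gives one for a weight of the family.
-/

set_option autoImplicit false

noncomputable section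

open Matrix IsDedekindDomain NumberField MeasureTheory WithZero
open scoped MatrixGroups

namespace FermatAgent.LT.Lift

open FermatAgent.LT.Period (IsEis zeta IsGood IsTyp IsTypGen typSet place offThree cubeB cubeBGL
  IsInvAt locK1_le_cubeB cubeB_le_locK)
open FermatAgent.LT.Whit (adelGrp glob atV levelGrp IsForm)

variable {K : Type*} [Field K] [NumberField K] [IsTotallyComplex K] {θ : K} (hE : IsEis θ)

/-! ## The class of a congruent matrix -/

section

omit [IsTotallyComplex K]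

lemma mk_cjM_mul (g h : SLE) : (ProjGenLinGroup.mk (cjM hE (g * h)) : G2 K) =
    ProjGenLinGroup.mk (cjM hE g) * ProjGenLinGroup.mk (cjM hE h) := by
  rw [mk_cjM, mk_cjM, mk_cjM, map_mul]
  group

lemma cjM_mem_locK {g : SLE} (hg : g ∈ congE 27) (v : HeightOneSpectrum (𝓞 K)) :
    (ProjGenLinGroup.mk (cjM hE g) : G2 K) ∈ locK v := by
  obtain ⟨M, hM, -, e⟩ := LT2.Lift.isCong_cjM hE (by norm_num) hg v
  exact ⟨M, hM, e⟩

/-- Congruent classes modulo the congruence subgroup of a place. -/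
lemma inv_mul_mem_locK1 {v : HeightOneSpectrum (𝓞 K)} {a a' b b' : G2 K} (ha' : a' ∈ locK v)
    (ha : a⁻¹ * b ∈ locK1 v) (hb : a'⁻¹ * b' ∈ locK1 v) :
    (a * a')⁻¹ * (b * b') ∈ locK1 v := by
  have h := mul_mem (Whit.locK1_conj ha' ha) hb
  rwa [show a'⁻¹ * (a⁻¹ * b) * a' * (a'⁻¹ * b') = (a * a')⁻¹ * (b * b') by group] at h

include hE in
lemma val_theta_eq_one {v : HeightOneSpectrum (𝓞 K)} (h3 : (3 : 𝓞 K) ∉ v.asIdeal) :
    v.valuation K θ = 1 := by
  refine le_antisymm (hE.coe_thetaO ▸ v.valuation_le_one _) (not_lt.1 fun h => h3 ?_)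
  rw [← v.valuation_lt_one_iff_mem (K := K)]
  show v.valuation K (algebraMap (𝓞 K) K 3) < 1
  rw [map_ofNat, ← Valuation.map_neg, ← hE.sq, map_pow]
  exact pow_lt_one₀ zero_le h two_ne_zero

lemma val_three_eq_one {v : HeightOneSpectrum (𝓞 K)} (h3 : (3 : 𝓞 K) ∉ v.asIdeal) :
    v.valuation K (3 : K) = 1 := by
  rw [← map_ofNat (algebraMap (𝓞 K) K) 3]
  exact le_antisymm (v.valuation_le_one _) (not_lt.1 fun h =>
    h3 ((v.valuation_lt_one_iff_mem _).1 h))

lemma smallMat_sub_uB {v : HeightOneSpectrum (𝓞 K)} {s t : K} (h : v.valuation K (s - t) < 1) :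
    (ProjGenLinGroup.mk (uB t) : G2 K)⁻¹ * ProjGenLinGroup.mk (uB s) ∈ locK1 v := by
  rw [← map_inv, ← map_mul]
  refine Subgroup.mem_map_of_mem _ ?_
  have e : ((uB t)⁻¹ * uB s).val = !![1, s - t; 0, 1] := by
    have e' : (uB t)⁻¹ * uB s = uB (s - t) := by
      rw [inv_mul_eq_iff_eq_mul, ← uB_add, add_sub_cancel]
    rw [e', uB_val]
  refine ⟨⟨fun i j => ?_, ?_⟩, ?_, ?_, ?_⟩ <;> rw [e]
  · fin_cases i <;> fin_cases j <;> simp [h.le]
  · simp
  · simpa using h
  · simp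
  · simp

lemma smallMat_sub_low {v : HeightOneSpectrum (𝓞 K)} {s t : K} (h : v.valuation K (s - t) < 1) :
    (ProjGenLinGroup.mk (Period.lowGL t) : G2 K)⁻¹ * ProjGenLinGroup.mk (Period.lowGL s) ∈
      locK1 v := by
  rw [← map_inv, ← map_mul]
  refine Subgroup.mem_map_of_mem _ ?_
  have e : ((Period.lowGL t)⁻¹ * Period.lowGL s).val = !![1, 0; s - t, 1] := by
    have e' : (Period.lowGL t)⁻¹ * Period.lowGL s = Period.lowGL (s - t) := by
      rw [inv_mul_eq_iff_eq_mul]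
      apply Units.ext
      ext i j
      fin_cases i <;> fin_cases j <;>
        simp [Period.lowGL_val, Matrix.mul_apply, Fin.sum_univ_two]
    rw [e', Period.lowGL_val]
  refine ⟨⟨fun i j => ?_, ?_⟩, ?_, ?_, ?_⟩ <;> rw [e]
  · fin_cases i <;> fin_cases j <;> simp [h.le]
  · simp
  · simp
  · simpa using h
  · simp

lemma cjM_trE (X : Eis) : cjM hE (trE X) = uB (toK hE X / θ) := by
  apply Units.ext
  rw [cjM_val, uB_val]
  simp [trE]

lemma cjM_trL (X : Eis) : cjM hE (trL X) = Period.lowGL (θ * toK hE X) := by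
  apply Units.ext
  rw [cjM_val, Period.lowGL_val]
  simp [trL]

lemma lowGL_mem {v : HeightOneSpectrum (𝓞 K)} {c : K} (hc : v.valuation K c ≤ 1) :
    (ProjGenLinGroup.mk (Period.lowGL c) : G2 K) ∈ locK v :=
  Period.unipGrp_le (Period.mk_low_mem hc)

lemma uB_mem {v : HeightOneSpectrum (𝓞 K)} {b : K} (hb : v.valuation K b ≤ 1) :
    (ProjGenLinGroup.mk (uB b) : G2 K) ∈ locK v :=
  Subgroup.mem_map_of_mem _ (uB_mem_locGL hb)

/-- A matrix of determinant one as a product of four unipotents. -/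
lemma exists_unip_factor {v : HeightOneSpectrum (𝓞 K)} {G : GL (Fin 2) K} (hG : G ∈ locGL v)
    (hd : G.val.det = 1) :
    ∃ s t x y : K, v.valuation K s ≤ 1 ∧ v.valuation K t ≤ 1 ∧ v.valuation K x ≤ 1 ∧
      v.valuation K y ≤ 1 ∧ G = Period.lowGL s * uB t * Period.lowGL x * uB y := by
  rw [Matrix.det_fin_two] at hd
  obtain ⟨s, hs, hc⟩ : ∃ s : K, v.valuation K s ≤ 1 ∧
      v.valuation K (G.val 1 0 - s * G.val 0 0) = 1 := by
    by_cases h : v.valuation K (G.val 1 0) = 1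
    · exact ⟨0, by simp, by simpa using h⟩
    have hlt : v.valuation K (G.val 1 0) < 1 := lt_of_le_of_ne (hG.1 _ _) h
    refine ⟨1, by simp, ?_⟩
    have hA : v.valuation K (G.val 0 0) = 1 := by
      rcases unit_pairs hG with ⟨h', -⟩ | ⟨-, h'⟩
      · exact h'
      · exact absurd h' h
    rw [one_mul, Valuation.map_sub_swap, sub_eq_add_neg,
      Valuation.map_add_eq_of_lt_left _ (by rwa [Valuation.map_neg, hA]), hA]
  set c := G.val 1 0 - s * G.val 0 0
  have hc0 : c ≠ 0 := fun e => by rw [e, map_zero] at hc; exact zero_ne_one hc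
  have hle : ∀ a : K, v.valuation K a ≤ 1 → v.valuation K ((a - 1) / c) ≤ 1 := fun a ha => by
    rw [map_div₀, hc, div_one]
    exact ((v.valuation K).map_sub _ _).trans (max_le ha (map_one _).le)
  refine ⟨s, (G.val 0 0 - 1) / c, c, (G.val 1 1 - s * G.val 0 1 - 1) / c, hs,
    hle _ (hG.1 _ _), hc.le,
    hle _ (((v.valuation K).map_sub _ _).trans (max_le (hG.1 _ _)
      (by rw [map_mul]; exact mul_le_one' hs (hG.1 _ _)))), ?_⟩
  apply Units.ext
  ext i j
  fin_cases i <;> fin_cases j <;>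
    simp [Units.val_mul, Period.lowGL_val, uB_val, Matrix.mul_apply, Fin.sum_univ_two]
  · field_simp; ring
  · field_simp
    simp only [c]
    linear_combination -hd
  · field_simp
    simp only [c]
    ring
  · field_simp
    simp only [c]
    linear_combination (-s) * hd

end

/-- Prescribed residues at finitely many places. -/
lemma exists_eis_near (A : Finset (HeightOneSpectrum (𝓞 K))) (r : HeightOneSpectrum (𝓞 K) → K)
    (hr : ∀ v ∈ A, v.valuation K (r v) ≤ 1) :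
    ∃ Y : Eis, ∀ v ∈ A, v.valuation K (toK hE Y - r v) < 1 := by
  classical
  choose z hz using fun v : A => exists_integer_near v.1 (hr v.1 v.2)
  obtain ⟨y, hy⟩ := IsDedekindDomain.exists_forall_sub_mem_ideal (s := A)
    (fun v => v.asIdeal) (fun _ => 1) (fun v _ => v.prime)
    (fun v _ w _ h e => h (HeightOneSpectrum.ext e)) z
  obtain ⟨Y, rfl⟩ := toO_surjective hE y
  refine ⟨Y, fun v hv => ?_⟩
  have h1 := hy v hv
  rw [pow_one, ← v.valuation_lt_one_iff_mem (K := K)] at h1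
  replace h1 : v.valuation K (algebraMap (𝓞 K) K (toO hE Y - z ⟨v, hv⟩)) < 1 := h1
  rw [map_sub] at h1
  rw [show toK hE Y - r v = (toK hE Y - (z ⟨v, hv⟩ : K)) + ((z ⟨v, hv⟩ : K) - r v) by ring]
  refine (v.valuation K).map_add_lt h1 ?_
  rw [Valuation.map_sub_swap]
  exact hz ⟨v, hv⟩

/-- Strong approximation modulo the places prime to three. -/
theorem exists_congE_class (A : Finset (HeightOneSpectrum (𝓞 K)))
    (h3 : ∀ v ∈ A, (3 : 𝓞 K) ∉ v.asIdeal) (k : HeightOneSpectrum (𝓞 K) → G2 K)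
    (hk : ∀ v ∈ A, k v ∈ locK v) :
    ∃ g ∈ congE 27, ∀ v ∈ A,
      (ProjGenLinGroup.mk (cjM hE g))⁻¹ * k v ∈ cubeB v := by
  classical
  have hθ : θ ≠ 0 := hE.ne_zero
  have hfac : ∀ v : HeightOneSpectrum (𝓞 K), ∃ s t x y : K, v ∈ A →
      v.valuation K s ≤ 1 ∧ v.valuation K t ≤ 1 ∧ v.valuation K x ≤ 1 ∧ v.valuation K y ≤ 1 ∧
      (ProjGenLinGroup.mk (Period.lowGL s * uB t * Period.lowGL x * uB y) : G2 K)⁻¹ * k v ∈
        cubeB v := by
    intro v
    by_cases hv : v ∈ A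
    · obtain ⟨G, hG, hGk⟩ := hk v hv
      have hD1 : v.valuation K G.val.det = 1 := hG.2
      have hD : G.val.det ≠ 0 := fun e => by rw [e, map_zero] at hD1; exact zero_ne_one hD1
      set D := Units.mk0 G.val.det hD
      set H : GL (Fin 2) K := GeneralLinearGroup.scalar (Fin 2) D * (G * LT.dB (D ^ (-3 : ℤ)))
      have hpow : v.valuation K ((D ^ (-3 : ℤ) : Kˣ) : K) = 1 := by
        rw [Units.val_zpow_eq_zpow_val, map_zpow₀, Units.val_mk0, hD1, _root_.one_zpow]
      have hdB : LT.dB (D ^ (-3 : ℤ)) ∈ cubeBGL v := by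
        refine ⟨⟨Whit.dB_mem_locGL hpow, by simp, by simp⟩, (G.val.det)⁻¹, ?_, ?_⟩
        · rw [map_inv₀, hD1, inv_one]
        · simp [D, _root_.zpow_neg, ← inv_pow]
      have hH : H ∈ locGL v := by
        refine mul_mem ?_ (mul_mem hG hdB.1.1)
        refine ⟨fun i j => ?_, ?_⟩
        · fin_cases i <;> fin_cases j <;> simp [GeneralLinearGroup.coe_scalar, D, hD1]
        · simp [GeneralLinearGroup.coe_scalar, D, hD1]
      have hdet : H.val.det = 1 := by
        simp [H, D, GeneralLinearGroup.coe_scalar, Units.val_mul, Matrix.det_mul,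
          Matrix.det_fin_two]
        rw [← Matrix.det_fin_two]
        field_simp
      obtain ⟨s, t, x, y, hs, ht, hx, hy, e⟩ := exists_unip_factor hH hdet
      refine ⟨s, t, x, y, fun _ => ⟨hs, ht, hx, hy, ?_⟩⟩
      rw [← e, map_mul, ProjGenLinGroup.mk_scalar, one_mul, map_mul, hGk, _root_.mul_inv_rev,
        inv_mul_cancel_right]
      exact inv_mem (Subgroup.mem_map_of_mem _ hdB)
    · exact ⟨0, 0, 0, 0, fun h => absurd h hv⟩
  choose s t x y hfac using hfac
  have hv27 : ∀ v ∈ A, v.valuation K (27 : K) = 1 := fun v hv => by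
    rw [show (27 : K) = 3 ^ 3 by norm_num, map_pow, val_three_eq_one (h3 v hv), one_pow]
  have hlift : ∀ (r : HeightOneSpectrum (𝓞 K) → K) (u : K),
      (∀ v ∈ A, v.valuation K (r v) ≤ 1) → (∀ v ∈ A, v.valuation K u = 1) →
      ∃ X : Eis, redE 27 X = 0 ∧ ∀ v ∈ A, v.valuation K (u * toK hE X - r v) < 1 := by
    intro r u hr hu
    obtain ⟨Y, hY⟩ := exists_eis_near hE A (fun v => r v / (u * 27)) fun v hv => by
      rw [map_div₀, map_mul, hu v hv, hv27 v hv, one_mul, div_one]; exact hr v hv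
    refine ⟨((27 : ℕ) : Eis) * Y, redE_eq_zero_iff.2 ⟨Y, rfl⟩, fun v hv => ?_⟩
    have hu0 : u * 27 ≠ 0 := fun e => by
      have := congrArg (v.valuation K) e
      rw [map_mul, hu v hv, hv27 v hv, map_zero, one_mul] at this
      exact one_ne_zero this
    rw [map_mul, map_natCast, show u * (((27 : ℕ) : K) * toK hE Y) - r v =
      u * 27 * (toK hE Y - r v / (u * 27)) by
        rw [mul_sub, mul_div_cancel₀ _ hu0]; push_cast; ring, map_mul, map_mul, hu v hv, hv27 v hv,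
      one_mul, one_mul]
    exact hY v hv
  have hθ1 : ∀ v ∈ A, v.valuation K θ = 1 := fun v hv => val_theta_eq_one hE (h3 v hv)
  have hθi : ∀ v ∈ A, v.valuation K θ⁻¹ = 1 := fun v hv => by rw [map_inv₀, hθ1 v hv, inv_one]
  obtain ⟨Xs, hXs, hs⟩ := hlift s θ (fun v hv => (hfac v hv).1) hθ1
  obtain ⟨Xt, hXt, ht⟩ := hlift t θ⁻¹ (fun v hv => (hfac v hv).2.1) hθi
  obtain ⟨Xx, hXx, hx⟩ := hlift x θ (fun v hv => (hfac v hv).2.2.1) hθ1
  obtain ⟨Xy, hXy, hy⟩ := hlift y θ⁻¹ (fun v hv => (hfac v hv).2.2.2.1) hθi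
  refine ⟨trL Xs * trE Xt * trL Xx * trE Xy, Subgroup.mul_mem _ (Subgroup.mul_mem _
    (Subgroup.mul_mem _ (trL_mem_congE hXs) (trE_mem_congE hXt)) (trL_mem_congE hXx))
    (trE_mem_congE hXy), fun v hv => ?_⟩
  obtain ⟨hs1, ht1, hx1, hy1, hb⟩ := hfac v hv
  have hrel : (ProjGenLinGroup.mk (cjM hE (trL Xs * trE Xt * trL Xx * trE Xy)) : G2 K)⁻¹ *
      ProjGenLinGroup.mk (Period.lowGL (s v) * uB (t v) * Period.lowGL (x v) * uB (y v)) ∈
      locK1 v := by
    rw [mk_cjM_mul, mk_cjM_mul, mk_cjM_mul, cjM_trE, cjM_trE, cjM_trL, cjM_trL, map_mul, map_mul,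
      map_mul]
    have hsm : ∀ {a b : K}, v.valuation K (a - b) < 1 → v.valuation K (b - a) < 1 := fun h => by
      rwa [Valuation.map_sub_swap]
    have hd : ∀ X : Eis, toK hE X / θ = θ⁻¹ * toK hE X := fun X => div_eq_inv_mul _ _
    have hintL : v.valuation K (θ * toK hE Xx) ≤ 1 := by
      rw [map_mul, hθ1 v hv, one_mul]; exact val_toK_le hE v _
    have hintU : ∀ X : Eis, v.valuation K (toK hE X / θ) ≤ 1 := fun X => by
      rw [map_div₀, hθ1 v hv, div_one]; exact val_toK_le hE v _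
    refine inv_mul_mem_locK1 (uB_mem (hintU Xy)) (inv_mul_mem_locK1 (lowGL_mem hintL)
      (inv_mul_mem_locK1 (uB_mem (hintU Xt)) (smallMat_sub_low ?_) (smallMat_sub_uB ?_))
      (smallMat_sub_low ?_)) (smallMat_sub_uB ?_)
    · exact hsm (hs v hv)
    · rw [hd]; exact hsm (ht v hv)
    · exact hsm (hx v hv)
    · rw [hd]; exact hsm (hy v hv)
  have := mul_mem (locK1_le_cubeB v hrel) hb
  rwa [mul_assoc, mul_inv_cancel_left] at this

/-! ## Invariance and translates -/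

variable {S : Finset (HeightOneSpectrum (𝓞 K))} {c : HeightOneSpectrum (𝓞 K) → ℂ}
  {f ψ : InfPts K → adelGrp K → ℂ}

omit [IsTotallyComplex K] in
/-- An element which is admissible at every place fixes a typed generator. -/
lemma rt_eq_self_of_typGen (hψ : IsTypGen S c (offThree S) ψ) (u : adelGrp K)
    (hA : ∀ v ∈ offThree S, u.1 v ∈ cubeB v)
    (hrest : ∀ v, v ∉ offThree S → u.1 v ∈ (Level.ofFinset S).loc v) : Whit.rt u ψ = ψ := by
  classical
  suffices h : ∀ T : Finset (HeightOneSpectrum (𝓞 K)), T ⊆ offThree S → ∀ u : adelGrp K,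
      (∀ v ∈ T, u.1 v ∈ cubeB v) → (∀ v, v ∉ T → u.1 v ∈ (Level.ofFinset S).loc v) →
      Whit.rt u ψ = ψ from h _ subset_rfl u hA hrest
  intro T hT
  induction T using Finset.induction_on with
  | empty =>
    intro u _ h
    funext p a
    exact hψ.1.form.right_inv p a u fun v => h v (Finset.notMem_empty v)
  | insert w T hw ih =>
    intro u hu hu'
    obtain ⟨u', hu'w, hdec, hne⟩ := Period.atV_decomp w u
    rw [hdec, ← Period.rt_rt, hψ.2 w (hT (Finset.mem_insert_self w T)) _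
      (hu w (Finset.mem_insert_self w T))]
    refine ih ((Finset.subset_insert w T).trans hT) u' (fun v hv => ?_) fun v hv => ?_
    · rw [hne v fun e => hw (e ▸ hv)]
      exact hu v (Finset.mem_insert_of_mem hv)
    · rcases eq_or_ne v w with rfl | hvw
      · rw [hu'w]; exact one_mem _
      · rw [hne v hvw]
        exact hu' v (by simp [hvw, hv])

omit [IsTotallyComplex K] in
/-- A translate by an integral element of an eigenform is an eigenform. -/
lemma isGood_rt_int (hf : IsGood S c f) (u : adelGrp K) (hu : ∀ v, u.1 v ∈ locK v) :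
    IsGood S c (Whit.rt u f) := by
  classical
  let uS : adelGrp K := ⟨fun v => if v ∈ S then u.1 v else 1, show ∀ᶠ v in Filter.cofinite, _ by
    filter_upwards [S.finite_toSet.compl_mem_cofinite] with v hv
    rw [if_neg (by simpa using hv)]
    exact one_mem _⟩
  have hS : ∀ v, uS.1 v = if v ∈ S then u.1 v else 1 := fun v => rfl
  have hint : ∀ v, uS.1 v ∈ locK v := fun v => by
    rw [hS]; split_ifs; exacts [hu v, one_mem _]
  have e : Whit.rt u f = Whit.rt uS f := by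
    funext p a
    show f p (a * u) = f p (a * uS)
    rw [show a * u = a * uS * (uS⁻¹ * u) by group]
    refine hf.form.right_inv p _ _ fun v => ?_
    show (uS.1 v)⁻¹ * u.1 v ∈ _
    rw [hS]
    by_cases hv : v ∈ S
    · rw [if_pos hv, inv_mul_cancel]; exact one_mem _
    · rw [if_neg hv, inv_one, one_mul, Whit.ofFinset_loc_of_notMem hv]; exact hu v
  rw [e]
  exact hf.rt_of_form (hf.form.rt hint) fun v hv => by rw [hS, if_neg hv]

/-- The translate by a congruent matrix. -/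
def trF (g : SLE) (f : InfPts K → adelGrp K → ℂ) : InfPts K → adelGrp K → ℂ :=
  Whit.rt (glob (ProjGenLinGroup.mk (cjM hE g⁻¹))) f

omit [IsTotallyComplex K] in
lemma isGood_trF (hf : IsGood S c f) {g : SLE} (hg : g ∈ congE 27) : IsGood S c (trF hE g f) :=
  isGood_rt_int hf _ fun v => cjM_mem_locK hE (inv_mem hg) v

variable (hemb : (place K).embedding θ = thC)
include hemb

lemma clsF_trF (hf : IsForm S f) (g : SLE) (p : H3) :
    clsF hE (trF hE g f) p = clsF hE f (g • p) := (clsF_smul hE hemb hf g p).symm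

omit hemb

variable {Q : Finset Nat.Primes}

/-- Transformation by the characters at some primes, invariance under cubes at the others. -/
def IsPartTyped (Q P : Finset Nat.Primes) (κ : ∀ q : Nat.Primes, MulChar (EisMod (q : ℕ)) ℂ)
    (Φ : H3 → ℂ) : Prop :=
  ∀ g ∈ congE 27, (∀ q ∈ Q, redE (q : ℕ) (g.1 1 0) = 0) →
    (∀ q ∈ Q, q ∉ P → ∃ u, redE (q : ℕ) (g.1 0 0) = u ^ 3) →
    ∀ p, Φ (g • p) = (∏ q ∈ P, κ q (redE (q : ℕ) (g.1 0 0))) * Φ p

variable (hSQ : ∀ v ∈ S, (3 : 𝓞 K) ∉ v.asIdeal → ∃ q ∈ Q,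
  (((q : Nat.Primes) : ℕ) : 𝓞 K) ∈ v.asIdeal)

include hSQ hemb in
/-- A typed generator is invariant under the cube classes. -/
theorem isPartTyped_empty (hψ : IsTypGen S c (offThree S) ψ) :
    IsPartTyped Q ∅ (fun _ => 1) (clsF hE ψ) := by
  classical
  intro g hg h10 hcub p
  rw [Finset.prod_empty, one_mul, clsF_smul hE hemb hψ.1.form]
  congr 1
  refine rt_eq_self_of_typGen hψ _ (fun v hv => ?_) fun v hv => ?_
  · obtain ⟨hvS, h3⟩ := Finset.mem_filter.1 hv
    obtain ⟨q, hq, hqv⟩ := hSQ v hvS h3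
    obtain ⟨u, hu⟩ := hcub q hq (Finset.notMem_empty q)
    obtain ⟨U, hU⟩ := exists_redE_eq u
    have hmem : ∀ x : Eis, redE (q : ℕ) x = 0 → v.valuation K (toK hE x) < 1 := fun x hx => by
      obtain ⟨y, rfl⟩ := redE_eq_zero_iff.1 hx
      rw [val_toK_lt_iff, map_mul, map_natCast]
      exact Ideal.mul_mem_right _ _ hqv
    show (ProjGenLinGroup.mk (cjM hE g⁻¹) : G2 K) ∈ cubeB v
    refine Subgroup.mem_map_of_mem _ ⟨⟨?_, ?_, by simp⟩, toK hE (g.1 1 1 * U),
      val_toK_le hE v _, ?_⟩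
    · refine ⟨fun i j => ?_, by rw [det_cjM, map_one]⟩
      rw [cjM_val]
      have hθ := val_theta_eq_one hE h3
      fin_cases i <;> fin_cases j <;> simp [hθ, val_toK_le]
    · rw [cjM_val]
      simp [Matrix.SpecialLinearGroup.coe_inv, Matrix.adjugate_fin_two, val_theta_eq_one hE h3,
        hmem _ (h10 q hq)]
    · rw [cjM_val]
      simp only [Matrix.SpecialLinearGroup.coe_inv, Matrix.adjugate_fin_two, Matrix.of_apply,
        Matrix.cons_val', Matrix.cons_val_zero, Matrix.cons_val_one, Matrix.cons_val_fin_one,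
        ← map_pow, ← map_mul, ← map_sub]
      refine hmem _ ?_
      have hd := congrArg (redE (q : ℕ)) g.2
      rw [Matrix.det_fin_two, map_sub, map_mul, map_mul, h10 q hq, mul_zero, sub_zero, map_one,
        hu] at hd
      rw [map_sub, map_mul, map_pow, map_mul, hU, hu]
      linear_combination (-redE (q : ℕ) (g.1 1 1) * (redE (q : ℕ) (g.1 1 1) * u ^ 3 + 1)) * hd
  · by_cases hvS : v ∈ S
    · have h3 : (3 : 𝓞 K) ∈ v.asIdeal := by
        by_contra h
        exact hv (Finset.mem_filter.2 ⟨hvS, h⟩)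
      have h := (LT2.Lift.isCong_cjM hE (N := 27) (by norm_num) (inv_mem hg)).mem_levelGrp
        (S := {v}) (fun w hw => LT2.Lift.val_shift_lt_one hE (by norm_num) (by
          rw [Finset.mem_singleton.1 hw, show ((27 : ℕ) : 𝓞 K) = 3 * 9 by norm_num]
          exact Ideal.mul_mem_right _ _ h3)) v
      rw [Whit.ofFinset_loc_of_mem (Finset.mem_singleton_self v)] at h
      rw [Whit.ofFinset_loc_of_mem hvS]
      exact h
    · rw [Whit.ofFinset_loc_of_notMem hvS]
      exact cjM_mem_locK hE (inv_mem hg) v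

omit hSQ

/-- Orthogonality of the characters of a finite ring. -/
lemma sum_char_unit {R : Type*} [CommRing R] [Finite R] [Fintype (MulChar R ℂ)]
    (x : Rˣ) (h : x ≠ 1) :
    ∑ χ : MulChar R ℂ, χ x = 0 := by
  obtain ⟨χ, hχ⟩ := MulChar.exists_apply_ne_one_of_hasEnoughRootsOfUnity R ℂ
    (a := (x : R)) (fun e => h (Units.ext e))
  refine eq_zero_of_mul_eq_self_left hχ ?_
  simp only [Finset.mul_sum, ← MulChar.mul_apply]
  exact Fintype.sum_bijective _ (Group.mulLeft_bijective χ) _ _ fun χ' => rfl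

/-- The functions of the eigenforms transforming by cubic characters at some primes. -/
def partSet (S : Finset (HeightOneSpectrum (𝓞 K))) (c : HeightOneSpectrum (𝓞 K) → ℂ)
    (Q P : Finset Nat.Primes) : Set (H3 → ℂ) :=
  {Φ | ∃ (f : InfPts K → adelGrp K → ℂ) (κ : ∀ q : Nat.Primes, MulChar (EisMod (q : ℕ)) ℂ),
    IsGood S c f ∧ (∀ q ∈ Q, κ q ^ 3 = 1) ∧ IsPartTyped Q P κ (clsF hE f) ∧ Φ = clsF hE f}

omit hemb [IsTotallyComplex K] in
/-- Moving the lifts of units past an element of the congruence group. -/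
private lemma clsF_lift_shift {f : InfPts K → adelGrp K → ℂ}
    {κ : ∀ q : Nat.Primes, MulChar (EisMod (q : ℕ)) ℂ} {P : Finset Nat.Primes} {a : Nat.Primes}
    (hty : IsPartTyped Q P κ (clsF hE f)) (haP : a ∉ P) (hPQ : P ⊆ Q)
    {G : (EisMod (a : ℕ))ˣ → SLE} (hG27 : ∀ x, G x ∈ congE 27)
    (hG00 : ∀ x, redE (a : ℕ) ((G x).1 0 0) = x) (hG10 : ∀ x, redE (a : ℕ) ((G x).1 1 0) = 0)
    (hG11 : ∀ x, redE (a : ℕ) ((G x).1 1 1) = ↑(x⁻¹))
    (hGq : ∀ x, ∀ q ∈ Q, q ≠ a →
      ∀ i j, redE (q : ℕ) ((G x).1 i j) = (1 : Matrix (Fin 2) (Fin 2) (EisMod (q : ℕ))) i j)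
    (g : SLE) (hg : g ∈ congE 27) (h10 : ∀ q ∈ Q, redE (q : ℕ) (g.1 1 0) = 0)
    (hcub : ∀ q ∈ Q, q ∉ insert a P → ∃ u, redE (q : ℕ) (g.1 0 0) = u ^ 3)
    (x y : (EisMod (a : ℕ))ˣ)
    (hxy : ∃ u, (x : EisMod (a : ℕ)) * redE (a : ℕ) (g.1 0 0) * ↑(y⁻¹) = u ^ 3) (p : H3) :
    clsF hE f (G x • g • p) =
      (∏ q ∈ P, κ q (redE (q : ℕ) (g.1 0 0))) * clsF hE f (G y • p) := by
  have hprod : ∀ (g h : SLE) (q : ℕ), redE q ((g * h).1 0 0) =
        redE q (g.1 0 0) * redE q (h.1 0 0) + redE q (g.1 0 1) * redE q (h.1 1 0) ∧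
      redE q ((g * h).1 1 0) =
        redE q (g.1 1 0) * redE q (h.1 0 0) + redE q (g.1 1 1) * redE q (h.1 1 0) := fun g h q => by
    simp [Matrix.SpecialLinearGroup.coe_mul, Matrix.mul_apply, Fin.sum_univ_two]
  have hinv : ∀ (g : SLE) (q : ℕ), redE q (g⁻¹.1 0 0) = redE q (g.1 1 1) ∧
      redE q (g⁻¹.1 1 0) = -redE q (g.1 1 0) := fun g q => by
    simp [Matrix.SpecialLinearGroup.coe_inv, Matrix.adjugate_fin_two]
  have hval : ∀ q ∈ Q, redE (q : ℕ) ((G x * g * (G y)⁻¹).1 1 0) = 0 ∧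
      (q ≠ a → redE (q : ℕ) ((G x * g * (G y)⁻¹).1 0 0) = redE (q : ℕ) (g.1 0 0)) ∧
      (q = a → ∃ u, redE (q : ℕ) ((G x * g * (G y)⁻¹).1 0 0) = u ^ 3) := by
    intro q hq
    obtain ⟨e1, e2⟩ := hprod (G x) g q
    obtain ⟨e3, e4⟩ := hprod (G x * g) (G y)⁻¹ q
    obtain ⟨e5, e6⟩ := hinv (G y) q
    rw [h10 q hq, mul_zero, add_zero] at e1 e2
    rw [e1, e5, e6] at e3
    rw [e2, e5, e6] at e4
    rcases eq_or_ne q a with rfl | hqa
    · rw [hG00, hG10, hG11, neg_zero, mul_zero, add_zero] at e3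
      rw [hG10, hG10, neg_zero, mul_zero, add_zero, zero_mul, zero_mul] at e4
      exact ⟨e4, fun h => absurd rfl h, fun _ => e3 ▸ hxy⟩
    · rw [hGq y q hq hqa 1 0, hGq x q hq hqa 0 0, hGq y q hq hqa 1 1] at e3
      rw [hGq y q hq hqa 1 0, hGq x q hq hqa 1 0] at e4
      simp at e3 e4
      exact ⟨e4, fun _ => e3, fun h => absurd h hqa⟩
  rw [show G x • g • p = (G x * g * (G y)⁻¹) • (G y • p) by
    rw [mul_smul, mul_smul, inv_smul_smul],
    hty _ (Subgroup.mul_mem _ (Subgroup.mul_mem _ (hG27 x) hg) (inv_mem (hG27 y)))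
      (fun q hq => (hval q hq).1) (fun q hq hqP => ?_) (G y • p)]
  · congr 1
    exact Finset.prod_congr rfl fun q hqP => by
      rw [(hval q (hPQ hqP)).2.1 fun e => haP (e ▸ hqP)]
  · rcases eq_or_ne q a with rfl | hqa
    · exact (hval q hq).2.2 rfl
    · rw [(hval q hq).2.1 hqa]
      exact hcub q hq (by simp [hqa, hqP])

include hemb in
/-- Adding one prime: decompose by the characters of its units; only cubic ones survive. -/
theorem partSet_subset_span (hQ : ∀ q ∈ Q, (q : ℕ) ≠ 3) {P : Finset Nat.Primes} {a : Nat.Primes}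
    (haQ : a ∈ Q) (haP : a ∉ P) (hPQ : P ⊆ Q) :
    partSet hE S c Q P ⊆ Submodule.span ℂ (partSet hE S c Q (insert a P)) := by
  classical
  rintro _ ⟨f, κ, hf, hκ, hty, rfl⟩
  have hcop : (a : ℕ).Coprime (27 * lvl (Q.erase a)) := by
    have h := coprime_rest hQ haQ
    rwa [show 3 * (9 * lvl (Q.erase a)) = 27 * lvl (Q.erase a) by ring] at h
  choose G hG hG00 hG01 hG10 hG11 using fun x : (EisMod (a : ℕ))ˣ => exists_borel_lift hcop x 0
  have hG27 : ∀ x, G x ∈ congE 27 := fun x => congE_anti (dvd_mul_right 27 _) (hG x)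
  have hGq : ∀ x, ∀ q ∈ Q, q ≠ a →
      ∀ i j, redE (q : ℕ) ((G x).1 i j) = (1 : Matrix (Fin 2) (Fin 2) (EisMod (q : ℕ))) i j :=
    fun x q hq hqa => mem_congE.1
      (congE_anti ((dvd_lvl (Finset.mem_erase.2 ⟨hqa, hq⟩)).mul_left 27) (hG x))
  have : Fintype (MulChar (EisMod (a : ℕ)) ℂ) := Fintype.ofFinite _
  set F : MulChar (EisMod (a : ℕ)) ℂ → (InfPts K → adelGrp K → ℂ) := fun χ =>
    ∑ x : (EisMod (a : ℕ))ˣ, χ ↑(x⁻¹) • trF hE (G x) f
  have hgood : ∀ χ, IsGood S c (F χ) := fun χ =>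
    IsGood.sum _ _ fun x _ => (isGood_trF hE hf (hG27 x)).smul _
  have hF : ∀ χ p, clsF hE (F χ) p =
      ∑ x : (EisMod (a : ℕ))ˣ, χ ↑(x⁻¹) * clsF hE f (G x • p) := fun χ p => by
    show clsL hE (F χ) p = _
    simp only [F, map_sum, map_smul, Finset.sum_apply, Pi.smul_apply, smul_eq_mul]
    exact Finset.sum_congr rfl fun x _ => by rw [← clsF_trF hE hemb hf.form]; rfl
  have hshift := clsF_lift_shift hE hty haP hPQ hG27 hG00 hG10 hG11 hGq
  have hcard : (Fintype.card (MulChar (EisMod (a : ℕ)) ℂ) : ℂ) ≠ 0 :=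
    Nat.cast_ne_zero.2 Fintype.card_ne_zero
  have hone : ∀ p, clsF hE f (G 1 • p) = clsF hE f p := fun p => by
    have h00 : ∀ q ∈ Q, redE (q : ℕ) ((G 1).1 0 0) = 1 ∧ redE (q : ℕ) ((G 1).1 1 0) = 0 := by
      intro q hq
      rcases eq_or_ne q a with rfl | hqa
      · exact ⟨(hG00 1).trans Units.val_one, hG10 1⟩
      · exact ⟨by rw [hGq 1 q hq hqa 0 0]; rfl, by rw [hGq 1 q hq hqa 1 0]; rfl⟩
    rw [hty _ (hG27 1) (fun q hq => (h00 q hq).2)
      (fun q hq _ => ⟨1, by rw [(h00 q hq).1, one_pow]⟩) p,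
      Finset.prod_eq_one fun q hqP => by rw [(h00 q (hPQ hqP)).1, map_one], one_mul]
  have hdec : clsF hE f =
      (Fintype.card (MulChar (EisMod (a : ℕ)) ℂ) : ℂ)⁻¹ • ∑ χ, clsF hE (F χ) := by
    funext p
    simp only [Pi.smul_apply, Finset.sum_apply, hF, smul_eq_mul]
    rw [Finset.sum_comm]
    simp only [← Finset.sum_mul]
    rw [Finset.sum_eq_single (1 : (EisMod (a : ℕ))ˣ) (fun x _ hx => ?_) (by simp)]
    · simp only [inv_one, Units.val_one, map_one, Finset.sum_const, Finset.card_univ, nsmul_eq_mul,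
        mul_one, hone]
      rw [inv_mul_cancel_left₀ hcard]
    · rw [sum_char_unit _ (fun e => hx (inv_eq_one.1 e)), zero_mul]
  rw [hdec]
  refine Submodule.smul_mem _ _ (Submodule.sum_mem _ fun χ _ => ?_)
  by_cases hχ : χ ^ 3 = 1
  · refine Submodule.subset_span ⟨F χ, Function.update κ a χ, hgood χ, fun q hq => ?_, ?_, rfl⟩
    · rcases eq_or_ne q a with rfl | hqa
      · rwa [Function.update_self]
      · rw [Function.update_of_ne hqa]; exact hκ q hq
    · intro g hg h10 hcub p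
      have hunit : IsUnit (redE (a : ℕ) (g.1 0 0)) := by
        have hd := congrArg (redE (a : ℕ)) g.2
        rw [Matrix.det_fin_two, map_sub, map_mul, map_mul, h10 a haQ, mul_zero,
          sub_zero, map_one] at hd
        exact IsUnit.of_mul_eq_one _ hd
      obtain ⟨α, hα⟩ := hunit
      rw [Finset.prod_insert haP, Function.update_self, Finset.prod_congr rfl fun q hq => by
        rw [Function.update_of_ne (show q ≠ a from fun e => haP (e ▸ hq))], ← hα,
          hF, hF, Finset.mul_sum]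
      refine Fintype.sum_bijective (fun x => x * α) (Group.mulRight_bijective α) _ _ fun x => ?_
      rw [hshift g hg h10 hcub x (x * α) ⟨1, by
        rw [← hα, ← Units.val_mul, Units.mul_inv, one_pow]⟩ p,
        show ((x⁻¹ : (EisMod (a : ℕ))ˣ) : EisMod (a : ℕ)) = (α : EisMod (a : ℕ)) * ↑((x * α)⁻¹) by
          rw [← Units.val_mul, _root_.mul_inv_rev, mul_inv_cancel_left], map_mul]
      ring
  · obtain ⟨y, hy⟩ : ∃ y : (EisMod (a : ℕ))ˣ, χ y ^ 3 ≠ 1 := by
      by_contra hcon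
      push Not at hcon
      exact hχ (MulChar.ext fun u => by
        rw [MulChar.pow_apply_coe, MulChar.one_apply_coe]; exact hcon u)
    have hz : clsF hE (F χ) = 0 := funext fun p => by
      refine eq_zero_of_mul_eq_self_left hy ?_
      rw [hF, Finset.mul_sum]
      refine Fintype.sum_bijective (fun x => x * (y ^ 3)⁻¹) (Group.mulRight_bijective _) _ _
        fun x => ?_
      have h := hshift 1 (one_mem _) (fun q _ => by simp)
        (fun q _ _ => ⟨1, by simp⟩) x (x * (y ^ 3)⁻¹) ⟨(y : EisMod (a : ℕ)), by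
          rw [_root_.mul_inv_rev, inv_inv, Matrix.SpecialLinearGroup.coe_one, Matrix.one_apply_eq,
            map_one, mul_one, ← Units.val_mul, mul_left_comm, mul_inv_cancel, mul_one,
            Units.val_pow_eq_pow_val]⟩ p
      rw [one_smul, Finset.prod_eq_one (fun q _ => by simp), one_mul] at h
      rw [h, _root_.mul_inv_rev, inv_inv, Units.val_mul, map_mul, Units.val_pow_eq_pow_val, map_pow]
      ring
    rw [hz]
    exact zero_mem _

/-- The translates of the typed functions. -/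
def famSet (S : Finset (HeightOneSpectrum (𝓞 K))) (c : HeightOneSpectrum (𝓞 K) → ℂ)
    (Q : Finset Nat.Primes) : Set (H3 → ℂ) :=
  {Φ | ∃ (f : InfPts K → adelGrp K → ℂ)
    (κ : ∀ q : Nat.Primes, MulChar (EisMod (q : ℕ)) ℂ) (h : SLE),
    IsGood S c f ∧ (∀ q ∈ Q, κ q ^ 3 = 1) ∧ IsTyped Q κ (clsF hE f) ∧ h ∈ congE 27 ∧
      Φ = fun p => clsF hE f (h • p)}

include hemb hSQ in
/-- A typed form is a combination of translates of typed functions. -/
theorem clsF_mem_span (hQ : ∀ q ∈ Q, (q : ℕ) ≠ 3) {φ : InfPts K → adelGrp K → ℂ}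
    (hφ : IsTyp S c (offThree S) φ) : clsF hE φ ∈ Submodule.span ℂ (famSet hE S c Q) := by
  classical
  show clsL hE φ ∈ _
  refine (Submodule.span_le (p := (Submodule.span ℂ (famSet hE S c Q)).comap (clsL hE))).2 ?_ hφ
  rintro _ ⟨k, ψ, hk, hk1, hψ, rfl⟩
  show clsF hE (Whit.rt k ψ) ∈ Submodule.span ℂ (famSet hE S c Q)
  obtain ⟨g, hg, hgA⟩ := exists_congE_class hE (offThree S)
    (fun v hv => (Finset.mem_filter.1 hv).2) k.1 fun v _ => hk v
  set γ : G2 K := ProjGenLinGroup.mk (cjM hE g)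
  set u : adelGrp K := (glob γ)⁻¹ * k
  have huv : ∀ v, u.1 v = γ⁻¹ * k.1 v := fun v => rfl
  let u3 : adelGrp K := ⟨fun v => if v ∈ S ∧ v ∉ offThree S then u.1 v else 1,
    show ∀ᶠ v in Filter.cofinite, _ by
      filter_upwards [S.finite_toSet.compl_mem_cofinite] with v hv
      rw [if_neg fun h => hv h.1]
      exact one_mem _⟩
  have hu3 : ∀ v, u3.1 v = if v ∈ S ∧ v ∉ offThree S then u.1 v else 1 := fun v => rfl
  have hu3K : ∀ v, u3.1 v ∈ locK v := fun v => by
    rw [hu3]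
    split_ifs
    · rw [huv]; exact mul_mem (inv_mem (cjM_mem_locK hE hg v)) (hk v)
    · exact one_mem _
  have e1 : Whit.rt u ψ = Whit.rt u3 ψ := by
    conv_lhs => rw [show u = u3 * (u3⁻¹ * u) by group, ← Period.rt_rt]
    congr 1
    refine rt_eq_self_of_typGen hψ _ (fun v hv => ?_) fun v hv => ?_
    · show (u3.1 v)⁻¹ * u.1 v ∈ _
      rw [hu3, if_neg fun h => h.2 hv, inv_one, one_mul, huv]
      exact hgA v hv
    · show (u3.1 v)⁻¹ * u.1 v ∈ _
      rw [hu3]
      by_cases hvS : v ∈ S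
      · rw [if_pos ⟨hvS, hv⟩, inv_mul_cancel]; exact one_mem _
      · rw [if_neg fun h => hvS h.1, inv_one, one_mul, huv, hk1 v hvS, mul_one,
          Whit.ofFinset_loc_of_notMem hvS]
        exact inv_mem (cjM_mem_locK hE hg v)
  set ψ' := Whit.rt u3 ψ with hψ'
  have hψ'gen : IsTypGen S c (offThree S) ψ' := ⟨isGood_rt_int hψ.1 _ hu3K, fun w hw b hb => by
    rw [hψ', Period.rt_comm_of_one (by rw [hu3, if_neg fun h => h.2 hw]), hψ.2 w hw b hb]⟩
  have e2 : clsF hE (Whit.rt k ψ) = LinearMap.funLeft ℂ ℂ (fun p => g⁻¹ • p) (clsF hE ψ') := by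
    funext p
    rw [show k = glob γ * u by simp [u], ← Period.rt_rt, e1, LinearMap.funLeft_apply,
      clsF_smul hE hemb hψ'gen.1.form, inv_inv]
  have hspan : ∀ P ⊆ Q, clsF hE ψ' ∈ Submodule.span ℂ (partSet hE S c Q P) := by
    intro P hP
    induction P using Finset.induction_on with
    | empty =>
      exact Submodule.subset_span ⟨ψ', fun _ => 1, hψ'gen.1, fun q _ => one_pow 3,
        isPartTyped_empty hE hemb hSQ hψ'gen, rfl⟩
    | insert a P haP ih =>
      have hPQ := (Finset.subset_insert a P).trans hP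
      exact Submodule.span_le.2 (partSet_subset_span hE hemb hQ (hP (Finset.mem_insert_self a P))
        haP hPQ) (ih hPQ)
  rw [e2]
  refine Submodule.span_mono ?_ (Submodule.apply_mem_span_image_of_mem_span _ (hspan Q subset_rfl))
  rintro _ ⟨_, ⟨f, κ, hf, hκ, hty, rfl⟩, rfl⟩
  exact ⟨f, κ, g⁻¹, hf, hκ, fun g' hg' h10 p => hty g' hg' h10 (fun q hq hqQ => absurd hq hqQ) p,
    inv_mem hg, rfl⟩

/-! ## The coefficient -/

omit hemb

/-- Translating the function translates the weight. -/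
lemma aCoef_translate {n k : ℕ} {Φ : H3 → ℂ} (hΦ : IsWave n Φ) {w : Vec → ℂ}
    (hwi : ∀ g ∈ congE n, ∀ x, w (g • x) = w x) (h : SLE) (j : ℕ) :
    aCoef n k (fun p => Φ (h • p)) w j = aCoef n k Φ (fun x => w (h⁻¹ • x)) j := by
  unfold aCoef
  split_ifs with hj
  · rfl
  congr 1
  simp only [GG]
  congr 1
  have hlev : lev (j : ℤ) (fun x => w (h⁻¹ • x)) = fun x => lev (j : ℤ) w (h⁻¹ • x) := by
    funext x
    simp only [lev, P3_smul]
  set f : H3 → ℂ := fun q => Φ q * sph 0 1 (lev (j : ℤ) fun x => w (h⁻¹ • x)) q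
  have hwi' : ∀ g ∈ congE n, ∀ x, lev (j : ℤ) w (h⁻¹ • g • x) = lev (j : ℤ) w (h⁻¹ • x) := by
    intro g hg x
    rw [← mul_smul, show h⁻¹ * g = h⁻¹ * g * h⁻¹⁻¹ * h⁻¹ by group, mul_smul,
      lev_inv hwi _ _ ((inferInstance : (congE n).Normal).conj_mem g hg h⁻¹)]
  have hf : ∀ g ∈ congE n, ∀ p, f (g • p) = f p := fun g hg p => by
    simp only [f, hlev]
    rw [hΦ.inv g hg, sph_inv hwi' 0 1 g hg]
  rw [FF, FF, ← setIntegral_fdE_smul h hf]
  refine integral_congr_ae (Filter.Eventually.of_forall fun p => ?_)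
  simp only [f, hlev, sph_smul_pt, inv_smul_smul]

variable {M : ℕ}

/-- The translates of the orbit weight are weights of the family. -/
lemma exists_wt_translate (hQ : ∀ q ∈ Q, (q : ℕ) ≠ 3) {h : SLE} (hh : h ∈ congE 27) :
    ∃ F₀ : ∀ q : Nat.Primes, VQ (q : ℕ) → ℂ,
      (fun x => wOrb (lvl Q) (h⁻¹ • x)) = wt Q F₀ := by
  classical
  choose r hr using fun (q : Nat.Primes) (v : VQ (q : ℕ)) => exists_redL_eq v
  refine ⟨fun q v => dlV (redL (q : ℕ) v0) (redL (q : ℕ) (h⁻¹ • r q v)), funext fun x => ?_⟩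
  rw [wOrb_eq hQ]
  simp only [wt]
  congr 1
  · obtain ⟨y, hy⟩ := exists_smul_congE 27 (inv_mem hh) x
    obtain ⟨y', hy'⟩ := exists_subV_smul (k := 9) 1 y
    rw [show (3 * ((9 : ℕ) : ℤ) * 1) = ((27 : ℕ) : ℤ) by norm_num] at hy'
    rw [hy, hy']
    simp only [dl9]
    refine if_congr ⟨fun ⟨z, hz⟩ => ⟨z + -y', ?_⟩, fun ⟨z, hz⟩ => ⟨z + y', ?_⟩⟩ rfl rfl
    · rw [subV_add, subV_neg, ← add_assoc, ← hz, add_neg_cancel_right]
    · rw [subV_add, ← add_assoc, ← hz]
  · exact Finset.prod_congr rfl fun q _ => by rw [redL_smul_congr h⁻¹ (hr q (redL (q : ℕ) x))]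

include hemb hSQ in
/-- **Typed functions**: a nonzero coefficient of the cycle vector for a typed form gives an
eigenform which, on hyperbolic space, transforms by cubic characters at the primes of the level and
has a nonzero coefficient for a product weight. -/
theorem exists_typed_weight (hQ : ∀ q ∈ Q, (q : ℕ) ≠ 3) {φ : InfPts K → adelGrp K → ℂ}
    (hφ : IsTyp S c (offThree S) φ)
    (ha : aCoef (27 * lvl Q) (9 * lvl Q) (clsF hE φ) (wOrb (lvl Q)) 9 ≠ 0) :
    ∃ (f : InfPts K → adelGrp K → ℂ) (κ : ∀ q : Nat.Primes, MulChar (EisMod (q : ℕ)) ℂ)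
      (F₀ : ∀ q : Nat.Primes, VQ (q : ℕ) → ℂ),
      IsGood S c f ∧ (∀ q ∈ Q, κ q ^ 3 = 1) ∧ IsTyped Q κ (clsF hE f) ∧
      IsCusp (27 * lvl Q) (clsF hE f) ∧
      aCoef (27 * lvl Q) (9 * lvl Q) (clsF hE f) (wt Q F₀) 9 ≠ 0 := by
  classical
  set n := 27 * lvl Q with hn
  set k := 9 * lvl Q with hk
  set w := wOrb (lvl Q)
  have hwp : IsPer k w := isPer_wOrb
  obtain ⟨B, hB0, hB⟩ := hwp.bounded
  have hwi : ∀ g ∈ congE n, ∀ x, w (g • x) = w x :=
    inv_congE_of_isPer ⟨1, by rw [hn, hk]; ring⟩ hwp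
  have hlev := isLev_lev (w := w) hB0 hB ((9 : ℕ) : ℤ)
  have hSn : ∀ v ∈ S, (n : 𝓞 K) ∈ v.asIdeal := fun v hv => by
    by_cases h3 : (3 : 𝓞 K) ∈ v.asIdeal
    · rw [hn, show ((27 * lvl Q : ℕ) : 𝓞 K) = 3 * (9 * (lvl Q : 𝓞 K)) by push_cast; ring]
      exact Ideal.mul_mem_right _ _ h3
    · obtain ⟨q, hq, hqv⟩ := hSQ v hv h3
      obtain ⟨m, hm⟩ : (q : ℕ) ∣ n := (dvd_lvl hq).mul_left 27
      rw [hm, Nat.cast_mul]
      exact Ideal.mul_mem_right _ _ hqv
  have hcusp : ∀ f, IsGood S c f → IsCusp n (clsF hE f) := fun f hf =>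
    have h3 : 3 ∣ n := ⟨9 * lvl Q, by rw [hn]; ring⟩
    LT2.Lift.isCusp_clsF hE hemb (LT2.Lift.isLiftForm_of_isGood hE hf h3 hSn) h3 dvd_rfl
  set goal := ∃ (f : InfPts K → adelGrp K → ℂ) (κ : ∀ q : Nat.Primes, MulChar (EisMod (q : ℕ)) ℂ)
      (F₀ : ∀ q : Nat.Primes, VQ (q : ℕ) → ℂ),
      IsGood S c f ∧ (∀ q ∈ Q, κ q ^ 3 = 1) ∧ IsTyped Q κ (clsF hE f) ∧
      IsCusp n (clsF hE f) ∧ aCoef n k (clsF hE f) (wt Q F₀) 9 ≠ 0
  have hmem := clsF_mem_span hE hemb hSQ hQ hφ
  suffices key : ∀ x ∈ Submodule.span ℂ (famSet hE S c Q),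
      IntegrableOn (fun p => x p * sph 0 1 (lev ((9 : ℕ) : ℤ) w) p) (fdE n) H3.vol ∧
        (aCoef n k x w 9 ≠ 0 → goal) from (key _ hmem).2 ha
  intro x hx
  induction hx using Submodule.span_induction with
  | mem x hx =>
    obtain ⟨f, κ, h, hf, hκ, hty, hh, rfl⟩ := hx
    have hwave := (hcusp f hf).wave
    refine ⟨(hwave.translate h).integrable_sph hlev (lev_inv hwi _) one_pos 0, fun hne => ?_⟩
    obtain ⟨F₀, hF₀⟩ := exists_wt_translate (Q := Q) hQ hh
    rw [aCoef_translate hwave hwi, hF₀] at hne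
    exact ⟨f, κ, F₀, hf, hκ, hty, hcusp f hf, hne⟩
  | zero => exact ⟨by simp, fun h => absurd (by simp [aCoef, GG, FF]) h⟩
  | add x y _ _ hx hy =>
    have hsum : (fun p => (x + y) p * sph 0 1 (lev ((9 : ℕ) : ℤ) w) p) =
        fun p => x p * sph 0 1 (lev ((9 : ℕ) : ℤ) w) p + y p * sph 0 1 (lev ((9 : ℕ) : ℤ) w) p :=
      funext fun p => add_mul _ _ _
    refine ⟨hsum ▸ hx.1.add hy.1, fun hne => ?_⟩
    by_contra hg
    have hx0 := not_not.1 fun h => hg (hx.2 h)
    have hy0 := not_not.1 fun h => hg (hy.2 h)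
    refine hne ?_
    simp only [aCoef, OfNat.ofNat_ne_zero, if_false, GG, FF] at hx0 hy0 ⊢
    rw [hsum, integral_add hx.1 hy.1, mul_add, mul_add, hx0, hy0, add_zero]
  | smul r x _ hx =>
    have hs : (fun p => (r • x) p * sph 0 1 (lev ((9 : ℕ) : ℤ) w) p) =
        fun p => r * (x p * sph 0 1 (lev ((9 : ℕ) : ℤ) w) p) :=
      funext fun p => mul_assoc _ _ _
    refine ⟨hs ▸ hx.1.const_mul r, fun hne => hx.2 fun h0 => hne ?_⟩
    simp only [aCoef, OfNat.ofNat_ne_zero, if_false, GG, FF] at h0 ⊢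
    rw [hs, integral_const_mul]
    linear_combination r * h0

end FermatAgent.LT.Lift
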