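import Fermat.Agent.LT.Lift.LocalType
import Fermat.Agent.LT.Lift.Xi

/-!
# Weights with one local component

The lift is linear in the weight.  A weight with a component at the prime `q` is moved by the lower
unipotent matrices at `q` through the convolution of that component with a gaussian.
-/

set_option autoImplicit false

noncomputable section

open Matrix MeasureTheory Finset Complex
open scoped MatrixGroups UpperHalfPlane Real ModularForm

namespace FermatAgent.LT.Lift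

variable {n k : ℕ} [NeZero n] [NeZero k] {Φ : H3 → ℂ}

/-! ## Linearity -/

omit [NeZero k] in
lemma IsPer.add {w w' : Vec → ℂ} (hw : IsPer k w) (hw' : IsPer k w') : IsPer k (w + w') :=
  fun x y => by simp only [Pi.add_apply, hw x y, hw' x y]

omit [NeZero k] in
/-- Multiples of periodic weights are periodic. -/
lemma IsPer.smul' {w : Vec → ℂ} (hw : IsPer k w) (r : ℂ) : IsPer k (r • w) :=
  fun x y => by simp only [Pi.smul_apply, hw x y]

lemma Lam_add (hΦ : IsWave n Φ) {w w' : Vec → ℂ} (hw : IsPer k w) (hw' : IsPer k w') (τ : ℍ) :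
    Lam n k Φ (w + w') τ = Lam n k Φ w τ + Lam n k Φ w' τ := by
  obtain ⟨B, -, hB⟩ := hw.bounded
  obtain ⟨B', -, hB'⟩ := hw'.bounded
  obtain ⟨C, -, hC⟩ := (hw.add hw').bounded
  have h0 := hasSum_integral_gss (k := k) hΦ hC τ
  have h1 := hasSum_integral_gss (k := k) hΦ hB τ
  have h2 := hasSum_integral_gss (k := k) hΦ hB' τ
  refine h0.unique ((h1.add h2).congr_fun fun x => ?_)
  have hi : ∀ v : Vec → ℂ, ∀ C : ℝ, (∀ y, ‖v y‖ ≤ C) →
      ∫ p in fdE n, Φ p * ((√τ.im : ℂ) * (v x * gss k τ p x)) ∂H3.vol =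
        v x * ∫ p in fdE n, Φ p * ((√τ.im : ℂ) * gss k τ p x) ∂H3.vol := fun v C _ => by
    rw [← integral_const_mul]
    exact integral_congr_ae (ae_of_all _ fun p => by dsimp only; ring)
  rw [hi _ C hC, hi _ B hB, hi _ B' hB', Pi.add_apply, add_mul]

section

omit [NeZero n] [NeZero k]

/-- The lift is homogeneous. -/
lemma Lam_smul (r : ℂ) (w : Vec → ℂ) (τ : ℍ) : Lam n k Φ (r • w) τ = r * Lam n k Φ w τ := by
  rw [Lam, Lam, ← integral_const_mul]
  exact integral_congr_ae (ae_of_all _ fun p => by dsimp only; rw [theta_smul]; ring)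

/-- The lift depends only on the values. -/
lemma Lam_congr {w w' : Vec → ℂ} (h : ∀ x, w x = w' x) : Lam n k Φ w = Lam n k Φ w' := by
  rw [funext h]

lemma Lam_zero (τ : ℍ) : Lam n k Φ (0 : Vec → ℂ) τ = 0 := by
  simpa using Lam_smul (n := n) (k := k) (Φ := Φ) 0 (0 : Vec → ℂ) τ

lemma Lam_neg_arg (w : Vec → ℂ) : Lam n k Φ (fun x => w (-x)) = Lam n k Φ w := by
  funext τ
  simp only [Lam, theta_neg]

end

/-- The lift is additive. -/
lemma Lam_sum (hΦ : IsWave n Φ) {ι : Type*} (s : Finset ι) {w : ι → Vec → ℂ}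
    (hw : ∀ i, IsPer k (w i)) (τ : ℍ) :
    Lam n k Φ (fun x => ∑ i ∈ s, w i x) τ = ∑ i ∈ s, Lam n k Φ (w i) τ := by
  classical
  induction s using Finset.induction with
  | empty =>
    simp only [sum_empty]
    exact Lam_zero τ
  | insert a s ha ih =>
    have hp : IsPer k fun x => ∑ i ∈ s, w i x := fun x y => by simp only [hw _ x y]
    rw [sum_insert ha, ← ih, ← Lam_add hΦ (hw a) hp]
    exact congrFun (Lam_congr fun x => by rw [Pi.add_apply, sum_insert ha]) τ

section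

omit [NeZero n]

/-- A translation of the argument. -/
lemma Lam_mE (j : ℤ) (w : Vec → ℂ) (τ : ℍ) :
    Lam n k Φ (mE k j w) τ = Lam n k Φ w ((j : ℝ) +ᵥ τ) := by
  simp only [Lam, theta_vadd]

lemma Lam_four {w : Vec → ℂ} (hw : IsPer k w) (τ : ℍ) :
    Lam n k Φ (four k w) τ = I / (τ : ℂ) * Lam n k Φ w (negInv τ) := by
  rw [Lam, Lam, ← integral_const_mul]
  refine integral_congr_ae (ae_of_all _ fun p => ?_)
  dsimp only
  rw [theta_negInv hw]
  have := τ.ne_zero
  field_simp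
  ring_nf
  simp [Complex.I_sq]

/-- The lift of the double transform is the slash by a lower unipotent matrix. -/
theorem Lam_four_mE_four {w : Vec → ℂ} (hw : IsPer k w) (c : ℤ) (L : SL(2, ℤ))
    (hL : L.1 = !![1, 0; -c, 1]) :
    Lam n k Φ (four k (mE k c (four k w))) = Lam n k Φ w ∣[(1 : ℤ)] L := by
  funext τ
  have hτ := τ.ne_zero
  have hden : (L.1 1 0 : ℂ) * τ + L.1 1 1 = 1 - c * τ := by simp [hL]; ring
  have hd : (1 : ℂ) - c * τ ≠ 0 := by
    rw [← hden]
    simpa [ModularGroup.denom_apply] using UpperHalfPlane.denom_ne_zero L τ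
  have h2 : (c : ℂ) + -1 / τ = -(1 - c * τ) / τ := by field_simp; ring
  have hσ : negInv ((c : ℝ) +ᵥ negInv τ) = L • τ := by
    apply UpperHalfPlane.ext
    rw [coe_negInv, UpperHalfPlane.coe_vadd, coe_negInv, UpperHalfPlane.specialLinearGroup_apply]
    simp only [Complex.ofReal_intCast, h2]
    simp [hL]
    rw [show -((c : ℂ) * τ) + 1 = 1 - c * τ by ring]
    rw [div_div_eq_mul_div, div_eq_div_iff (fun h => hd (by linear_combination -h)) hd]
    ring
  rw [ModularForm.SL_slash_apply, ModularGroup.denom_apply, Lam_four (isPer_mE (isPer_four w) c),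
    Lam_mE, Lam_four hw, hσ, _root_.zpow_neg_one, UpperHalfPlane.coe_vadd, coe_negInv,
    Complex.ofReal_intCast, h2, hden]
  field_simp
  ring_nf
  simp [Complex.I_sq]

end

/-! ## One component -/

variable {q : ℕ}

/-- A weight with a component at `q`. -/
def tw (q : ℕ) (R : Vec → ℂ) (u : VQ q → ℂ) : Vec → ℂ := fun x => R x * u (redL q x)

/-- The function which is one at a point. -/
def dlV [NeZero q] (v : VQ q) : VQ q → ℂ := fun w => if w = v then 1 else 0

lemma PQ_neg (v : VQ q) : PQ (-v) = PQ v := by simp [PQ, nrm, QuadraticAlgebra.norm_def]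

/-- Deep sublattice elements reduce to zero. -/
lemma redL_subV_mul (j : ℕ) (y : Vec) : redL q (subV (q * j) y) = 0 := by
  have h : (q : EisMod q) = 0 := by ext <;> simp
  refine Prod.ext ?_ (Prod.ext ?_ ?_) <;> simp [redL, subV, h]

omit [NeZero k] in
/-- Sublattices of multiples. -/
lemma subV_mul (a : ℕ) (y : Vec) : subV (a * k) y = subV k ((a : ℤ) • y) := by
  refine Prod.ext ?_ (Prod.ext ?_ ?_) <;>
    simp only [subV, zsmul_fst, zsmul_snd_fst, zsmul_snd_snd] <;> push_cast <;> ring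

omit [NeZero k] in
/-- Twists are periodic. -/
lemma isPer_tw {R : Vec → ℂ} (hR : IsPer k R) (u : VQ q → ℂ) : IsPer (q * k) (tw q R u) :=
  fun x y => by
    simp only [tw, map_add, redL_subV_mul, add_zero]
    rw [subV_mul, hR]

variable [Fact q.Prime]

/-- The character at a fraction modulo `q`. -/
lemma ee_div_std (m : ℤ) : ee ((m : ℝ) / q) = ZMod.stdAddChar (m : ZMod q) := ee_eq_std m

/-- A translation at `q`. -/
lemma mE_tw (i : ℤ) (R : Vec → ℂ) (u : VQ q → ℂ) :
    mE (q * k) ((3 * k : ℕ) * i) (tw q R u) =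
      tw q R fun v => ZMod.stdAddChar ((i : ZMod q) * PQ v) * u v := by
  funext x
  simp only [mE, tw, PQ_redL]
  rw [show ((((3 * k : ℕ) : ℤ) * i * P3 x : ℤ) : ℝ) / ((3 * (q * k) : ℕ) : ℝ) =
    ((i * P3 x : ℤ) : ℝ) / q by
      have : (k : ℝ) ≠ 0 := Nat.cast_ne_zero.2 (NeZero.ne k)
      push_cast; field_simp, ee_div_std]
  push_cast
  ring

omit [Fact (Nat.Prime q)] [NeZero k] in
lemma exists_subV_iff_of_isCoprime {a b : ℤ} (hab : a * q + b * ((3 * k : ℕ) : ℤ) = 1) (z : Vec) :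
    (∃ y, a • z = subV k y) ↔ ∃ y, z = subV k y := by
  constructor
  · rintro ⟨y, hy⟩
    obtain ⟨y', hy'⟩ := exists_subV_smul (k := k) b z
    refine ⟨(q : ℤ) • y + y', ?_⟩
    rw [subV_add, ← zsmul_subV, ← hy, ← hy', smul_smul, ← add_smul,
      show (q : ℤ) * a + 3 * (k : ℤ) * b = 1 by push_cast at hab; linear_combination hab, one_smul]
  · rintro ⟨y, rfl⟩
    exact ⟨a • y, zsmul_subV a y⟩

open Classical in
/-- The inner sum. -/
lemma sum_kernel (hcop : q.Coprime (3 * k)) {a b : ℤ} (hab : a * q + b * ((3 * k : ℕ) : ℤ) = 1)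
    {i : ℤ} (hi : (i : ZMod q) ≠ 0) (z : Vec) :
    ∑ R : Res (q * k), ee ((((3 * k : ℕ) : ℤ) * i * P3 (resV R) : ℤ) / (3 * (q * k) : ℕ) : ℝ) *
        ee ((B3 (resV R) z : ℝ) / (3 * (q * k : ℕ))) =
      (if ∃ y, z = subV k y then 3 * (k : ℂ) ^ 4 else 0) *
        (eps q * (q : ℂ) ^ 2 *
          ZMod.stdAddChar (-((b : ZMod q) * (b : ZMod q) * (i : ZMod q)⁻¹ * PQ (redL q z)))) := by
  classical
  have h3 : q ≠ 3 := by
    rintro rfl
    have := Nat.Coprime.coprime_mul_right_right hcop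
    simp at this
  have hk : (k : ℝ) ≠ 0 := Nat.cast_ne_zero.2 (NeZero.ne k)
  have hq : (q : ℝ) ≠ 0 := Nat.cast_ne_zero.2 (NeZero.ne q)
  set G : Vec → ℂ := fun x => ee ((((3 * k : ℕ) : ℤ) * i * P3 x : ℤ) / (3 * (q * k) : ℕ) : ℝ) *
    ee ((B3 x z : ℝ) / (3 * (q * k : ℕ)))
  have hG : ∀ x, G x = ee ((B3 x (a • z) : ℝ) / (3 * k)) *
      ZMod.stdAddChar ((i : ZMod q) * PQ (redL q x) + BQ (redL q x) ((b : ZMod q) • redL q z)) := by
    intro x
    have hab' : (a : ℝ) * q + b * (3 * k) = 1 := by exact_mod_cast hab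
    have e1 : ee ((((3 * k : ℕ) : ℤ) * i * P3 x : ℤ) / (3 * (q * k) : ℕ) : ℝ) =
        ZMod.stdAddChar ((i : ZMod q) * PQ (redL q x)) := by
      rw [show ((((3 * k : ℕ) : ℤ) * i * P3 x : ℤ) : ℝ) / ((3 * (q * k) : ℕ) : ℝ) =
        ((i * P3 x : ℤ) : ℝ) / q by push_cast; field_simp, ee_div_std, PQ_redL]
      push_cast
      rfl
    have e2 : BQ (redL q x) ((b : ZMod q) • redL q z) = ((b * B3 x z : ℤ) : ZMod q) := by
      rw [show (b : ZMod q) • redL q z = b • redL q z from Int.cast_smul_eq_zsmul _ _ _,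
        ← map_zsmul, BQ_redL, B3_zsmul_right]
    simp only [G]
    rw [e1, AddChar.map_add_eq_mul, e2, ← ee_div_std, mul_left_comm, ← ee_add, B3_zsmul_right]
    congr 2
    push_cast
    field_simp
    linear_combination -(B3 x z : ℝ) * hab'
  rw [show (∑ R : Res (q * k), _) = ∑ R : Res (q * k), G (resV R) from rfl,
    sum_res_prime hcop (fun r u => ee ((B3 (resV r) (a • z) : ℝ) / (3 * k)) *
      ZMod.stdAddChar ((i : ZMod q) * PQ (vqEquiv u) + BQ (vqEquiv u) ((b : ZMod q) • redL q z)))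
      fun r s => ?_]
  · simp only [← mul_sum, ← sum_mul]
    rw [vqEquiv.sum_comp (fun v : VQ q => ZMod.stdAddChar
      ((i : ZMod q) * PQ v + BQ v ((b : ZMod q) • redL q z))), sum_PQ h3 hi, sum_ee_B3]
    simp only [exists_subV_iff_of_isCoprime hab, PQ_smul]
    ring_nf
  · rw [hG, vqEquiv_redV]
    congr 1
    have h := B3_subV (k := k) (a • z) s
    rw [B3_comm (resV r + _), B3_add_right, B3_comm (a • z) (resV r)]
    obtain ⟨m, hm⟩ := h
    rw [hm, show ((((B3 (resV r) (a • z) + ((3 * k : ℕ) : ℤ) * m : ℤ) : ℝ)) / (3 * k)) =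
      (B3 (resV r) (a • z) : ℝ) / (3 * k) + (m : ℤ) by push_cast; field_simp, ee_add, ee_int,
      mul_one]

/-- The double transform of a weight with a component at `q`. -/
theorem four_tw (hcop : q.Coprime (3 * k)) {a b : ℤ} (hab : a * q + b * ((3 * k : ℕ) : ℤ) = 1)
    {i : ℤ} (hi : (i : ZMod q) ≠ 0) {R : Vec → ℂ} (hR : IsPer k R) (u : VQ q → ℂ) (x : Vec) :
    four (q * k) (mE (q * k) ((3 * k : ℕ) * i) (four (q * k) (tw q R u))) x =
      eps q / (q : ℂ) ^ 2 * R (-x) * conv ((b : ZMod q) * (b : ZMod q) * (i : ZMod q)⁻¹) u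
      (-redL q x) := by
  classical
  set t : ZMod q := (b : ZMod q) * (b : ZMod q) * (i : ZMod q)⁻¹ with ht
  have hk : (k : ℂ) ≠ 0 := Nat.cast_ne_zero.2 (NeZero.ne k)
  have hq : (q : ℂ) ≠ 0 := Nat.cast_ne_zero.2 (NeZero.ne q)
  set C : ℂ := 1 / ((√3 : ℂ) * ((q * k : ℕ) : ℂ) ^ 2) with hC
  set E : ℂ := C * C * (3 * (k : ℂ) ^ 4) * (eps q * (q : ℂ) ^ 2) with hE
  have hEv : E = eps q / (q : ℂ) ^ 2 := by
    have h3 : ((√3 : ℝ) : ℂ) * ((√3 : ℝ) : ℂ) = 3 := by exact_mod_cast sqrt3_sq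
    have : (√3 : ℂ) ≠ 0 := by exact_mod_cast sqrt3_pos.ne'
    rw [hE, hC]
    push_cast
    field_simp
    linear_combination -eps q * h3
  set G : Vec → ℂ := fun y => if ∃ s, y + x = subV k s then
    R y * (u (redL q y) * ZMod.stdAddChar (-(t * PQ (redL q (y + x))))) else 0
  have hstep : four (q * k) (mE (q * k) ((3 * k : ℕ) * i) (four (q * k) (tw q R u))) x =
      E * ∑ R' : Res (q * k), G (resV R') := by
    have e : ∀ r s : Res (q * k), C * ((C * (tw q R u (resV r) *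
          ee ((B3 (resV r) (resV s) : ℝ) / (3 * (q * k : ℕ))))) *
          ee ((((3 * k : ℕ) : ℤ) * i * P3 (resV s) : ℤ) / (3 * (q * k) : ℕ) : ℝ) *
          ee ((B3 (resV s) x : ℝ) / (3 * (q * k : ℕ)))) =
        C * C * tw q R u (resV r) *
          (ee ((((3 * k : ℕ) : ℤ) * i * P3 (resV s) : ℤ) / (3 * (q * k) : ℕ) : ℝ) *
            ee ((B3 (resV s) (resV r + x) : ℝ) / (3 * (q * k : ℕ)))) := fun r s => by
      rw [B3_add_right, B3_comm (resV s) (resV r), Int.cast_add, add_div, ee_add]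
      ring
    have h1 : four (q * k) (mE (q * k) ((3 * k : ℕ) * i) (four (q * k) (tw q R u))) x =
        C * ∑ s : Res (q * k), C * (∑ r : Res (q * k), tw q R u (resV r) *
          ee ((B3 (resV r) (resV s) : ℝ) / (3 * (q * k : ℕ)))) *
          ee ((((3 * k : ℕ) : ℤ) * i * P3 (resV s) : ℤ) / (3 * (q * k) : ℕ) : ℝ) *
          ee ((B3 (resV s) x : ℝ) / (3 * (q * k : ℕ))) := rfl
    have h2 : four (q * k) (mE (q * k) ((3 * k : ℕ) * i) (four (q * k) (tw q R u))) x =
        ∑ r : Res (q * k), C * C * tw q R u (resV r) * ∑ s : Res (q * k),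
          (ee ((((3 * k : ℕ) : ℤ) * i * P3 (resV s) : ℤ) / (3 * (q * k) : ℕ) : ℝ) *
            ee ((B3 (resV s) (resV r + x) : ℝ) / (3 * (q * k : ℕ)))) := by
      rw [h1]
      simp only [mul_sum, sum_mul]
      rw [sum_comm]
      exact sum_congr rfl fun r _ => sum_congr rfl fun s _ => e r s
    rw [h2]
    simp only [sum_kernel hcop hab hi]
    rw [mul_sum]
    refine sum_congr rfl fun r _ => ?_
    simp only [G, tw, hE, ← ht]
    split_ifs <;> ring
  rw [hstep, sum_res_prime hcop (fun r w => if ∃ s, resV r + x = subV k s then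
      R (resV r) * (u (vqEquiv w) * ZMod.stdAddChar (-(t * PQ (vqEquiv w + redL q x)))) else 0)
      fun r s => ?_, hEv]
  · obtain ⟨⟨r₀, y₀⟩, h0⟩ := (splitEquiv k).surjective (-x)
    rw [splitEquiv_apply] at h0
    have hiff : ∀ r : Res k, (∃ s, resV r + x = subV k s) ↔ r = r₀ := by
      intro r
      constructor
      · rintro ⟨s, hs⟩
        refine eq_resV_iff.1 ⟨y₀ + s, ?_⟩
        rw [subV_add, ← hs, ← add_assoc, h0]; abel
      · rintro rfl
        refine ⟨-y₀, ?_⟩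
        rw [subV_neg, show resV r = -x - subV k y₀ by rw [← h0]; abel]; abel
    simp only [hiff]
    rw [sum_comm]
    simp only [sum_ite_eq', mem_univ, if_true]
    rw [show R (-x) = R (resV r₀) by rw [← h0, hR], ← mul_sum,
      vqEquiv.sum_comp (fun v : VQ q => u v * ZMod.stdAddChar (-(t * PQ (v + redL q x))))]
    simp only [conv, ← mul_assoc]
    congr 1
    refine sum_congr rfl fun v _ => ?_
    rw [show -redL q x - v = -(v + redL q x) by abel]
    rw [PQ_neg, neg_mul]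
  · simp only [G, map_add, ← vqEquiv_redV]
    rw [hR]
    refine if_congr ⟨fun ⟨s', hs⟩ => ⟨s' + -s, ?_⟩, fun ⟨s', hs⟩ => ⟨s' + s, ?_⟩⟩ rfl rfl <;>
      simp only [subV_add, subV_neg, ← hs] <;> abel

omit [NeZero n] in
/-- The lower unipotent matrices at `q` convolve the component. -/
theorem Lam_lower (hcop : q.Coprime (3 * k)) {j : ℤ} (hj : (j : ZMod q) ≠ 0) {R : Vec → ℂ}
    (hR : IsPer k R) (u : VQ q → ℂ) (L : SL(2, ℤ)) (hL : L.1 = !![1, 0; (3 * k : ℕ) * j, 1]) :
    Lam n (q * k) Φ (tw q R u) ∣[(1 : ℤ)] L = fun τ => eps q / (q : ℂ) ^ 2 *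
      Lam n (q * k) Φ (tw q R (conv (-((((3 * k : ℕ) : ZMod q)⁻¹) ^ 2 * (j : ZMod q)⁻¹)) u)) τ := by
  have hg : IsCoprime (q : ℤ) ((3 * k : ℕ) : ℤ) := Nat.Coprime.cast (R := ℤ) hcop
  obtain ⟨a, b, hab⟩ := hg
  have hb : (b : ZMod q) * ((3 * k : ℕ) : ZMod q) = 1 := by
    have h := congrArg (fun z : ℤ => (z : ZMod q)) hab
    simpa using h
  have hi : ((-j : ℤ) : ZMod q) ≠ 0 := by simpa using hj
  rw [← Lam_four_mE_four (isPer_tw hR u) ((3 * k : ℕ) * -j) L (by rw [hL]; simp)]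
  have e : four (q * k) (mE (q * k) ((3 * k : ℕ) * -j) (four (q * k) (tw q R u))) =
      (eps q / (q : ℂ) ^ 2) • fun x =>
        tw q R (conv (-((((3 * k : ℕ) : ZMod q)⁻¹) ^ 2 * (j : ZMod q)⁻¹)) u) (-x) := by
    funext x
    rw [four_tw hcop hab hi hR u x, Pi.smul_apply, smul_eq_mul, tw, map_neg, ← mul_assoc]
    congr 2
    rw [inv_eq_of_mul_eq_one_left hb]
    push_cast
    rw [inv_neg]
    ring
  funext τ
  rw [e, Lam_smul, Lam_neg_arg]

end FermatAgent.LT.Lift
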